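import Fermat.Agent.Lifting.ResidualTrace

/-!
# The auxiliary prime at `p = 3`

A prime `r ≡ 2 (mod 3)` at which the residual Frobenius trace is nonzero.
-/

set_option autoImplicit false

noncomputable section

open IsLocalRing FermatAgent.GaloisBasic WeierstrassCurve

namespace FermatAgent.Lifting

local notation "GQ" => AlgebraicClosure ℚ ≃ₐ[ℚ] AlgebraicClosure ℚ
local notation "Qbar" => AlgebraicClosure ℚ

lemma units_three_eq : ∀ u : (ZMod 3)ˣ, u = 1 ∨ u = -1 := by decide

lemma neg_one_ne_one_three : (-1 : (ZMod 3)ˣ) ≠ 1 := by decide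

/-- The kernel of the cyclotomic character modulo `3` has index two. -/
theorem index_ker_cycloN_three : (HM.cycloN 3).ker.index = 2 := by
  have hsurj : Function.Surjective (HM.cycloN 3) := fun u => by
    rcases units_three_eq u with rfl | rfl
    · exact ⟨1, map_one _⟩
    · exact ⟨complexConjugation, HM.cycloN_complexConjugation 3⟩
  rw [Subgroup.index_ker, MonoidHom.range_eq_top.mpr hsurj, Subgroup.card_top,
    Nat.card_eq_fintype_card, ZMod.card_units]

variable {W : WeierstrassCurve ℤ} {p : ℕ} [hp : Fact p.Prime] {C : Coeff p} {hΔ : W.Δ ≠ 0}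

/-- The residual matrices span. -/
theorem span_curveRes_top (hidx : Assembly.IrredIndexTwo W p) :
    Submodule.span (ResidueField C.O) (Set.range (curveRes C hΔ)) = ⊤ :=
  span_range_curveRes C hΔ hidx index_ker_cycloN_three

/-- **The auxiliary prime.** -/
theorem exists_prime_aux (hidx : Assembly.IrredIndexTwo W p) (S : Finset ℕ) :
    ∃ (r : ℕ) (A : ValuationSubring Qbar) (σ : GQ), r.Prime ∧ r ∉ S ∧ r % 3 = 2 ∧
      A.LiesOverPrime r ∧ A.IsFrobeniusAt σ r ∧ (curveRes C hΔ σ).trace ≠ 0 := by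
  have hH := index_ker_cycloN_three
  obtain ⟨g, hg, hgt⟩ := exists_notMem_trace_ne_zero (HM.cycloN 3).ker
    (span_curveRes C hΔ hidx _ hH) (g₀ := complexConjugation) (by
      rw [MonoidHom.mem_ker, HM.cycloN_complexConjugation]; exact neg_one_ne_one_three)
  obtain ⟨L₁, hL₁, h₁⟩ := exists_level_curveRes (C := C) (hΔ := hΔ)
  obtain ⟨L₂, hL₂, h₂⟩ := HM.exists_level_cycloN 3
  have := hL₁; have := hL₂
  obtain ⟨r, A, σ, j, k, hr, hrS, hA, hσ, -, hj, -⟩ :=
    exists_frobenius_pow_congr (L₁ ⊔ L₂) g (insert 3 S)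
  rw [Finset.mem_insert, not_or] at hrS
  have hr3 : ¬ r ∣ 3 := fun h => hrS.1 ((Nat.prime_dvd_prime_iff_eq hr Nat.prime_three).mp h)
  have hgσ : HM.cycloN 3 g = HM.cycloN 3 σ ^ j := by
    have h := h₂ _ ((IntermediateField.mem_fixingSubgroup_iff _ _).mp
      (IntermediateField.fixingSubgroup_antitone le_sup_right hj))
    rwa [map_mul, map_inv, map_pow, inv_mul_eq_one, eq_comm] at h
  have hg1 : HM.cycloN 3 g = -1 :=
    (units_three_eq _).resolve_left fun h => hg (MonoidHom.mem_ker.mpr h)
  have hσ1 : HM.cycloN 3 σ = -1 := (units_three_eq _).resolve_left fun h => by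
    rw [h, one_pow, hg1] at hgσ; exact neg_one_ne_one_three hgσ
  have hjodd : Odd j := by
    rw [hσ1, hg1] at hgσ
    rcases Nat.even_or_odd j with he | ho
    · rw [he.neg_one_pow] at hgσ; exact absurd hgσ neg_one_ne_one_three
    · exact ho
  refine ⟨r, A, σ, hr, hrS.2, ?_, hA, hσ, fun ht => hgt ?_⟩
  · rw [HM.cycloN_frobenius hr hr3 hA hσ] at hσ1
    have h1 : (r : ZMod 3) = ((2 : ℕ) : ZMod 3) := (congrArg Units.val hσ1).trans (by decide)
    rw [ZMod.natCast_eq_natCast_iff'] at h1
    exact h1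
  · have hg' : curveRes C hΔ g = curveRes C hΔ σ ^ j := by
      have h := h₁ _ (IntermediateField.fixingSubgroup_antitone le_sup_left hj)
      rw [← map_pow, ← mul_inv_cancel_left (σ ^ j) g, map_mul, h, mul_one]
    obtain ⟨i, rfl⟩ := hjodd
    set X := curveRes C hΔ σ with hX
    have hsq : X * X = (-X.det) • 1 := by
      rw [Matrix.trace_fin_two] at ht
      have ht' : X 1 1 = -X 0 0 := by linear_combination ht
      ext a b
      fin_cases a <;> fin_cases b <;>
        simp only [Matrix.mul_apply, Fin.sum_univ_two, Matrix.smul_apply, smul_eq_mul,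
          Matrix.det_fin_two, Matrix.one_apply, Fin.zero_eta, Fin.mk_one, Fin.isValue,
          Fin.reduceEq, if_true, if_false, mul_one, mul_zero, ht'] <;> ring
    rw [hg', pow_succ, pow_mul, sq, hsq, smul_pow, one_pow, smul_mul_assoc, one_mul,
      Matrix.trace_smul, ht, smul_zero]

end FermatAgent.Lifting

end
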