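import Fermat.Agent.MF.Mult.Full
import Fermat.Agent.HM.H1.TaylorWiles
import Fermat.Agent.HM.H1.Finite
import Fermat.Agent.Assembly.Vocabulary

/-!
# A nontrivial localised Hecke module gives a congruent eigenform

At a residual system of integers every maximal ideal of the Hecke algebra of the module contains the
differences with these integers, so every eigenform in the module is congruent to them.
-/

set_option autoImplicit false

noncomputable section

open scoped MatrixGroups
open CongruenceSubgroup IsLocalRing MvPolynomial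

namespace FermatAgent.Lifting

open Assembly (ZC)

/-- Over a local ring in a field, a map of the algebraic integers into the field lands in the
integral closure, where a maximal ideal over the residue characteristic pulls back to one. -/
theorem exists_maximal_over {O K : Type*} [CommRing O] [IsLocalRing O] [Field K] [Algebra O K]
    (hinj : Function.Injective (algebraMap O K)) (σ : ZC →+* K) {p : ℕ} (hp : p.Prime)
    (hpO : (p : O) ∈ maximalIdeal O) :
    ∃ (Q : Ideal (integralClosure O K)) (σ' : ZC →+* integralClosure O K),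
      (∀ z, (σ' z : K) = σ z) ∧ Q.IsMaximal ∧
      Q.comap (algebraMap O (integralClosure O K)) = maximalIdeal O ∧
      (Q.comap σ').IsMaximal ∧ (p : ZC) ∈ Q.comap σ' := by
  set C := integralClosure O K
  obtain ⟨Q, hQ, hQc⟩ := Ideal.exists_ideal_over_maximal_of_isIntegral (S := C) (maximalIdeal O) (by
    rw [(RingHom.injective_iff_ker_eq_bot _).mp fun r r' e => hinj (congrArg Subtype.val e)]
    exact bot_le)
  let σ' : ZC →+* C := σ.codRestrict C fun z => by
    obtain ⟨P, hP, h0⟩ := Algebra.IsIntegral.isIntegral (R := ℤ) z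
    refine ⟨P.map (Int.castRingHom O), hP.map _, ?_⟩
    have h1 := congrArg σ h0
    rw [Polynomial.hom_eval₂, map_zero] at h1
    rw [Polynomial.eval₂_map,
      RingHom.ext_int ((algebraMap O K).comp (Int.castRingHom O)) (σ.comp (algebraMap ℤ ZC))]
    exact h1
  have hp' : (p : ZC) ∈ Q.comap σ' := by
    rw [Ideal.mem_comap, map_natCast, ← map_natCast (algebraMap O C), ← Ideal.mem_comap, hQc]
    exact hpO
  refine ⟨Q, σ', fun z => rfl, hQ, hQc,
    Ideal.isMaximal_of_isIntegral_of_isMaximal_comap (R := ℤ) _ ?_, hp'⟩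
  have hspan := PrincipalIdealRing.isMaximal_of_irreducible
    (Nat.prime_iff_prime_int.mp hp).irreducible
  have hp0 : (p : ℤ) ∈ (Q.comap σ').comap (algebraMap ℤ ZC) := by
    rw [Ideal.mem_comap, eq_intCast, Int.cast_natCast]; exact hp'
  rw [← hspan.eq_of_le (Ideal.IsPrime.ne_top') ((Ideal.span_singleton_le_iff_mem _).mpr hp0)]
  exact hspan

/-- An element of a commutative algebra of endomorphisms of a finite module which acts
surjectively is a unit of the algebra. -/
theorem isUnit_of_surjective_end {R V : Type*} [CommRing R] [AddCommGroup V] [Module R V]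
    [Module.Finite R V] {A : Subalgebra R (Module.End R V)} [IsMulCommutative A] {u : A}
    (hu : Function.Surjective (u : Module.End R V)) : IsUnit u := by
  let : CommRing A := { (inferInstance : Ring A) with mul_comm := mul_comm' }
  have : Module.Finite A V := Module.Finite.of_restrictScalars_finite R A V
  have htop : (⊤ : Submodule A V) ≤ Ideal.span {u} • ⊤ := fun v _ => by
    obtain ⟨w, rfl⟩ := hu v
    exact Submodule.smul_mem_smul (r := u) (n := w) (Ideal.mem_span_singleton_self u)
      Submodule.mem_top
  obtain ⟨r, hr1, hr⟩ := Submodule.exists_sub_one_mem_and_smul_eq_zero_of_fg_of_le_smul _ ⊤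
    Module.Finite.fg_top htop
  have hr0 : r = 0 := Subtype.ext (LinearMap.ext fun v => hr v Submodule.mem_top)
  rw [hr0, zero_sub, neg_mem_iff] at hr1
  obtain ⟨v, hv⟩ := Ideal.mem_span_singleton'.mp hr1
  exact IsUnit.of_mul_eq_one v ((mul_comm u v).trans hv)

variable {O : Type} [CommRing O] [IsDomain O] [IsLocalRing O] {L M : ℕ}
  {ι : Type} (pr : ι → HM.HPrime L) (a : ι → O)

/-- The localised module of homomorphisms to a domain has no torsion. -/
theorem eq_zero_of_smul_eq_zero_trivLoc {r : O} (hr : r ≠ 0)
    {x : HM.TrivLoc (M := M) pr (HM.resIdeal a)} (h : r • x = 0) : x = 0 := by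
  induction x using LocalizedModule.induction_on with
  | _ z s =>
    rw [LocalizedModule.smul'_mk, ← LocalizedModule.zero_mk s, LocalizedModule.mk_eq] at h
    obtain ⟨t, ht⟩ := h
    simp only [smul_zero, Submonoid.smul_def, smul_comm (s : MvPolynomial ι O) r,
      smul_comm (t : MvPolynomial ι O) r] at ht
    rw [← LocalizedModule.zero_mk s, LocalizedModule.mk_eq]
    refine ⟨t, ?_⟩
    simp only [smul_zero, Submonoid.smul_def]
    have h1 : r • HM.trivHom O M pr O ((t : MvPolynomial ι O) •
        (s : MvPolynomial ι O) • z) = 0 := by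
      rw [← map_smul, ht, map_zero]
    refine (HM.trivHom O M pr O).injective ((AddMonoidHom.ext fun γ => ?_).trans (map_zero _).symm)
    have h2 := DFunLike.congr_fun h1 γ
    rw [AddMonoidHom.smul_apply, AddMonoidHom.zero_apply, smul_eq_mul] at h2
    exact (mul_eq_zero.mp h2).resolve_left hr

variable [CharZero O] [IsNoetherianRing O] [IsAdicComplete (maximalIdeal O) O] [NeZero M]

omit [IsDomain O] [CharZero O] in
/-- Every maximal ideal of the Hecke algebra of the module sees the residual system. -/
theorem locAct_sub_mem (val : ι → ℤ) (i : ι) :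
    letI : CommRing (HM.locAlgebra M pr (HM.resIdeal fun i => (val i : O))) :=
      { (inferInstance : Ring (HM.locAlgebra M pr (HM.resIdeal fun i => (val i : O)))) with
        mul_comm := mul_comm' }
    ∀ Q : Ideal (HM.locAlgebra M pr (HM.resIdeal fun i => (val i : O))), Q.IsMaximal →
      HM.locAct M pr _ (X i) - (val i : HM.locAlgebra M pr _) ∈ Q := by
  set 𝔪 := HM.resIdeal fun i => (val i : O)
  have : Module.Finite O (HM.TrivLoc (M := M) pr 𝔪) := HM.moduleFinite_thetaLoc O
  let A := HM.locAlgebra M pr 𝔪
  let : CommRing A := { (inferInstance : Ring A) with mul_comm := mul_comm' }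
  intro Q hQ
  let φ : MvPolynomial ι O →ₐ[O] A := HM.locAct M pr 𝔪
  have := Ideal.comap_isMaximal_of_surjective φ (HM.locAct_surjective pr 𝔪) (K := Q)
  have hle : Q.comap φ ≤ 𝔪 := by
    intro s hs
    by_contra hns
    have hu := (Module.End.isUnit_iff _).mp (IsLocalizedModule.map_units
      (LocalizedModule.mkLinearMap 𝔪.primeCompl (HM.TrivH1 O M pr O)) (⟨s, hns⟩ : 𝔪.primeCompl))
    exact hQ.ne_top (Ideal.eq_top_of_isUnit_mem _ hs (isUnit_of_surjective_end hu.2))
  have hmem : (X i - (val i : MvPolynomial ι O)) ∈ Q.comap φ := by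
    rw [Ideal.IsMaximal.eq_of_le ‹(Q.comap φ).IsMaximal› Ideal.IsPrime.ne_top' hle,
      HM.mem_resIdeal, map_sub, aeval_X, map_intCast, sub_self]
    exact zero_mem _
  rwa [Ideal.mem_comap, map_sub, map_intCast] at hmem

/-- **Eigenforms of a nontrivial localised module are congruent to the residual system.** -/
theorem exists_congr_eigenform_of_nontrivial {p : ℕ} [hp : Fact p.Prime]
    (hpO : (p : O) ∈ maximalIdeal O) (val : ι → ℤ) (i₀ : ι)
    (hi₀ : (((pr i₀).1.1 : ℕ) : ZMod M) = 1)
    (hne : MvPolynomial.X i₀ - C (((pr i₀).1.1 : ℕ) + 1 : O) ∉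
      HM.resIdeal fun i => (val i : O))
    (hnt : Nontrivial (HM.TrivLoc (M := M) pr (HM.resIdeal fun i => (val i : O)))) :
    ∃ (f : CuspForm (Gamma0 M) 2) (𝔪' : Ideal ZC), f.IsNormalizedEigenform ∧ 𝔪'.IsMaximal ∧
      (p : ZC) ∈ 𝔪' ∧ ∀ i, ¬ ((pr i).1.1 : ℕ) ∣ M →
        ∃ b : ZC, (b : ℂ) = ModularFormClass.qCoeff f ((pr i).1.1 : ℕ) ∧ b - (val i : ZC) ∈ 𝔪' := by
  classical
  have : IsAddTorsionFree O := .of_isTorsionFree O O
  set 𝔪 := HM.resIdeal fun i => (val i : O)
  let V := HM.TrivLoc (M := M) pr 𝔪
  have : Module.Finite O V := HM.moduleFinite_thetaLoc O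
  let A := HM.locAlgebra M pr 𝔪
  let : CommRing A := { (inferInstance : Ring A) with mul_comm := mul_comm' }
  have : Module.Finite O A := HM.moduleFinite_subalgebra_end _
  have : Algebra.IsIntegral O A := Algebra.IsIntegral.of_finite _ _
  -- a point
  let K := AlgebraicClosure (FractionRing O)
  have : IsScalarTower O (FractionRing O) K := inferInstance
  have : FaithfulSMul O K := (faithfulSMul_iff_algebraMap_injective O K).mpr (by
    rw [IsScalarTower.algebraMap_eq O (FractionRing O) K]
    exact (algebraMap (FractionRing O) K).injective.comp (IsFractionRing.injective O _))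
  have : CharZero K := charZero_of_injective_algebraMap
    (FaithfulSMul.algebraMap_injective O K)
  have : FaithfulSMul O A := (faithfulSMul_iff_algebraMap_injective O A).mpr fun r r' h => by
    by_contra hne'
    obtain ⟨x, hx⟩ := exists_ne (0 : V)
    refine hx (eq_zero_of_smul_eq_zero_trivLoc pr _ (sub_ne_zero.mpr hne') ?_)
    have h1 := LinearMap.congr_fun (congrArg Subtype.val h) x
    rw [sub_smul, sub_eq_zero]
    exact h1
  obtain ⟨lam, hlam⟩ := HM.exists_ringHom_extension (T := A) (algebraMap O K)
  obtain ⟨f, σ, hf, hfσ⟩ := MF.Mult.exists_eigenform_of_loc (pr := pr) (𝔪 := 𝔪) i₀ hi₀ hne lam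
  let B := integralClosure O K
  obtain ⟨Q, σ', hσ', hQ, hQc, hmax, hp'⟩ :=
    exists_maximal_over (FaithfulSMul.algebraMap_injective O K) σ hp.out hpO
  let lamA : A →ₐ[O] K := { lam with commutes' := RingHom.congr_fun hlam }
  let lam' : A →ₐ[O] B :=
    lamA.codRestrict B fun x => (Algebra.IsIntegral.isIntegral (R := O) x).map lamA
  have : (Q.comap lam').IsMaximal :=
    Ideal.isMaximal_of_isIntegral_of_isMaximal_comap (R := O) _ (by
      have : (Q.comap lam').comap (algebraMap O A) = maximalIdeal O := by
        ext r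
        rw [Ideal.mem_comap, Ideal.mem_comap, AlgHom.commutes, ← Ideal.mem_comap, hQc]
      rw [this]
      exact maximalIdeal.isMaximal O)
  refine ⟨f, Q.comap σ', hf, hmax, hp', fun i _ => ?_⟩
  obtain ⟨b, hb, hσb⟩ := hfσ i
  refine ⟨b, hb, ?_⟩
  have h1 := locAct_sub_mem pr val i (Q.comap lam') inferInstance
  rw [Ideal.mem_comap, map_sub, map_intCast] at h1
  rw [Ideal.mem_comap, map_sub, map_intCast, show σ' b = lam' (HM.locAct M pr 𝔪 (X i)) from
    Subtype.ext ((hσ' b).trans hσb)]
  exact h1

end FermatAgent.Lifting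

end
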