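import Fermat.Agent.HM.H1.Eigenform
import Fermat.Agent.ES.Tate.Residual
import Fermat.Agent.ES.Tate.Unramified
import Fermat.Agent.HM.H1.TaylorWiles
import Fermat.Agent.MF.EigenChar
import Fermat.Agent.Assembly.Vocabulary

/-!
# A congruence to integers forces the localised Hecke module to be nontrivial

An eigenform whose eigenvalues are congruent to integers gives an integral parabolic homomorphism
on which the Hecke operators act through these integers modulo `p`; so nothing outside the residual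
ideal of the integers kills the parabolic classes.
-/

set_option autoImplicit false

noncomputable section

open scoped MatrixGroups Matrix
open CongruenceSubgroup IsLocalRing ModularCurve.Period
open FermatAgent.Period (parRank parElt parMat parMatHom parabolicCoords parAction)

namespace FermatAgent.Lifting

open Assembly (ZC)

variable {p M : ℕ} [hp : Fact p.Prime] [NeZero M]

/-- An integral matrix divisible by `p` in the image of a ring has image divisible by `p` under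
every character to the algebraic integers. -/
theorem exists_eq_natCast_mul {T : Type*} [CommRing T] {d : Type*} [Fintype d] [DecidableEq d]
    {f : T →+* Matrix d d ℤ} (hf : Function.Injective f) (χ : T →+* ℂ) {t : T} {X : Matrix d d ℤ}
    (h : f t = (p : ℤ) • X) : ∃ z : ZC, χ t = p * (z : ℂ) := by
  have hp0 : (p : ℂ) ≠ 0 := Nat.cast_ne_zero.mpr hp.out.ne_zero
  have h1 : Polynomial.aeval t (X.charpoly.scaleRoots (p : ℤ)) = 0 := hf (by
    rw [map_zero]
    show f.toIntAlgHom _ = 0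
    rw [← Polynomial.aeval_algHom_apply]
    show Polynomial.aeval (f t) _ = 0
    rw [h, Algebra.smul_def]
    exact Polynomial.scaleRoots_aeval_eq_zero (Matrix.aeval_self_charpoly X))
  have h2 : Polynomial.aeval (χ t) (X.charpoly.scaleRoots (p : ℤ)) = 0 := by
    have h2 := congrArg χ.toIntAlgHom h1
    rw [← Polynomial.aeval_algHom_apply, map_zero] at h2
    exact h2
  rw [Polynomial.aeval_def,
    show χ t = algebraMap ℤ ℂ p * (χ t / p) by rw [map_natCast, mul_div_cancel₀ _ hp0],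
    Polynomial.scaleRoots_eval₂_mul, map_natCast] at h2
  exact ⟨⟨χ t / p, X.charpoly, Matrix.charpoly_monic X,
    (mul_eq_zero.mp h2).resolve_left (pow_ne_zero _ hp0)⟩, (mul_div_cancel₀ _ hp0).symm⟩

/-- **The eigenvector modulo `p`.** -/
theorem exists_mod_eigenvector {g : CuspForm (Gamma0 M) 2} (hg : g.IsNormalizedEigenform)
    {𝔪' : Ideal ZC} (hmax : 𝔪'.IsMaximal) (hmem : (p : ZC) ∈ 𝔪') :
    ∃ w : Fin (parRank (Gamma0 M)) → ZMod p, w ≠ 0 ∧ ∀ (ℓ : ℕ) (hℓ : ℓ.Prime) (b : ℤ),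
      (∃ a : ZC, (a : ℂ) = ModularFormClass.qCoeff g ℓ ∧ a - (b : ZC) ∈ 𝔪') →
      ∀ j, ∑ i, (parMat (S := (∅ : Set ℕ))
        ⟨_, MF.heckeAt_mem hℓ (Set.notMem_empty ℓ)⟩ j i : ZMod p) * w i = (b : ZMod p) * w j := by
  classical
  have := hmax
  let : Field (ZC ⧸ 𝔪') := Ideal.Quotient.field 𝔪'
  have : IsAlgClosed (ZC ⧸ 𝔪') := ES.isAlgClosed_quotient_integralClosure 𝔪'
  have : CharP (ZC ⧸ 𝔪') p := (CharP.charP_iff_prime_eq_zero hp.out).mpr (by
    rw [← map_natCast (Ideal.Quotient.mk 𝔪')]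
    exact Ideal.Quotient.eq_zero_iff_mem.mpr hmem)
  have hf := (MF.isEigen_iff_isNormalizedEigenform g).mpr hg
  have : Module.Finite ℤ (CuspForm.heckeAlgebra M 2 ∅) := MF.moduleFinite_heckeAlgebra M 2 ∅
  have : Algebra.IsIntegral ℤ (CuspForm.heckeAlgebra M 2 ∅) := Algebra.IsIntegral.of_finite _ _
  let χ : CuspForm.heckeAlgebra M 2 ∅ →+* ZC :=
    (hf.char ∅).codRestrict ZC fun t => map_isIntegral_int _ (Algebra.IsIntegral.isIntegral t)
  let ψ : CuspForm.heckeAlgebra M 2 ∅ →+* ZC ⧸ 𝔪' := (Ideal.Quotient.mk 𝔪').comp χ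
  let ρ : CuspForm.heckeAlgebra M 2 ∅ →+*
      Module.End (ZC ⧸ 𝔪') (Fin (parRank (Gamma0 M)) → ZC ⧸ 𝔪') :=
    Matrix.toLinAlgEquiv'.toRingEquiv.toRingHom.comp
      ((Int.castRingHom (ZC ⧸ 𝔪')).mapMatrix.comp (parMatHom M ∅))
  have hρ : ∀ t v j, ρ t v j = ∑ i, (parMat t j i : ZC ⧸ 𝔪') * v i := fun t v j => rfl
  have hker : RingHom.ker ρ ≤ RingHom.ker ψ := by
    intro t ht
    have hdiv : ∀ j i, (p : ℤ) ∣ parMat t j i := fun j i => by
      have h := congrFun (LinearMap.congr_fun (RingHom.mem_ker.mp ht) (Pi.single i 1)) j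
      rw [hρ, LinearMap.zero_apply, Pi.zero_apply] at h
      simp [Pi.single_apply] at h
      exact (CharP.intCast_eq_zero_iff (ZC ⧸ 𝔪') p _).mp h
    choose X hX using hdiv
    obtain ⟨z, hz⟩ := exists_eq_natCast_mul (p := p) (ES.parMatHom_injective M) (hf.char ∅)
      (t := t) (X := Matrix.of X) (Matrix.ext fun j i => by
        rw [Matrix.smul_apply, Matrix.of_apply, smul_eq_mul]
        exact hX j i)
    rw [RingHom.mem_ker, RingHom.comp_apply, show χ t = (p : ZC) * z from Subtype.ext hz, map_mul,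
      map_natCast, CharP.cast_eq_zero, zero_mul]
  have : (RingHom.ker ψ).IsPrime := RingHom.ker_isPrime _
  obtain ⟨v, χ', hv0, hv, hle⟩ := MF.exists_eigenvector_ker_le ρ (RingHom.ker ψ) hker
  have : (RingHom.ker χ').IsPrime := RingHom.ker_isPrime _
  have : (RingHom.ker χ').IsMaximal := by
    refine Ideal.isMaximal_of_isIntegral_of_isMaximal_comap (R := ℤ) _ ?_
    have : (RingHom.ker χ').comap (algebraMap ℤ (CuspForm.heckeAlgebra M 2 ∅)) =
        Ideal.span {(p : ℤ)} := by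
      ext z
      rw [Ideal.mem_comap, RingHom.mem_ker, eq_intCast, map_intCast,
        CharP.intCast_eq_zero_iff (ZC ⧸ 𝔪') p, Ideal.mem_span_singleton]
    rw [this]
    exact PrincipalIdealRing.isMaximal_of_irreducible
      (Nat.prime_iff_prime_int.mp hp.out).irreducible
  have heq : RingHom.ker χ' = RingHom.ker ψ :=
    Ideal.IsMaximal.eq_of_le inferInstance (RingHom.ker_ne_top ψ) hle
  obtain ⟨j₀, hj₀⟩ := Function.ne_iff.mp hv0
  let : Algebra (ZMod p) (ZC ⧸ 𝔪') := ZMod.algebra _ p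
  obtain ⟨φ, hφ⟩ : ∃ φ : Module.Dual (ZMod p) (ZC ⧸ 𝔪'), φ (v j₀) ≠ 0 := by
    by_contra hno
    push Not at hno
    exact hj₀ ((Module.forall_dual_apply_eq_zero_iff (ZMod p) _).mp hno)
  refine ⟨fun j => φ (v j), Function.ne_iff.mpr ⟨j₀, hφ⟩, ?_⟩
  rintro ℓ hℓ b ⟨a, ha, hab⟩ j
  set t : CuspForm.heckeAlgebra M 2 ∅ := ⟨_, MF.heckeAt_mem hℓ (Set.notMem_empty ℓ)⟩
  have hχ : χ t = a := Subtype.ext ((hf.char_heckeAt hℓ (Set.notMem_empty ℓ)).trans ha.symm)
  have hχ' : χ' t = (b : ZC ⧸ 𝔪') := by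
    have hmem' : t - (b : CuspForm.heckeAlgebra M 2 ∅) ∈ RingHom.ker χ' := by
      rw [heq, RingHom.mem_ker, map_sub, map_intCast, RingHom.comp_apply, hχ,
        ← map_intCast (Ideal.Quotient.mk 𝔪'), sub_eq_zero, Ideal.Quotient.eq]
      exact hab
    rw [RingHom.mem_ker, map_sub, map_intCast, sub_eq_zero] at hmem'
    exact hmem'
  have h := congrArg φ (congrFun ((hv t).trans (by rw [hχ'])) j)
  rw [hρ, map_sum, Pi.smul_apply, smul_eq_mul] at h
  have hmul : ∀ (c : ℤ) (x : ZC ⧸ 𝔪'), φ ((c : ZC ⧸ 𝔪') * x) = (c : ZMod p) * φ x := fun c x => by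
    rw [← zsmul_eq_mul, map_zsmul, zsmul_eq_mul]
  simpa only [hmul] using h

/-- **The eigenvector modulo `p` as an integral parabolic homomorphism.** -/
theorem exists_int_eigenHom {g : CuspForm (Gamma0 M) 2} (hg : g.IsNormalizedEigenform)
    {𝔪' : Ideal ZC} (hmax : 𝔪'.IsMaximal) (hmem : (p : ZC) ∈ 𝔪') :
    ∃ Φ : parabolicHoms ℤ (Gamma0 M) ℤ, (∃ γ, ((Φ.1 γ : ℤ) : ZMod p) ≠ 0) ∧
      ∀ (ℓ : ℕ) (hℓ : ℓ.Prime) (b : ℤ),
        (∃ a : ZC, (a : ℂ) = ModularFormClass.qCoeff g ℓ ∧ a - (b : ZC) ∈ 𝔪') →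
        ∀ γ, ((FermatAgent.Period.heckeOp ℤ M hℓ Φ.1 γ : ℤ) : ZMod p) =
          (b : ZMod p) * Φ.1 γ := by
  classical
  obtain ⟨w, hw0, hw⟩ := exists_mod_eigenvector hg hmax hmem
  let v : Fin (parRank (Gamma0 M)) → ℤ := fun j => ((w j).val : ℤ)
  set Φ := (parabolicCoords (Gamma0 M) ℤ ℤ).symm v
  have hΦ : ∀ j, ((Φ.1 (Additive.ofMul (parElt _ j)) : ℤ) : ZMod p) = w j := fun j => by
    rw [show Φ.1 (Additive.ofMul (parElt _ j)) = v j from
      congrFun ((parabolicCoords (Gamma0 M) ℤ ℤ).apply_symm_apply v) j, Int.cast_natCast,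
      ZMod.natCast_zmod_val]
  obtain ⟨j, hj⟩ := Function.ne_iff.mp hw0
  refine ⟨Φ, ⟨_, (hΦ j).trans_ne hj⟩, fun ℓ hℓ b hb γ => ?_⟩
  set T : CuspForm.heckeAlgebra M 2 ∅ := ⟨_, MF.heckeAt_mem hℓ (Set.notMem_empty ℓ)⟩
  rw [← FermatAgent.Period.parAction_heckeAt ℤ ℤ hℓ (Set.notMem_empty ℓ) Φ,
    FermatAgent.Period.eq_sum_parHom (parAction M ∅ ℤ ℤ T Φ).2,
    FermatAgent.Period.eq_sum_parHom Φ.2, Int.cast_sum, Int.cast_sum, Finset.mul_sum]
  refine Finset.sum_congr rfl fun j _ => ?_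
  rw [FermatAgent.Period.parAction_apply_parElt, smul_eq_mul, smul_eq_mul, Int.cast_mul,
    Int.cast_mul, hΦ, Int.cast_sum, mul_left_comm, ← hw ℓ hℓ b hb j]
  refine congrArg _ (Finset.sum_congr rfl fun k _ => ?_)
  rw [smul_eq_mul, Int.cast_mul, hΦ]

/-- **Nontriviality of the localised Hecke module.** -/
theorem nontrivial_trivLoc_of_congr {O : Type} [CommRing O] [IsLocalRing O]
    (hpO : (p : O) ∈ maximalIdeal O) {L : ℕ} {ι : Type} (pr : ι → HM.HPrime L)
    (hM : ∀ i, ¬ ((pr i).1.1 : ℕ) ∣ M) {g : CuspForm (Gamma0 M) 2}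
    (hg : g.IsNormalizedEigenform) {𝔪' : Ideal ZC} (hmax : 𝔪'.IsMaximal) (hmem : (p : ZC) ∈ 𝔪')
    (val : ι → ℤ) (hval : ∀ i, ∃ a : ZC,
      (a : ℂ) = ModularFormClass.qCoeff g ((pr i).1.1 : ℕ) ∧ a - (val i : ZC) ∈ 𝔪') :
    Nontrivial (HM.TrivLoc (M := M) pr (HM.resIdeal fun i => (val i : O))) := by
  classical
  have : CharP (ResidueField O) p := (CharP.charP_iff_prime_eq_zero hp.out).mpr (by
    rw [← map_natCast (residue O), residue_eq_zero_iff]; exact hpO)
  obtain ⟨Φ, ⟨γ₀, hγ₀⟩, hΦ⟩ := exists_int_eigenHom hg hmax hmem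
  let cast := ZMod.castHom (dvd_refl p) (ResidueField O)
  let res : O →+ ResidueField O := (residue O).toAddMonoidHom
  let red : ℤ →+ ResidueField O := (Int.castRingHom _).toAddMonoidHom
  let a : ι → O := fun i => (val i : O)
  let θ := HM.trivHom O M pr O
  have key : ∀ (t : MvPolynomial ι O) (z : HM.TrivH1 O M pr O) (c : ResidueField O),
      res.comp (θ z) = (AddMonoidHom.mulLeft c).comp (red.comp Φ.1) →
      res.comp (θ (t • z)) =
        (AddMonoidHom.mulLeft (residue O (MvPolynomial.aeval a t) * c)).comp (red.comp Φ.1) := by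
    intro t
    induction t using MvPolynomial.induction_on with
    | C r =>
      intro z c hc
      refine AddMonoidHom.ext fun γ => ?_
      show residue O (θ ((MvPolynomial.C r : MvPolynomial ι O) • z) γ) = _
      rw [HM.C_smul_eq, map_smul, AddMonoidHom.smul_apply, smul_eq_mul, map_mul,
        MvPolynomial.aeval_C, show residue O (θ z γ) = c * _ from DFunLike.congr_fun hc γ,
        ← mul_assoc]
      rfl
    | add t t' iht iht' =>
      intro z c hc
      rw [add_smul, map_add θ, AddMonoidHom.comp_add, iht z c hc, iht' z c hc, map_add, map_add,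
        add_mul]
      exact AddMonoidHom.ext fun γ => (add_mul _ _ _).symm
    | mul_X t i iht =>
      intro z c hc
      have : Fact (pr i).1.1.Prime := ⟨(pr i).1.2⟩
      rw [mul_smul, map_mul, map_mul, MvPolynomial.aeval_X, mul_assoc]
      refine iht _ _ (AddMonoidHom.ext fun γ => ?_)
      rw [HM.trivHom_X, HM.homOp_heckeCorr_eq (S := O) (pr i).2 (hM i),
        ← FermatAgent.Period.heckeOp_comp (R := O) (S := ℤ), hc, ← AddMonoidHom.comp_assoc,
        FermatAgent.Period.heckeOp_comp (R := ℤ)]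
      show c * ((_ : ℤ) : ResidueField O) = residue O (a i) * c * ((Φ.1 γ : ℤ) : ResidueField O)
      rw [← map_intCast cast, hΦ _ (pr i).1.2 (val i) (hval i) γ, map_mul, map_intCast,
        map_intCast, map_intCast]
      ring
  let z₀ : HM.TrivH1 O M pr O := (HM.trivHom O M pr O).symm
    ((Int.castRingHom O).toAddMonoidHom.comp Φ.1)
  have hz₀ : res.comp (θ z₀) = (AddMonoidHom.mulLeft 1).comp (red.comp Φ.1) :=
    AddMonoidHom.ext fun γ => by simp [res, red, θ, z₀]
  refine ⟨⟨LocalizedModule.mk z₀ 1, 0, fun h0 => ?_⟩⟩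
  rw [← LocalizedModule.zero_mk 1, LocalizedModule.mk_eq] at h0
  obtain ⟨s, hs⟩ := h0
  simp only [one_smul, smul_zero] at hs
  have h1 := DFunLike.congr_fun (key s.1 z₀ 1 hz₀) γ₀
  rw [show (s.1 • z₀ : HM.TrivH1 O M pr O) = 0 from hs, map_zero, mul_one] at h1
  replace h1 : residue O (MvPolynomial.aeval a s.1) * ((Φ.1 γ₀ : ℤ) : ResidueField O) = 0 :=
    h1.symm.trans (map_zero res)
  rcases mul_eq_zero.mp h1 with h | h
  · exact s.2 (HM.mem_resIdeal.mpr ((residue_eq_zero_iff _).mp h))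
  · refine hγ₀ (cast.injective ((map_intCast cast _).trans (h.trans (map_zero cast).symm)))

end FermatAgent.Lifting

end
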