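import Fermat.Agent.Lifting.Index
import Fermat.Agent.Lifting.EigenVector
import Fermat.Agent.Lifting.EigenSystem
import Fermat.Agent.Lifting.AuxPrime
import Fermat.Agent.Assembly.Residual
import Fermat.Agent.TateRep.TraceMult

/-!
# The localised Hecke modules of lifting are nontrivial exactly at residual levels

A congruence at a squarefree level makes the module localised at the residual system nontrivial;
conversely a nontrivial module gives a congruence at that level.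
-/

set_option autoImplicit false

noncomputable section

open IsLocalRing WeierstrassCurve
open scoped WeierstrassCurve.Affine

namespace FermatAgent.Lifting

open Assembly (ZC Congr)

variable {W : WeierstrassCurve ℤ} {p : ℕ} [hp : Fact p.Prime] (C : Coeff p)

/-- The residual Frobenius trace at a good prime. -/
lemma trace_curveRes_good (hΔ : W.Δ ≠ 0) {ℓ : ℕ} (hℓ : ℓ.Prime) (hℓp : ℓ ≠ p)
    (hg : W.IsGoodPrimeFor ℓ) {A : ValuationSubring (AlgebraicClosure ℚ)}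
    (hA : A.LiesOverPrime ℓ) {σ : AlgebraicClosure ℚ ≃ₐ[ℚ] AlgebraicClosure ℚ}
    (hσ : A.IsFrobeniusAt σ ℓ) :
    (curveRes C hΔ σ).trace = (W.apOfModel ℓ : ResidueField C.O) := by
  rw [trace_curveRes, trace_frobenius_good C hΔ hℓ hℓp hg hA hσ, map_intCast]

/-- The residual system is not Eisenstein: a prime `ℓ ≡ 1` with `a_ℓ ≢ ℓ + 1`. -/
theorem exists_witness (hΔ : W.Δ ≠ 0) (hidx : Assembly.IrredIndexTwo W p) {E : ℕ} (hE : E ≠ 0)
    (A : Finset ℕ) (n : ℕ) [NeZero n] :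
    ∃ i : GoodIdx E, (((goodPr E i).1.1 : ℕ) : ZMod n) = 1 ∧
      MvPolynomial.X i - MvPolynomial.C (((goodPr E i).1.1 : ℕ) + 1 : C.O) ∉
        HM.resIdeal (heckeVal C W A : GoodIdx E → C.O) := by
  have : NeZero (p * n) := ⟨mul_ne_zero hp.out.ne_zero (NeZero.ne n)⟩
  obtain ⟨ℓ, B, σ, hℓ, hℓS, -, hℓ1, hB, hσ, htr⟩ := exists_prime_one_mod (C := C) (hΔ := hΔ) hidx
    index_ker_cycloN_three (p * n) (dvd_mul_right p n)
    (A ∪ E.primeFactors ∪ W.Δ.natAbs.primeFactors ∪ {p})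
  simp only [Finset.mem_union, Finset.mem_singleton, Nat.mem_primeFactors, not_or] at hℓS
  obtain ⟨⟨⟨hA, hℓE⟩, hℓΔ⟩, hℓp⟩ := hℓS
  have hℓE' : ¬ ℓ ∣ E := fun h => hℓE ⟨hℓ, h, hE⟩
  have hg : W.IsGoodPrimeFor ℓ := fun h =>
    hℓΔ ⟨hℓ, Int.natCast_dvd.1 h, Int.natAbs_ne_zero.2 hΔ⟩
  let i : GoodIdx E := ⟨⟨ℓ, hℓ⟩, hℓE'⟩
  refine ⟨i, ?_, ?_⟩
  · show (ℓ : ZMod n) = 1
    simpa using congrArg (ZMod.castHom (dvd_mul_left n p) (ZMod n)) hℓ1
  · rw [HM.X_sub_C_mem_resIdeal, heckeVal_notMem C W (i := i) hA, frobVal_good hg]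
    intro h
    rw [← residue_eq_zero_iff, map_sub, sub_eq_zero, map_intCast, map_add, map_natCast, map_one]
      at h
    refine htr ((trace_curveRes_good C hΔ hℓ hℓp hg hB hσ).trans (h.trans ?_))
    have := charP_residue C
    have h1 : (ℓ : ZMod p) = 1 := by
      simpa using congrArg (ZMod.castHom (dvd_mul_right p n) (ZMod p)) hℓ1
    show (ℓ : ResidueField C.O) + 1 = 2
    rw [← map_natCast (ZMod.castHom (dvd_refl p) (ResidueField C.O)), h1, map_one,
      one_add_one_eq_two]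

/-- **Nonvanishing at a residual level.** At `p`, either the variables omit it or the congruence is
given. -/
theorem nontrivial_trivLoc (hΔ : W.Δ ≠ 0) (hW : W.IsSemistableModel) {E M : ℕ} [NeZero M]
    (hME : M ∣ E) {g : CuspForm (CongruenceSubgroup.Gamma0 M) 2} {𝔪' : Ideal ZC}
    (hg : Congr W p M g 𝔪')
    (hpE : p ∣ E ∨ ∃ a : ZC, (a : ℂ) = ModularFormClass.qCoeff g p ∧
      a - ((frobVal W p : ℤ) : ZC) ∈ 𝔪') :
    Nontrivial (HM.TrivLoc (M := M) (goodPr E)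
      (HM.resIdeal (heckeVal C W ∅ : GoodIdx E → C.O))) := by
  classical
  have : IsAddTorsionFree C.O := .of_isTorsionFree C.O C.O
  have e : (heckeVal C W ∅ : GoodIdx E → C.O) = fun i => ((frobVal W i.1.1 : ℤ) : C.O) :=
    funext fun i => heckeVal_notMem C W (Finset.notMem_empty _)
  rw [e]
  refine nontrivial_trivLoc_of_congr natCast_mem_maximalIdeal (goodPr E)
    (fun i h => i.2 (h.trans hME)) hg.1 hg.2.1 hg.2.2.1 (fun i => frobVal W i.1.1) fun i => ?_
  have hℓM : ¬ i.1.1 ∣ M := fun h => i.2 (h.trans hME)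
  rcases eq_or_ne i.1.1 p with hip | hip
  · rcases hpE with h | h
    · exact absurd (hip ▸ h) i.2
    · rw [← hip] at h; exact h
  by_cases hgood : W.IsGoodPrimeFor i.1.1
  · rw [frobVal_good hgood]
    exact hg.2.2.2 i.1.1 i.1.2 hgood hℓM hip
  · rw [frobVal_bad hgood]
    obtain ⟨B, hB⟩ := GaloisBasic.exists_liesOverPrime i.1.2
    obtain ⟨σ, hσ⟩ := GaloisBasic.exists_isFrobeniusAt i.1.2 hB
    obtain ⟨a, ha, hb⟩ := (hg.galoisCongr hΔ hp.out).attached i.1.1 i.1.2 hℓM hip B hB σ hσ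
    exact ⟨a, ha, hb _
      ((Assembly.multFrobenius W p i.1.1 hΔ hW hp.out i.1.2 hip hgood).2 B hB σ hσ)⟩

/-- **A nontrivial module gives a congruence at its level.** -/
theorem congr_of_nontrivial (hΔ : W.Δ ≠ 0) (hidx : Assembly.IrredIndexTwo W p) {E L : ℕ}
    [NeZero L] (hE : E ≠ 0) (A : Finset ℕ)
    (h : Nontrivial (HM.TrivLoc (M := L) (goodPr E)
      (HM.resIdeal (heckeVal C W A : GoodIdx E → C.O)))) :
    ∃ (f : CuspForm (CongruenceSubgroup.Gamma0 L) 2) (𝔪' : Ideal ZC), Congr W p L f 𝔪' := by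
  classical
  obtain ⟨i₀, hi₀, hne⟩ := exists_witness C hΔ hidx hE A L
  let val : GoodIdx E → ℤ := fun i =>
    if i.1.1 ∈ A then Assembly.multSign W i.1.1 else frobVal W i.1.1
  obtain ⟨f, 𝔪', hf, hmax, hmem, hc⟩ := exists_congr_eigenform_of_nontrivial (goodPr E)
    (natCast_mem_maximalIdeal (p := p)) val i₀ hi₀ hne h
  refine ⟨f, 𝔪', Assembly.congr_of_cofinite hΔ hp.out hf hmax hmem (A ∪ E.primeFactors)
    fun ℓ hℓ hℓS hg hℓL _ => ?_⟩
  rw [Finset.mem_union, not_or] at hℓS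
  obtain ⟨b, hb, hbm⟩ :=
    hc ⟨⟨ℓ, hℓ⟩, fun hd => hℓS.2 (Nat.mem_primeFactors.mpr ⟨hℓ, hd, hE⟩)⟩ hℓL
  refine ⟨b, hb, ?_⟩
  simpa [val, hℓS.1, frobVal_good hg] using hbm

/-- **A nontrivial module makes its level residual.** -/
theorem isResiduallyModularOfLevel_of_nontrivial (hΔ : W.Δ ≠ 0)
    (hidx : Assembly.IrredIndexTwo W p) {E L : ℕ} [NeZero L] (hE : E ≠ 0) (A : Finset ℕ)
    (h : Nontrivial (HM.TrivLoc (M := L) (goodPr E)
      (HM.resIdeal (heckeVal C W A : GoodIdx E → C.O)))) :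
    W.IsResiduallyModularOfLevel p L :=
  Assembly.isResiduallyModularOfLevel_iff.mpr (congr_of_nontrivial C hΔ hidx hE A h)

end FermatAgent.Lifting

end
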