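import Fermat.Agent.Lifting.LevelInst
import Fermat.Agent.Lifting.Nonvanishing
import Fermat.Agent.RT.Ladder.Main
import Fermat.Agent.RT.Intertwine.SideHom

/-!
# The representation of the base ring on the base modules

Without auxiliary primes the sides specialise along the augmentation to the base modules.
-/

set_option autoImplicit false

noncomputable section

open IsLocalRing GaloisRep FermatAgent.GaloisBasic WeierstrassCurve

namespace FermatAgent.Lifting

open RT Assembly

attribute [local instance] dualAlgebra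

local notation "GQ" => AlgebraicClosure ℚ ≃ₐ[ℚ] AlgebraicClosure ℚ

namespace Ctx

variable {p : ℕ} [hp : Fact p.Prime] (X : Ctx p)

/-- No auxiliary moduli. -/
abbrev noModuli : Fin 0 → ℕ := fun _ => 1

/-- Without auxiliary moduli the group ring is local. -/
lemma isLocalRing_noModuli : IsLocalRing (MonoidAlgebra X.C.O (CycProd noModuli)) :=
  GroupRing.isLocalRing (p := p) (fun _ => ⟨0, Subsingleton.elim _ _⟩) natCast_mem_maximalIdeal

/-- **The auxiliary data with no primes.** -/
theorem exists_emptyAux : ∃ T : RT.Ladder.AuxPrimes X.raiseBase noModuli 1, T.Q = ∅ := by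
  classical
  have : NeZero (X.raiseBase.M * ∏ v, X.raiseBase.ell (X.raiseBase.site v)) :=
    ⟨mul_ne_zero X.raiseBase.M_ne
      (Finset.prod_ne_zero_iff.mpr fun v _ => (X.raiseBase.pr _).1.2.ne_zero)⟩
  obtain ⟨i, hi, hu⟩ := exists_witness (C := X.C) X.hΔ X.idx X.varLevel_ne_zero ∅
    (X.raiseBase.M * ∏ v, X.raiseBase.ell (X.raiseBase.site v))
  refine ⟨{
    δ := 1
    Q := ∅
    α := fun _ => 0
    β := fun _ => 0
    surj := fun x => ⟨1, Subsingleton.elim _ _⟩
    neg := rfl
    pow := fun i => i.elim0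
    disj := fun v => Finset.notMem_empty _
    aux_not_dvd := fun i hi => absurd hi (Finset.notMem_empty i)
    N_dvd := one_dvd _
    roots := fun i hi => absurd hi (Finset.notMem_empty i)
    witness := ⟨i, ?_, ?_⟩ }, rfl⟩
  · rw [Finset.prod_empty, mul_one]
    exact hi
  · rw [HM.X_sub_C_mem_resIdeal, mem_maximalIdeal, mem_nonunits_iff, not_not] at hu
    exact hu

/-- The residual eigensystem is not Eisenstein at all base levels. -/
theorem raiseBase_witness : X.raiseBase.Witness := by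
  obtain ⟨T, -⟩ := X.exists_emptyAux
  have := X.isLocalRing_noModuli
  exact T.witness_base

/-- The residual criteria at the base levels. -/
theorem raiseBase_criteria : X.raiseBase.BaseCriteria := X.baseCriteria X.raiseBase_witness

/-- The constant term modulo a power of the maximal ideal. -/
def constLevel (k : ℕ) :
    (PatchBase X.C.O 0 ⧸ maximalIdeal (PatchBase X.C.O 0) ^ (k + 1)) →ₐ[X.C.O]
      X.C.O ⧸ maximalIdeal X.C.O ^ (k + 1) :=
  Ideal.Quotient.liftₐ _
    ((Ideal.Quotient.mkₐ X.C.O (maximalIdeal X.C.O ^ (k + 1))).comp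
      { (MvPowerSeries.constantCoeff : PatchBase X.C.O 0 →+* X.C.O) with
        commutes' := fun o => by simp [MvPowerSeries.algebraMap_apply] })
    fun x hx => by
      refine Ideal.Quotient.eq_zero_iff_mem.mpr ?_
      have h1 := Ideal.mem_map_of_mem
        (MvPowerSeries.constantCoeff : PatchBase X.C.O 0 →+* X.C.O) hx
      rw [Ideal.map_pow] at h1
      refine Ideal.pow_right_mono (Ideal.map_le_iff_le_comap.mpr fun y hy => ?_) _ h1
      rw [mem_maximalIdeal_iff_constantCoeff] at hy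
      exact hy

/-- **The representation of the base ring on a base module.** -/
theorem exists_baseRep_at
    [IsLocalRing (MonoidAlgebra X.C.O (CycProd noModuli))]
    (T : RT.Ladder.AuxPrimes X.raiseBase noModuli 1) (hTQ : T.Q = ∅) {rk : Finset X.Nu → ℕ}
    (hrk : ∀ A, 0 < rk A) (b₀ : ∀ A, Module.Basis (Fin (rk A)) X.C.O (X.raiseBase.Triv A))
    (A : Finset X.Nu) :
    ∃ ρ : (X.DQ ∅).UR →ₐ[X.C.O] Matrix (Fin (rk A)) (Fin (rk A)) X.C.O,
      ∀ i, ¬ X.raiseBase.ell i ∣ X.raiseBase.lvl A → X.raiseBase.ell i ≠ p →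
        ∀ (P : ValuationSubring (AlgebraicClosure ℚ)) (σ : GQ),
          P.LiesOverPrime (X.raiseBase.ell i) → P.IsFrobeniusAt σ (X.raiseBase.ell i) →
            ρ ((X.DQ ∅).univMat σ).trace = RT.Ladder.opMat (b₀ A) i := by
  choose b hb using fun A => T.exists_basis A (b₀ A)
  set H := X.levelDatum T ∅ A (b A) (hrk A)
  let aux : {j // j ∈ (∅ : Finset (Fin 0))} → TameAux p (X.DQ ∅).rbar :=
    fun j => absurd j.2 (Finset.notMem_empty _)
  let Ax := X.levelAux T ∅ b hrk (sel := ∅) (aux := aux)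
    (fun j => absurd j.2 (Finset.notMem_empty _)) (fun j hj => absurd hj (Finset.notMem_empty _))
    (fun A j => absurd j.2 (Finset.notMem_empty _)) A
  let e : Fin 0 ≃ {j : Fin 0 // j ∈ (∅ : Finset (Fin 0))} := Equiv.equivOfIsEmpty _ _
  have hf : ∀ k, ∃ f : (X.DQ ∅).UR →ₐ[X.C.O] Matrix (Fin (rk A)) (Fin (rk A))
      (X.C.O ⧸ maximalIdeal X.C.O ^ (k + 1)), ∀ g, f ((X.DQ ∅).univMat g).trace =
        ((H.Φ (H.td.t g)).map (GroupRing.aug X.C.O (CycProd noModuli))).map
          (Ideal.Quotient.mk (maximalIdeal X.C.O ^ (k + 1))) := fun k => by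
    have : IsLocalRing (PatchBase X.C.O 0 ⧸ maximalIdeal (PatchBase X.C.O 0) ^ (k + 1)) :=
      IsLocalRing.of_surjective' (Ideal.Quotient.mk _) Ideal.Quotient.mk_surjective
    have hd : ∀ j : {j : Fin 0 // j ∈ (∅ : Finset (Fin 0))}, p ^ (k + 1) ≤ noModuli j.1 :=
      fun j => absurd j.2 (Finset.notMem_empty _)
    have hcond := X.condAt_side T ∅ b hrk (sel := ∅) (aux := aux)
      (fun j => absurd j.2 (Finset.notMem_empty _)) (fun j hj => absurd hj (Finset.notMem_empty _))
      (fun A j => absurd j.2 (Finset.notMem_empty _)) e hd (fun _ => 1) (fun _ _ => one_pow _)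
      ⟨fun i hi => absurd hi (by rw [hTQ]; exact Finset.notMem_empty i),
        fun q hq hq1 => (X.mem_traceSet.mp hq).1.one_lt.ne' (Nat.dvd_one.mp hq1),
        squarefree_one, fun A q hq hq1 => absurd (Nat.dvd_one.mp hq1) hq.one_lt.ne',
        fun h => hp.out.one_lt.ne' (Nat.dvd_one.mp h),
        fun i hi => absurd hi (by rw [hTQ]; exact Finset.notMem_empty i)⟩ A
    set φ := DiamondDatum.spec (X.levelAux T ∅ b hrk (sel := ∅) (aux := aux)
      (fun j => absurd j.2 (Finset.notMem_empty _)) (fun j hj => absurd hj (Finset.notMem_empty _))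
      (fun A j => absurd j.2 (Finset.notMem_empty _)) ∅) (e := e) hd (fun _ => 1)
      (fun _ _ => one_pow _)
    obtain ⟨fT, hfT⟩ := DiamondDatum.exists_sideUnivHom Ax φ
      (DiamondDatum.p_pow_eq_zero H 0 k) hcond
    refine ⟨((X.constLevel k).mapMatrix.comp (DiamondDatum.sideAction Ax φ).incl).comp fT,
      fun g => ?_⟩
    have hφ : (X.constLevel k).comp φ =
        (Ideal.Quotient.mkₐ X.C.O (maximalIdeal X.C.O ^ (k + 1))).comp
          (GroupRing.aug X.C.O (CycProd noModuli)) := cycAlgHom_ext fun i => i.elim0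
    rw [AlgHom.comp_apply, (hfT g).1, AlgHom.comp_apply,
      show (DiamondDatum.sideAction Ax φ).incl (Ideal.Quotient.mk _ (H.td.t g)) =
        (DiamondDatum.newPhi Ax (H.mkT (H.td.t g))).map φ from rfl,
      ← DiamondDatum.incl_mkT, ← DiamondDatum.newPhi_map_aug Ax]
    ext a c
    exact AlgHom.congr_fun hφ (DiamondDatum.newPhi Ax (H.mkT (H.td.t g)) a c)
  choose f hf using hf
  have := fun k => RT.finite_quotient_maximalIdeal_pow (A := X.C.O) k
  let ρn : ∀ n, (X.DQ ∅).UR →ₐ[X.C.O]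
      Matrix (Fin (rk A)) (Fin (rk A)) (X.C.O ⧸ maximalIdeal X.C.O ^ n) := fun n =>
    (Ideal.Quotient.factorₐ X.C.O (Ideal.pow_le_pow_right (n.le_succ))).mapMatrix.comp (f n)
  refine ⟨limitHom ρn, fun i hi hip P σ hP hσ => ?_⟩
  refine limitMat_eq_of_forall ρn (u := fun a c _ => RT.Ladder.opMat (b₀ A) i a c)
    (fun a c => isULim_const _) fun a c n => ?_
  show _ = (Ideal.Quotient.factorₐ X.C.O (Ideal.pow_le_pow_right n.le_succ))
    (f n ((X.DQ ∅).univMat σ).trace a c)
  have hiQ : ¬ X.raiseBase.ell i ∣ T.lvlQ A := by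
    rwa [RT.Ladder.AuxPrimes.lvlQ, hTQ, Finset.prod_empty, mul_one]
  rw [hf, ← T.map_aug_frobenius (X.residualFactsQ ∅) A (b A) (hrk A) (b₀ A) (hb A) hiQ hip hP hσ]
  rfl

/-- **The representation of the base ring on all base modules.** -/
theorem exists_baseRep_all {rk : Finset X.Nu → ℕ}
    (hrk : ∀ A, 0 < rk A) (b₀ : ∀ A, Module.Basis (Fin (rk A)) X.C.O (X.raiseBase.Triv A)) :
    ∃ ρ₀ : ∀ A, X.D.UR →ₐ[X.C.O] Matrix (Fin (rk A)) (Fin (rk A)) X.C.O,
      X.raiseBase.BaseRep X.D.univMat b₀ ρ₀ := by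
  obtain ⟨T, hT⟩ := X.exists_emptyAux
  have := X.isLocalRing_noModuli
  choose ρ hρ using fun A => X.exists_baseRep_at T hT hrk b₀ A
  have e : X.choicesWith ∅ = X.choices := by
    rw [choicesWith, choices]
    simp only [Finset.union_empty]
  have h : ∀ C : Choices X.W p, C = X.choicesWith ∅ →
      ∃ ρ₀ : ∀ A, (C.problem X.C).UR →ₐ[X.C.O] Matrix (Fin (rk A)) (Fin (rk A)) X.C.O,
        X.raiseBase.BaseRep (C.problem X.C).univMat b₀ ρ₀ := by
    rintro C rfl
    exact ⟨ρ, hρ⟩
  exact h _ e.symm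

end Ctx

end FermatAgent.Lifting

end
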