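import Fermat.Agent.Lifting.Setup
import Fermat.Agent.Lifting.Nonvanishing
import Fermat.Agent.RT.Endgame

/-!
# From the point of the curve to the eigenform

If the point of the curve kills the kernel of the action on the localised module of the top level,
an eigenform of that level has the eigenvalues of the curve at the good primes.
-/

set_option autoImplicit false

noncomputable section

open IsLocalRing GaloisRep FermatAgent.GaloisBasic WeierstrassCurve CuspForm ModularFormClass

namespace FermatAgent.Lifting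

open RT Assembly

attribute [local instance] dualAlgebra

local notation "GQ" => AlgebraicClosure ℚ ≃ₐ[ℚ] AlgebraicClosure ℚ

/-- An embedding of the algebraic integers in a field of characteristic zero is injective. -/
lemma injective_of_integralClosure {K : Type} [Field K] [CharZero K] (σ : ZC →+* K) :
    Function.Injective σ := by
  rw [RingHom.injective_iff_ker_eq_bot]
  have : Algebra.IsIntegral ℤ ZC := ⟨fun x => IsIntegralClosure.isIntegral ℤ ℂ x⟩
  have : (RingHom.ker σ).IsPrime := RingHom.ker_isPrime σ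
  refine Ideal.eq_bot_of_comap_eq_bot (R := ℤ) ((Submodule.eq_bot_iff _).mpr fun n hn => ?_)
  rw [Ideal.mem_comap, RingHom.mem_ker, algebraMap_int_eq, eq_intCast, map_intCast] at hn
  exact_mod_cast hn

namespace Ctx

variable {p : ℕ} [hp : Fact p.Prime] (X : Ctx p)

/-- The top level. -/
abbrev topLevel : ℕ := X.M * ∏ q ∈ X.raised, q

/-- The top level is squarefree. -/
lemma squarefree_topLevel : Squarefree X.topLevel :=
  squarefree_mul_prod X.seed.sq fun _ ht => ⟨(X.mem_raised.mp ht).1, (X.mem_raised.mp ht).2.2⟩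

instance : NeZero X.topLevel := ⟨X.squarefree_topLevel.ne_zero⟩

/-- The primes of the top level are those of the seed's level and the raised ones. -/
lemma prime_dvd_topLevel {q : ℕ} (hq : q.Prime) :
    q ∣ X.topLevel ↔ q ∣ X.M ∨ q ∈ X.raised :=
  prime_dvd_mul_prod (fun _ ht => (X.mem_raised.mp ht).1) hq

/-- The residual ideal of the top level. -/
abbrev topIdeal : Ideal (MvPolynomial (GoodIdx X.varLevel) X.C.O) :=
  HM.resIdeal (heckeVal X.C X.W X.raised)

lemma primesDividingVarLevel {ℓ : ℕ} (hℓ : ℓ.Prime) (h : ℓ ∣ X.varLevel) : ℓ = p ∨ ℓ ∣ X.M := by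
  rw [varLevel] at h
  split_ifs at h
  · rcases hℓ.dvd_mul.mp h with h | h
    · exact Or.inl ((Nat.prime_dvd_prime_iff_eq hℓ hp.out).mp h)
    · exact Or.inr h
  · exact Or.inr h

/-- **The eigenform of the top level.** -/
theorem exists_form_of_ker_le {s : ℕ}
    (b : Module.Basis (Fin s) X.C.O (HM.TrivLoc (M := X.topLevel) (goodPr X.varLevel) X.topIdeal))
    (ρ₀ : X.D.UR →ₐ[X.C.O] Matrix (Fin s) (Fin s) X.C.O) (hρ : X.IsHeckeTrace b ρ₀)
    {φ : X.D.UR →ₐ[X.C.O] X.C.O} {N : MatRep X.C.O} (hN : MatConj (curveMat X.C X.hΔ) N)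
    (hφ : ∀ x, (X.D.univMat x).map φ = N x) (hker : RingHom.ker ρ₀ ≤ RingHom.ker φ) :
    ∃ f : CuspForm (CongruenceSubgroup.Gamma0 X.topLevel) 2, f.IsNormalizedEigenform ∧
      ∀ ℓ : ℕ, ℓ.Prime → X.W.IsGoodPrimeFor ℓ → ¬ ℓ ∣ X.topLevel → ℓ ≠ p →
        qCoeff f ℓ = (X.W.apOfModel ℓ : ℂ) := by
  classical
  have : IsAddTorsionFree X.C.O := .of_isTorsionFree X.C.O X.C.O
  obtain ⟨i₀, hi₀, hne⟩ :=
    exists_witness X.C X.hΔ X.idx X.varLevel_ne_zero X.raised X.topLevel
  choose P hP using fun i : GoodIdx X.varLevel => exists_liesOverPrime i.1.2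
  choose F hF using fun i : GoodIdx X.varLevel => exists_isFrobeniusAt i.1.2 (hP i)
  let good : Set (GoodIdx X.varLevel) := {i | i.1.1 ∉ X.raised ∧ i.1.1 ≠ p}
  let K := AlgebraicClosure (FractionRing X.C.O)
  have : CharZero (FractionRing X.C.O) :=
    charZero_of_injective_algebraMap (IsFractionRing.injective X.C.O (FractionRing X.C.O))
  have : CharZero K :=
    charZero_of_injective_algebraMap (algebraMap (FractionRing X.C.O) K).injective
  let emb : X.C.O →+* K :=
    (algebraMap (FractionRing X.C.O) K).comp (algebraMap X.C.O (FractionRing X.C.O))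
  obtain ⟨f, σ, hf, hfσ⟩ := exists_eigenform_of_ker_le (goodPr X.varLevel) X.topIdeal i₀ hi₀ hne b
    ρ₀ good (fun i => (X.D.univMat (F i)).trace)
    (fun i hi => hρ i hi.1 hi.2 _ (hP i) _ (hF i))
    φ hker emb
  refine ⟨f, hf, fun ℓ hℓ hg hℓM hℓp => ?_⟩
  rw [X.prime_dvd_topLevel hℓ, not_or] at hℓM
  have hℓE : ¬ ℓ ∣ X.varLevel := fun h => (X.primesDividingVarLevel hℓ h).elim hℓp hℓM.1
  obtain ⟨a, ha, hσa⟩ := hfσ ⟨⟨ℓ, hℓ⟩, hℓE⟩ ⟨hℓM.2, hℓp⟩
  have h1 : σ a = σ ((X.W.apOfModel ℓ : ℤ) : ZC) := by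
    rw [hσa, map_intCast, ← map_intCast emb]
    refine congrArg emb ?_
    rw [X.choices.trace_point hN hφ]
    exact trace_frobenius_good X.C X.hΔ hℓ hℓp hg (hP ⟨⟨ℓ, hℓ⟩, hℓE⟩) (hF _)
  simp only [goodPr_val] at ha
  show qCoeff f ℓ = _
  rw [← ha, injective_of_integralClosure σ h1]
  simp

end Ctx

end FermatAgent.Lifting

end
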