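import Fermat.Agent.Lifting.UnramifiedOldOf
import Fermat.Agent.Assembly.Lift
import Fermat.Agent.MF.Mult.Main

/-!
# Leaving the primes at which the representation is unramified

An eigensystem of level `N` whose lattice is fixed by inertia at `q ∥ N` also occurs at level
`N / q` (`old_of_inertia_trivial`). By strong multiplicity one its newform then avoids `q`, so a
prime of characteristic zero with trivial inertia at a set of sites gives a residual level without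
them.
-/

set_option autoImplicit false

noncomputable section

open scoped Pointwise
open CongruenceSubgroup IsLocalRing WeierstrassCurve ModularFormClass FermatAgent.GaloisBasic

namespace FermatAgent.Lifting

local notation "GQ" => AlgebraicClosure ℚ ≃ₐ[ℚ] AlgebraicClosure ℚ

variable {W : WeierstrassCurve ℤ} {p : ℕ} [hp : Fact p.Prime]
  {R₀ : Type} [CommRing R₀] [IsLocalRing R₀]

/-- **A residual level without the sites of trivial inertia.** -/
theorem exists_level_avoiding (hΔ : W.Δ ≠ 0)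
    {M₀ : MatRep R₀} {y : Ideal R₀} {M : ℕ} [NeZero M] (hM : Squarefree M)
    (h : PointForm M₀ y p M)
    (hspan : Submodule.span (ResidueField R₀) (Set.range fun g => (M₀ g).map (residue R₀)) = ⊤)
    (S : Finset ℕ)
    (htr : ∀ ℓ : ℕ, ℓ.Prime → ℓ ∉ S → W.IsGoodPrimeFor ℓ →
      ∀ A : ValuationSubring (AlgebraicClosure ℚ),
      A.LiesOverPrime ℓ → ∀ σ : GQ, A.IsFrobeniusAt σ ℓ →
        residue R₀ (M₀ σ).trace = (W.apOfModel ℓ : ResidueField R₀))
    (sites : Finset ℕ) (hsites : ∀ q ∈ sites, q.Prime ∧ q ≠ p ∧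
      ∃ (P : ValuationSubring (AlgebraicClosure ℚ)) (τ : GQ), RT.IsTameGen P p τ ∧
        RT.InertTrivial M₀ P q p ∧ ∀ i j, M₀ τ i j - (1 : Matrix (Fin 2) (Fin 2) R₀) i j ∈ y) :
    ∃ N : ℕ, N ∣ M ∧ W.IsResiduallyModularOfLevel p N ∧ ∀ q ∈ sites, ¬ q ∣ N := by
  classical
  obtain ⟨𝔪', hmax, hmem, hcongr⟩ := h.exists_congr
  obtain ⟨N, g, hNM, hN0, hg, hval⟩ := HM.exists_newform h.eigen
  have : NeZero N := ⟨hN0.ne'⟩
  refine ⟨N, hNM, Assembly.isResiduallyModularOfLevel_iff.mpr ⟨g, 𝔪',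
    Assembly.congr_of_cofinite hΔ hp.out hg.1 hmax hmem (S ∪ M.primeFactors)
      fun ℓ hℓ hℓS hgd _ hℓp => ?_⟩, fun q hq hqN => ?_⟩
  · rw [Finset.mem_union, not_or] at hℓS
    have hℓM : ¬ ℓ ∣ M := fun hd => hℓS.2 (Nat.mem_primeFactors.mpr ⟨hℓ, hd, hM.ne_zero⟩)
    obtain ⟨A, hA⟩ := exists_liesOverPrime hℓ
    obtain ⟨σ, hσ⟩ := exists_isFrobeniusAt hℓ hA
    obtain ⟨a, ha, hm⟩ :=
      hcongr ℓ hℓ hℓM hℓp A hA σ hσ _ (htr ℓ hℓ hℓS.1 hgd A hA σ hσ)
    exact ⟨a, by rw [ha, hval ℓ hℓ hℓM], hm⟩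
  · obtain ⟨hqP, hqp, hτ⟩ := hsites q hq
    have hqM : q ∣ M := hqN.trans hNM
    obtain ⟨P, hP⟩ := exists_liesOverPrime hqP
    obtain ⟨g', S', hg', hgS'⟩ := old_of_inertia_trivial hqP hqM
      (fun h2 => Nat.squarefree_iff_prime_squarefree.1 hM q hqP (pow_two q ▸ h2)) hqp h.p_mem
      h.ι h.χ h.eigen
      ⟨h.K, inferInstance, inferInstance, inferInstance, h.j, h.emb, h.j_injective, h.χ_eq⟩ hP
      fun σ hσ => by
        obtain ⟨P₀, τ, hτg, hI, hy⟩ := hτ
        obtain ⟨g, hg⟩ := exists_smul_eq hqP hP hI.lies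
        have h1 := h.eigEnd_eq_one hspan hI hτg hy (hg ▸ conj_mem_inertiaSubgroupIn hqP hP hσ g)
        calc ES.eigEnd h.ι h.χ σ
            = ES.eigEnd h.ι h.χ g⁻¹ * ES.eigEnd h.ι h.χ (g * σ * g⁻¹) * ES.eigEnd h.ι h.χ g := by
              rw [← map_mul, ← map_mul]; exact congrArg _ (by group)
          _ = 1 := by rw [h1, mul_one, ← map_mul, inv_mul_cancel, map_one]
    -- the newform at the full level
    set T := M.primeFactors \ N.primeFactors with hTdef
    have hT : ∀ t ∈ T, t.Prime ∧ ¬ t ∣ N := fun t ht => by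
      rw [hTdef, Finset.mem_sdiff, Nat.mem_primeFactors, Nat.mem_primeFactors] at ht
      exact ⟨ht.1.1, fun hd => ht.2 ⟨ht.1.1, hd, NeZero.ne N⟩⟩
    obtain ⟨f', hf', hcoef⟩ := Assembly.exists_add_primes hg.1 T hT
    have hNsq := hM.squarefree_of_dvd hNM
    have hlevel : N * ∏ t ∈ T, t = M / q * q := by
      rw [Nat.div_mul_cancel hqM]
      conv_lhs => rw [← Nat.prod_primeFactors_of_squarefree hNsq]
      conv_rhs => rw [← Nat.prod_primeFactors_of_squarefree hM]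
      rw [hTdef, mul_comm, Finset.prod_sdiff (Nat.primeFactors_mono hNM hM.ne_zero)]
    have hqT : q ∉ T := fun hd => (hT q hd).2 hqN
    have hq2 : ¬ q ^ 2 ∣ N := fun h2 =>
      Nat.squarefree_iff_prime_squarefree.1 hNsq q hqP (by rwa [← pow_two])
    have : NeZero (M / q) :=
      ⟨(Nat.div_pos (Nat.le_of_dvd (NeZero.pos M) hqM) hqP.pos).ne'⟩
    have hqM' : ¬ q ∣ M / q := fun hd =>
      Nat.squarefree_iff_prime_squarefree.1 hM q hqP (Nat.mul_dvd_of_dvd_div hqM hd)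
    revert f'
    rw [hlevel]
    intro f' hf' hcoef
    refine MF.Mult.qCoeff_sq_ne_one hqP hqM' hg' hf' (S' ∪ M.primeFactors)
      (fun ℓ hℓ hℓS hℓL => ?_) ?_
    · rw [Finset.mem_union, not_or] at hℓS
      have hℓM : ¬ ℓ ∣ M := fun hd => hℓS.2 (Nat.mem_primeFactors.mpr ⟨hℓ, hd, hM.ne_zero⟩)
      rw [hcoef ℓ hℓ fun hd => hℓM (Nat.mem_primeFactors.mp (Finset.mem_sdiff.mp hd).1).2.1,
        hgS' ℓ hℓ hℓS.1 hℓM]
      exact hval ℓ hℓ hℓM
    · rw [hcoef q hqP hqT]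
      exact (HM.newformBadPrimeCoeff N g hg q hqP hqN).1 hq2

end FermatAgent.Lifting

end
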