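import Fermat.Agent.Lifting.ResidualInertia
import Fermat.Agent.Lifting.AuxPrime
import Fermat.Agent.Assembly.Lift
import Fermat.Agent.Assembly.IndexTwo.Main
import Fermat.Agent.Assembly.NewFrobenius.Main

/-!
# Normalised seeds of lifting

A congruent form on a level whose primes are of three kinds: sites `q ≡ 1 (mod p)` with residual
Frobenius trace `± 2`, residually ramified primes, and auxiliary primes at which every lift is
unramified; the bad primes outside the level are sites of raising.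
-/

set_option autoImplicit false

noncomputable section

open WeierstrassCurve CuspForm ModularFormClass FermatAgent.GaloisBasic

namespace FermatAgent.Lifting

open Assembly

variable {W : WeierstrassCurve ℤ} {p : ℕ} [hp : Fact p.Prime]

/-- The primes that are automatically unramified: good, `≢ 1`, trace squared `≢ (1 + r)²`. -/
def IsAuxPrime (W : WeierstrassCurve ℤ) (p r : ℕ) : Prop :=
  r.Prime ∧ r ≠ p ∧ W.IsGoodPrimeFor r ∧ (r : ZMod p) ≠ 1 ∧
    ((W.apOfModel r : ℤ) : ZMod p) ^ 2 ≠ (1 + r) ^ 2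

/-- A site of the level: `q ≡ 1`, residually unramified, trace `± 2`. -/
def IsFramePrime (W : WeierstrassCurve ℤ) (p q : ℕ) : Prop :=
  (q : ZMod p) = 1 ∧ UnramAt W p q ∧ ∃ s : ℤ, s ^ 2 = 1 ∧ (frobVal W q : ZMod p) = 2 * s

/-- A residually ramified prime: it is multiplicative. -/
def IsRamPrime (W : WeierstrassCurve ℤ) (p q : ℕ) : Prop :=
  ¬ UnramAt W p q

/-- A normalised seed. -/
structure Seed (W : WeierstrassCurve ℤ) (p : ℕ) where
  /-- the level -/
  M : ℕ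
  /-- the congruent form -/
  g : CuspForm (CongruenceSubgroup.Gamma0 M) 2
  /-- the ideal of the congruence -/
  𝔪 : Ideal ZC
  sq : Squarefree M
  congr : Congr W p M g 𝔪
  /-- the auxiliary primes of the level -/
  aux : Finset ℕ
  aux_spec : ∀ r ∈ aux, r ∣ M ∧ IsAuxPrime W p r
  aux_three : p = 3 → ∃ r ∈ aux, r % 3 = 2
  level : ∀ q : ℕ, q.Prime → q ≠ p → q ∣ M → q ∉ aux → IsFramePrime W p q ∨ IsRamPrime W p q
  outside : ∀ q : ℕ, q.Prime → q ≠ p → ¬ W.IsGoodPrimeFor q → ¬ q ∣ M →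
    (q : ZMod p) ≠ 1 ∧ UnramAt W p q
  p_good : W.IsGoodPrimeFor p → ¬ p ∣ M
  p_strict : p ∣ M → ∀ M₀ : ℕ, M₀ ∣ M / p → ¬ W.IsResiduallyModularOfLevel p M₀

/-- Integers are congruent modulo `p` iff they agree in the residue field. -/
lemma zmod_eq_iff_residue (C : Coeff p) (a b : ℤ) :
    (a : ZMod p) = b ↔ IsLocalRing.residue C.O (a : C.O) = IsLocalRing.residue C.O (b : C.O) := by
  let := charP_residue C
  rw [map_intCast, map_intCast,
    ← map_intCast (ZMod.castHom (dvd_refl p) (IsLocalRing.ResidueField C.O)) a,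
    ← map_intCast (ZMod.castHom (dvd_refl p) (IsLocalRing.ResidueField C.O)) b]
  exact ((ZMod.castHom (dvd_refl p) (IsLocalRing.ResidueField C.O)).injective.eq_iff).symm

/-- The sign at a multiplicative prime. -/
lemma multSign_sq (hΔ : W.Δ ≠ 0) (hW : W.IsSemistableModel) {q : ℕ} (hq : q.Prime) (hqp : q ≠ p)
    (hbad : ¬ W.IsGoodPrimeFor q) : multSign W q ^ 2 = 1 := by
  obtain ⟨A, hA⟩ := exists_liesOverPrime hq
  obtain ⟨σ, hσ⟩ := exists_isFrobeniusAt hq hA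
  exact ((TateRep.tateRep_bad (p := p) hΔ hW hq hqp hbad).2 A hA σ hσ).1

/-- The auxiliary prime at `3`. -/
theorem exists_auxPrime (hp2 : p ≠ 2) (hp3 : p = 3) (hΔ : W.Δ ≠ 0) (hW : W.IsSemistableModel)
    (hidx : IrredIndexTwo W p) (S : Finset ℕ) :
    ∃ r, r ∉ S ∧ r % 3 = 2 ∧ IsAuxPrime W p r := by
  obtain ⟨C⟩ := nonempty_coeff (p := p) hp2
  obtain ⟨r, A, σ, hr, hrS, hr3, hA, hσ, ht⟩ :=
    exists_prime_aux (C := C) (hΔ := hΔ) hidx (S ∪ insert p W.Δ.natAbs.primeFactors)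
  simp only [Finset.mem_union, Finset.mem_insert, not_or] at hrS
  obtain ⟨hrS, hrp, hrΔ⟩ := hrS
  have hg : W.IsGoodPrimeFor r := fun hd => hrΔ (Nat.mem_primeFactors.mpr
    ⟨hr, Int.natCast_dvd.1 hd, Int.natAbs_ne_zero.2 hΔ⟩)
  subst hp3
  have h2 : (r : ZMod 3) = 2 := by rw [← ZMod.natCast_mod, hr3]; rfl
  refine ⟨r, hrS, hr3, hr, hrp, hg, by rw [h2]; exact ne_of_beq_false rfl, ?_⟩
  rw [h2, show ((1 : ZMod 3) + 2) ^ 2 = 0 from rfl]
  intro h0
  refine ht ?_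
  rw [trace_curveRes_frobenius hW hr hrp hA hσ, frobVal_good hg,
    ← map_zero (IsLocalRing.residue C.O), ← Int.cast_zero (R := C.O), ← zmod_eq_iff_residue C,
    Int.cast_zero]
  exact pow_eq_zero_iff two_ne_zero |>.mp h0

/-- A newform congruent to the curve avoids the auxiliary primes. -/
lemma not_dvd_of_isAux (hΔ : W.Δ ≠ 0)
    {N r : ℕ} {g : CuspForm (CongruenceSubgroup.Gamma0 N) 2} {𝔪 : Ideal ZC} (hN : Squarefree N)
    (hg : g.IsNewform) (hc : Congr W p N g 𝔪) (hr : IsAuxPrime W p r) : ¬ r ∣ N := fun hd => by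
  obtain ⟨hrp, hrn, hgood, -, hne⟩ := hr
  refine hne (sub_eq_zero.mp ?_)
  have h := newFrobenius W p N r g 𝔪 hΔ hp.out hg hN hrp hrn hd hgood hc
  rw [← ZMod.intCast_zmod_eq_zero_iff_dvd] at h
  push_cast at h
  rw [← h]; ring

/-- The level of a congruent newform divides `M` if its primes divide `M` or are auxiliary, as it
avoids the latter. -/
lemma dvd_of_congr_newform (hΔ : W.Δ ≠ 0)
    {N M : ℕ} {g : CuspForm (CongruenceSubgroup.Gamma0 N) 2} {𝔪 : Ideal ZC}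
    (hN : Squarefree N) (hg : g.IsNewform) (hc : Congr W p N g 𝔪)
    (hdvd : ∀ q : ℕ, q.Prime → q ∣ N → q ∣ M ∨ IsAuxPrime W p q) : N ∣ M := by
  rw [← Nat.prod_primeFactors_of_squarefree hN]
  refine Finset.prod_primes_dvd M (fun q hq => (Nat.prime_of_mem_primeFactors hq).prime)
    fun q hq => ?_
  obtain ⟨hqp, hqN, -⟩ := Nat.mem_primeFactors.mp hq
  exact (hdvd q hqp hqN).resolve_right fun h =>
    not_dvd_of_isAux hΔ hN hg hc h hqN

/-- **Normalised seeds exist**: a clean squarefree residual level gives a seed, with no new prime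
`p` in its level. Its level is made minimal at `p` and receives the bad primes `q ≡ 1 (mod p)` and,
if `p = 3`, an auxiliary prime. -/
theorem exists_seed (hΔ : W.Δ ≠ 0) (hW : W.IsSemistableModel) (hp2 : p ≠ 2)
    (hirr : W.ModRepIsIrreducible p) {M : ℕ} (hM : Squarefree M)
    (hres : W.IsResiduallyModularOfLevel p M) (hclean : CleanLevel W p M) :
    ∃ s : Seed W p, p ∣ s.M → p ∣ M := by
  classical
  -- the starting level
  obtain ⟨M₁, hM₁M, hres₁, hM₁p⟩ : ∃ M₁, M₁ ∣ M ∧ W.IsResiduallyModularOfLevel p M₁ ∧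
      (p ∣ M₁ → ∀ M₀, M₀ ∣ M → ¬ p ∣ M₀ → ¬ W.IsResiduallyModularOfLevel p M₀) := by
    by_cases h : ∃ M₀, M₀ ∣ M ∧ ¬ p ∣ M₀ ∧ W.IsResiduallyModularOfLevel p M₀
    · obtain ⟨M₀, h1, h2, h3⟩ := h
      exact ⟨M₀, h1, h3, fun hd => absurd hd h2⟩
    · push Not at h
      exact ⟨M, dvd_rfl, hres, fun _ => h⟩
  obtain ⟨N, g, 𝔪, hN1, hnew, hcg⟩ :=
    exists_congr_newform hΔ hp.out (hM.squarefree_of_dvd hM₁M) hres₁
  have hNM : N ∣ M := hN1.trans hM₁M
  have hNsq : Squarefree N := hM.squarefree_of_dvd hNM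
  have : NeZero N := ⟨hNsq.ne_zero⟩
  -- primes to add
  obtain ⟨R, hR, hR3⟩ : ∃ R : Finset ℕ,
      (∀ r ∈ R, IsAuxPrime W p r ∧ ¬ r ∣ M) ∧ (p = 3 → ∃ r ∈ R, r % 3 = 2) := by
    by_cases h3 : p = 3
    · obtain ⟨r, hr1, hr2, hr3⟩ := exists_auxPrime hp2 h3 hΔ hW
          (indexTwo W p hΔ hW hp.out hp2 hirr) M.primeFactors
      exact ⟨{r}, fun x hx => by
        rw [Finset.mem_singleton.mp hx]
        exact ⟨hr3, fun hd => hr1 (Nat.mem_primeFactors.mpr ⟨hr3.1, hd, hM.ne_zero⟩)⟩,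
        fun _ => ⟨r, Finset.mem_singleton_self r, hr2⟩⟩
    · exact ⟨∅, fun x hx => absurd hx (Finset.notMem_empty x), fun h => absurd h h3⟩
  set T : Finset ℕ := M.primeFactors.filter
    fun q => q ≠ p ∧ ¬ W.IsGoodPrimeFor q ∧ (q : ZMod p) = 1 ∧ ¬ q ∣ N with hTdef
  have hTmem : ∀ {q}, q ∈ T ↔ (q.Prime ∧ q ∣ M) ∧ q ≠ p ∧ ¬ W.IsGoodPrimeFor q ∧
      (q : ZMod p) = 1 ∧ ¬ q ∣ N := fun {q} => by
    simp only [hTdef, Finset.mem_filter, Nat.mem_primeFactors, ne_eq, hM.ne_zero, not_false_eq_true,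
      and_true]
  have hU : ∀ t ∈ T ∪ R, t.Prime ∧ ¬ t ∣ N := fun t ht => by
    rcases Finset.mem_union.mp ht with ht | ht
    · exact ⟨(hTmem.mp ht).1.1, (hTmem.mp ht).2.2.2.2⟩
    · exact ⟨(hR t ht).1.1, fun hd => (hR t ht).2 (hd.trans hNM)⟩
  obtain ⟨h, hh, hcoef⟩ := exists_add_primes hcg.1 (T ∪ R) hU
  have hMs : Squarefree (N * ∏ t ∈ T ∪ R, t) := squarefree_mul_prod hNsq hU
  have hdvd : ∀ q : ℕ, q.Prime → (q ∣ N * ∏ t ∈ T ∪ R, t ↔ q ∣ N ∨ q ∈ T ∪ R) := fun q hq =>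
    prime_dvd_mul_prod (fun t ht => (hU t ht).1) hq
  have hgal := hcg.galoisCongr hΔ hp.out
  have hpTR : p ∉ T ∪ R := fun h => by
    rcases Finset.mem_union.mp h with h | h
    · exact (hTmem.mp h).2.1 rfl
    · exact (hR p h).1.2.1 rfl
  refine ⟨{
    M := N * ∏ t ∈ T ∪ R, t, g := h, 𝔪 := 𝔪, sq := hMs
    congr := ⟨hh, hcg.2.1, hcg.2.2.1, fun ℓ hℓ hg' hℓM hℓp => by
      rw [hdvd ℓ hℓ, not_or] at hℓM
      obtain ⟨a, ha, hm⟩ := hcg.2.2.2 ℓ hℓ hg' hℓM.1 hℓp
      exact ⟨a, by rw [ha, hcoef ℓ hℓ hℓM.2], hm⟩⟩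
    aux := R
    aux_spec := fun r hr => ⟨(hdvd r (hR r hr).1.1).mpr (Or.inr (Finset.mem_union_right _ hr)),
      (hR r hr).1⟩
    aux_three := hR3
    level := fun q hq hqp hqM hqR => ?_
    outside := fun q hq hqp hbad hqM => ?_
    p_good := fun hg hd => ?_
    p_strict := fun hd M₀ hM₀ hres₀ => ?_ }, fun hd =>
      ((hdvd p hp.out).mp hd).elim (fun h => h.trans hNM) fun h => absurd h hpTR⟩
  · by_cases hu : UnramAt W p q
    swap
    · exact Or.inr hu
    refine Or.inl ?_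
    rcases (hdvd q hq).mp hqM with hqN | hqT
    · have hq1 := (hclean.clean q hq hqp (hqN.trans hNM)).resolve_right (fun h => h hu)
      refine ⟨hq1, hu, ?_⟩
      by_cases hg : W.IsGoodPrimeFor q
      · have h := newFrobenius W p N q g 𝔪 hΔ hp.out hnew hNsq hq hqp hqN hg hcg
        rw [← ZMod.intCast_zmod_eq_zero_iff_dvd] at h
        push_cast at h
        rw [hq1, frobVal_good hg] at *
        have e : ((W.apOfModel q : ZMod p) - 2) * ((W.apOfModel q : ZMod p) + 2) = 0 := by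
          rw [← h]; ring
        rcases mul_eq_zero.mp e with e | e
        · exact ⟨1, one_pow 2, by rw [sub_eq_zero.mp e]; simp⟩
        · exact ⟨-1, by norm_num, by rw [eq_neg_of_add_eq_zero_left e]; simp⟩
      · refine ⟨multSign W q, multSign_sq (p := p) hΔ hW hq hqp hg, ?_⟩
        rw [frobVal_bad hg]
        push_cast
        rw [hq1]; ring
    · rcases Finset.mem_union.mp hqT with hqT | hqT
      swap
      · exact absurd hqT hqR
      obtain ⟨-, -, hbad, hq1, -⟩ := hTmem.mp hqT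
      refine ⟨hq1, hu, multSign W q, multSign_sq (p := p) hΔ hW hq hqp hbad, ?_⟩
      rw [frobVal_bad hbad]
      push_cast
      rw [hq1]; ring
  · rw [hdvd q hq, not_or] at hqM
    by_cases hd : q ∣ M
    · refine ⟨fun hq1 => hqM.2 (Finset.mem_union_left _
        (hTmem.mpr ⟨⟨hq, hd⟩, hqp, hbad, hq1, hqM.1⟩)), hgal.unramified hirr q hq hqM.1 hqp⟩
    · exact hclean.outside q hq hqp hbad hd
  · rcases (hdvd p hp.out).mp hd with hd | hd
    · exact hclean.good hg (hd.trans hNM)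
    · exact hpTR hd
  · rcases (hdvd p hp.out).mp hd with hdN | hd'
    swap
    · exact hpTR hd'
    have hM₀0 : Squarefree M₀ :=
      (hMs.squarefree_of_dvd (Nat.div_dvd_of_dvd hd)).squarefree_of_dvd hM₀
    have hpM₀ : ¬ p ∣ M₀ := fun hh => by
      have hpp := Nat.mul_dvd_of_dvd_div hd (hh.trans hM₀)
      exact hp.out.ne_one (Nat.isUnit_iff.mp (hMs p hpp))
    obtain ⟨N', g', 𝔪', hN'M₀, hnew', hc'⟩ := exists_congr_newform hΔ hp.out hM₀0 hres₀
    have hN'sq := hM₀0.squarefree_of_dvd hN'M₀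
    have : NeZero N' := ⟨hN'sq.ne_zero⟩
    refine hM₁p (hdN.trans hN1) N' ?_ (fun hh => hpM₀ (hh.trans hN'M₀)) ⟨g', 𝔪', hc'⟩
    refine dvd_of_congr_newform hΔ hN'sq hnew' hc' fun q hqp hqN' => ?_
    rcases (hdvd q hqp).mp ((hqN'.trans hN'M₀).trans (hM₀.trans (Nat.div_dvd_of_dvd hd))) with h | h
    · exact Or.inl (h.trans hNM)
    rcases Finset.mem_union.mp h with h | h
    · exact Or.inl (hTmem.mp h).1.2
    · exact Or.inr (hR q h).1

end FermatAgent.Lifting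

end
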