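import Fermat.Agent.Lifting.Setup
import Fermat.Agent.Lifting.Nonvanishing
import Fermat.Agent.Lifting.LowerLevel
import Fermat.Agent.Lifting.Seed

/-!
# The universal deformation of a seed at Frobenius elements and inertia

Its determinant is cyclotomic, it is unramified outside the finite set of bad primes, and at the
framed primes its inertia is residually trivial.
-/

set_option autoImplicit false

noncomputable section

open scoped Pointwise
open IsLocalRing GaloisRep FermatAgent.GaloisBasic WeierstrassCurve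

namespace FermatAgent.Lifting

open RT Assembly

attribute [local instance] dualAlgebra

local notation "GQ" => AlgebraicClosure ℚ ≃ₐ[ℚ] AlgebraicClosure ℚ

/-- Consequences of the conditions of lifting over a complete ring. -/
theorem of_liftMatCond {p : ℕ} [Fact p.Prime] {O : Type} [CommRing O] [IsLocalRing O]
    [Algebra ℤ_[p] O] [Finite (ResidueField O)] {A : Type} [CommRing A] [IsLocalRing A]
    [IsNoetherianRing A] [Algebra O A] [IsLocalHom (algebraMap O A)]
    (hs : Function.Surjective (residue A ∘ algebraMap O A)) {S T : Finset ℕ} {cs : LocalCase}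
    {M : MatRep A} (hc : MatContinuous A M) (h : (liftMatCond O p S T cs).cond (toRep M hc)) :
    (∀ σ, (M σ).det = algebraMap O A (cycloO p O σ)) ∧ ∀ σ ∈ inertiaOutside S, M σ = 1 := by
  have key : ∀ n, ∃ _ : IsLocalRing (A ⧸ maximalIdeal A ^ (n + 1)), (liftMatCond O p S T cs).P
      (mapRep (Ideal.Quotient.mk (maximalIdeal A ^ (n + 1))) M) := fun n => by
    obtain ⟨hloc, htest, -⟩ := GaloisBasic.isArtinianTestAlgebra_quotient hs n
    refine ⟨hloc, ?_⟩
    have h1 := h htest (Ideal.Quotient.mkₐ O (maximalIdeal A ^ (n + 1)))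
      (IsLocalHom.of_surjective _ Ideal.Quotient.mk_surjective)
      Ideal.Quotient.mk_surjective (Pi.basisFun A (Fin 2))
    rw [matrixIn_toRep] at h1
    exact h1
  refine ⟨fun σ => ?_, fun σ hσ => ?_⟩
  · refine sub_eq_zero.mp (GaloisBasic.eq_zero_of_forall_mem_pow fun n =>
      Ideal.pow_le_pow_right n.le_succ ?_)
    obtain ⟨_, h1⟩ := key n
    have h2 := (liftMatCond_iff.mp h1).1 σ
    rw [mapRep_apply, ← RingHom.mapMatrix_apply, ← RingHom.map_det] at h2
    exact Ideal.Quotient.eq.mp h2
  · ext i j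
    refine sub_eq_zero.mp (GaloisBasic.eq_zero_of_forall_mem_pow fun n =>
      Ideal.pow_le_pow_right n.le_succ ?_)
    obtain ⟨_, h1⟩ := key n
    have h2 := Matrix.ext_iff.mpr ((liftMatCond_iff.mp h1).2.1 σ hσ) i j
    rw [mapRep_apply, Matrix.map_apply] at h2
    refine Ideal.Quotient.eq.mp (h2.trans ?_)
    simp [Matrix.one_apply, apply_ite (Ideal.Quotient.mk (maximalIdeal A ^ (n + 1)))]

namespace Ctx

variable {p : ℕ} [hp : Fact p.Prime] (X : Ctx p)

/-- The residual ideal of the level. -/
abbrev baseIdeal : Ideal (MvPolynomial (GoodIdx X.varLevel) X.C.O) :=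
  HM.resIdeal (heckeVal X.C X.W ∅)

lemma map_residue_univMat (σ : GQ) :
    (X.D.univMat σ).map (residue X.D.UR) = (curveRes X.C X.hΔ σ).map (iotaRes X.D.UR) :=
  DFunLike.congr_fun X.D.univMat_residual σ

/-- The residual matrices of the universal deformation span all matrices. -/
lemma span_univMat : Submodule.span (ResidueField X.D.UR)
    (Set.range fun g => (X.D.univMat g).map (residue X.D.UR)) = ⊤ := by
  simpa only [← X.map_residue_univMat] using
    RT.span_map_eq_top (span_curveRes_top (C := X.C) (hΔ := X.hΔ) X.idx)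
      (iotaRes (𝒪 := X.C.O) X.D.UR)

/-- The traces of the universal deformation reduce to those of the residual representation. -/
lemma residue_trace_univMat (σ : GQ) :
    residue X.D.UR (X.D.univMat σ).trace = iotaRes X.D.UR (curveRes X.C X.hΔ σ).trace := by
  refine (AddMonoidHom.map_trace (residue X.D.UR).toAddMonoidHom _).trans ?_
  show ((X.D.univMat σ).map (residue X.D.UR)).trace = _
  rw [X.map_residue_univMat]
  exact (AddMonoidHom.map_trace (iotaRes X.D.UR).toAddMonoidHom _).symm

/-- The determinant of the universal deformation is cyclotomic. -/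
lemma det_univMat (σ : GQ) :
    (X.D.univMat σ).det = algebraMap X.C.O X.D.UR (cycloO p X.C.O σ) :=
  (of_liftMatCond X.D.residue_surjective_UR X.D.univMat_continuous X.D.univRep_cond).1 σ

/-- The determinant at a Frobenius element over `ℓ ≠ p` is `ℓ`. -/
lemma det_univMat_frobenius {ℓ : ℕ} (hℓ : ℓ.Prime) (hℓp : ℓ ≠ p)
    {A : ValuationSubring (AlgebraicClosure ℚ)} (hA : A.LiesOverPrime ℓ) {σ : GQ}
    (hσ : A.IsFrobeniusAt σ ℓ) : (X.D.univMat σ).det = (ℓ : X.D.UR) := by
  rw [X.det_univMat, RT.cycloO_apply, ES.padCyclo_frobenius p hℓ hℓp hA hσ,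
    map_natCast, map_natCast]

lemma univMat_inertia {ℓ : ℕ} (hℓ : ℓ.Prime) (hS : ℓ ∉ X.ramSet)
    {A : ValuationSubring (AlgebraicClosure ℚ)} (hA : A.LiesOverPrime ℓ) {σ : GQ}
    (hσ : σ ∈ A.inertiaSubgroupIn ℚ) : X.D.univMat σ = 1 :=
  (of_liftMatCond X.D.residue_surjective_UR X.D.univMat_continuous X.D.univRep_cond).2 σ
    ⟨ℓ, A, hℓ, hS, hA, hσ⟩

/-- The trace at Frobenius outside the ramification set does not depend on the choices. -/
lemma trace_univMat_frobenius {ℓ : ℕ} (hℓ : ℓ.Prime) (hS : ℓ ∉ X.ramSet)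
    {A A' : ValuationSubring (AlgebraicClosure ℚ)} (hA : A.LiesOverPrime ℓ)
    (hA' : A'.LiesOverPrime ℓ) {σ σ' : GQ} (hσ : A.IsFrobeniusAt σ ℓ)
    (hσ' : A'.IsFrobeniusAt σ' ℓ) : (X.D.univMat σ').trace = (X.D.univMat σ).trace := by
  obtain ⟨g, rfl⟩ := exists_smul_eq hℓ hA hA'
  have h1 := X.univMat_inertia hℓ hS hA'
    (mul_inv_mem_inertiaSubgroupIn hℓ hA' hσ' (conj_isFrobeniusAt hℓ hA hσ g))
  calc (X.D.univMat σ').trace
      = (X.D.univMat (σ' * (g * σ * g⁻¹)⁻¹) * X.D.univMat (g * σ * g⁻¹)).trace := by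
        rw [← map_mul, inv_mul_cancel_right]
    _ = (X.D.univMat g * (X.D.univMat σ * X.D.univMat g⁻¹)).trace := by
        rw [h1, one_mul, ← map_mul, ← map_mul, mul_assoc]
    _ = (X.D.univMat σ).trace := by
        rw [Matrix.trace_mul_comm, mul_assoc, ← map_mul, inv_mul_cancel, map_one, mul_one]

/-- Inertia at a framed prime is residually trivial in the universal deformation. -/
lemma inertTrivial_univMat {q : ℕ} (hq : q ∈ X.frames) {P : ValuationSubring (AlgebraicClosure ℚ)}
    (hP : P.LiesOverPrime q) : RT.InertTrivial X.D.univMat P q p := by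
  obtain ⟨hqP, -, hqp, -, hfr⟩ := X.mem_frames.mp hq
  refine ⟨hqP, hP, hqp, ?_, X.D.univMat_continuous, fun σ hσ i j => ?_⟩
  · rw [← map_natCast (algebraMap X.C.O X.D.UR)]
    exact map_nonunit (algebraMap X.C.O X.D.UR) _ natCast_mem_maximalIdeal
  · rw [← residue_eq_zero_iff, map_sub, sub_eq_zero, ← Matrix.map_apply (f := residue X.D.UR),
      X.map_residue_univMat, curveRes_inertia_eq_one hfr.2.1 hP hσ,
      Matrix.map_one _ (map_zero _) (map_one _), Matrix.one_apply, Matrix.one_apply,
      apply_ite (residue X.D.UR), map_one, map_zero]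

end Ctx

end FermatAgent.Lifting

end
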