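import Fermat.Agent.Lifting.Conditions
import Fermat.Agent.RT.Cond.Side
import Fermat.Agent.RT.Cond.Transfer

/-!
# The conditions of lifting on specialised sides

Trace two from `(G - 1) ^ 2 = 0`, the weakly ordinary condition from three operator equations, the
strict one from a fourth, and the surjectivity of the specialisations.
-/

set_option autoImplicit false

noncomputable section

open IsLocalRing GaloisRep FermatAgent.GaloisBasic

namespace FermatAgent.Lifting

open RT

section Plain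

variable {A : Type} [CommRing A]

/-- A matrix of determinant one with `(X - 1) ^ 2 = 0` has trace two. -/
lemma trace_eq_two_of_sq {X : Matrix (Fin 2) (Fin 2) A} (hd : X.det = 1)
    (h : (X - 1) * (X - 1) = 0) : X.trace = 2 := by
  rw [Matrix.det_fin_two] at hd
  have h00 := congrFun (congrFun h 0) 0
  have h01 := congrFun (congrFun h 0) 1
  have h10 := congrFun (congrFun h 1) 0
  have h11 := congrFun (congrFun h 1) 1
  simp [Matrix.mul_apply, Fin.sum_univ_two] at h00 h01 h10 h11
  rw [Matrix.trace_fin_two]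
  have ha : (X 0 0 + X 1 1 - 2) * X 0 0 = 0 := by linear_combination h00 + hd
  have hb : (X 0 0 + X 1 1 - 2) * X 0 1 = 0 := by linear_combination h01
  have hc : (X 0 0 + X 1 1 - 2) * X 1 0 = 0 := by linear_combination h10
  have hd' : (X 0 0 + X 1 1 - 2) * X 1 1 = 0 := by linear_combination h11 + hd
  linear_combination X 1 1 * ha - X 1 0 * hb - (X 0 0 + X 1 1 - 2) * hd

end Plain

section Operator

variable {𝒪 : Type} [CommRing 𝒪] [IsLocalRing 𝒪] (c : GQ →* 𝒪) (p : ℕ)
variable {A : Type} [CommRing A] [IsLocalRing A] [Algebra 𝒪 A]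

variable {c p} in
omit [IsLocalRing 𝒪] in
/-- The projection to the line has trace one. -/
lemma trace_ordProj_eq_one {M : MatRep A} (i : OrdIndex c p)
    (hdet : (M i.σ₀).det = algebraMap 𝒪 A (c i.σ₀))
    (hπ : ordProj i M * ordProj i M = ordProj i M) : (ordProj i M).trace = 1 := by
  set π := ordProj i M with hπdef
  set u := algebraMap 𝒪 A i.u
  set k := algebraMap 𝒪 A (c i.σ₀) - 1 with hk
  have hu : u * k = 1 := by
    rw [hk, ← map_one (algebraMap 𝒪 A), ← map_sub, ← map_mul, i.u_spec]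
  have hMσ : M i.σ₀ = 1 + k • π := by
    rw [hπdef, ordProj, ← algebraMap_smul A i.u, smul_smul, mul_comm, hu, one_smul, add_sub_cancel]
  rw [hMσ, Matrix.det_fin_two] at hdet
  simp only [Matrix.add_apply, Matrix.smul_apply, smul_eq_mul, Matrix.one_apply_eq,
    Matrix.one_apply_ne (show (0 : Fin 2) ≠ 1 by decide),
    Matrix.one_apply_ne (show (1 : Fin 2) ≠ 0 by decide)] at hdet
  have hlin : π.trace + k * π.det = 1 := by
    rw [Matrix.trace_fin_two, Matrix.det_fin_two]
    linear_combination (1 - π 0 0 - π 1 1 -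
      k * (π 0 0 * π 1 1 - π 0 1 * π 1 0)) * hu + u * hdet - u * hk
  have hDD : π.det * π.det = π.det := by rw [← Matrix.det_mul, hπ]
  suffices hD : π.det = 0 by rw [hD, mul_zero, add_zero] at hlin; exact hlin
  by_contra hne
  have hD1 : π.det = 1 := by
    rcases IsLocalRing.isUnit_or_isUnit_of_isUnit_add
      (show IsUnit (π.det + (1 - π.det)) by rw [add_sub_cancel]; exact isUnit_one) with hu' | hu'
    · exact hu'.mul_left_cancel (by rw [hDD, mul_one])
    · exact absurd (hu'.mul_left_cancel (show (1 - π.det) * π.det = (1 - π.det) * 0 by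
        linear_combination -hDD)) hne
  have hπ1 : π = 1 := ((Matrix.isUnit_iff_isUnit_det π).mpr (hD1 ▸ isUnit_one)).mul_left_cancel
    (by rw [hπ, mul_one])
  rw [hD1, hπ1, Matrix.trace_one, Fintype.card_fin] at hlin
  have hc0 : algebraMap 𝒪 A (c i.σ₀) = 0 := by rw [hk] at hlin; linear_combination hlin
  exact not_isUnit_zero (hc0 ▸ (((Group.isUnit i.σ₀).map c).map (algebraMap 𝒪 A)))

variable {c p} in
omit [IsLocalRing A] [IsLocalRing 𝒪] in
/-- An algebra map commuting with the representations carries the projection to the operator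
projection. -/
lemma map_ordProj_eq {E : Type} [Ring E] [Algebra A E] {M : MatRep A} (i : OrdIndex c p)
    (Ψ : Matrix (Fin 2) (Fin 2) A →ₐ[A] E) {ρ : GQ →* E} (hρ : ∀ g, Ψ (M g) = ρ g) :
    Ψ (ordProj i M) = algebraMap 𝒪 A i.u • (ρ i.σ₀ - 1) := by
  rw [ordProj, ← algebraMap_smul A i.u, map_smul, map_sub, map_one, hρ]

omit [IsLocalRing A] in
/-- The complement of an idempotent of trace one has determinant zero. -/
lemma det_one_sub_eq_zero {π : Matrix (Fin 2) (Fin 2) A} (hπ : π * π = π) (ht : π.trace = 1) :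
    (1 - π).det = 0 := by
  have h00 := congrFun (congrFun hπ 0) 0
  rw [Matrix.trace_fin_two] at ht
  simp only [Matrix.mul_apply, Fin.sum_univ_two] at h00
  rw [Matrix.det_fin_two]; simp
  linear_combination (π 0 0 - 1) * ht - h00

/-- **The weakly ordinary condition from equations between operators.** -/
theorem weakOrdMatCond_of_operator {E : Type} [Ring E] [Algebra A E] {M : MatRep A}
    (Ψ : Matrix (Fin 2) (Fin 2) A →ₐ[A] E) (hΨ : Function.Injective Ψ) (ρ : GQ →* E)
    (hρ : ∀ g, Ψ (M g) = ρ g) (hdet : ∀ σ, (M σ).det = algebraMap 𝒪 A (c σ))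
    (h : ∀ i : OrdIndex c p, let π := algebraMap 𝒪 A i.u • (ρ i.σ₀ - 1)
      π * π = π ∧ (∀ σ ∈ i.P.decompositionSubgroup ℚ, (1 - π) * ρ σ * π = 0) ∧
      (∀ σ ∈ i.P.inertiaSubgroupIn ℚ, (1 - π) * (ρ σ - 1) = 0)) :
    (weakOrdMatCond c p).P M := by
  have hπ := fun i : OrdIndex c p => map_ordProj_eq i Ψ hρ
  have q1 : ∀ i : OrdIndex c p, ordProj i M * ordProj i M = ordProj i M := fun i =>
    hΨ (by rw [map_mul, hπ, (h i).1])
  rintro ⟨e, he⟩
  cases e with
  | idem i => exact sub_eq_zero.mpr (q1 i)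
  | rank i =>
    show algebraMap A _ ((ordProj i M).trace - 1) = 0
    rw [trace_ordProj_eq_one i (hdet _) (q1 i), sub_self, map_zero]
  | stable i σ =>
    show (1 - ordProj i M) * M σ * ordProj i M = 0
    exact hΨ (by rw [map_mul, map_mul, map_sub, map_one, hπ, hρ, (h i).2.1 σ σ.2, map_zero])
  | quot i σ =>
    show (1 - ordProj i M) * (M σ - 1) = 0
    exact hΨ (by rw [map_mul, map_sub, map_sub, map_one, hπ, hρ, (h i).2.2 σ σ.2, map_zero])
  | strict i σ => exact he.elim

/-- The strictly ordinary condition from the weakly ordinary one and the last equation between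
operators. -/
theorem ordMatCond_of_operator {E : Type} [Ring E] [Algebra A E] {M : MatRep A}
    (Ψ : Matrix (Fin 2) (Fin 2) A →ₐ[A] E) (hΨ : Function.Injective Ψ) (ρ : GQ →* E)
    (hρ : ∀ g, Ψ (M g) = ρ g) (hdet : ∀ σ, (M σ).det = algebraMap 𝒪 A (c σ))
    (hw : (weakOrdMatCond c p).P M)
    (h : ∀ i : OrdIndex c p, ∀ σ ∈ i.P.decompositionSubgroup ℚ,
      (1 - algebraMap 𝒪 A i.u • (ρ i.σ₀ - 1)) * (ρ σ * ρ σ - 1) = 0) :
    (ordMatCond c p).P M := by
  have hπ := fun i : OrdIndex c p => map_ordProj_eq i Ψ hρ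
  intro e
  cases e with
  | idem i => exact hw ⟨.idem i, trivial⟩
  | rank i => exact hw ⟨.rank i, trivial⟩
  | stable i σ => exact hw ⟨.stable i σ, trivial⟩
  | quot i σ => exact hw ⟨.quot i σ, trivial⟩
  | strict i σ =>
    set π := ordProj i M
    have q1 : π * π = π := sub_eq_zero.mp (hw ⟨.idem i, trivial⟩)
    have q2 : (1 - π) * M σ * π = 0 := hw ⟨.stable i σ, trivial⟩
    have q4 : (1 - π) * (M σ * M σ - 1) = 0 := hΨ (by
      rw [map_mul, map_sub, map_sub, map_mul, map_one, hπ, hρ, h i σ σ.2, map_zero])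
    -- the quotient eigenvalue has square one
    have hrank := trace_ordProj_eq_one i (hdet _) q1
    have hN1 : (1 - π).trace = 1 := by
      rw [Matrix.trace_sub, Matrix.trace_one, Fintype.card_fin, hrank]; norm_num
    have hN0 : (1 - π).det = 0 := det_one_sub_eq_zero q1 hrank
    have e1 : (1 - π) * (M σ * M σ) = 1 - π := by
      rw [← sub_eq_zero, ← mul_sub_one, q4]
    have e2 : (1 - π) * M σ * ((1 - π) * M σ) = 1 - π := by
      rw [← mul_assoc, mul_sub, mul_one, sub_mul, q2, zero_mul, sub_zero, mul_assoc, e1]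
    have key : ∀ N X : Matrix (Fin 2) (Fin 2) A, (N * (X * X)).trace =
        X.trace * (N * X).trace - X.det * N.trace := fun N X => by
      simp [Matrix.trace_fin_two, Matrix.mul_apply, Fin.sum_univ_two, Matrix.det_fin_two]; ring
    have hd2 := key 1 ((1 - π) * M σ)
    rw [one_mul, e2, hN1, one_mul, Matrix.det_mul, hN0, zero_mul, zero_mul, sub_zero] at hd2
    have hsum := key (1 - π) (M σ)
    rw [e1, hN1, hdet σ, mul_one,
      show (M σ).trace = (M σ * π).trace + (M σ * (1 - π)).trace by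
        rw [← Matrix.trace_add, ← mul_add, add_sub_cancel, mul_one]] at hsum
    rw [Matrix.trace_mul_comm (1 - π) (M σ)] at hsum hd2
    set d := (M σ * (1 - π)).trace
    show algebraMap A _ ((M σ * π).trace - algebraMap 𝒪 A (c σ) * d) = 0
    rw [show (M σ * π).trace = algebraMap 𝒪 A (c σ) * d from by
      linear_combination -d * hsum + ((M σ * π).trace + d) * hd2, sub_self, map_zero]

end Operator

section Side

variable {𝒪 : Type} [CommRing 𝒪] [IsDomain 𝒪] [IsDiscreteValuationRing 𝒪]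
  [IsAdicComplete (maximalIdeal 𝒪) 𝒪] [Finite (ResidueField 𝒪)] [CharZero 𝒪]
variable {κ : Type} [Fintype κ] [DecidableEq κ] {m : κ → ℕ} [∀ i, NeZero (m i)]
variable {D : DefProblem 𝒪} {p s : ℕ} [IsLocalRing (MonoidAlgebra 𝒪 (CycProd m))]

open DiamondDatum

variable {H : DiamondDatum D m p s} (A : H.AuxSet) (G : GalAct H)
variable {B : Type} [CommRing B] [Algebra 𝒪 B] [Finite B] [Nontrivial B]
variable {φ : MonoidAlgebra 𝒪 (CycProd m) →ₐ[𝒪] B} {M : MatRep (sideAction A φ).Img}
  (hres : HasResidual D.rbar M) (htr : ∀ g, (M g).trace = Ideal.Quotient.mk _ (H.td.t g))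

include G hres htr in
/-- Unipotent action gives trace two. -/
theorem side_trace_two {τ : GQ} (hτ : (G.ρ τ - 1) * (G.ρ τ - 1) = 0) (hd : (M τ).det = 1) :
    (M τ).trace = 2 := by
  obtain ⟨Ψ, hΨ, hρ⟩ := G.exists_algHom A hres htr
  refine trace_eq_two_of_sq hd (hΨ ?_)
  rw [map_zero, map_mul, map_sub, map_one, hρ,
    show G.side A φ τ = sideOp A φ (G.op τ) from rfl, ← map_one (sideOp A φ), ← map_sub, ← map_mul,
    show (G.op τ - 1) * (G.op τ - 1) = 0 from Subtype.ext hτ, map_zero]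

omit [Finite B] [Nontrivial B] in
/-- A multiple of `g - 1` on the side is the operator of the Galois action. -/
lemma side_proj (u : 𝒪) (σ : GQ) :
    algebraMap 𝒪 (sideAction A φ).Img u • (G.side A φ σ - 1) = sideOp A φ (u • (G.op σ - 1)) := by
  rw [map_smul, map_sub, map_one, Algebra.smul_def, Algebra.smul_def u]
  congr 1
  refine Subtype.ext ?_
  rw [EigenAction.coe_algebraMap_commutant, AlgHom.commutes]
  rfl

omit [Finite B] [Nontrivial B] in
/-- What vanishes on the module vanishes on the side. -/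
lemma sideOp_eq_zero {x : opAlg H} (hx : x.1 = 0) : sideOp A φ x = 0 := by
  rw [show x = 0 from Subtype.ext hx, map_zero]

include G hres htr in
/-- The weakly ordinary condition of the lift from equations of the Galois action. -/
theorem side_weakOrd (c : GQ →* 𝒪)
    (hd : ∀ g, H.Φ (H.td.d g) =
      algebraMap 𝒪 (Matrix (Fin s) (Fin s) (MonoidAlgebra 𝒪 (CycProd m))) (c g))
    (hdet : ∀ g, (M g).det = Ideal.Quotient.mk _ (H.td.d g))
    (h : ∀ i : OrdIndex c p, let π := i.u • (G.ρ i.σ₀ - 1)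
      π * π = π ∧ (∀ σ ∈ i.P.decompositionSubgroup ℚ, (1 - π) * G.ρ σ * π = 0) ∧
      (∀ σ ∈ i.P.inertiaSubgroupIn ℚ, (1 - π) * (G.ρ σ - 1) = 0)) :
    (weakOrdMatCond c p).P M := by
  obtain ⟨Ψ, hΨ, hρ⟩ := G.exists_algHom A hres htr
  refine weakOrdMatCond_of_operator c p Ψ hΨ (G.side A φ) hρ (side_det A hd hdet) fun i => ?_
  obtain ⟨e1, e2, e3⟩ := h i
  rw [side_proj]
  refine ⟨?_, fun σ hσ => ?_, fun σ hσ => ?_⟩
  · rw [← map_mul]
    exact congrArg _ (Subtype.ext e1)
  · rw [show G.side A φ σ = sideOp A φ (G.op σ) from rfl, ← map_one (sideOp A φ), ← map_sub,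
      ← map_mul, ← map_mul]
    exact sideOp_eq_zero A (e2 σ hσ)
  · rw [show G.side A φ σ = sideOp A φ (G.op σ) from rfl, ← map_one (sideOp A φ), ← map_sub,
      ← map_sub, ← map_mul]
    exact sideOp_eq_zero A (e3 σ hσ)

include G hres htr in
/-- The strictly ordinary condition of the lift from equations of the Galois action. -/
theorem side_ord (c : GQ →* 𝒪)
    (hd : ∀ g, H.Φ (H.td.d g) =
      algebraMap 𝒪 (Matrix (Fin s) (Fin s) (MonoidAlgebra 𝒪 (CycProd m))) (c g))
    (hdet : ∀ g, (M g).det = Ideal.Quotient.mk _ (H.td.d g))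
    (h : ∀ i : OrdIndex c p, let π := i.u • (G.ρ i.σ₀ - 1)
      π * π = π ∧ (∀ σ ∈ i.P.decompositionSubgroup ℚ, (1 - π) * G.ρ σ * π = 0) ∧
      (∀ σ ∈ i.P.inertiaSubgroupIn ℚ, (1 - π) * (G.ρ σ - 1) = 0) ∧
      ∀ σ ∈ i.P.decompositionSubgroup ℚ, (1 - π) * (G.ρ σ * G.ρ σ - 1) = 0) :
    (ordMatCond c p).P M := by
  obtain ⟨Ψ, hΨ, hρ⟩ := G.exists_algHom A hres htr
  refine ordMatCond_of_operator c p Ψ hΨ (G.side A φ) hρ (side_det A hd hdet)
    (side_weakOrd A G hres htr c hd hdet fun i => ⟨(h i).1, (h i).2.1, (h i).2.2.1⟩)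
    fun i σ hσ => ?_
  rw [side_proj, show G.side A φ σ = sideOp A φ (G.op σ) from rfl, ← map_one (sideOp A φ),
    ← map_sub, ← map_mul, ← map_sub, ← map_mul]
  exact sideOp_eq_zero A ((h i).2.2.2 σ hσ)

omit [IsAdicComplete (maximalIdeal 𝒪) 𝒪] [Finite (ResidueField 𝒪)] [CharZero 𝒪] in
/-- The specialisations are surjective. -/
theorem spec_surjective {r n : ℕ} {e : Fin r ≃ {j // j ∈ A.sel}}
    (hdepth : ∀ j : {j // j ∈ A.sel}, p ^ (n + 1) ≤ m j.1) (z : κ → 𝒪)
    (hz : ∀ i, i ∉ A.sel → z i ^ m i = 1) : Function.Surjective (spec A (e := e) hdepth z hz) := by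
  intro y
  obtain ⟨f, rfl⟩ := Ideal.Quotient.mk_surjective y
  have hep : f - (f.truncTotal (n + 1) : PatchBase 𝒪 r) ∈
      maximalIdeal (PatchBase 𝒪 r) ^ (n + 1) :=
    sub_truncTotal_mem_pow _ _
  rw [Ideal.Quotient.eq.mpr hep]
  let x : Fin r → MonoidAlgebra 𝒪 (CycProd m) := fun j => cycX 𝒪 (e j).1 - 1
  refine ⟨MvPolynomial.aeval x (f.truncTotal (n + 1)), ?_⟩
  have h : (spec A (e := e) hdepth z hz).comp (MvPolynomial.aeval x) =
      (Ideal.Quotient.mkₐ 𝒪 (maximalIdeal (PatchBase 𝒪 r) ^ (n + 1))).comp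
        (MvPolynomial.coeToMvPowerSeries.algHom 𝒪) := by
    refine MvPolynomial.algHom_ext fun j => ?_
    simp [x, spec_cycX_sel]
  refine (AlgHom.congr_fun h (f.truncTotal (n + 1))).trans ?_
  rw [AlgHom.comp_apply, MvPolynomial.coeToMvPowerSeries.algHom_apply, Ideal.Quotient.mkₐ_eq_mk]
  simp [Algebra.algebraMap_self, MvPowerSeries.map_id]

end Side

end FermatAgent.Lifting

end
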