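import Fermat.Agent.Lifting.Base
import Fermat.Agent.Lifting.SideConds
import Fermat.Agent.RT.Cond.ModuleFlat
import Fermat.Agent.RT.Tower.Datum
import Fermat.Agent.BAD.Diamond.Main

/-!
# The conditions of lifting on the modules of auxiliary levels

Determinant, ramification, trace two at the residually ramified and auxiliary primes of the level,
and flatness when the lifting prime is outside the level.
-/

set_option autoImplicit false

noncomputable section

open IsLocalRing GaloisRep FermatAgent.GaloisBasic WeierstrassCurve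

namespace FermatAgent.Lifting

open RT Assembly

attribute [local instance] dualAlgebra

local notation "GQ" => AlgebraicClosure ℚ ≃ₐ[ℚ] AlgebraicClosure ℚ

private lemma sub_one_mul_self_map {A B F : Type*} [Ring A] [Ring B] [FunLike F A B]
    [RingHomClass F A B] (φ : F) {f : A} (h : (f - 1) * (f - 1) = 0) :
    (φ f - 1) * (φ f - 1) = 0 := by
  rw [← map_one φ, ← map_sub, ← map_mul, h, map_zero]

namespace Ctx

variable {p : ℕ} [hp : Fact p.Prime] (X : Ctx p)

/-- The choices allowing ramification at further primes. -/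
def choicesWith (Q : Finset ℕ) : Choices X.W p where
  S := X.ramSet ∪ Q
  T := X.traceSet
  cs := X.localCase
  hΔ := X.hΔ
  semistable := X.semistable
  ne_two := X.ne_two
  idx := X.idx
  case_ok := X.caseOK
  p_mem := Finset.mem_union_left _ X.choices.p_mem
  good q hq hqS := X.choices.good q hq fun h => hqS (Finset.mem_union_left _ h)
  p_notMem := X.p_notMem_traceSet

/-- The deformation problem allowing ramification at further primes. -/
abbrev DQ (Q : Finset ℕ) : DefProblem X.C.O := (X.choicesWith Q).problem X.C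

/-- The residual facts of these problems. -/
theorem residualFactsQ (Q : Finset ℕ) :
    RT.Ladder.ResidualFacts X.raiseBase (X.DQ Q) X.C.half where
  span := X.choices.span
  two_half := X.C.two_half
  det g := det_curveRes X.C X.hΔ g
  trace := X.residualFacts.trace

section Level

variable {κ : Type} [Fintype κ] [DecidableEq κ] {m : κ → ℕ} [∀ i, NeZero (m i)] {N : ℕ} [NeZero N]
  [IsLocalRing (MonoidAlgebra X.C.O (CycProd m))]
variable (T : RT.Ladder.AuxPrimes X.raiseBase m N) (Q : Finset ℕ) (A : Finset X.Nu) {s : ℕ}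
  (b : Module.Basis (Fin s) (MonoidAlgebra X.C.O (CycProd m)) (T.Mod A)) (hs : 0 < s)

/-- The standing facts on an auxiliary level: its auxiliary primes lie in `Q` and differ from `p`,
and the squarefree diamond modulus `N` is prime to `p` and to the trace primes and has no prime
whose square divides the level. -/
structure LevelFacts : Prop where
  mem_Q : ∀ i ∈ T.Q, i.1.1 ∈ Q
  trace_N : ∀ q ∈ X.traceSet, ¬ q ∣ N
  sq_N : Squarefree N
  sq_lvl : ∀ A, ∀ q : ℕ, q.Prime → q ∣ N → ¬ q ^ 2 ∣ T.lvlQ A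
  p_N : ¬ p ∣ N
  p_Q : ∀ i ∈ T.Q, i.1.1 ≠ p

/-- The datum of an auxiliary level. -/
abbrev levelDatum : DiamondDatum (X.DQ Q) m p s := T.datum (X.residualFactsQ Q) A b hs

/-- The Galois action on the module of an auxiliary level. -/
def levelGal : DiamondDatum.GalAct (X.levelDatum T Q A b hs) :=
  moduleGalAct p T.surj T.neg Set.univ (T.aS A) X.raiseBase.p_mem (T.hloc A) X.raiseBase.Sbad
    X.raiseBase.good_univ b T.pow hs T.odd_card (X.DQ Q) (X.residualFactsQ Q).span X.C.half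
    (X.residualFactsQ Q).two_half (X.residualFactsQ Q).det _

lemma levelGal_ρ (g : GQ) : (X.levelGal T Q A b hs).ρ g =
    modRho p T.surj T.neg (T.aS A) (T.hloc A) b g := rfl

/-- The determinant of the datum of an auxiliary level is cyclotomic. -/
lemma levelDatum_det (g : GQ) : (X.levelDatum T Q A b hs).Φ ((X.levelDatum T Q A b hs).td.d g) =
    algebraMap X.C.O (Matrix (Fin s) (Fin s) (MonoidAlgebra X.C.O (CycProd m)))
      (cycloO p X.C.O g) :=
  modPhi_td_d_cyclo p T.surj T.neg Set.univ (T.aS A) X.raiseBase.p_mem (T.hloc A) X.raiseBase.Sbad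
    X.raiseBase.good_univ b T.odd_card g

/-- Inertia outside the ramification set acts trivially. -/
lemma levelGal_unramified (hQ : ∀ i ∈ T.Q, i.1.1 ∈ Q) {τ : GQ}
    (hτ : τ ∈ inertiaOutside (X.ramSet ∪ Q)) : (X.levelGal T Q A b hs).ρ τ = 1 := by
  obtain ⟨ℓ, P, hℓ, hℓS, hP, hτP⟩ := hτ
  refine modRho_eq_one_of_inertia p T.surj T.neg (T.aS A) (T.hloc A) b hℓ (fun hd => hℓS ?_)
    (fun h => hℓS (Finset.mem_union_left _ (by subst h; exact Finset.mem_insert_self _ _))) hP hτP
  rcases hℓ.dvd_mul.mp hd with hd | hd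
  · rcases hℓ.dvd_mul.mp hd with hd | hd
    · exact Finset.mem_union_left _ (Finset.mem_insert_of_mem (Finset.mem_union_left _
        (Nat.mem_primeFactors.mpr ⟨hℓ, hd, X.seed.sq.ne_zero⟩)))
    · obtain ⟨v, -, hv⟩ := hℓ.prime.exists_mem_finset_dvd hd
      obtain rfl := (Nat.prime_dvd_prime_iff_eq hℓ (X.mem_raised.mp v.2).1).mp hv
      exact Finset.mem_union_left _ (Finset.mem_insert_of_mem (Finset.mem_union_right _
        ((X.isBad_iff hℓ).mp (X.mem_raised.mp v.2).2.1)))
  · obtain ⟨i, hi, hid⟩ := hℓ.prime.exists_mem_finset_dvd hd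
    exact Finset.mem_union_right _
      (((Nat.prime_dvd_prime_iff_eq hℓ i.1.2).mp hid).symm ▸ hQ i hi)

omit [NeZero N] [IsLocalRing (MonoidAlgebra X.C.O (CycProd m))] in
/-- A trace prime divides the auxiliary level exactly. -/
lemma sq_not_dvd_lvlQ {q : ℕ} (hqT : q ∈ X.traceSet) :
    q ∣ T.lvlQ A ∧ ¬ q ^ 2 ∣ T.lvlQ A := by
  obtain ⟨hq, hqM, -, -⟩ := X.mem_traceSet.mp hqT
  refine ⟨hqM.trans (T.M_dvd_lvlQ A), fun h2 => ?_⟩
  have hcop : q.Coprime ((∏ v ∈ A, X.raiseBase.ell (X.raiseBase.site v)) *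
      ∏ i ∈ T.Q, X.raiseBase.ell i) := by
    refine (hq.coprime_iff_not_dvd).mpr fun hd => ?_
    rcases hq.dvd_mul.mp hd with hd | hd
    · obtain ⟨v, -, hv⟩ := hq.prime.exists_mem_finset_dvd hd
      exact X.raiseBase.not_dvd v ((Nat.prime_dvd_prime_iff_eq hq
        (X.raiseBase.pr _).1.2).mp hv ▸ hqM)
    · obtain ⟨i, hi, hid⟩ := hq.prime.exists_mem_finset_dvd hd
      refine T.aux_not_dvd i hi ?_
      have he : q = X.raiseBase.ell i :=
        (Nat.prime_dvd_prime_iff_eq hq (X.raiseBase.pr i).1.2).mp hid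
      rw [← he]
      exact hqM
  have h2' : q ^ 2 ∣ X.M * ((∏ v ∈ A, X.raiseBase.ell (X.raiseBase.site v)) *
      ∏ i ∈ T.Q, X.raiseBase.ell i) := by rw [← mul_assoc]; exact h2
  have h3 : q * q ∣ X.M := pow_two q ▸ (hcop.pow_left 2).dvd_of_dvd_mul_right h2'
  exact hq.ne_one (Nat.isUnit_iff.mp (X.seed.sq q h3))

/-- Inertia at the trace primes is unipotent. -/
lemma levelGal_unipotent (hTN : ∀ q ∈ X.traceSet, ¬ q ∣ N) {τ : GQ}
    (hτ : τ ∈ inertiaAtSet X.traceSet) :
    ((X.levelGal T Q A b hs).ρ τ - 1) * ((X.levelGal T Q A b hs).ρ τ - 1) = 0 := by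
  obtain ⟨q, P, hq, hqT, hP, hτP⟩ := hτ
  obtain ⟨hqM, hq2⟩ := X.sq_not_dvd_lvlQ T A hqT
  have h1 := BAD.galLoc_unipotent (p := p) X.C.O T.surj T.neg (HM.resIdeal (T.aS A)) (T.hloc A) hq
    hqM hq2 (hTN q hqT) (X.mem_traceSet.mp hqT).2.2.1 hP hτP
  have hN : HM.cycloN N τ = 1 := BAD.cycloN_of_inertia hq (hTN q hqT) hP hτP
  have ht : twistDet (𝒪 := X.C.O) T.δ τ = 1 := by
    rw [twistDet_apply, hN, map_one, map_one, inv_one, map_one]
  have htw : modRho p T.surj T.neg (T.aS A) (T.hloc A) b τ =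
      endMat b (HM.galLoc p X.C.O T.surj T.neg (HM.resIdeal (T.aS A)) (T.hloc A) τ) :=
    (modRho_apply p T.surj T.neg (T.aS A) (T.hloc A) b τ).trans
      ((congrArg (· • _) ht).trans (one_smul _ _))
  rw [X.levelGal_ρ, htw]
  exact sub_one_mul_self_map (endMat b) h1

variable {Q} {Ax : (X.levelDatum T Q A b hs).AuxSet} {r n : ℕ} (e : Fin r ≃ {j // j ∈ Ax.sel})
  (hdepth : ∀ j : {j // j ∈ Ax.sel}, p ^ (n + 1) ≤ m j.1)

/-- The condition at `p` for the lifts over a specialised side. -/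
def PCondAt (z : κ → X.C.O) (hz : ∀ i, i ∉ Ax.sel → z i ^ m i = 1) : Prop :=
  ∀ M : MatRep (DiamondDatum.sideAction Ax (DiamondDatum.spec Ax (e := e) hdepth z hz)).Img,
    HasResidual (X.DQ Q).rbar M →
    (∀ g, (M g).trace = Ideal.Quotient.mk _ ((X.levelDatum T Q A b hs).td.t g)) →
    (∀ g, (M g).det = Ideal.Quotient.mk _ ((X.levelDatum T Q A b hs).td.d g)) →
      (pMatCond X.C.O p X.localCase).P M

/-- **The conditions of lifting on a specialised side, given the condition at `p`.** -/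
theorem levelSideCond (hQ : ∀ i ∈ T.Q, i.1.1 ∈ Q) (hTN : ∀ q ∈ X.traceSet, ¬ q ∣ N)
    (z : κ → X.C.O) (hz : ∀ i, i ∉ Ax.sel → z i ^ m i = 1)
    (hpc : X.PCondAt T A b hs e hdepth z hz) :
    DiamondDatum.SideCond Ax e hdepth z hz := by
  refine (X.levelGal T Q A b hs).sideCond hdepth (cycloO p X.C.O) (X.ramSet ∪ Q)
    (restMatCond X.C.O p X.traceSet X.localCase) rfl (X.levelDatum_det T Q A b hs)
    (fun τ hτ => X.levelGal_unramified T Q A b hs hQ hτ) z hz fun M hres htr hdet => ?_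
  refine ⟨traceTwoMatCond_iff.mpr fun τ hτ => ?_, hpc M hres htr hdet⟩
  refine side_trace_two Ax (X.levelGal T Q A b hs) hres htr
    (X.levelGal_unipotent T Q A b hs hTN hτ) ?_
  obtain ⟨q, P, hq, hqT, hP, hτP⟩ := hτ
  rw [DiamondDatum.side_det Ax (c := cycloO p X.C.O) (X.levelDatum_det T Q A b hs) hdet,
    cycloO_apply,
    ES.padCyclo_inertia p hq (X.mem_traceSet.mp hqT).2.2.1 hP hτP, map_one, map_one]

omit [NeZero N] [IsLocalRing (MonoidAlgebra X.C.O (CycProd m))] in
/-- The lifting prime does not divide a level where it is not raised. -/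
lemma p_not_dvd_lvlQ (hns : X.localCase ≠ .strict) (hA : ∀ v ∈ A, v.1 ≠ p)
    (hpQ : ∀ i ∈ T.Q, i.1.1 ≠ p) : ¬ p ∣ T.lvlQ A := fun hd => by
  rcases hp.out.dvd_mul.mp hd with hd | hd
  · rcases hp.out.dvd_mul.mp hd with hd | hd
    · exact X.not_dvd_of_ne_strict hns hd
    · obtain ⟨v, hv, hvd⟩ := hp.out.prime.exists_mem_finset_dvd hd
      exact hA v hv ((Nat.prime_dvd_prime_iff_eq hp.out (X.mem_raised.mp v.2).1).mp hvd).symm
  · obtain ⟨i, hi, hid⟩ := hp.out.prime.exists_mem_finset_dvd hd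
    exact hpQ i hi ((Nat.prime_dvd_prime_iff_eq hp.out i.1.2).mp hid).symm

/-- The lifts over a side without `p` are flat. -/
theorem side_flat_of_notMem {B : Type} [CommRing B] [Algebra X.C.O B] [Finite B] [Nontrivial B]
    {φ : MonoidAlgebra X.C.O (CycProd m) →ₐ[X.C.O] B} (hns : X.localCase ≠ .strict)
    (hA : ∀ v ∈ A, v.1 ≠ p) (hN : Squarefree N)
    (hNM : ∀ q : ℕ, q.Prime → q ∣ N → ¬ q ^ 2 ∣ T.lvlQ A) (hpQ : ∀ i ∈ T.Q, i.1.1 ≠ p)
    (hφ : Function.Surjective φ) {k : ℕ} (hk : (p : B) ^ k = 0)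
    {M : MatRep (DiamondDatum.sideAction Ax φ).Img} (hres : HasResidual (X.DQ Q).rbar M)
    (htr : ∀ g, (M g).trace = Ideal.Quotient.mk _ ((X.levelDatum T Q A b hs).td.t g)) :
    (flatMatCond (𝒪 := X.C.O) p).P M :=
  (X.levelGal T Q A b hs).side_flat Ax
    (fun k => moduleGalAct_flat p T.surj T.neg (T.aS A) X.raiseBase.p_mem (T.hloc A) b Set.univ
      X.raiseBase.Sbad X.raiseBase.good_univ T.pow hs T.odd_card (X.DQ Q) (X.residualFactsQ Q).span
      X.C.half (X.residualFactsQ Q).two_half (X.residualFactsQ Q).det _ hN hNM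
      (X.p_not_dvd_lvlQ T A hns hA hpQ) k)
    hφ hk hres htr

/-- **Flatness.** -/
theorem pCondAt_flat (hflat : X.localCase = .flat) (hN : Squarefree N)
    (hNM : ∀ q : ℕ, q.Prime → q ∣ N → ¬ q ^ 2 ∣ T.lvlQ A) (hpQ : ∀ i ∈ T.Q, i.1.1 ≠ p)
    (z : κ → X.C.O) (hz : ∀ i, i ∉ Ax.sel → z i ^ m i = 1) :
    X.PCondAt T A b hs e hdepth z hz := by
  intro M hres htr _
  rw [hflat]
  exact X.side_flat_of_notMem T A b hs (by simp [hflat]) (fun v _ hv => by
      have hm := v.2
      rw [hv, X.p_mem_raised_iff, hflat] at hm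
      cases hm) hN hNM hpQ
    (spec_surjective Ax hdepth z hz) (DiamondDatum.p_pow_eq_zero (X.levelDatum T Q A b hs) r n)
    hres htr

end Level

end Ctx

end FermatAgent.Lifting

end
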