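import Fermat.Agent.Lifting.CoordsP
import Fermat.Agent.Lifting.CondAt
import Fermat.Agent.RT.Intertwine.SideHom
import Fermat.Agent.CFT.SelmerP.FlatTau
import Fermat.Agent.RT.Ladder.Tame

/-!
# The multiplicative lifting prime at levels where it is not raised

The module of a level without `p` is flat; with the weak equations this makes every lift trivial at
the element moving only the roots of `p`, so the coordinate of that element vanishes on the side.
-/

set_option autoImplicit false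

noncomputable section

open IsLocalRing GaloisRep FermatAgent.GaloisBasic WeierstrassCurve

namespace FermatAgent.Lifting

open RT Assembly

attribute [local instance] dualAlgebra

namespace Ctx

variable {p : ℕ} [hp : Fact p.Prime] (X : Ctx p)
variable {κ : Type} [Fintype κ] [DecidableEq κ] {m : κ → ℕ} [∀ i, NeZero (m i)] {N : ℕ} [NeZero N]
  [IsLocalRing (MonoidAlgebra X.C.O (CycProd m))]
variable (T : RT.Ladder.AuxPrimes X.raiseBase m N) {Q : Finset ℕ} (A : Finset X.Nu) {s : ℕ}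
  (b : Module.Basis (Fin s) (MonoidAlgebra X.C.O (CycProd m)) (T.Mod A)) (hs : 0 < s)

variable {Ax : (X.levelDatum T Q A b hs).AuxSet} {B : Type} [CommRing B] [Algebra X.C.O B]
  [Finite B] [Nontrivial B] {φ : MonoidAlgebra X.C.O (CycProd m) →ₐ[X.C.O] B}

section Flat

variable (hord : X.localCase = .ordinary) (hA : ∀ v ∈ A, v.1 ≠ p) (hN : Squarefree N)
  (hNM : ∀ q : ℕ, q.Prime → q ∣ N → ¬ q ^ 2 ∣ T.lvlQ A) (hpQ : ∀ i ∈ T.Q, i.1.1 ≠ p)
  (hφ : Function.Surjective φ) {k : ℕ} (hk : (p : B) ^ k = 0)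

include hord hA hN hNM hpQ hφ hk in
/-- **The tame coordinate at `p` vanishes on a side without `p`.** -/
theorem map_tauTrace_eq_zero (hcond : DiamondDatum.CondAt Ax φ)
    (f : (X.DQ Q).UR →ₐ[X.C.O] Matrix (Fin s) (Fin s) B)
    (hf : ∀ g, f ((X.DQ Q).univMat g).trace =
      (DiamondDatum.sideAction Ax φ).Φ ((X.levelDatum T Q A b hs).td.t g)) :
    f (X.tauTrace (X.DQ Q).univMat) = 0 := by
  rw [DiamondDatum.sideUnivHom_apply Ax φ hk hcond complexConjugation_mul_self
    (X.trace_univMatQ_complexConjugation Q) _ 0 (fun fT hfT => ?_) f hf, map_zero]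
  have := (DiamondDatum.sideAction Ax φ).test_img.isArtinian
  obtain ⟨hres, htr, hdet⟩ := DiamondDatum.sideUnivHom_lift Ax φ fT hfT
  set M := mapRep (fT : (X.DQ Q).UR →+* (DiamondDatum.sideAction Ax φ).Img) (X.DQ Q).univMat
  have : IsLocalHom (fT : (X.DQ Q).UR →+* (DiamondDatum.sideAction Ax φ).Img) :=
    ((IsLocalRing.local_hom_TFAE _).out 0 2).mpr
      (Ideal.map_le_iff_le_comap.mpr fun x hx => map_mem_maximalIdeal_of_finite _ hx)
  have hM : MatContinuous _ M := (X.DQ Q).univMat_continuous.map _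
  have hP : (liftMatCond X.C.O p (X.ramSet ∪ Q) X.traceSet X.localCase).P M :=
    (MatCond.cond_toRep_iff _ (DiamondDatum.sideAction Ax φ).test_img M hM).mp
      (hcond M hM hres htr hdet)
  obtain ⟨hd, -, -, hw⟩ := liftMatCond_iff.mp hP
  rw [hord] at hw
  have hpI : IsNilpotent (p : (DiamondDatum.sideAction Ax φ).Img) :=
    ⟨k, (DiamondDatum.sideAction Ax φ).incl_injective (by
      rw [map_pow, map_natCast, map_zero, ← map_natCast (algebraMap B (Matrix (Fin s) (Fin s) B)),
        ← map_pow, hk, map_zero])⟩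
  have h1 : M X.pTau = 1 := CFT.SelmerP.flat_weakOrd_tau_eq_one hpI hw hd
    (X.side_flat_of_notMem T A b hs (by simp [hord]) hA hN hNM hpQ hφ hk hres htr) X.pIdx
    X.pTau_spec
  rw [X.tauTrace_map]
  show ((M X.pTau - 1) * _).trace = 0
  rw [h1, sub_self, zero_mul, Matrix.trace_zero]

end Flat

section Spec

variable {r n : ℕ} (e : Fin r ≃ {j // j ∈ Ax.sel})
  (hdepth : ∀ j : {j // j ∈ Ax.sel}, p ^ (n + 1) ≤ m j.1)

/-- The vanishing of the tame coordinate on a specialised side. -/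
theorem map_tauTrace_spec_eq_zero (hord : X.localCase = .ordinary) (hA : ∀ v ∈ A, v.1 ≠ p)
    (hN : Squarefree N) (hNM : ∀ q : ℕ, q.Prime → q ∣ N → ¬ q ^ 2 ∣ T.lvlQ A)
    (hpQ : ∀ i ∈ T.Q, i.1.1 ≠ p) (z : κ → X.C.O) (hz : ∀ i, i ∉ Ax.sel → z i ^ m i = 1)
    (hcond : DiamondDatum.CondAt Ax (DiamondDatum.spec Ax (e := e) hdepth z hz))
    (f : (X.DQ Q).UR →ₐ[X.C.O]
      Matrix (Fin s) (Fin s) (PatchBase X.C.O r ⧸ maximalIdeal (PatchBase X.C.O r) ^ (n + 1)))
    (hf : ∀ g, f ((X.DQ Q).univMat g).trace =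
      (DiamondDatum.sideAction Ax (DiamondDatum.spec Ax (e := e) hdepth z hz)).Φ
        ((X.levelDatum T Q A b hs).td.t g)) :
    f (X.tauTrace (X.DQ Q).univMat) = 0 :=
  X.map_tauTrace_eq_zero T A b hs hord hA hN hNM hpQ (spec_surjective Ax hdepth z hz)
    (DiamondDatum.p_pow_eq_zero (X.levelDatum T Q A b hs) r n) hcond f hf

end Spec

section Residual

include X T A b hs in
/-- **The tame element is residually trivial.** -/
theorem curveRes_pTau_of_level (hord : X.localCase = .ordinary) (hA : ∀ v ∈ A, v.1 ≠ p)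
    (hN : Squarefree N) (hNM : ∀ q : ℕ, q.Prime → q ∣ N → ¬ q ^ 2 ∣ T.lvlQ A)
    (hpQ : ∀ i ∈ T.Q, i.1.1 ≠ p) : curveRes X.C X.hΔ X.pTau = 1 := by
  classical
  let Ax₀ : (X.levelDatum T (∅ : Finset ℕ) A b hs).AuxSet :=
    T.auxSet (X.residualFactsQ ∅) A b hs ∅ (fun j => absurd j.2 (Finset.notMem_empty _))
      (fun j => absurd j.2 (Finset.notMem_empty _)) (fun j hj => absurd hj (Finset.notMem_empty _))
      (fun j => absurd j.2 (Finset.notMem_empty _))
  have : IsEmpty {j // j ∈ Ax₀.sel} := ⟨fun j => absurd j.2 (Finset.notMem_empty _)⟩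
  let e₀ : Fin 0 ≃ {j // j ∈ Ax₀.sel} := Equiv.equivOfIsEmpty _ _
  have hdepth₀ : ∀ j : {j // j ∈ Ax₀.sel}, p ^ (0 + 1) ≤ m j.1 := fun j => isEmptyElim j
  let H := X.levelDatum T (∅ : Finset ℕ) A b hs
  set φ₀ := DiamondDatum.spec Ax₀ (e := e₀) hdepth₀ (fun _ => 1) (fun _ _ => one_pow _)
  have hk := DiamondDatum.p_pow_eq_zero H 0 0
  obtain ⟨L, hL, hcont⟩ := DiamondDatum.side_cont Ax₀ φ₀ hk
  set E := DiamondDatum.sideAction Ax₀ φ₀
  have := E.test_img.isArtinian
  have := E.test_img.isLocalHom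
  have h2 : (2 : E.Img) * algebraMap X.C.O _ H.half = 1 := by
    rw [← map_ofNat (algebraMap X.C.O E.Img) 2, ← map_mul, H.two_half, map_one]
  obtain ⟨M, hc, hres, -, htr, -⟩ := exists_normal_lift (A := E.Img) (X.DQ ∅).nd H.span
    (H.td.push (Ideal.Quotient.mk _)) h2 H.c_sq
    (E.incl_injective (show E.Φ (H.td.t H.c) = E.incl 0 by
      rw [map_zero, DiamondDatum.sideAction_Φ, show H.mkT (H.td.t H.c) = 0 from
        H.act.incl_injective (by rw [DiamondDatum.incl_mkT, H.t_c, map_zero]), map_zero,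
        Matrix.map_zero _ (map_zero φ₀)]))
    (fun g => E.residue_eq_of_res (x := Ideal.Quotient.mk _ (H.td.t g)) (H.res g)) L hL
    (fun σ hσ g => E.incl_injective (hcont σ hσ g))
  have hflat : (flatMatCond (𝒪 := X.C.O) p).P M := X.side_flat_of_notMem T A b hs (Ax := Ax₀)
    (by simp [hord]) hA hN hNM hpQ (spec_surjective Ax₀ hdepth₀ _ _) hk hres htr
  set q := GaloisBasic.resK (A := E.Img) E.test_img.residue_surjective
  have : IsLocalHom (q : E.Img →+* ResidueField X.C.O) :=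
    GaloisBasic.isLocalHom_of_isArtinian (ResidueField X.C.O) q
  have hq : mapRep (q : E.Img →+* ResidueField X.C.O) M = curveRes X.C X.hΔ := by
    refine MonoidHom.ext fun σ => Matrix.ext fun i j => (iotaRes (𝒪 := X.C.O) E.Img).injective ?_
    show iotaRes E.Img (q (M σ i j)) = _
    rw [GaloisBasic.iotaRes_resK]
    exact congrFun (congrFun (DFunLike.congr_fun hres σ) i) j
  have hf' := (flatMatCond (𝒪 := X.C.O) p).map E.test_img
    (isArtinianTestAlgebra_residueField X.C) q hflat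
  rw [hq] at hf'
  have hp0 : IsNilpotent (p : ResidueField X.C.O) :=
    ⟨1, by rw [pow_one, ← map_natCast (residue X.C.O),
      (residue_eq_zero_iff _).mpr natCast_mem_maximalIdeal]⟩
  exact CFT.SelmerP.flat_weakOrd_tau_eq_one hp0 (X.weakOrd_curveRes hord) X.det_curveRes_cycloO
    hf' X.pIdx X.pTau_spec

end Residual

end Ctx

end FermatAgent.Lifting

end
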