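import Fermat.Agent.Lifting.Coeff
import Fermat.Agent.HM.H1.TaylorWiles
import Fermat.Agent.Assembly.Vocabulary

/-!
# The Hecke variables of lifting and their residual values
-/

set_option autoImplicit false

noncomputable section

open WeierstrassCurve

namespace FermatAgent.Lifting

/-- The primes prime to `E`: the variables of the abstract Hecke algebra. -/
abbrev GoodIdx (E : ℕ) : Type := {ℓ : Nat.Primes // ¬ ℓ.1 ∣ E}

/-- The variables as Hecke primes. -/
def goodPr (E : ℕ) (i : GoodIdx E) : HM.HPrime 1 := ⟨i.1, Nat.coprime_one_right _⟩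

/-- The prime of a good index. -/
@[simp] lemma goodPr_val (E : ℕ) (i : GoodIdx E) : ((goodPr E i).1.1 : ℕ) = i.1.1 := rfl

/-- The Frobenius trace expected at `ℓ`: `a_ℓ` at a good prime, the sign times `ℓ + 1` at a
multiplicative one. -/
def frobVal (W : WeierstrassCurve ℤ) (ℓ : ℕ) : ℤ := by
  classical exact if W.IsGoodPrimeFor ℓ then W.apOfModel ℓ else Assembly.multSign W ℓ * (ℓ + 1)

/-- At a good prime the expected value is `a_ℓ` of the curve. -/
lemma frobVal_good {W : WeierstrassCurve ℤ} {ℓ : ℕ} (h : W.IsGoodPrimeFor ℓ) :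
    frobVal W ℓ = W.apOfModel ℓ := by
  classical exact if_pos h

/-- At a bad prime the expected value is the sign times `ℓ + 1`. -/
lemma frobVal_bad {W : WeierstrassCurve ℤ} {ℓ : ℕ} (h : ¬ W.IsGoodPrimeFor ℓ) :
    frobVal W ℓ = Assembly.multSign W ℓ * (ℓ + 1) := by
  classical exact if_neg h

variable {p : ℕ} [Fact p.Prime]

/-- The residual values: the sign at the raised primes `A`, the Frobenius trace elsewhere. -/
def heckeVal (C : Coeff p) (W : WeierstrassCurve ℤ) (A : Finset ℕ) {E : ℕ} (i : GoodIdx E) : C.O :=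
  ((if i.1.1 ∈ A then Assembly.multSign W i.1.1 else frobVal W i.1.1 : ℤ) : C.O)

/-- On the set `A` the prescribed eigenvalue is the multiplicative sign. -/
lemma heckeVal_mem (C : Coeff p) (W : WeierstrassCurve ℤ) {A : Finset ℕ} {E : ℕ} {i : GoodIdx E}
    (h : i.1.1 ∈ A) : heckeVal C W A i = (Assembly.multSign W i.1.1 : C.O) := by
  rw [heckeVal, if_pos h]

/-- Off the set `A` the prescribed eigenvalue is the expected value of Frobenius. -/
lemma heckeVal_notMem (C : Coeff p) (W : WeierstrassCurve ℤ) {A : Finset ℕ} {E : ℕ} {i : GoodIdx E}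
    (h : i.1.1 ∉ A) : heckeVal C W A i = (frobVal W i.1.1 : C.O) := by
  rw [heckeVal, if_neg h]

end FermatAgent.Lifting

end
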