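import Fermat.Agent.Lifting.CurveLift

/-!
# Frobenius of the curve at a multiplicative lifting prime

The eigenvalue of Frobenius on the quotient by the line fixed by the projection of an inertia
element is the sign of the curve.
-/

set_option autoImplicit false

noncomputable section

open IsLocalRing GaloisRep FermatAgent.GaloisBasic WeierstrassCurve

namespace FermatAgent.Lifting

open RT

local notation "GQ" => AlgebraicClosure ℚ ≃ₐ[ℚ] AlgebraicClosure ℚ
local notation "Qbar" => AlgebraicClosure ℚ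

variable {W : WeierstrassCurve ℤ} {p : ℕ} [hp : Fact p.Prime]

/-- The trace on the quotient by the line of an inertia element, in an adapted frame. -/
lemma trace_one_sub_mul {A : Type} [CommRing A] {U : (Matrix (Fin 2) (Fin 2) A)ˣ}
    {X M0 Y : Matrix (Fin 2) (Fin 2) A} {u c d : A} (hX : X = u • (M0 - 1))
    (h10 : (U.1 * M0 * (U⁻¹).1) 1 0 = 0) (h11 : (U.1 * M0 * (U⁻¹).1) 1 1 = 1)
    (hdet : M0.det = c) (hu : u * (c - 1) = 1) (hY : (U.1 * Y * (U⁻¹).1) 1 1 = d)
    (hY10 : (U.1 * Y * (U⁻¹).1) 1 0 = 0) :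
    ((1 - X) * Y).trace = d := by
  set M' := U.1 * M0 * (U⁻¹).1
  set Y' := U.1 * Y * (U⁻¹).1
  have e : U.1 * ((1 - X) * Y) * (U⁻¹).1 = (1 - u • (M' - 1)) * Y' := by
    have e1 : U.1 * (1 - X) * (U⁻¹).1 = 1 - u • (M' - 1) := by
      rw [hX, mul_sub, mul_one, sub_mul, U.mul_inv, mul_smul_comm, smul_mul_assoc, mul_sub, mul_one,
        sub_mul, U.mul_inv]
    calc U.1 * ((1 - X) * Y) * (U⁻¹).1
        = U.1 * (1 - X) * ((U⁻¹).1 * U.1) * Y * (U⁻¹).1 := by
          rw [U.inv_mul, mul_one, ← mul_assoc]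
      _ = (U.1 * (1 - X) * (U⁻¹).1) * (U.1 * Y * (U⁻¹).1) := by simp only [mul_assoc]
      _ = _ := by rw [e1]
  have hd : M'.det = c := by
    rw [Matrix.det_mul, Matrix.det_mul, mul_right_comm, ← Matrix.det_mul, U.mul_inv, Matrix.det_one,
      one_mul, hdet]
  rw [Matrix.det_fin_two, h10, h11, mul_zero, sub_zero, mul_one] at hd
  rw [← Matrix.trace_units_conj U, e, Matrix.trace_fin_two]
  simp only [Matrix.mul_apply, Fin.sum_univ_two, Matrix.sub_apply, Matrix.smul_apply, smul_eq_mul,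
    Matrix.one_apply_eq, Matrix.one_apply_ne (show (0 : Fin 2) ≠ 1 by decide),
    Matrix.one_apply_ne (show (1 : Fin 2) ≠ 0 by decide), h10, h11, hY, hY10, hd]
  linear_combination -Y' 0 0 * hu

/-- The sign of the curve at a multiplicative lifting prime squares to one. -/
lemma multSign_sq_p (hΔ : W.Δ ≠ 0) (hW : W.IsSemistableModel) (hbad : ¬ W.IsGoodPrimeFor p) :
    Assembly.multSign W p ^ 2 = 1 := by
  have hdiv : (p : ℤ) ∣ W.Δ := not_not.1 hbad
  obtain ⟨P, hP⟩ := exists_liesOverPrime hp.out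
  obtain ⟨F, hF⟩ := exists_isFrobeniusAt hp.out hP
  obtain ⟨z, hz, hzF, -⟩ := TateRep.exists_sign_sub_isE0_spec hP hΔ hdiv (hW p hp.out hdiv)
    hF.mem_decompositionSubgroup
  rw [hzF hF] at hz
  exact hz

/-- **The eigenvalue of Frobenius on the quotient is the sign of the curve.** -/
theorem trace_frobenius_curveMat (C : Coeff p) {B : Type} [CommRing B] [Algebra C.O B]
    (hΔ : W.Δ ≠ 0) (hW : W.IsSemistableModel) (hp2 : p ≠ 2) (hbad : ¬ W.IsGoodPrimeFor p)
    (i : OrdIndex (cycloO p C.O) p) {F : GQ} (hF : i.P.IsFrobeniusAt F p) :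
    ((1 - ordProj i (mapRep (algebraMap C.O B) (curveMat C hΔ))) *
        mapRep (algebraMap C.O B) (curveMat C hΔ) F).trace =
      algebraMap C.O B (Assembly.multSign W p : C.O) := by
  obtain ⟨U, hD, hI, hFr⟩ := exists_adapted_tateMat hΔ hW hp2 hbad i.P i.lies
  let f : ℤ_[p] →+* B := (algebraMap C.O B).comp (algebraMap ℤ_[p] C.O)
  let U' := U.map f.mapMatrix.toMonoidHom
  set N := mapRep (algebraMap C.O B) (curveMat C hΔ)
  have hN : ∀ σ, N σ = f.mapMatrix (tateMat hΔ σ) := fun σ => by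
    ext r c
    rfl
  have e : ∀ σ r c, (U'.1 * N σ * (U'⁻¹).1) r c =
      f ((U.1 * tateMat hΔ σ * (U⁻¹).1 : Matrix (Fin 2) (Fin 2) ℤ_[p]) r c) := fun σ r c => by
    rw [← Matrix.map_apply (f := f), ← RingHom.mapMatrix_apply, map_mul, map_mul, hN]
    rfl
  refine trace_one_sub_mul (U := U') (M0 := N i.σ₀) (u := algebraMap C.O B i.u)
    (c := algebraMap C.O B (cycloO p C.O i.σ₀)) ?_ ?_ ?_ ?_ ?_ ?_ ?_
  · rw [ordProj, algebraMap_smul]
  · rw [e, (hD _ (inertiaSubgroupIn_le_decompositionSubgroup i.P i.mem)).1, map_zero]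
  · rw [e, hI _ i.mem, map_one]
  · rw [mapRep_apply, ← RingHom.mapMatrix_apply, ← RingHom.map_det, det_curveMat]
    rfl
  · rw [← map_one (algebraMap C.O B), ← map_sub, ← map_mul, i.u_spec]
  · rw [e, hFr F hF]
    show algebraMap C.O B (algebraMap ℤ_[p] C.O (Assembly.multSign W p : ℤ_[p])) = _
    rw [map_intCast (algebraMap ℤ_[p] C.O)]
  · rw [e, (hD F hF.mem_decompositionSubgroup).1, map_zero]

end FermatAgent.Lifting

end
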