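import Fermat.Agent.Lifting.BaseRepOf
import Fermat.Agent.Lifting.PUnram
import Fermat.Agent.Lifting.Nonvanishing
import Fermat.Agent.PSEMI.OrdinarySign

/-!
# The base module and the tame element at `p`

As the eigenvalue of the seed at a multiplicative lifting prime outside its level is the sign
(`PSEMI.congr_multSign_p`), the localised module of the seed level is nonzero; with it the element
moving only the roots of `p` is residually trivial in the ordinary case.
-/

set_option autoImplicit false

noncomputable section

open IsLocalRing GaloisRep FermatAgent.GaloisBasic WeierstrassCurve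

namespace FermatAgent.Lifting

open RT Assembly

attribute [local instance] dualAlgebra

namespace Ctx

variable {p : ℕ} [hp : Fact p.Prime] (X : Ctx p)

/-- **The module of the seed level is nonzero.** -/
theorem nontrivial_base : Nontrivial (X.raiseBase.Triv ∅) := by
  classical
  have key : ∀ (L : ℕ) [NeZero L] (a : GoodIdx X.varLevel → X.C.O), L = X.M →
      a = heckeVal X.C X.W ∅ →
        Nontrivial (HM.TrivLoc (M := L) (goodPr X.varLevel) (HM.resIdeal a)) := by
    intro L _ a hL ha
    subst hL ha
    refine nontrivial_trivLoc (C := X.C) X.hΔ X.semistable X.dvd_varLevel X.seed.congr ?_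
    by_cases hg : X.W.IsGoodPrimeFor p
    · exact Or.inl (by rw [varLevel, if_pos hg]; exact dvd_mul_right _ _)
    · by_cases hM : p ∣ X.M
      · exact Or.inl (hM.trans X.dvd_varLevel)
      · exact Or.inr
          (PSEMI.congr_multSign_p X.hΔ X.semistable X.ne_two X.irr X.seed.sq hM hg X.seed.congr)
  refine key (X.raiseBase.lvl ∅) (X.raiseBase.aAt ∅) ?_ ?_
  · show X.raiseBase.M * _ = _
    rw [Finset.prod_empty, mul_one]
    rfl
  · funext i
    rw [X.raiseBase.aAt_of_notMem (by simp)]
    rfl

/-- **The tame element at `p` is residually trivial in the ordinary case.** -/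
theorem curveRes_pTau (hord : X.localCase = .ordinary) :
    curveRes X.C X.hΔ X.pTau = 1 := by
  classical
  obtain ⟨T, hTQ⟩ := X.exists_emptyAux
  have := X.isLocalRing_noModuli
  obtain ⟨rk, b₀, hrk⟩ := X.raiseBase_witness.exists_baseBasis X.raiseBase_criteria
    X.nontrivial_base
  obtain ⟨b, -⟩ := T.exists_basis ∅ (b₀ ∅)
  exact X.curveRes_pTau_of_level T ∅ b (hrk ∅) hord (fun v hv => absurd hv (Finset.notMem_empty v))
    squarefree_one (fun q hq hq1 => absurd (Nat.dvd_one.mp hq1) hq.one_lt.ne')
    (fun i hi => absurd hi (by rw [hTQ]; exact Finset.notMem_empty i))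

end Ctx

end FermatAgent.Lifting

end
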