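import Fermat.Agent.Lifting.CondAt
import Fermat.Agent.Lifting.LowerSeedOf

/-!
# Determinant, shapes and tame coordinates of the universal deformations of lifting
-/

set_option autoImplicit false

noncomputable section

open IsLocalRing GaloisRep FermatAgent.GaloisBasic WeierstrassCurve

namespace FermatAgent.Lifting

open RT Assembly

attribute [local instance] dualAlgebra

local notation "GQ" => AlgebraicClosure ℚ ≃ₐ[ℚ] AlgebraicClosure ℚ

/-- An involution of determinant `-1` has trace zero. -/
lemma trace_eq_zero_of_involution {A : Type} [CommRing A] {X : Matrix (Fin 2) (Fin 2) A}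
    (h : X * X = 1) (hd : X.det = -1) : X.trace = 0 := by
  rw [Matrix.det_fin_two] at hd
  have h00 := congrFun (congrFun h 0) 0
  have h01 := congrFun (congrFun h 0) 1
  simp [Matrix.mul_apply, Fin.sum_univ_two] at h00 h01
  rw [Matrix.trace_fin_two]
  have ha : (X 0 0 + X 1 1) * X 0 0 = 0 := by linear_combination h00 + hd
  have hb : (X 0 0 + X 1 1) * X 0 1 = 0 := by linear_combination h01
  linear_combination -X 1 1 * ha + X 1 0 * hb + (X 0 0 + X 1 1) * hd

namespace Ctx

variable {p : ℕ} [hp : Fact p.Prime] (X : Ctx p)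

/-- The determinant of the universal deformation is cyclotomic. -/
lemma det_univMatQ (Q : Finset ℕ) (σ : GQ) :
    ((X.DQ Q).univMat σ).det = algebraMap X.C.O (X.DQ Q).UR (cycloO p X.C.O σ) :=
  (of_liftMatCond (X.DQ Q).residue_surjective_UR (X.DQ Q).univMat_continuous
    (X.DQ Q).univRep_cond).1 σ

/-- Complex conjugation has trace zero in the universal deformation. -/
lemma trace_univMatQ_complexConjugation (Q : Finset ℕ) :
    ((X.DQ Q).univMat complexConjugation).trace = 0 :=
  trace_eq_zero_of_involution (by rw [← map_mul, complexConjugation_mul_self, map_one])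
    (by rw [X.det_univMatQ, cycloO_apply, ES.padCyclo_complexConjugation, map_neg, map_neg, map_one,
      map_one])

lemma natCast_mem_maximalIdeal_UR (Q : Finset ℕ) :
    (p : (X.DQ Q).UR) ∈ maximalIdeal (X.DQ Q).UR := by
  rw [← map_natCast (algebraMap X.C.O (X.DQ Q).UR)]
  exact map_nonunit (algebraMap X.C.O (X.DQ Q).UR) _ natCast_mem_maximalIdeal

/-- At a framed site the determinant of Frobenius is the prime. -/
lemma det_frame (Q : Finset ℕ) (v : X.Sigma) :
    ((X.DQ Q).univMat (X.frameSite v).frob).det = (v.1 : (X.DQ Q).UR) := by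
  obtain ⟨P, hP, hF, -⟩ := (X.frameSite_spec v).place
  rw [X.det_univMatQ, cycloO_apply, ES.padCyclo_frobenius p (X.mem_frames.mp v.2).1
    (X.mem_frames.mp v.2).2.2.1 hP hF, map_natCast, map_natCast]

/-- At a framed site the tame generator has determinant one. -/
lemma det_frame_inert (Q : Finset ℕ) (v : X.Sigma) :
    ((X.DQ Q).univMat (X.frameSite v).inert).det = 1 := by
  obtain ⟨P, hP, -, hτ⟩ := (X.frameSite_spec v).place
  rw [X.det_univMatQ, cycloO_apply, ES.padCyclo_inertia p (X.mem_frames.mp v.2).1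
    (X.mem_frames.mp v.2).2.2.1 hP hτ.mem, map_one, map_one]

/-- The tame relation between Frobenius and the generator at a framed site. -/
lemma tame_frame (Q : Finset ℕ) (v : X.Sigma) :
    (X.DQ Q).univMat (X.frameSite v).frob * (X.DQ Q).univMat (X.frameSite v).inert =
      (X.DQ Q).univMat (X.frameSite v).inert ^ v.1 * (X.DQ Q).univMat (X.frameSite v).frob := by
  obtain ⟨P, hP, hF, hτ⟩ := (X.frameSite_spec v).place
  obtain ⟨hqP, -, hqp, -, hfr⟩ := X.mem_frames.mp v.2
  refine InertTrivial.tame (P := P) (q := v.1) (p := p) ⟨hqP, hP, hqp,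
    X.natCast_mem_maximalIdeal_UR Q, (X.DQ Q).univMat_continuous, fun σ hσ i j => ?_⟩ hτ hF
  rw [← residue_eq_zero_iff, map_sub, sub_eq_zero,
    ← Matrix.map_apply (f := residue (X.DQ Q).UR),
    show ((X.DQ Q).univMat σ).map (residue (X.DQ Q).UR) =
      (curveRes X.C X.hΔ σ).map (iotaRes (X.DQ Q).UR) from
        DFunLike.congr_fun (X.DQ Q).univMat_residual σ,
    curveRes_inertia_eq_one hfr.2.1 hP hσ,
    Matrix.map_one _ (map_zero _) (map_one _), Matrix.one_apply, Matrix.one_apply,
    apply_ite (residue (X.DQ Q).UR), map_one, map_zero]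

/-- The universal deformations have the shape at the tame raised sites. -/
lemma siteShapeQ (Q : Finset ℕ) (v : X.Nu) (h : v.1 ≠ p) :
    Raise.SiteShape (X.DQ Q).univMat (X.raiseSite v h) :=
  siteShape_of_raiseAt (X.raiseSite_spec v h) (X.DQ Q).univMat_residual
    (X.DQ Q).univMat_continuous fun σ => by rw [X.det_univMatQ, cycloO_apply]

/-- The coordinates at the tame raised sites. -/
def tameCoord (Q : Finset ℕ) (v : X.Nu) (h : v.1 ≠ p) : Fin 3 → (X.DQ Q).UR :=
  Raise.siteVals (X.DQ Q).univMat (X.raiseSite v h)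

/-- The tame coordinates lie in the maximal ideal. -/
lemma tameCoord_mem (Q : Finset ℕ) (v : X.Nu) (h : v.1 ≠ p) (i : Fin 3) :
    X.tameCoord Q v h i ∈ maximalIdeal (X.DQ Q).UR :=
  (X.siteShapeQ Q v h).vals_mem i

/-- Compatibility of the coordinates with maps to the base ring. -/
lemma tameCoord_map (Q : Finset ℕ) (v : X.Nu) (h : v.1 ≠ p) (π : (X.DQ Q).UR →ₐ[X.C.O] X.D.UR)
    (hπ : ∀ x, ((X.DQ Q).univMat x).map π = X.D.univMat x) (i : Fin 3) :
    π (X.tameCoord Q v h i) = Raise.siteVals X.D.univMat (X.raiseSite v h) i := by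
  have : IsLocalHom (π : (X.DQ Q).UR →+* X.D.UR) :=
    GaloisBasic.isLocalHom_univ (X.DQ Q) π hπ X.D.univMat_residual
  exact (X.siteShapeQ Q v h).map_siteVals π (fun a ha => map_nonunit (π : _ →+* X.D.UR) a ha) hπ i

/-- The base representation has the shape at the tame raised sites. -/
lemma siteShape (v : X.Nu) (h : v.1 ≠ p) : Raise.SiteShape X.D.univMat (X.raiseSite v h) :=
  siteShape_of_raiseAt (X.raiseSite_spec v h) X.D.univMat_residual X.D.univMat_continuous fun σ =>
    (X.det_univMat σ).trans (by rw [cycloO_apply])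

/-- **The point of the curve is of raised type at the tame sites.** -/
theorem point_tameCoord {φ : X.D.UR →ₐ[X.C.O] X.C.O} {M : MatRep X.C.O}
    (hM : MatConj (curveMat X.C X.hΔ) M) (hφ : ∀ x, (X.D.univMat x).map φ = M x) (v : X.Nu)
    (h : v.1 ≠ p) :
    φ (Raise.siteVals X.D.univMat (X.raiseSite v h) 0) = 0 ∧
      φ (Raise.siteVals X.D.univMat (X.raiseSite v h) 2) = 0 := by
  obtain ⟨hq, hbad, -⟩ := X.mem_raised.mp v.2
  obtain ⟨hqe, hse, ⟨P, hP, hF, hτ, -⟩, -⟩ := X.raiseSite_spec v h
  have : IsLocalHom (φ : X.D.UR →+* X.C.O) :=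
    IsLocalHom.of_surjective _ fun o => ⟨algebraMap X.C.O X.D.UR o, φ.commutes o⟩
  refine (X.siteShape v h).pinned φ ?_ ?_
  · rw [X.choices.trace_point hM hφ, trace_curveMat,
      trace_tateMat_inertia X.hΔ X.semistable hq h hP hτ.mem, map_ofNat]
  · rw [X.choices.trace_point hM hφ, trace_frobenius_bad X.C X.hΔ X.semistable hq h hbad hP hF,
      hse, hqe]
    push_cast
    ring

end Ctx

end FermatAgent.Lifting

end
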