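import Mathlib

/-!
# An element outside a subgroup of index two with nonzero trace
-/

set_option autoImplicit false

noncomputable section

open Matrix

namespace FermatAgent.Lifting

variable {G k : Type*} [Group G] [Field k]

/-- An element outside a kernel of index two with nonzero trace. -/
theorem exists_notMem_trace_ne_zero {ρ : G →* Matrix (Fin 2) (Fin 2) k} (H : Subgroup G)
    (hspan : Submodule.span k (ρ '' (H : Set G)) = ⊤) {g₀ : G} (hg₀ : g₀ ∉ H) :
    ∃ g, g ∉ H ∧ (ρ g).trace ≠ 0 := by
  by_contra hc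
  push Not at hc
  have hu : IsUnit (ρ g₀) := (Group.isUnit g₀).map ρ
  have key : ∀ X : Matrix (Fin 2) (Fin 2) k, (X * ρ g₀).trace = 0 := by
    intro X
    have hX : X ∈ Submodule.span k (ρ '' (H : Set G)) := hspan ▸ Submodule.mem_top
    induction hX using Submodule.span_induction with
    | mem z hz =>
      obtain ⟨h, hh, rfl⟩ := hz
      rw [← map_mul]
      exact hc _ fun hm => hg₀ ((Subgroup.mul_mem_cancel_left H hh).mp hm)
    | zero => simp
    | add u v _ _ hu hv => rw [add_mul, Matrix.trace_add, hu, hv, add_zero]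
    | smul c u _ hu => rw [smul_mul_assoc, Matrix.trace_smul, hu, smul_zero]
  have h1 := key (Matrix.single 0 0 1 *
    ((hu.unit⁻¹ : (Matrix (Fin 2) (Fin 2) k)ˣ) : Matrix (Fin 2) (Fin 2) k))
  rw [mul_assoc, IsUnit.val_inv_mul, mul_one] at h1
  simp [Matrix.trace_fin_two, Matrix.single] at h1

end FermatAgent.Lifting

end
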