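import Fermat.Agent.Lifting.Residual
import Fermat.Agent.Lifting.Witness
import Fermat.Agent.LR.SpanTrace
import Fermat.Agent.TateRep.Main
import Fermat.Agent.HM.Gal.Local

/-!
# Frobenius traces of the residual representation and primes with prescribed traces
-/

set_option autoImplicit false

noncomputable section

open IsLocalRing FermatAgent.GaloisBasic WeierstrassCurve Polynomial

namespace FermatAgent.Lifting

local notation "GQ" => AlgebraicClosure ℚ ≃ₐ[ℚ] AlgebraicClosure ℚ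
local notation "Qbar" => AlgebraicClosure ℚ

variable {W : WeierstrassCurve ℤ} {p : ℕ} [hp : Fact p.Prime] (C : Coeff p) (hΔ : W.Δ ≠ 0)

/-- The trace read from the characteristic polynomial of the Tate module. -/
lemma trace_tateMat_of_charpoly {σ : GQ} {a b : ℤ_[p]}
    (h : LinearMap.charpoly ((TateRep.tateRep (p := p) hΔ).ρ σ) =
      X ^ 2 - Polynomial.C a * X + Polynomial.C b) :
    (tateMat (p := p) hΔ σ).trace = a := by
  have h1 : (tateMat (p := p) hΔ σ).charpoly =
      LinearMap.charpoly ((TateRep.tateRep (p := p) hΔ).ρ σ) :=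
    LinearMap.charpoly_toMatrix _ _
  rw [h, Matrix.charpoly_fin_two] at h1
  have h2 := congrArg (fun P : ℤ_[p][X] => P.coeff 1) h1
  simpa [Polynomial.coeff_X_pow, Polynomial.coeff_one, Polynomial.coeff_C] using h2

/-- The trace over the coefficient ring is that over `ℤ_p`. -/
lemma trace_curveMat (σ : GQ) :
    (curveMat C hΔ σ).trace = algebraMap ℤ_[p] C.O (tateMat (p := p) hΔ σ).trace :=
  (AddMonoidHom.map_trace (algebraMap ℤ_[p] C.O).toAddMonoidHom _).symm

/-- The trace of Frobenius at a good prime. -/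
theorem trace_frobenius_good {ℓ : ℕ} (hℓ : ℓ.Prime) (hℓp : ℓ ≠ p) (hg : W.IsGoodPrimeFor ℓ)
    {A : ValuationSubring Qbar} (hA : A.LiesOverPrime ℓ) {σ : GQ} (hσ : A.IsFrobeniusAt σ ℓ) :
    (curveMat C hΔ σ).trace = (W.apOfModel ℓ : C.O) := by
  have h := trace_tateMat_of_charpoly hΔ ((TateRep.tateRep_good hΔ hℓ hℓp hg).2 A hA σ hσ)
  rw [trace_curveMat]
  simp [h]

/-- The trace of Frobenius at a multiplicative prime. -/
theorem trace_frobenius_bad (hW : W.IsSemistableModel) {ℓ : ℕ} (hℓ : ℓ.Prime) (hℓp : ℓ ≠ p)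
    (hb : ¬ W.IsGoodPrimeFor ℓ) {A : ValuationSubring Qbar} (hA : A.LiesOverPrime ℓ) {σ : GQ}
    (hσ : A.IsFrobeniusAt σ ℓ) :
    (curveMat C hΔ σ).trace = ((Assembly.multSign W ℓ * (ℓ + 1) : ℤ) : C.O) := by
  have h := trace_tateMat_of_charpoly hΔ ((TateRep.tateRep_bad hΔ hW hℓ hℓp hb).2 A hA σ hσ).2
  rw [trace_curveMat]
  simp [h, Assembly.multSign]

/-- The residual trace is the reduction of the trace. -/
lemma trace_curveRes (σ : GQ) :
    (curveRes C hΔ σ).trace = residue C.O (curveMat C hΔ σ).trace :=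
  (AddMonoidHom.map_trace (residue C.O).toAddMonoidHom _).symm

/-- The residual determinant is the reduction of the cyclotomic character. -/
lemma det_curveRes (σ : GQ) :
    (curveRes C hΔ σ).det = residue C.O (algebraMap ℤ_[p] C.O (ES.padCyclo p σ)) := by
  rw [curveRes, mapRep_apply, ← RingHom.mapMatrix_apply, ← RingHom.map_det, det_curveMat]

/-- The residual cyclotomic character is trivial on the kernel of the character modulo `n`. -/
lemma residue_cyclo_eq_one {n : ℕ} [NeZero n] (hpn : p ∣ n) {σ : GQ} (h : HM.cycloN n σ = 1) :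
    residue C.O (algebraMap ℤ_[p] C.O (ES.padCyclo p σ)) = 1 := by
  obtain ⟨ζ, hζ⟩ := ES.exists_primitive_qbar p 1
  rw [pow_one] at hζ
  have : NeZero ((n : ℕ) : Qbar) := ⟨Nat.cast_ne_zero.mpr (NeZero.ne n)⟩
  have hfix : σ ζ = ζ := by
    have hn : ζ ^ n = 1 := by
      obtain ⟨c, rfl⟩ := hpn
      rw [pow_mul, hζ.pow_eq_one, one_pow]
    let ζu : rootsOfUnity n Qbar := rootsOfUnity.mkOfPowEq ζ hn
    have hs := modularCyclotomicCharacter.spec Qbar
      (IsAlgClosed.card_rootsOfUnity_eq Qbar n) σ.toRingEquiv ζu.2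
    change σ ζ = _ at hs
    have h' : modularCyclotomicCharacter Qbar (IsAlgClosed.card_rootsOfUnity_eq Qbar n)
        σ.toRingEquiv = 1 := h
    rw [h', Units.val_one, ZMod.val_one_eq_one_mod, rootsOfUnity.val_mkOfPowEq_coe,
      ← pow_eq_pow_mod _ hn, pow_one] at hs
    exact hs
  exact ((ES.map_padCyclo_eq p ((residue C.O).comp (algebraMap ℤ_[p] C.O))
    (by simpa using (residue_eq_zero_iff (R := C.O) _).mpr natCast_mem_maximalIdeal) hζ (c := 1)
    (by rw [hfix, pow_one])).trans Nat.cast_one :)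

variable {C} {hΔ}

/-- The residual representation factors through a finite level. -/
theorem exists_level_curveRes : ∃ L : IntermediateField ℚ Qbar, FiniteDimensional ℚ L ∧
    ∀ σ ∈ L.fixingSubgroup, curveRes C hΔ σ = 1 := by
  obtain ⟨L, hL, h⟩ := matContinuous_curveMat C hΔ 1
  refine ⟨L, hL, fun σ hσ => Matrix.ext fun i j => ?_⟩
  have h1 := h σ hσ i j
  rw [pow_one, ← residue_eq_zero_iff, map_sub, sub_eq_zero] at h1
  rw [curveRes, mapRep_apply, Matrix.map_apply, h1, Matrix.one_apply, Matrix.one_apply,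
    apply_ite (residue C.O), map_one, map_zero]

/-- A prime `ℓ ≡ 1 (mod n)` with residual Frobenius trace different from `2`. -/
theorem exists_prime_one_mod (hidx : Assembly.IrredIndexTwo W p) {H : Subgroup GQ}
    (hH : H.index = 2) (n : ℕ) [NeZero n] (hpn : p ∣ n) (S : Finset ℕ) :
    ∃ (ℓ : ℕ) (A : ValuationSubring Qbar) (σ : GQ), ℓ.Prime ∧ ℓ ∉ S ∧ ¬ ℓ ∣ n ∧
      (ℓ : ZMod n) = 1 ∧ A.LiesOverPrime ℓ ∧ A.IsFrobeniusAt σ ℓ ∧
      (curveRes C hΔ σ).trace ≠ 2 := by
  obtain ⟨g, hg, -, hgt⟩ :=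
    LR.exists_trace_ne_two _ (span_range_curveRes C hΔ hidx hH) (HM.cycloN n)
  obtain ⟨L₁, hL₁, h₁⟩ := exists_level_curveRes (C := C) (hΔ := hΔ)
  obtain ⟨L₂, hL₂, h₂⟩ := HM.exists_level_cycloN n
  have := hL₁; have := hL₂
  obtain ⟨ℓ, A, σ, j, k, hℓ, hℓS, hA, hσ, -, hj, hk⟩ :=
    exists_frobenius_pow_congr (L₁ ⊔ L₂) g (S ∪ n.primeFactors)
  rw [Finset.mem_union, not_or] at hℓS
  have hℓn : ¬ ℓ ∣ n := fun h => hℓS.2 (Nat.mem_primeFactors.mpr ⟨hℓ, h, NeZero.ne n⟩)
  have hk₂ : HM.cycloN n σ = 1 := by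
    have h := h₂ _ ((IntermediateField.mem_fixingSubgroup_iff _ _).mp
      (IntermediateField.fixingSubgroup_antitone le_sup_right hk))
    rwa [map_mul, map_inv, map_pow, hg, one_pow, inv_one, one_mul] at h
  refine ⟨ℓ, A, σ, hℓ, hℓS.1, hℓn, ?_, hA, hσ, fun ht => hgt ?_⟩
  · rw [HM.cycloN_frobenius hℓ hℓn hA hσ] at hk₂
    simpa using congrArg Units.val hk₂
  · have hd : (curveRes C hΔ σ).det = 1 := by rw [det_curveRes, residue_cyclo_eq_one C hpn hk₂]
    have hg' : curveRes C hΔ g = curveRes C hΔ σ ^ j := by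
      have h := h₁ _ (IntermediateField.fixingSubgroup_antitone le_sup_left hj)
      rw [← map_pow, ← mul_inv_cancel_left (σ ^ j) g, map_mul, h, mul_one]
    rw [hg', LR.trace_pow_of_eig _ (e := 1) (mul_one 1) (by rw [ht, hd]; norm_num), hd, one_pow,
      one_mul, one_add_one_eq_two]

end FermatAgent.Lifting

end
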