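import Fermat.Agent.Lifting.Conditions
import Fermat.Agent.RT.Cond.Flat
import Fermat.Agent.Lifting.ResidualTrace
import Fermat.Agent.RT.Cond.Cyclo
import Fermat.Agent.GaloisBasic.Inertia
import Fermat.Agent.TateRep.FrobeniusP

/-!
# The Tate module satisfies the conditions of lifting
-/

set_option autoImplicit false

noncomputable section

open IsLocalRing GaloisRep FermatAgent.GaloisBasic WeierstrassCurve
open scoped Polynomial

namespace FermatAgent.Lifting

open RT FermatAgent.Flat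

local notation "GQ" => AlgebraicClosure ℚ ≃ₐ[ℚ] AlgebraicClosure ℚ
local notation "Qbar" => AlgebraicClosure ℚ

variable {W : WeierstrassCurve ℤ} {p : ℕ} [hp : Fact p.Prime]

/-- Inertia at a prime of good reduction different from `p` acts trivially. -/
theorem tateMat_inertia_good (hΔ : W.Δ ≠ 0) {q : ℕ} (hq : q.Prime) (hqp : q ≠ p)
    (hg : W.IsGoodPrimeFor q) {P : ValuationSubring Qbar} (hP : P.LiesOverPrime q) {σ : GQ}
    (hσ : σ ∈ P.inertiaSubgroupIn ℚ) : tateMat (p := p) hΔ σ = 1 := by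
  show LinearMap.toMatrixAlgEquiv _ ((TateRep.tateRep (p := p) hΔ).ρ σ) = 1
  rw [(TateRep.tateRep_good hΔ hq hqp hg).1 P hP σ hσ, map_one]

/-- Inertia at a prime different from `p` has trace two. -/
theorem trace_tateMat_inertia (hΔ : W.Δ ≠ 0) (hW : W.IsSemistableModel) {q : ℕ} (hq : q.Prime)
    (hqp : q ≠ p) {P : ValuationSubring Qbar} (hP : P.LiesOverPrime q) {σ : GQ}
    (hσ : σ ∈ P.inertiaSubgroupIn ℚ) : (tateMat (p := p) hΔ σ).trace = 2 := by
  by_cases hg : W.IsGoodPrimeFor q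
  · rw [tateMat_inertia_good hΔ hq hqp hg hP hσ, Matrix.trace_one]; simp
  · refine trace_tateMat_of_charpoly hΔ (b := 1) ?_
    rw [(TateRep.tateRep_bad hΔ hW hq hqp hg).1 P hP σ hσ, Polynomial.C_1,
      show Polynomial.C (2 : ℤ_[p]) = 2 from map_ofNat _ 2]
    ring

/-- At a multiplicative `p` there are adapted bases at every place over `p`, in which the
eigenvalue of Frobenius on the quotient is the sign of the curve. -/
theorem exists_adapted_tateMat (hΔ : W.Δ ≠ 0) (hW : W.IsSemistableModel) (hp2 : p ≠ 2)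
    (hbad : ¬ W.IsGoodPrimeFor p) (P : ValuationSubring Qbar) (hP : P.LiesOverPrime p) :
    ∃ U : (Matrix (Fin 2) (Fin 2) ℤ_[p])ˣ,
      (∀ σ ∈ P.decompositionSubgroup ℚ,
        ((U.1 * tateMat hΔ σ * (U⁻¹).1 : Matrix (Fin 2) (Fin 2) ℤ_[p])) 1 0 = 0 ∧
        ((U.1 * tateMat hΔ σ * (U⁻¹).1 : Matrix (Fin 2) (Fin 2) ℤ_[p])) 0 0 =
          ES.padCyclo p σ * ((U.1 * tateMat hΔ σ * (U⁻¹).1 : Matrix (Fin 2) (Fin 2) ℤ_[p])) 1 1) ∧
      (∀ σ ∈ P.inertiaSubgroupIn ℚ,
        ((U.1 * tateMat hΔ σ * (U⁻¹).1 : Matrix (Fin 2) (Fin 2) ℤ_[p])) 1 1 = 1) ∧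
      ∀ F, P.IsFrobeniusAt F p →
        ((U.1 * tateMat hΔ F * (U⁻¹).1 : Matrix (Fin 2) (Fin 2) ℤ_[p])) 1 1 =
          (Assembly.multSign W p : ℤ_[p]) := by
  set ρ := TateRep.tateRep (p := p) hΔ
  set b₀ := (TateRep.Tate.exists_basis (p := p) hΔ).some
  have hdiv : (p : ℤ) ∣ W.Δ := not_not.1 hbad
  have hc4 := hW p hp.out hdiv
  obtain ⟨b, hb⟩ := TateRep.exists_basis_kernelLine (A := P) hP hΔ hdiv hc4
    (hp.out.odd_of_ne_two hp2)
  obtain ⟨U, hU⟩ := matConj_of_isEquiv (ρ := ρ) b₀ b ⟨GaloisRepAdic.Equiv.refl ρ⟩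
  have hzero : ∀ v ∈ TateRep.kernelLine W p P, b.repr v 1 = 0 := by
    intro v hv
    rw [hb, Submodule.mem_span_singleton] at hv
    obtain ⟨t, rfl⟩ := hv
    simp
  have hent : ∀ σ r s, ((U.1 * tateMat hΔ σ * (U⁻¹).1 : Matrix (Fin 2) (Fin 2) ℤ_[p])) r s =
      b.repr (TateRep.Tate.galEnd σ (b s)) r :=
    fun σ r s => by
      show (U.1 * matrixIn ρ b₀ σ * (U⁻¹).1) r s = _
      rw [← hU, matrixIn_apply, LinearMap.toMatrixAlgEquiv_apply]
      rfl
  have hb0 : b 0 ∈ TateRep.kernelLine W p P := hb ▸ Submodule.mem_span_singleton_self _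
  refine ⟨U, fun σ hσ => ⟨?_, ?_⟩, fun σ hσ => ?_, fun F hF => ?_⟩
  · rw [hent, TateRep.Tate.galEnd_apply]
    exact hzero _ (TateRep.galois_mem hP hΔ hdiv hc4 hσ hb0)
  · obtain ⟨x, z, hx, hz, hxz⟩ :=
      TateRep.exists_characters hP hΔ hdiv hc4 (hp.out.odd_of_ne_two hp2) hσ
    have h00 : b.repr (TateRep.Tate.galEnd σ (b 0)) 0 = x := by rw [hx _ hb0]; simp
    have h11 : b.repr (TateRep.Tate.galEnd σ (b 1)) 1 = z := by
      have := hzero _ (hz (b 1))
      rw [map_sub, Finsupp.sub_apply, sub_eq_zero] at this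
      rw [this]; simp
    rw [hent, hent, h00, h11, ← sub_eq_zero]
    refine PadicInt.ext_of_toZModPow.mp fun n => ?_
    set a := (PadicInt.toZModPow n (ES.padCyclo p σ)).val
    have h1 := hxz n a fun μ hμ => ES.padCyclo_spec p σ n hμ
    rw [Nat.cast_pow, ← PadicInt.ker_toZModPow, RingHom.mem_ker, map_sub, map_mul, map_natCast,
      ZMod.natCast_zmod_val] at h1
    rw [map_sub, map_mul, h1, map_zero]
  · rw [hent, TateRep.Tate.galEnd_apply]
    have := hzero _ (TateRep.inertia_sub_mem hP hΔ hdiv hc4 hσ (b 1))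
    rw [map_sub, Finsupp.sub_apply, sub_eq_zero] at this
    rw [this]; simp
  · rw [hent]
    have := hzero _ (TateRep.frobenius_sub_mem_kernelLine hP hΔ hdiv hc4 hF (b 1))
    rw [map_sub, Finsupp.sub_apply, sub_eq_zero] at this
    rw [this, map_smul, Finsupp.smul_apply, Module.Basis.repr_self, Finsupp.single_eq_same,
      smul_eq_mul, mul_one]
    rfl

section Quot

variable (C : Coeff p) {B : Type} [CommRing B] [IsLocalRing B] [Algebra C.O B]

/-- The composite structure map from `ℤ_[p]`. -/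
abbrev baseMap : ℤ_[p] →+* B := (algebraMap C.O B).comp (algebraMap ℤ_[p] C.O)

omit [IsLocalRing B] in
lemma mapRep_curveMat (hΔ : W.Δ ≠ 0) :
    mapRep (algebraMap C.O B) (curveMat C hΔ) = mapRep (baseMap C) (tateMat (p := p) hΔ) :=
  MonoidHom.ext fun σ => by ext i j; rfl

/-- Which cases occur. -/
def CaseOK (W : WeierstrassCurve ℤ) (p : ℕ) : LocalCase → Prop
  | .flat => W.IsGoodPrimeFor p
  | .strict => ¬ W.IsGoodPrimeFor p
  | .ordinary => ¬ W.IsGoodPrimeFor p

variable {C}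

/-- The Tate module satisfies the condition at `p` of its case. -/
theorem pMatCond_curveMat (hB : IsArtinianTestAlgebra C.O B) (hΔ : W.Δ ≠ 0)
    (hW : W.IsSemistableModel) (hp2 : p ≠ 2) {cs : LocalCase} (hcs : CaseOK W p cs) :
    (pMatCond C.O p cs).P (mapRep (algebraMap C.O B) (curveMat C hΔ)) := by
  have := hB.isLocalHom
  have : Finite B := finite_of_isArtinianTestAlgebra hB
  have hord : ¬ W.IsGoodPrimeFor p →
      (ordMatCond (cycloO p C.O) p).P (mapRep (algebraMap C.O B) (curveMat C hΔ)) := by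
    intro hbad
    refine ordMatCond_of_adapted (fun P hP => ?_) inertiaSubgroupIn_le_decompositionSubgroup
    obtain ⟨U, hD, hI, -⟩ := exists_adapted_tateMat hΔ hW hp2 hbad P hP
    refine ⟨U.map (baseMap C (B := B)).mapMatrix.toMonoidHom, ?_⟩
    have e : ∀ σ, ((U.map (baseMap C (B := B)).mapMatrix.toMonoidHom :
        (Matrix (Fin 2) (Fin 2) B)ˣ) : Matrix (Fin 2) (Fin 2) B) *
        mapRep (algebraMap C.O B) (curveMat C hΔ) σ *
        (((U.map (baseMap C (B := B)).mapMatrix.toMonoidHom)⁻¹ :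
          (Matrix (Fin 2) (Fin 2) B)ˣ) : Matrix (Fin 2) (Fin 2) B) =
          (baseMap C (B := B)).mapMatrix
            ((U.1 * tateMat hΔ σ * (U⁻¹).1 : Matrix (Fin 2) (Fin 2) ℤ_[p])) := fun σ => by
      rw [mapRep_curveMat, map_mul, map_mul]; rfl
    refine ⟨fun σ hσ => ⟨?_, ?_⟩, fun σ hσ => ?_⟩
    · rw [e, RingHom.mapMatrix_apply, Matrix.map_apply, (hD σ hσ).1, map_zero]
    · rw [e, RingHom.mapMatrix_apply, Matrix.map_apply, Matrix.map_apply, (hD σ hσ).2, map_mul]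
      rfl
    · rw [e, RingHom.mapMatrix_apply, Matrix.map_apply, hI σ hσ, map_one]
  cases cs with
  | flat =>
    obtain ⟨n, hn⟩ := exists_pow_prime_eq_zero p hB natCast_mem_maximalIdeal
    have : NeZero (p ^ n) := ⟨pow_ne_zero _ hp.out.ne_zero⟩
    set I : Ideal ℤ_[p] := RingHom.ker (PadicInt.toZModPow (p := p) n) with hI
    have : Finite (ℤ_[p] ⧸ I) := Finite.of_equiv _ (RingHom.quotientKerEquivOfSurjective
      (ZMod.ringHom_surjective (PadicInt.toZModPow (p := p) n))).toEquiv.symm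
    let φ : ℤ_[p] ⧸ I →+* B := Ideal.Quotient.lift I (baseMap C) fun x hx => by
      rw [hI, PadicInt.ker_toZModPow, Ideal.mem_span_singleton] at hx
      obtain ⟨y, rfl⟩ := hx
      rw [map_mul, map_pow, map_natCast, hn, zero_mul]
    have e : mapRep (algebraMap C.O B) (curveMat C hΔ) =
        mapRep φ (mapRep (Ideal.Quotient.mk I) (tateMat hΔ)) := by
      rw [mapRep_curveMat]
      exact MonoidHom.ext fun σ => by ext i j; rfl
    show IsFlatAct p (matAct (mapRep (algebraMap C.O B) (curveMat C hΔ)))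
    rw [e]
    exact isFlatAct_mapRep φ (isFlatAct_of_isFlatAt (TateRep.tateRep_flat hΔ hcs) _ I)
  | strict => exact hord hcs
  | ordinary => exact weakOrdMatCond_of_ordMatCond (hord hcs)

/-- **The Tate module satisfies the conditions.** -/
theorem liftMatCond_curveMat (hB : IsArtinianTestAlgebra C.O B) (hΔ : W.Δ ≠ 0)
    (hW : W.IsSemistableModel) (hp2 : p ≠ 2) {cs : LocalCase} (hcs : CaseOK W p cs)
    {S T : Finset ℕ} (hpS : p ∈ S) (hS : ∀ q : ℕ, q.Prime → q ∉ S → W.IsGoodPrimeFor q)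
    (hpT : p ∉ T) :
    (liftMatCond C.O p S T cs).P (mapRep (algebraMap C.O B) (curveMat C hΔ)) := by
  refine liftMatCond_iff.mpr ⟨fun σ => ?_, fun σ ⟨q, P, hq, hqS, hP, hσ⟩ => ?_,
    fun σ ⟨q, P, hq, hqT, hP, hσ⟩ => ?_, pMatCond_curveMat hB hΔ hW hp2 hcs⟩
  · rw [mapRep_apply, ← RingHom.mapMatrix_apply, ← RingHom.map_det, det_curveMat]
    rfl
  · rw [mapRep_curveMat, mapRep_apply,
      tateMat_inertia_good hΔ hq (fun h => hqS (by rw [h]; exact hpS)) (hS q hq hqS) hP hσ,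
      Matrix.map_one _ (map_zero _) (map_one _)]
  · rw [mapRep_curveMat, mapRep_apply]
    refine ((AddMonoidHom.map_trace (baseMap C (B := B)).toAddMonoidHom _).symm.trans ?_)
    rw [trace_tateMat_inertia hΔ hW hq (fun h => hpT (by rw [← h]; exact hqT)) hP hσ]
    exact map_ofNat (baseMap C (B := B)) 2

end Quot

end FermatAgent.Lifting

end
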