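import Fermat.Agent.Lifting.Base
import Fermat.Agent.RT.Ladder.BaseRep
import Fermat.Agent.HM.Dual.Ihara
import Fermat.Agent.LR.InjPair
import Fermat.Agent.LR.Primes
import Fermat.Agent.Lifting.AuxPrime
import Fermat.Agent.Lifting.CurveLift

/-!
# The residual criteria of Ihara's lemma for the levels of raising of a seed

Ihara's lemma and its dual at a raised prime, `p` included, give the criterion at every step
between the base levels and between the levels with auxiliary primes.
-/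

set_option autoImplicit false

noncomputable section

open scoped MatrixGroups
open IsLocalRing GaloisRep FermatAgent.GaloisBasic WeierstrassCurve MvPolynomial
open FermatAgent.HM FermatAgent.BAD.Ihara

namespace FermatAgent.Lifting

open RT Assembly

attribute [local instance] dualAlgebra

local notation "GQ" => AlgebraicClosure ℚ ≃ₐ[ℚ] AlgebraicClosure ℚ
local notation "Qbar" => AlgebraicClosure ℚ

variable {p : ℕ} [hp : Fact p.Prime]

namespace Ctx

variable (X : Ctx p)

/-- The residual representation in the general linear group. -/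
abbrev resGL : GQ →* Matrix.GeneralLinearGroup (Fin 2) (ResidueField X.C.O) :=
  (curveRes X.C X.hΔ).toHomUnits

lemma coe_resGL (g : GQ) :
    (X.resGL g : Matrix (Fin 2) (Fin 2) (ResidueField X.C.O)) = curveRes X.C X.hΔ g := rfl

/-- Two is nonzero in the residue field. -/
lemma two_ne_zero_residue : (2 : ResidueField X.C.O) ≠ 0 := fun h => by
  have h1 := congrArg (residue X.C.O) X.C.two_half
  rw [map_mul, map_ofNat, h, zero_mul, map_one] at h1
  exact zero_ne_one h1

/-- Frobenius at a tame raised prime is residually not scalar. -/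
lemma resGL_ne_scalar (v : X.Nu) (hvp : v.1 ≠ p) {A : ValuationSubring Qbar}
    (hA : A.LiesOverPrime v.1) {g : GQ} (hg : A.IsFrobeniusAt g v.1) (r : ResidueField X.C.O) :
    (X.resGL g : Matrix (Fin 2) (Fin 2) (ResidueField X.C.O)) ≠
      r • (1 : Matrix (Fin 2) (Fin 2) (ResidueField X.C.O)) := fun h => by
  obtain ⟨hq, hbad, -⟩ := X.mem_raised.mp v.2
  rw [coe_resGL] at h
  have ht := trace_curveRes_frobenius (C := X.C) (hΔ := X.hΔ) X.semistable hq hvp hA hg
  have hd := det_curveRes_frobenius (C := X.C) (hΔ := X.hΔ) hq hvp hA hg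
  rw [h, Matrix.trace_smul, Matrix.trace_one, smul_eq_mul, Fintype.card_fin, frobVal_bad hbad] at ht
  rw [h, Matrix.det_smul, Matrix.det_one, mul_one, Fintype.card_fin] at hd
  have hs := congrArg (fun z : ℤ => (z : ResidueField X.C.O)) (X.multSign_sq_raised v.2)
  push_cast at hs ht
  simp only [map_intCast, map_mul, map_add, map_natCast, map_one] at ht hd
  have h0 : ((v.1 : ResidueField X.C.O) - 1) ^ 2 = 0 := by
    linear_combination 4 * hd + (-2 * r - (multSign X.W v.1 : ResidueField X.C.O) *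
      ((v.1 : ResidueField X.C.O) + 1)) * ht - ((v.1 : ResidueField X.C.O) + 1) ^ 2 * hs
  have h1 := (X.isUnit_raised_sub_one v.2).map (residue X.C.O)
  rw [map_sub, map_natCast, map_one, pow_eq_zero_iff two_ne_zero |>.mp h0] at h1
  exact not_isUnit_zero h1

/-- The residual values of the base. -/
lemma residue_a₀ (i : GoodIdx X.varLevel) :
    residue X.C.O (X.raiseBase.a₀ i) = residue X.C.O (frobVal X.W i.1.1 : X.C.O) := by
  show residue X.C.O (heckeVal X.C X.W ∅ i) = _
  rw [heckeVal_notMem X.C X.W (Finset.notMem_empty _)]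

/-- **The residual criterion at a raised prime**, for values agreeing with those of the base at
the primes prime to the level. -/
theorem pairCriterion (v : X.Nu) (D' : ALData) (hqL : D'.q.Coprime 1) (hq : D'.q = v.1)
    (val : GoodIdx X.varLevel → X.C.O)
    (hval : ∀ i : GoodIdx X.varLevel, ¬ i.1.1 ∣ D'.L → val i = X.raiseBase.a₀ i)
    {i₁ : GoodIdx X.varLevel} (h1 : ((i₁.1.1 : ℕ) : ZMod (D'.L * v.1)) = 1)
    (hu : IsUnit (X.raiseBase.a₀ i₁ - ((i₁.1.1 : X.C.O) + 1))) :
    RT.Ladder.PairCriterion D' hqL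
      (fun i : {i // i ≠ X.raiseBase.site v} => X.raiseBase.pr i.1)
      (fun o => residue X.C.O (val (o.elim (X.raiseBase.site v) Subtype.val))) := by
  classical
  obtain ⟨hq0, -, -⟩ := X.mem_raised.mp v.2
  have := charP_residue X.C
  set k := ResidueField X.C.O
  have hdvd : ∀ d : ℕ, d ∣ D'.L * v.1 → ((i₁.1.1 : ℕ) : ZMod d) = 1 := fun d hd => by
    have h2 := congrArg (ZMod.castHom hd (ZMod d)) h1
    rwa [map_natCast, map_one] at h2
  have hsite : i₁ ≠ X.raiseBase.site v := fun h => by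
    have h2 := hdvd v.1 (dvd_mul_left _ _)
    rw [show i₁.1.1 = v.1 from congrArg (fun i : GoodIdx X.varLevel => i.1.1) h, ZMod.natCast_self]
      at h2
    have := Fact.mk hq0
    exact zero_ne_one h2
  have hgood₁ : ¬ i₁.1.1 ∣ D'.L := fun hd => by
    have h2 := hdvd i₁.1.1 (hd.trans (dvd_mul_right _ _))
    have := Fact.mk i₁.1.2
    rw [ZMod.natCast_self] at h2
    exact zero_ne_one h2
  let ι' := {i : {i // i ≠ X.raiseBase.site v} // ¬ i.1.1.1 ∣ D'.L}
  let g : ι' → {i // i ≠ X.raiseBase.site v} := Subtype.val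
  refine RT.Ladder.PairCriterion.mono g ?_
  set pr' : ι' → HPrime 1 := (fun i : {i // i ≠ X.raiseBase.site v} => X.raiseBase.pr i.1) ∘ g
  set c : Option ι' → k := (fun o : Option {i // i ≠ X.raiseBase.site v} =>
    residue X.C.O (val (o.elim (X.raiseBase.site v) Subtype.val))) ∘ Option.map g
  have hne : ∀ i : ι', ((pr' i).1.1 : ℕ) ≠ D'.q := fun i h =>
    i.1.2 (Subtype.ext (Subtype.ext (h.trans hq)))
  have hgood : ∀ i : ι', ¬ ((pr' i).1.1 : ℕ) ∣ D'.L := fun i => i.2
  have hc : ∀ i : ι', c (some i) = residue X.C.O (frobVal X.W i.1.1.1.1 : X.C.O) := fun i => by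
    show residue X.C.O (val i.1.1) = _
    rw [hval _ i.2, X.residue_a₀]
  obtain ⟨ℓ, hℓ, hℓS, hℓg, -, hℓne⟩ := LR.exists_prime_sq_ne_model (W := X.W) X.hΔ hp.out X.ne_two
    X.irr (X.varLevel.primeFactors ∪ D'.L.primeFactors ∪ (D'.q ^ (4 * D'.L ^ 2) - 1).primeFactors
      ∪ {D'.q})
  simp only [Finset.mem_union, Finset.mem_singleton, not_or] at hℓS
  obtain ⟨⟨⟨hℓX, hℓL⟩, hℓord⟩, hℓq⟩ := hℓS
  let j₂ : ι' := ⟨⟨⟨⟨ℓ, hℓ⟩, fun h => hℓX (Nat.mem_primeFactors.mpr ⟨hℓ, h, X.varLevel_ne_zero⟩)⟩,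
    fun h => hℓq ((congrArg (fun i : GoodIdx X.varLevel => i.1.1) h).trans hq.symm)⟩,
    fun h => hℓL (Nat.mem_primeFactors.mpr ⟨hℓ, h, D'.L_ne_zero⟩)⟩
  have hord : (D'.q : ZMod ℓ) ^ (4 * D'.L ^ 2) ≠ 1 := fun h => by
    have h1 : 1 < D'.q ^ (4 * D'.L ^ 2) :=
      Nat.one_lt_pow (by have := D'.L_ne_zero; positivity) D'.prime.one_lt
    refine hℓord (Nat.mem_primeFactors.mpr ⟨hℓ, ?_, by omega⟩)
    rw [← ZMod.natCast_eq_zero_iff, Nat.cast_sub h1.le, Nat.cast_pow, h, Nat.cast_one, sub_self]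
  have hsq : (c ∘ some) j₂ ^ 2 ≠ (((pr' j₂).1.1 : ℕ) + 1 : k) ^ 2 := fun h => by
    refine hℓne (ZMod.castHom_injective k ?_)
    rw [Function.comp_apply, hc] at h
    simp only [map_pow, map_add, map_natCast, map_one, map_intCast]
    rw [← map_intCast (residue X.C.O), ← frobVal_good hℓg]
    exact h
  let j₁ : ι' := ⟨⟨i₁, hsite⟩, hgood₁⟩
  have hj : ((pr' j₁).1.1 : ZMod D'.L) = 1 := hdvd _ (dvd_mul_right _ _)
  have hj' : c (some j₁) ≠ ((pr' j₁).1.1 : k) + 1 := fun h => by
    refine (residue_ne_zero_iff_isUnit _).mpr hu ?_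
    rw [hc] at h
    rw [map_sub, X.residue_a₀, map_add, map_natCast, map_one, sub_eq_zero]
    exact h
  have h2 := X.two_ne_zero_residue
  have hinj : ∀ z, pairDeg D' hqL pr' z = 0 →
      ∃ s : MvPolynomial ι' k, s ∉ eigIdeal (c ∘ some) ∧ rename some s • z = 0 := fun z hz =>
    LR.pairDeg_killed hne (c ∘ some) j₁ hj hj' j₂ j₂.2 hord hsq z hz
  refine ⟨fun z hz => ?_, fun x => ?_⟩
  · obtain ⟨s, hs, hsz⟩ := hinj z hz
    exact ⟨rename some s, fun h => hs (RingHom.mem_ker.mpr (by rwa [aeval_rename] at h)), hsz⟩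
  · obtain ⟨s, hs, w, hw, hw'⟩ :=
      HM.Dual.dual_pairDeg h2 hne hgood (c ∘ some) j₁ hj hj' hinj (x, 0)
    exact ⟨w, rename some s, fun h => hs (RingHom.mem_ker.mpr (by rwa [aeval_rename] at h)),
      hw'.trans (smul_zero _), hw⟩

/-- **The residual criteria at all steps between base levels.** -/
theorem baseCriteria (hw : X.raiseBase.Witness) : X.raiseBase.BaseCriteria := by
  intro A v hv D' hqL hq hL
  obtain ⟨i, hi, hu⟩ := hw
  refine X.pairCriterion v D' hqL hq _
    (fun j hj => X.raiseBase.aAt_of_not_dvd (hL ▸ hj)) (i₁ := i) ?_ hu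
  have hd : D'.L * v.1 ∣ X.raiseBase.M * ∏ u, X.raiseBase.ell (X.raiseBase.site u) := by
    rw [hL, show X.raiseBase.lvl A * v.1 =
      X.raiseBase.M * ((∏ u ∈ A, X.raiseBase.ell (X.raiseBase.site u)) *
        X.raiseBase.ell (X.raiseBase.site v)) from mul_assoc _ _ _,
      mul_comm (∏ u ∈ A, _),
      ← Finset.prod_insert (f := fun u => X.raiseBase.ell (X.raiseBase.site u)) hv]
    exact mul_dvd_mul_left _ (Finset.prod_dvd_prod_of_subset _ _ _ (Finset.subset_univ _))
  have h1 := congrArg (ZMod.castHom hd (ZMod (D'.L * v.1))) hi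
  rwa [map_natCast, map_one] at h1

/-- **The residual criteria at all steps between levels with auxiliary primes.** -/
theorem auxCriteria {κ : Type} [Fintype κ] [DecidableEq κ] {m : κ → ℕ} [∀ i, NeZero (m i)]
    {N : ℕ} (T : RT.Ladder.AuxPrimes X.raiseBase m N) (A : Finset X.Nu) (v : X.Nu) (hv : v ∉ A) :
    T.SiteCriterion A v := by
  intro D' hqL hq hL
  obtain ⟨i, hi, hu⟩ := T.witness
  refine X.pairCriterion v D' hqL hq _
    (fun j hj => T.aQ_of_not_dvd (hL ▸ hj)) (i₁ := i) ?_ hu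
  have hd : D'.L * X.raiseBase.ell (X.raiseBase.site v) ∣ X.raiseBase.M *
      (∏ u, X.raiseBase.ell (X.raiseBase.site u)) * ∏ j ∈ T.Q, X.raiseBase.ell j := by
    rw [hL, ← T.lvlQ_insert hv]
    exact mul_dvd_mul_right (mul_dvd_mul_left _
      (Finset.prod_dvd_prod_of_subset _ _ _ (Finset.subset_univ _))) _
  have h1 := congrArg
    (ZMod.castHom hd (ZMod (D'.L * X.raiseBase.ell (X.raiseBase.site v)))) hi
  rw [map_natCast, map_one] at h1
  exact h1

end Ctx

end FermatAgent.Lifting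

end
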