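import Fermat.Agent.Lifting.PCondStrict
import Fermat.Agent.Lifting.SideConds

/-!
# The ordinary condition on the auxiliary levels with `p` raised

When `p` is a raised site of the level, `U_p` is a variable with residual value the sign, a unit,
and the equations of an ordinary representation pass to the sides.
-/

set_option autoImplicit false

noncomputable section

open IsLocalRing GaloisRep FermatAgent.GaloisBasic WeierstrassCurve

namespace FermatAgent.Lifting

open RT Assembly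

attribute [local instance] dualAlgebra

namespace Ctx

variable {p : ℕ} [hp : Fact p.Prime] (X : Ctx p)
variable {κ : Type} [Fintype κ] [DecidableEq κ] {m : κ → ℕ} [∀ i, NeZero (m i)] {N : ℕ} [NeZero N]
  [IsLocalRing (MonoidAlgebra X.C.O (CycProd m))]
variable (T : RT.Ladder.AuxPrimes X.raiseBase m N) {Q : Finset ℕ} (A : Finset X.Nu) {s : ℕ}
  (b : Module.Basis (Fin s) (MonoidAlgebra X.C.O (CycProd m)) (T.Mod A)) (hs : 0 < s)

omit [NeZero N] [IsLocalRing (MonoidAlgebra X.C.O (CycProd m))] in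
/-- A site at `p` divides the level exactly. -/
lemma site_p_exactly {v : X.Nu} (hv : v ∈ A) (hvp : v.1 = p) :
    p ∣ T.lvlQ A ∧ ¬ p ^ 2 ∣ T.lvlQ A := by
  have hpM : ¬ p ∣ X.M :=
    Eq.subst (motive := fun t => ¬ t ∣ X.M) hvp (X.mem_raised.mp v.2).2.2
  have e := T.lvlQ_insert (Finset.notMem_erase v A)
  rw [Finset.insert_erase hv, show X.raiseBase.ell (X.raiseBase.site v) = v.1 from rfl, hvp] at e
  refine ⟨e ▸ dvd_mul_left p _, fun h => ?_⟩
  rw [e, pow_two] at h
  refine T.not_dvd_lvlQ (Finset.notMem_erase v A) ?_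
  rw [show X.raiseBase.ell (X.raiseBase.site v) = v.1 from rfl, hvp]
  exact Nat.dvd_of_mul_dvd_mul_right hp.out.pos h

omit [NeZero N] [IsLocalRing (MonoidAlgebra X.C.O (CycProd m))] in
/-- The eigenvalue at a raised site is a unit. -/
lemma isUnit_aS_site {v : X.Nu} (hv : v ∈ A) : IsUnit (T.aS A (X.raiseBase.site v)) := by
  refine IsUnit.map _ ?_
  rw [RT.Ladder.AuxPrimes.aQ, Finset.piecewise_eq_of_notMem _ _ _ (T.disj v),
    X.raiseBase.aAt_site hv]
  exact IsUnit.of_mul_eq_one _ (X.raiseBase.sgn_sq v)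

variable {Ax : (X.levelDatum T Q A b hs).AuxSet} {r n : ℕ} (e : Fin r ≃ {j // j ∈ Ax.sel})
  (hdepth : ∀ j : {j // j ∈ Ax.sel}, p ^ (n + 1) ≤ m j.1)

/-- **The ordinary condition at a level with `p` raised.** -/
theorem pCondAt_ordinary_mem (hord : X.localCase = .ordinary) {v : X.Nu} (hv : v ∈ A)
    (hvp : v.1 = p) (hN : Squarefree N)
    (hNM : ∀ q : ℕ, q.Prime → q ∣ N → ¬ q ^ 2 ∣ T.lvlQ A) (hpN : ¬ p ∣ N)
    (z : κ → X.C.O) (hz : ∀ i, i ∉ Ax.sel → z i ^ m i = 1) :
    X.PCondAt T A b hs e hdepth z hz := by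
  intro M hres htr hdet
  rw [hord]
  have hbad : ¬ X.W.IsGoodPrimeFor p :=
    Eq.subst (motive := fun t => ¬ X.W.IsGoodPrimeFor t) hvp (X.mem_raised.mp v.2).2.1
  refine side_weakOrd Ax (X.levelGal T Q A b hs) hres htr (cycloO p X.C.O)
    (X.levelDatum_det T Q A b hs) hdet fun i => ?_
  obtain ⟨h1, h2, h3, -, -⟩ := PSEMI.modRho_ord p T.surj T.neg (T.aS A)
    X.raiseBase.p_mem (T.hloc A) b Set.univ X.raiseBase.Sbad X.raiseBase.good_univ T.pow hs
    T.odd_card (curveRes X.C X.hΔ) X.choices.span ((matContinuous_curveMat X.C X.hΔ).map _)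
    (det_curveRes X.C X.hΔ) (X.trace_curveRes_level T A)
    (fun P hP σ hσ => trace_curveRes_inertia X.C X.hΔ X.semistable X.ne_two hbad hP hσ)
    hN hNM hpN (X.site_p_exactly T A hv hvp).1 (X.site_p_exactly T A hv hvp).2
    (X.raiseBase.site v) hvp (X.isUnit_aS_site T A hv) i
  exact ⟨h1, h2, h3⟩

end Ctx

end FermatAgent.Lifting

end
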