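import Fermat.Agent.Lifting.CondAt
import Fermat.Agent.RT.Ladder.Step
import Fermat.Agent.RT.Ladder.Tame
import Fermat.Agent.RT.Intertwine.Pushdown

/-!
# The conditions of lifting on the sides of every raised level

In the ordinary case the condition at `p` passes from a level with `p` raised to the level
without it, along the degeneracy map.  The conditions then hold on every specialised side.
-/

set_option autoImplicit false

noncomputable section

open IsLocalRing GaloisRep FermatAgent.GaloisBasic WeierstrassCurve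

namespace FermatAgent.Lifting

open RT Assembly

attribute [local instance] dualAlgebra

namespace Ctx

variable {p : ℕ} [hp : Fact p.Prime] (X : Ctx p)
variable {κ : Type} [Fintype κ] [DecidableEq κ] {m : κ → ℕ} [∀ i, NeZero (m i)] {N : ℕ} [NeZero N]
  [IsLocalRing (MonoidAlgebra X.C.O (CycProd m))]
variable (T : RT.Ladder.AuxPrimes X.raiseBase m N) (Q : Finset ℕ) {rk : Finset X.Nu → ℕ}
  (b : ∀ A, Module.Basis (Fin (rk A)) (MonoidAlgebra X.C.O (CycProd m)) (T.Mod A))
  (hrk : ∀ A, 0 < rk A)
variable {sel : Finset κ} {aux : {j // j ∈ sel} → TameAux p (X.DQ Q).rbar}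
  (hu : ∀ j, T.δ (HM.cycloN N (aux j).τ) = cycGen (m := m) j.1 * cycGen (m := m) j.1)
  (h1 : ∀ j ∈ sel, 1 < m j) (hrel : ∀ A, T.TameRel sel aux A)

/-- The tame primes on an auxiliary level. -/
abbrev levelAux (A : Finset X.Nu) : (X.levelDatum T Q A (b A) (hrk A)).AuxSet :=
  T.auxSet (X.residualFactsQ Q) A (b A) (hrk A) sel aux hu h1 (hrel A)

variable {r n : ℕ} (e : Fin r ≃ {j // j ∈ sel}) (hdepth : ∀ j : {j // j ∈ sel}, p ^ (n + 1) ≤ m j.1)
  (z : κ → X.C.O) (hz : ∀ i, i ∉ sel → z i ^ m i = 1)

/-- The condition at `p` on the side of a level. -/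
def LevelPCond (A : Finset X.Nu) : Prop :=
  X.PCondAt T A (b A) (hrk A) (Ax := X.levelAux T Q b hrk hu h1 hrel A) e hdepth z hz

/-- **The condition at `p` passes to the level with one site less.** -/
theorem levelPCond_of_insert {A : Finset X.Nu} {v : X.Nu} (hv : v ∉ A)
    (hcrit : T.SiteCriterion A v)
    (hup : X.LevelPCond T Q b hrk hu h1 hrel e hdepth z hz (insert v A)) :
    X.LevelPCond T Q b hrk hu h1 hrel e hdepth z hz A := by
  intro M hres htr _
  have : IsLocalRing (PatchBase X.C.O r ⧸ maximalIdeal (PatchBase X.C.O r) ^ (n + 1)) :=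
    IsLocalRing.of_surjective' (Ideal.Quotient.mk _) Ideal.Quotient.mk_surjective
  obtain ⟨J, -, -, hJ, -, hinj, -, -, -, -, -, hsurj⟩ :=
    T.exists_siteMatrices (X.residualFactsQ Q) A (b A) (hrk A) hv (b (insert v A)) (hrk _) hcrit
  exact hJ.matCond_pushdown (X.levelAux T Q b hrk hu h1 hrel A)
    (X.levelAux T Q b hrk hu h1 hrel (insert v A)) rfl (fun _ _ _ => rfl) hinj _
    (DiamondDatum.spec_sub_aug_mem _ hdepth hz) hsurj
    (DiamondDatum.p_pow_eq_zero (X.levelDatum T Q A (b A) (hrk A)) r n) _ hup hres htr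

/-- **The conditions of lifting on every side.** -/
theorem levelCondAt (hT : X.LevelFacts T Q)
    (hstrict : X.localCase = .strict → ∀ A,
      X.LevelPCond T Q b hrk hu h1 hrel e hdepth z hz A)
    (hord : X.localCase = .ordinary → ∀ A, (∃ v ∈ A, v.1 = p) →
      X.LevelPCond T Q b hrk hu h1 hrel e hdepth z hz A)
    (hcrit : ∀ A v, v ∉ A → T.SiteCriterion A v)
    (A : Finset X.Nu) :
    DiamondDatum.CondAt (X.levelAux T Q b hrk hu h1 hrel A)
      (DiamondDatum.spec (X.levelAux T Q b hrk hu h1 hrel ∅) (e := e) hdepth z hz) := by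
  have hpc : X.LevelPCond T Q b hrk hu h1 hrel e hdepth z hz A := by
    cases hcs : X.localCase with
    | flat =>
      unfold LevelPCond
      exact X.pCondAt_flat T A (b A) (hrk A) (Ax := X.levelAux T Q b hrk hu h1 hrel A)
        e hdepth hcs hT.sq_N (hT.sq_lvl A) hT.p_Q z hz
    | strict => exact hstrict hcs A
    | ordinary =>
      by_cases h : ∃ v ∈ A, v.1 = p
      · exact hord hcs A h
      · let v : X.Nu := ⟨p, X.p_mem_raised_iff.mpr hcs⟩
        have hv : v ∉ A := fun hm => h ⟨v, hm, rfl⟩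
        exact X.levelPCond_of_insert T Q b hrk hu h1 hrel e hdepth z hz hv (hcrit A v hv)
          (hord hcs _ ⟨v, Finset.mem_insert_self v A, rfl⟩)
  have hsc : DiamondDatum.SideCond (X.levelAux T Q b hrk hu h1 hrel A) e hdepth z hz :=
    X.levelSideCond T A (b A) (hrk A) (Ax := X.levelAux T Q b hrk hu h1 hrel A) e hdepth hT.mem_Q
      hT.trace_N z hz
      hpc
  have heq : DiamondDatum.spec (X.levelAux T Q b hrk hu h1 hrel A) (e := e) hdepth z hz =
      DiamondDatum.spec (X.levelAux T Q b hrk hu h1 hrel ∅) (e := e) hdepth z hz := by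
    refine cycAlgHom_ext fun i => ?_
    rw [DiamondDatum.spec_cycX, DiamondDatum.spec_cycX]
    unfold DiamondDatum.specVal
    rfl
  exact hsc.condAt heq

end Ctx

end FermatAgent.Lifting

end
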