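import Fermat.Agent.Lifting.PCondStrict
import Fermat.Agent.Lifting.PCondOrdinary
import Fermat.Agent.Lifting.Sides
import Fermat.Agent.Lifting.Criteria
import Fermat.Agent.Lifting.Coords
import Fermat.Agent.RT.UnivTraces

/-!
# The conditions of lifting at all levels and the base ring

Every specialised side of every level satisfies the conditions; the universal ring without
auxiliary ramification is a base ring for all levels.
-/

set_option autoImplicit false

noncomputable section

open IsLocalRing GaloisRep FermatAgent.GaloisBasic WeierstrassCurve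

namespace FermatAgent.Lifting

open RT Assembly

attribute [local instance] dualAlgebra

local notation "GQ" => AlgebraicClosure ℚ ≃ₐ[ℚ] AlgebraicClosure ℚ

namespace Ctx

variable {p : ℕ} [hp : Fact p.Prime] (X : Ctx p)

section Level

variable {κ : Type} [Fintype κ] [DecidableEq κ] {m : κ → ℕ} [∀ i, NeZero (m i)] {N : ℕ} [NeZero N]
  [IsLocalRing (MonoidAlgebra X.C.O (CycProd m))]
variable (T : RT.Ladder.AuxPrimes X.raiseBase m N) (Q : Finset ℕ) {rk : Finset X.Nu → ℕ}
  (b : ∀ A, Module.Basis (Fin (rk A)) (MonoidAlgebra X.C.O (CycProd m)) (T.Mod A))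
  (hrk : ∀ A, 0 < rk A)
variable {sel : Finset κ} {aux : {j // j ∈ sel} → TameAux p (X.DQ Q).rbar}
  (hu : ∀ j, T.δ (HM.cycloN N (aux j).τ) = cycGen (m := m) j.1 * cycGen (m := m) j.1)
  (h1 : ∀ j ∈ sel, 1 < m j) (hrel : ∀ A, T.TameRel sel aux A)
variable {r n : ℕ} (e : Fin r ≃ {j // j ∈ sel}) (hdepth : ∀ j : {j // j ∈ sel}, p ^ (n + 1) ≤ m j.1)
  (z : κ → X.C.O) (hz : ∀ i, i ∉ sel → z i ^ m i = 1)

/-- **The conditions of lifting on every side of every level.** -/
theorem condAt_side (hT : X.LevelFacts T Q)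
    (A : Finset X.Nu) :
    DiamondDatum.CondAt (X.levelAux T Q b hrk hu h1 hrel A)
      (DiamondDatum.spec (X.levelAux T Q b hrk hu h1 hrel ∅) (e := e) hdepth z hz) :=
  X.levelCondAt T Q b hrk hu h1 hrel e hdepth z hz hT
    (fun hs A => X.pCondAt_strict T A (b A) (hrk A) (Ax := X.levelAux T Q b hrk hu h1 hrel A) e
      hdepth hs hT.sq_N (hT.sq_lvl A) hT.p_N z hz)
    (fun ho A ⟨_, hv, hvp⟩ => X.pCondAt_ordinary_mem T A (b A) (hrk A)
      (Ax := X.levelAux T Q b hrk hu h1 hrel A) e hdepth ho hv hvp hT.sq_N (hT.sq_lvl A)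
      hT.p_N z hz)
    (X.auxCriteria T) A

end Level

section Base

/-- The residual representation of the base. -/
lemma base_residual (Q : Finset ℕ) : HasResidual (X.DQ Q).rbar X.D.univMat :=
  X.D.univMat_residual

/-- The base is normalised. -/
lemma base_normal (Q : Finset ℕ) : IsNormal (X.DQ Q).nd X.D.univMat := X.D.univMat_normal

/-- **The base satisfies the conditions with more ramification allowed.** -/
theorem base_cond (Q : Finset ℕ) (n : ℕ) [IsLocalRing (X.D.UR ⧸ maximalIdeal X.D.UR ^ (n + 1))]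
    (hc : MatContinuous _ (mapRep (B := X.D.UR ⧸ maximalIdeal X.D.UR ^ (n + 1))
      (Ideal.Quotient.mk (maximalIdeal X.D.UR ^ (n + 1))) X.D.univMat)) :
    (X.DQ Q).cond (toRep _ hc) := by
  obtain ⟨_, htest, -⟩ := GaloisBasic.isArtinianTestAlgebra_quotient X.D.residue_surjective_UR n
  refine ((liftMatCond X.C.O p (X.ramSet ∪ Q) X.traceSet X.localCase).cond_toRep_iff htest _ hc).mpr
    (liftMatCond_mono Finset.subset_union_left ?_)
  have h1 := (show (liftMatCond X.C.O p X.ramSet X.traceSet X.localCase).cond X.D.univRep from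
    X.D.univRep_cond) htest (Ideal.Quotient.mkₐ X.C.O (maximalIdeal X.D.UR ^ (n + 1)))
    (IsLocalHom.of_surjective _ Ideal.Quotient.mk_surjective) Ideal.Quotient.mk_surjective
    (Pi.basisFun X.D.UR (Fin 2))
  rw [show matrixIn X.D.univRep (Pi.basisFun X.D.UR (Fin 2)) = X.D.univMat from
    matrixIn_toRep _ X.D.univMat_continuous] at h1
  exact h1

/-- The determinant of the base. -/
lemma base_det (g : GQ) : (X.D.univMat g).det =
    algebraMap X.C.O X.D.UR (algebraMap ℤ_[p] X.C.O (ES.padCyclo p g)) :=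
  (X.det_univMat g).trans (by rw [cycloO_apply])

end Base

end Ctx

end FermatAgent.Lifting

end
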