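import Fermat.Agent.Lifting.CoordQ
import Fermat.Agent.Lifting.LevelInst
import Fermat.Agent.Lifting.PUnram

/-!
# The local inputs at all raised sites

Equations, vanishing of the inertia coordinates at the base set and the value of the composite of
the degeneracy maps, at tame sites and at the lifting prime.
-/

set_option autoImplicit false

noncomputable section

open IsLocalRing GaloisRep FermatAgent.GaloisBasic WeierstrassCurve

namespace FermatAgent.Lifting

open RT Assembly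

attribute [local instance] dualAlgebra

namespace Ctx

variable {p : ℕ} [hp : Fact p.Prime] (X : Ctx p)
variable {κ : Type} [Fintype κ] [DecidableEq κ] {m : κ → ℕ} [∀ i, NeZero (m i)] {N : ℕ} [NeZero N]
  [IsLocalRing (MonoidAlgebra X.C.O (CycProd m))]
variable (T : RT.Ladder.AuxPrimes X.raiseBase m N) (Q : Finset ℕ) {rk : Finset X.Nu → ℕ}
  (b : ∀ A, Module.Basis (Fin (rk A)) (MonoidAlgebra X.C.O (CycProd m)) (T.Mod A))
  (hrk : ∀ A, 0 < rk A)
variable {sel : Finset κ} {aux : {j // j ∈ sel} → TameAux p (X.DQ Q).rbar}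
  (hu : ∀ j, T.δ (HM.cycloN N (aux j).τ) = cycGen (m := m) j.1 * cycGen (m := m) j.1)
  (h1 : ∀ j ∈ sel, 1 < m j) (hrel : ∀ A, T.TameRel sel aux A)
variable {r n : ℕ} (e : Fin r ≃ {j // j ∈ sel}) (hdepth : ∀ j : {j // j ∈ sel}, p ^ (n + 1) ≤ m j.1)
  (z : κ → X.C.O) (hz : ∀ i, i ∉ sel → z i ^ m i = 1)
variable (hτ : X.localCase = .ordinary → curveRes X.C X.hΔ X.pTau = 1)

/-- **The equations hold on every side at every site.** -/
theorem sites_eqs (A : Finset X.Nu) (v : X.Nu)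
    (f : (X.DQ Q).UR →ₐ[X.C.O] Matrix (Fin (rk A)) (Fin (rk A))
      (PatchBase X.C.O r ⧸ maximalIdeal (PatchBase X.C.O r) ^ (n + 1)))
    (hf : ∀ g, f ((X.DQ Q).univMat g).trace =
      (DiamondDatum.sideAction (X.levelAux T Q b hrk hu h1 hrel A)
        (DiamondDatum.spec (X.levelAux T Q b hrk hu h1 hrel ∅) (e := e) hdepth z hz)).Φ
          ((X.levelDatum T Q A (b A) (hrk A)).td.t g))
    (x : MvPowerSeries (Fin 3) X.C.O) (hx : x ∈ (X.coordSite v).eqs) :
    f (evalAdic (R := X.C.O) (maximalIdeal (X.DQ Q).UR) (X.coordQ Q v) (X.coordQ_mem hτ Q v) x) =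
      0 := by
  by_cases h : v.1 = p
  · rw [X.coordSite_eqs_p hτ Q h x hx, map_zero]
  · rw [coordSite, dif_neg h] at hx
    obtain ⟨P, hP, -, hI, -⟩ := (X.raiseSite_spec v h).place
    simp only [X.coordQ_tame Q h]
    exact T.site_eqs (X.residualFactsQ Q) A (b A) (hrk A) hu h1 (hrel A) _ h (X.siteShapeQ Q v h)
      hP hI.mem f hf x hx

/-- **The inertia coordinates die at the base set.** -/
theorem sites_unram (hT : X.LevelFacts T Q)
    (v : X.Nu)
    (f : (X.DQ Q).UR →ₐ[X.C.O] Matrix (Fin (rk ∅)) (Fin (rk ∅))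
      (PatchBase X.C.O r ⧸ maximalIdeal (PatchBase X.C.O r) ^ (n + 1)))
    (hf : ∀ g, f ((X.DQ Q).univMat g).trace =
      (DiamondDatum.sideAction (X.levelAux T Q b hrk hu h1 hrel ∅)
        (DiamondDatum.spec (X.levelAux T Q b hrk hu h1 hrel ∅) (e := e) hdepth z hz)).Φ
          ((X.levelDatum T Q ∅ (b ∅) (hrk ∅)).td.t g)) :
    f (X.coordQ Q v 1) = 0 ∧ f (X.coordQ Q v 2) = 0 := by
  have hc := X.condAt_side T Q b hrk hu h1 hrel e hdepth z hz hT ∅
  by_cases h : v.1 = p
  · rw [X.coordQ_p Q h]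
    refine ⟨?_, map_zero f⟩
    exact X.map_tauTrace_spec_eq_zero T ∅ (b ∅) (hrk ∅) (Ax := X.levelAux T Q b hrk hu h1 hrel ∅)
      e hdepth (X.ordinary_of_site h) (fun w hw => absurd hw (Finset.notMem_empty w)) hT.sq_N
      (hT.sq_lvl ∅) hT.p_Q z hz hc f hf
  · obtain ⟨P, hP, -, hI, -⟩ := (X.raiseSite_spec v h).place
    rw [X.coordQ_tame Q h]
    exact T.site_unram (X.residualFactsQ Q) ∅ (b ∅) (hrk ∅) hu h1 (hrel ∅) _ h hP hI.mem f hf
      (Finset.notMem_empty v) complexConjugation_mul_self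
      (X.trace_univMatQ_complexConjugation Q)
      (DiamondDatum.p_pow_eq_zero (X.levelDatum T Q ∅ (b ∅) (hrk ∅)) r n) hc

/-- **The value of the composite of the degeneracy maps.** -/
theorem sites_tau (hT : X.LevelFacts T Q)
    {A : Finset X.Nu} {v : X.Nu} (hv : v ∉ A)
    (f : (X.DQ Q).UR →ₐ[X.C.O] Matrix (Fin (rk A)) (Fin (rk A))
      (PatchBase X.C.O r ⧸ maximalIdeal (PatchBase X.C.O r) ^ (n + 1)))
    (hf : ∀ g, f ((X.DQ Q).univMat g).trace =
      (DiamondDatum.sideAction (X.levelAux T Q b hrk hu h1 hrel A)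
        (DiamondDatum.spec (X.levelAux T Q b hrk hu h1 hrel ∅) (e := e) hdepth z hz)).Φ
          ((X.levelDatum T Q A (b A) (hrk A)).td.t g)) :
    f (evalAdic (R := X.C.O) (maximalIdeal (X.DQ Q).UR) (X.coordQ Q v) (X.coordQ_mem hτ Q v)
        (X.tauAt v)) =
      (DiamondDatum.newPhi (X.levelAux T Q b hrk hu h1 hrel A) (X.tauOp T Q b hrk A v)).map
        (DiamondDatum.spec (X.levelAux T Q b hrk hu h1 hrel ∅) (e := e) hdepth z hz) := by
  by_cases h : v.1 = p
  · have : IsLocalRing (PatchBase X.C.O r ⧸ maximalIdeal (PatchBase X.C.O r) ^ (n + 1)) :=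
      IsLocalRing.of_surjective' (Ideal.Quotient.mk _) Ideal.Quotient.mk_surjective
    exact X.map_tauAt_p T Q b hrk hu h1 hrel _ hτ hT.sq_N hT.sq_lvl hT.p_N
      (DiamondDatum.spec_sub_aug_mem _ hdepth hz)
      (DiamondDatum.p_pow_eq_zero (X.levelDatum T Q A (b A) (hrk A)) r n) hv h
      (X.auxCriteria T A v hv)
      (X.condAt_side T Q b hrk hu h1 hrel e hdepth z hz hT A)
      (X.condAt_side T Q b hrk hu h1 hrel e hdepth z hz hT (insert v A))
      f hf
  · simp only [tauAt, tauOp, dif_neg h, X.coordQ_tame Q h]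
    exact DiamondDatum.map_eval_tauS (X.levelAux T Q b hrk hu h1 hrel A) (X.siteShapeQ Q v h) _ f
      hf 1

end Ctx

end FermatAgent.Lifting

end
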