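import Fermat.Agent.Lifting.LocalBoundP
import Fermat.Agent.RT.UnivTraces
import Fermat.Agent.RT.Raise.Generation

/-!
# Tangent vectors at the sites as cocycles, and their bound

The tangent vectors of a quotient of the universal ring on which the coordinates at the raised
sites die inject into cocycles with lifts of the type of lifting; Taylor-Wiles primes bound these.
-/

set_option autoImplicit false

noncomputable section

open IsLocalRing GaloisRep FermatAgent.GaloisBasic WeierstrassCurve
open FermatAgent.CFT FermatAgent.CFT.Selmer FermatAgent.CFT.Global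
open scoped Classical

namespace FermatAgent.Lifting

open RT Assembly

attribute [local instance] dualAlgebra

local notation "GQ" => AlgebraicClosure ℚ ≃ₐ[ℚ] AlgebraicClosure ℚ
local notation "Qbar" => AlgebraicClosure ℚ

variable {p : ℕ} [hp : Fact p.Prime]

namespace Ctx

variable (X : Ctx p) {Q : Finset ℕ} {R' : Type} [CommRing R'] [IsLocalRing R'] [Algebra X.C.O R']
  [IsLocalHom (algebraMap X.C.O R')]
  (hs : Function.Surjective (residue R' ∘ algebraMap X.C.O R')) (f : (X.DQ Q).UR →ₐ[X.C.O] R')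

/-- The map to dual numbers of a tangent vector of a quotient of the universal ring. -/
def tanMap (φ : Module.Dual (ResidueField R') (RelCot R' (algebraMap X.C.O R' X.C.ϖ))) :
    (X.DQ Q).UR →ₐ[X.C.O] DualNumber (ResidueField X.C.O) :=
  (tanHom hs X.C.max_eq φ).comp f

/-- The cocycle of a tangent vector. -/
def tanCoc (φ : Module.Dual (ResidueField R') (RelCot R' (algebraMap X.C.O R' X.C.ϖ))) :
    GQ → M22 (ResidueField X.C.O) :=
  tanCocycle hs φ (Raise.pushRep f (X.DQ Q).univMat)

variable {f} (hf : ∀ x ∈ maximalIdeal (X.DQ Q).UR, f x ∈ maximalIdeal R')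

include hf in
/-- The universal representation pushed to the quotient reduces to that of the curve. -/
lemma pushRep_resK (g : GQ) :
    (Raise.pushRep f (X.DQ Q).univMat g).map (resK hs) = curveRes X.C X.hΔ g := by
  have h2 : ((X.DQ Q).univMat g).map (resK (X.DQ Q).residue_surjective_UR) =
      curveRes X.C X.hΔ g := univMat_resK (X.DQ Q) g
  ext i j
  rw [← h2]
  set x := (X.DQ Q).univMat g i j
  obtain ⟨o, ho⟩ := residue_surjective (resK (X.DQ Q).residue_surjective_UR x)
  have h3 := hf _ (sub_algebraMap_mem (X.DQ Q).residue_surjective_UR ho)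
  rw [map_sub, AlgHom.commutes] at h3
  show resK hs (f x) = resK (X.DQ Q).residue_surjective_UR x
  rw [← ho]
  have h4 := (resK_eq_zero_iff hs _).mpr h3
  rw [map_sub, sub_eq_zero, AlgHom.commutes] at h4
  exact h4

variable (φ : Module.Dual (ResidueField R') (RelCot R' (algebraMap X.C.O R' X.C.ϖ)))

include hf in
/-- The universal representation pushed along a tangent vector is a lift to dual numbers satisfying
the conditions of the deformation problem: tangent vectors kill the square of the maximal ideal. -/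
lemma goodLift_tanMap : GoodLift (X.DQ Q).nd (X.DQ Q).cond
    (mapRep (X.tanMap hs f φ : (X.DQ Q).UR →+* DualNumber (ResidueField X.C.O))
      (X.DQ Q).univMat) := by
  have := (dual_test (𝒪 := X.C.O)).isLocalHom
  refine goodLift_of_kills_pow (X.DQ Q).isCond (X.DQ Q).residue_surjective_UR
    (X.DQ Q).univMat_continuous (X.DQ Q).univMat_residual (X.DQ Q).univMat_normal
    (X.DQ Q).univRep_cond dual_test _ 1 fun x hx => ?_
  have hm : x ∈ maximalIdeal (X.DQ Q).UR := Ideal.pow_le_self (by norm_num) hx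
  have h2 : f x ∈ maximalIdeal R' ^ 2 := by
    have hle : Ideal.map (f : (X.DQ Q).UR →+* R') (maximalIdeal (X.DQ Q).UR) ≤ maximalIdeal R' :=
      Ideal.map_le_iff_le_comap.mpr hf
    have := Ideal.mem_map_of_mem (f : (X.DQ Q).UR →+* R') hx
    rw [Ideal.map_pow] at this
    exact Ideal.pow_right_mono hle 2 this
  show tanHom hs X.C.max_eq φ (f x) = 0
  refine TrivSqZeroExt.ext ?_ ?_
  · rw [fst_tanHom, (resK_eq_zero_iff _ _).mpr (hf x hm)]; rfl
  · rw [snd_tanHom, tanDer_eq _ X.C.max_eq φ (o := 0)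
      (by rw [map_zero, (resK_eq_zero_iff _ _).mpr (hf x hm)]), map_zero, sub_zero,
      cotClass_eq_zero_of_sq _ h2, map_zero, map_zero]
    rfl

include hf in
/-- The lift of a tangent vector. -/
theorem isTanLift_tanMap : X.IsTanLift Q (X.tanCoc hs f φ)
    (mapRep (X.tanMap hs f φ : (X.DQ Q).UR →+* DualNumber (ResidueField X.C.O))
      (X.DQ Q).univMat) := by
  have hres := X.pushRep_resK hs hf
  have hg := X.goodLift_tanMap hs hf φ
  refine ⟨⟨fun g h => ?_, fun g => ?_⟩, fun g i j => ?_, hg.cont, ?_⟩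
  · have := tanCocycle_mul hs X.C.max_eq φ (Raise.pushRep f (X.DQ Q).univMat) g h
    rwa [hres, hres] at this
  · refine trace_tanCocycle hs X.C.max_eq φ _ g (a := cycloO p X.C.O g) ?_
    show ((X.DQ Q).univMat g |>.map f).det = _
    rw [← AlgHom.mapMatrix_apply, ← AlgHom.map_det, X.det_univMatQ, AlgHom.commutes]
  · exact mapRep_tanHom_apply (hs := hs) X.C.max_eq φ hres g i j
  · exact (MatCond.cond_toRep_iff _ dual_test _ hg.cont).mp hg.cond

variable {φ}

include hf in
/-- **A tangent vector with vanishing cocycle is zero.** -/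
theorem eq_zero_of_tanCoc (hsurj : Function.Surjective f) (h : X.tanCoc hs f φ = 0) : φ = 0 := by
  have : Finite (DualNumber (ResidueField X.C.O)) :=
    inferInstanceAs (Finite (ResidueField X.C.O × ResidueField X.C.O))
  have h0 : X.tanCoc hs f 0 = 0 := tanCocycle_zero hs _
  have hN : ∀ g, ((X.DQ Q).univMat g).map (X.tanMap hs f φ) =
      ((X.DQ Q).univMat g).map (X.tanMap hs f 0) := fun g => by
    refine Matrix.ext fun i j => ?_
    have e1 := (X.isTanLift_tanMap hs hf φ).entries g i j
    have e2 := (X.isTanLift_tanMap hs hf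
      (0 : Module.Dual (ResidueField R') (RelCot R' (algebraMap X.C.O R' X.C.ϖ)))).entries g i j
    rw [h] at e1
    rw [h0] at e2
    exact e1.trans e2.symm
  have he : X.tanMap hs f φ = X.tanMap hs f 0 :=
    algHom_ext_of_trace (X.DQ Q) X.C.two_half X.choices.span complexConjugation_mul_self
      (X.trace_univMatQ_complexConjugation Q) _ _ fun g => by
      rw [Matrix.trace_fin_two, map_add, map_add]
      exact congrArg₂ (· + ·) (congrFun (congrFun (hN g) 0) 0) (congrFun (congrFun (hN g) 1) 1)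
  refine eq_zero_of_tanDer hs X.C.max_eq φ fun y _ => ?_
  obtain ⟨x, rfl⟩ := hsurj y
  rw [← snd_tanHom hs X.C.max_eq φ, show tanHom hs X.C.max_eq φ (f x) = X.tanMap hs f φ x from rfl,
    he]
  refine (snd_tanHom hs X.C.max_eq 0 _).trans ?_
  simp [tanDer]

include hf in
/-- **A tangent vector with a coboundary is zero.** -/
theorem eq_zero_of_tanCoc_cob (hsurj : Function.Surjective f) {e : M22 (ResidueField X.C.O)}
    (h : ∀ g, X.tanCoc hs f φ g = curveRes X.C X.hΔ g * e * curveRes X.C X.hΔ g⁻¹ - e) :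
    φ = 0 := by
  let inl : ResidueField X.C.O →ₐ[X.C.O] DualNumber (ResidueField X.C.O) :=
    { TrivSqZeroExt.inlHom (ResidueField X.C.O) (ResidueField X.C.O) with
      commutes' := fun o => rfl }
  have hbase : GoodLift (X.DQ Q).nd (X.DQ Q).cond
      (mapRep (inl : _ →+* DualNumber (ResidueField X.C.O)) (X.DQ Q).rbar) :=
    (X.DQ Q).base.map (X.DQ Q).isCond dual_test inl
  have hg := X.goodLift_tanMap hs hf φ
  have hl := X.isTanLift_tanMap hs hf φ
  have := (dual_test (𝒪 := X.C.O)).isArtinian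
  have heq := IsNormal.eq_of_matConj (X.DQ Q).nd hbase.res hg.res hbase.normal hg.normal
    (matConj_of_coboundary (fun g i j => rfl) hl.entries h)
  refine X.eq_zero_of_tanCoc hs hf hsurj (funext fun g => ?_)
  have h2 : X.tanCoc hs f φ g * curveRes X.C X.hΔ g = 0 := Matrix.ext fun i j => by
    rw [← hl.apply_snd]
    exact (congrArg TrivSqZeroExt.snd
      (congrFun (congrFun (DFunLike.congr_fun heq g) i) j)).trans rfl
  have h3 := congrArg (· * curveRes X.C X.hΔ g⁻¹) h2
  simpa only [mul_assoc, rep_mul_inv, mul_one, zero_mul, Pi.zero_apply] using h3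

end Ctx

variable {X : Ctx p}

/-- The values of a pinned lift at `p`. -/
lemma pValues_of_coordQ (hord : X.localCase = .ordinary) {Q : Finset ℕ} {B : Type} [CommRing B]
    [Algebra X.C.O B] (ψ : (X.DQ Q).UR →ₐ[X.C.O] B)
    (hz : ∀ v i, ψ (X.coordQ Q v i) = 0) :
    X.frobQuot (mapRep (ψ : (X.DQ Q).UR →+* B) (X.DQ Q).univMat) =
        algebraMap X.C.O B (multSign X.W p : X.C.O) ∧
      X.tauTrace (mapRep (ψ : (X.DQ Q).UR →+* B) (X.DQ Q).univMat) = 0 := by
  let v : X.Nu := ⟨p, X.p_mem_raised_iff.mpr hord⟩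
  have h0 := hz v 0
  have h1 := hz v 1
  rw [X.coordQ_p Q (v := v) rfl] at h0 h1
  simp only [Ctx.pCoord, Matrix.cons_val_zero, Matrix.cons_val_one] at h0 h1
  rw [map_sub, AlgHom.commutes, X.frobQuot_map, sub_eq_zero] at h0
  rw [X.tauTrace_map] at h1
  exact ⟨h0, h1⟩

namespace Ctx

variable (X)

/-- The allowance of a prime in the tangent bound. -/
private def allowance (q : ℕ) : ℕ :=
  (if q ∈ X.frames then X.fixDim q else 0) + if q ∈ X.raised then 1 else 0

/-- The allowances add up to the fixed dimensions at the frames and the raised primes. -/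
private lemma sum_allowance :
    ∑ v ∈ X.ramSet.subtype Nat.Prime, X.allowance v =
      (∑ v : X.Sigma, X.fixDim v.1) + Fintype.card X.Nu := by
  refine (Finset.sum_subtype_eq_sum_filter (s := X.ramSet) (p := Nat.Prime) X.allowance).trans ?_
  rw [Finset.filter_true_of_mem fun q hq => X.prime_of_mem_ramSet hq]
  simp only [allowance, Finset.sum_add_distrib, Finset.sum_ite_mem,
    Finset.inter_eq_right.mpr X.frames_subset_ramSet,
    Finset.inter_eq_right.mpr X.raised_subset_ramSet, Finset.sum_const, smul_eq_mul, mul_one]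
  rw [Finset.sum_coe_sort X.frames X.fixDim, Fintype.card_coe]

variable {X} {Q : Finset ℕ} {R' : Type} [CommRing R'] [IsLocalRing R'] [Algebra X.C.O R']

/-- A quotient of the universal ring is local over the base with the same residue field. -/
private lemma residue_surjective_of_quotient {f : (X.DQ Q).UR →ₐ[X.C.O] R'}
    (hsurj : Function.Surjective f) :
    IsLocalHom (algebraMap X.C.O R') ∧
      Function.Surjective (residue R' ∘ algebraMap X.C.O R') ∧
      ∀ x ∈ maximalIdeal (X.DQ Q).UR, f x ∈ maximalIdeal R' := by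
  have : IsLocalHom (f : (X.DQ Q).UR →+* R') := IsLocalHom.of_surjective _ hsurj
  have hf : ∀ x ∈ maximalIdeal (X.DQ Q).UR, f x ∈ maximalIdeal R' := fun x hx =>
    map_nonunit (f : (X.DQ Q).UR →+* R') x hx
  refine ⟨⟨fun o ho => ?_⟩, fun y => ?_, hf⟩
  · rw [← f.commutes] at ho
    exact isUnit_of_map_unit (algebraMap X.C.O (X.DQ Q).UR) o
      (IsLocalHom.map_nonunit (f := (f : (X.DQ Q).UR →+* R')) _ ho)
  · obtain ⟨x, rfl⟩ := residue_surjective y
    obtain ⟨x, rfl⟩ := hsurj x
    obtain ⟨o, ho⟩ := (X.DQ Q).residue_surjective_UR (residue _ x)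
    refine ⟨o, ?_⟩
    rw [Function.comp_apply] at ho ⊢
    rw [← sub_eq_zero, ← map_sub, residue_eq_zero_iff] at ho ⊢
    have := hf _ ho
    rwa [map_sub, AlgHom.commutes] at this

variable [IsLocalHom (algebraMap X.C.O R')]
  (hs : Function.Surjective (residue R' ∘ algebraMap X.C.O R')) (f : (X.DQ Q).UR →ₐ[X.C.O] R')

/-- The cocycles of the tangent vectors trivial at the framed sites. -/
private def tanSpace : Submodule (ResidueField X.C.O) (GQ → M22 (ResidueField X.C.O)) where
  carrier := Set.range fun φ : tanLoc (Raise.pushRep f (X.DQ Q).univMat) X.frameSite X.C.ϖ =>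
    X.tanCoc hs f φ.1
  zero_mem' := ⟨0, tanCocycle_zero hs _⟩
  add_mem' := fun {a b} ⟨φ, hφ⟩ ⟨φ', hφ'⟩ => ⟨φ + φ', by
    rw [← hφ, ← hφ']; exact tanCocycle_functional_add hs φ.1 φ'.1 _⟩
  smul_mem' := fun a b ⟨φ, hφ⟩ => ⟨iotaRes (𝒪 := X.C.O) R' a • φ, by
    rw [← hφ]
    refine (tanCocycle_smul hs _ _ _).trans ?_
    rw [toBaseRes_iotaRes]; rfl⟩

variable {f} (hf : ∀ x ∈ maximalIdeal (X.DQ Q).UR, f x ∈ maximalIdeal R')

include hf in
/-- The tangent vectors inject into their cocycles. -/
private lemma finrank_tanLoc_le (hsurj : Function.Surjective f) :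
    Finite (tanSpace hs f) ∧
      Module.finrank (ResidueField R') (tanLoc (Raise.pushRep f (X.DQ Q).univMat) X.frameSite
        X.C.ϖ) ≤ Module.finrank (ResidueField X.C.O) (tanSpace hs f) := by
  set T := tanLoc (Raise.pushRep f (X.DQ Q).univMat) X.frameSite X.C.ϖ
  have : Finite (ResidueField X.C.O) := inferInstance
  have hbij : Function.Bijective (iotaRes (𝒪 := X.C.O) R') := iotaRes_bijective hs
  have : Finite (ResidueField R') := Finite.of_surjective _ hbij.2
  have hK : Nat.card (ResidueField R') = Nat.card (ResidueField X.C.O) :=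
    (Nat.card_congr (Equiv.ofBijective _ hbij)).symm
  have hTinj : ∀ a b : T, X.tanCoc hs f a.1 = X.tanCoc hs f b.1 → a = b := fun a b hab => by
    refine sub_eq_zero.mp (Subtype.ext (X.eq_zero_of_tanCoc hs hf hsurj ?_))
    have h3 : X.tanCoc hs f ((a - b).1 + b.1) = X.tanCoc hs f (a - b).1 + X.tanCoc hs f b.1 :=
      tanCocycle_functional_add hs _ _ _
    rw [show (a - b).1 + b.1 = a.1 from sub_add_cancel a.1 b.1, hab] at h3
    exact right_eq_add.mp h3
  have : IsNoetherianRing R' := isNoetherianRing_of_surjective _ _ (f : (X.DQ Q).UR →+* R') hsurj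
  have : Finite T := Module.finite_of_finite (ResidueField R')
  have hfin : Finite (tanSpace hs f) :=
    Finite.of_surjective (fun φ : T => (⟨_, φ, rfl⟩ : tanSpace hs f))
      fun ⟨x, φ, hφ⟩ => ⟨φ, Subtype.ext hφ⟩
  exact ⟨hfin, finrank_le_of_injective_of_card hK (φ := fun φ : T => (⟨_, φ, rfl⟩ : tanSpace hs f))
    fun a b h => hTinj a b (congrArg Subtype.val h)⟩

include hf in
/-- No nonzero cocycle of a tangent vector is a coboundary. -/
private lemma finrank_tanSpace_inf_cob (hsurj : Function.Surjective f) :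
    Module.finrank (ResidueField X.C.O) (tanSpace hs f ⊓ locCob (curveRes X.C X.hΔ) ⊤ :
      Submodule (ResidueField X.C.O) (GQ → M22 (ResidueField X.C.O))) = 0 := by
  have hbot : (tanSpace hs f ⊓ locCob (curveRes X.C X.hΔ) ⊤ :
      Submodule (ResidueField X.C.O) (GQ → M22 (ResidueField X.C.O))) = ⊥ := by
    rw [eq_bot_iff]
    rintro _ ⟨⟨φ, rfl⟩, e, he⟩
    have h0 : φ.1 = 0 := X.eq_zero_of_tanCoc_cob hs hf hsurj fun g => he g (Subgroup.mem_top g)
    rw [Submodule.mem_bot]
    obtain ⟨ψ, hψ⟩ := (tanSpace hs f).zero_mem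
    have h1 : X.tanCoc hs f ψ.1 = 0 := hψ
    have h2 : ψ.1 = 0 := X.eq_zero_of_tanCoc hs hf hsurj h1
    show X.tanCoc hs f φ.1 = 0
    rw [h0, ← h2, h1]
  rw [hbot, finrank_bot]

include hf in
/-- At a framed site the tangent cocycles are coboundaries on the decomposition group. -/
private lemma tanSpace_le_locCob_frame (hsurj : Function.Surjective f) {v : Nat.Primes}
    (hvp : (v : ℕ) ≠ p) (hvf : (v : ℕ) ∈ X.frames) :
    haveI : Fact (v : ℕ).Prime := ⟨v.2⟩
    tanSpace hs f ≤ locCob (curveRes X.C X.hΔ)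
      ((padicPlace (v : ℕ)).decompositionSubgroup ℚ) := by
  have hlift := fun φ => X.isTanLift_tanMap hs hf φ
  have : Fact (v : ℕ).Prime := ⟨v.2⟩
  obtain ⟨hq0, -, -, -, hfr⟩ := X.mem_frames.mp hvf
  have : IsLocalHom (f : (X.DQ Q).UR →+* R') := IsLocalHom.of_surjective _ hsurj
  let w : X.Sigma := ⟨v, hvf⟩
  obtain ⟨P, hPl, hF, hτ⟩ := (X.frameSite_spec w).place
  have hr : ∀ σ ∈ P.inertiaSubgroupIn ℚ, curveRes X.C X.hΔ σ = 1 := fun σ hσ =>
    curveRes_inertia_eq_one hfr.2.1 hPl hσ
  rintro _ ⟨φ, rfl⟩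
  have hres : HasResidual (curveRes X.C X.hΔ) (Raise.pushRep f (X.DQ Q).univMat) :=
    (X.DQ Q).univMat_residual.map f
  obtain ⟨hc1, hc2⟩ := tanCocycle_site hs X.C.max_eq φ.1 (Raise.pushRep f (X.DQ Q).univMat)
    (residualShape_of_frameAt (q := fun u : X.Sigma => u.1) X.frameSite_spec hres) φ.2 w
  rw [X.pushRep_resK hs hf, X.pushRep_resK hs hf] at hc1
  obtain ⟨gg, hD, -⟩ := conj_mem_groups hq0 hPl (liesOverPrime_padicPlace (q := (v : ℕ)))
  exact locCob_conj (hlift φ.1).mem gg hD
    ((hlift φ.1).locCob_frame hq0 hvp hPl hr hF hτ hc1 hc2)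

include hf in
/-- The local condition satisfied by the tangent cocycles at a prime of the ramification set. -/
private lemma tanSpace_local_condition [Module.Finite (ResidueField X.C.O) (tanSpace hs f)]
    (hsurj : Function.Surjective f) (hz : ∀ v i, f (X.coordQ Q v i) = 0)
    (v : Nat.Primes)
    (hvR : (v : ℕ) ∈ X.ramSet) :
    haveI : Fact (v : ℕ).Prime := ⟨v.2⟩
    (X.allowance v = 0 ∧ ∀ c ∈ tanSpace hs f, ∃ e : M22 (ResidueField X.C.O),
        ∀ τ ∈ (padicPlace (v : ℕ)).inertiaSubgroupIn ℚ,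
          c τ = curveRes X.C X.hΔ τ * e * curveRes X.C X.hΔ τ⁻¹ - e) ∨
      Module.finrank (ResidueField X.C.O) (tanSpace hs f) + X.allowance v ≤
        Module.finrank (ResidueField X.C.O)
            (tanSpace hs f ⊓ locCob (curveRes X.C X.hΔ)
              ((padicPlace (v : ℕ)).decompositionSubgroup ℚ) :
              Submodule (ResidueField X.C.O) (GQ → M22 (ResidueField X.C.O))) +
          Module.finrank (ResidueField X.C.O)
            (locFix (curveRes X.C X.hΔ) ((padicPlace (v : ℕ)).decompositionSubgroup ℚ)) +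
          if v = ExtCitation.pPrime p then 1 else 0 := by
  have hlift := fun φ => X.isTanLift_tanMap hs hf φ
  have hzψ : ∀ φ (v : X.Nu) i, X.tanMap hs f φ (X.coordQ Q v i) = 0 := fun φ v i => by
    show tanHom hs X.C.max_eq φ (f (X.coordQ Q v i)) = 0
    rw [hz v i, map_zero]
  have : Fact (v : ℕ).Prime := ⟨v.2⟩
  have : IsLocalHom (f : (X.DQ Q).UR →+* R') := IsLocalHom.of_surjective _ hsurj
  by_cases hvp : (v : ℕ) = p
  · refine Or.inr ?_
    have hv' : v = ExtCitation.pPrime p := Subtype.ext hvp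
    subst hv'
    rw [if_pos rfl]
    have hnf : p ∉ X.frames := fun h => (X.mem_frames.mp h).2.2.1 rfl
    have ha : X.allowance p = X.localCase.ordCount := by
      simp only [allowance, if_neg hnf, zero_add, X.p_mem_raised_iff]
      cases X.localCase <;> simp [LocalCase.ordCount]
    show Module.finrank _ (tanSpace hs f) + X.allowance p ≤ _
    rw [ha]
    refine X.localBoundP _ ?_ ?_ ?_ <;> rintro _ ⟨φ, rfl⟩
    · exact (hlift φ.1).mem
    · obtain ⟨L, hL, h⟩ := (hlift φ.1).coc_continuous
      exact ⟨L, hL, fun σ hσ => (h σ hσ).2⟩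
    · obtain ⟨h1, -, -, h4⟩ := liftMatCond_iff.mp (hlift φ.1).cond
      exact ⟨_, (hlift φ.1).cont, (hlift φ.1).entries, h1, h4,
        fun hord => pValues_of_coordQ hord _ (hzψ φ.1)⟩
  · have hne : v ≠ ExtCitation.pPrime p := fun h => hvp (congrArg Subtype.val h)
    rw [if_neg hne, add_zero]
    by_cases hvf : (v : ℕ) ∈ X.frames
    · refine Or.inr ?_
      obtain ⟨-, hqM, -, -, -⟩ := X.mem_frames.mp hvf
      have hnr : (v : ℕ) ∉ X.raised := fun h => (X.mem_raised.mp h).2.2 hqM
      simp only [allowance, if_pos hvf, if_neg hnr, add_zero, X.fixDim_eq]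
      rw [inf_eq_left.mpr (tanSpace_le_locCob_frame hs hf hsurj hvp hvf)]
    · by_cases hvr : (v : ℕ) ∈ X.raised
      · refine Or.inr ?_
        simp only [allowance, if_neg hvf, if_pos hvr, zero_add]
        refine X.finrank_add_one_le_raised (Q := Q) ⟨v, hvr⟩ hvp ?_
        rintro _ ⟨φ, rfl⟩
        exact ⟨_, X.tanMap hs f φ.1, hlift φ.1, fun g => rfl, fun i => by
          have := hzψ φ.1 ⟨v, hvr⟩ i
          rwa [X.coordQ_tame Q (v := (⟨v, hvr⟩ : X.Nu)) hvp] at this⟩
      · refine Or.inl ⟨by simp [allowance, hvf, hvr], ?_⟩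
        rintro _ ⟨φ, rfl⟩
        exact X.cob_inertia_of_traceSet (hlift φ.1)
          (X.mem_traceSet_of_mem_ramSet hvR hvp hvf hvr)

include hs in
/-- The centraliser at a framed site is at most one more than the fixed elements. -/
private lemma finrank_siteCent_le (v : X.Sigma) :
    Module.finrank (ResidueField R') (siteCent (R := R') X.frameSite v) ≤ X.fixDim v.1 + 1 := by
  refine le_trans ?_ (X.finrank_commutant_frame v)
  have hbij : Function.Bijective (iotaRes (𝒪 := X.C.O) R') := iotaRes_bijective hs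
  have : Finite (ResidueField R') := Finite.of_surjective _ hbij.2
  have hK : Nat.card (ResidueField R') = Nat.card (ResidueField X.C.O) :=
    (Nat.card_congr (Equiv.ofBijective _ hbij)).symm
  set k := ResidueField X.C.O
  set F : M22 k := (↑(X.frameSite v).frame : Matrix (Fin 2) (Fin 2) X.C.O).map (residue X.C.O)
  set F' : M22 k :=
    (↑(X.frameSite v).frame⁻¹ : Matrix (Fin 2) (Fin 2) X.C.O).map (residue X.C.O)
  have hFF : F * F' = 1 ∧ F' * F = 1 := by
    constructor <;>
    · simp only [F, F', ← Matrix.map_mul, Units.mul_inv, Units.inv_mul]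
      exact Matrix.map_one _ (map_zero _) (map_one _)
  have hshape := (X.frameSite_spec v).frob
  set r := curveRes X.C X.hΔ (X.frameSite v).frob
  have hS : (resShape (R := R') X.frameSite v).map (toBaseRes hs) = F' * r * F := by
    rw [hshape]
    ext i j
    simp [resShape, toBaseRes_residue, ResidueField.algebraMap_eq]
  have hrF : r * F = F * (F' * r * F) := by
    simp only [← mul_assoc, hFF.1, one_mul]
  have : Finite (M22 k) := inferInstanceAs (Finite (Fin 2 → Fin 2 → k))
  have : Finite (commutant r) := inferInstance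
  refine finrank_le_of_injective_of_card hK
    (φ := fun e : siteCent (R := R') X.frameSite v =>
      (⟨F * e.1.map (toBaseRes hs) * F', ?_⟩ : commutant r)) fun a b h => Subtype.ext ?_
  · have he : e.1 * resShape (R := R') X.frameSite v = resShape (R := R') X.frameSite v * e.1 :=
      e.2
    have he' := congrArg (fun Y => Y.map (toBaseRes hs)) he
    simp only [Matrix.map_mul, hS] at he'
    show r * _ = _ * r
    calc r * (F * e.1.map (toBaseRes hs) * F')
        = F * ((F' * r * F) * e.1.map (toBaseRes hs)) * F' := by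
          rw [← mul_assoc r, ← mul_assoc r, hrF]; simp only [mul_assoc]
      _ = F * (e.1.map (toBaseRes hs) * (F' * r * F)) * F' := by rw [he']
      _ = F * e.1.map (toBaseRes hs) * (F' * r) := by simp only [mul_assoc, hFF.1, mul_one]
      _ = _ := by simp only [mul_assoc]
  · have h1 : F * a.1.map (toBaseRes hs) * F' = F * b.1.map (toBaseRes hs) * F' :=
      congrArg Subtype.val h
    have h2 := congrArg (fun Y => F' * Y * F) h1
    simp only [← mul_assoc, hFF.2, one_mul] at h2
    simp only [mul_assoc, hFF.2, mul_one] at h2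
    exact Matrix.map_injective (toBaseRes_injective hs) h2

variable (X)

/-- **Taylor-Wiles primes with the tangent bound.** -/
theorem exists_tangentBound : ∃ m₀ : ℕ, ∀ m : ℕ, m₀ ≤ m →
    ∀ (n : ℕ) (avoid : Finset ℕ), ∃ qv : Fin m → ℕ, Function.Injective qv ∧
      (∀ i, (qv i).Prime ∧ qv i ∉ avoid ∧ qv i ∉ X.ramSet ∧ p ^ (n + 1) ∣ qv i - 1 ∧
        ∃ (P : ValuationSubring Qbar) (φ : GQ), P.LiesOverPrime (qv i) ∧
          P.IsFrobeniusAt φ (qv i) ∧ (curveRes X.C X.hΔ φ).trace ^ 2 ≠ 4 ∧ chiQ p φ = 1) ∧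
      ∀ g : ℕ, m + Fintype.card X.Sigma ≤ g + 1 + Fintype.card X.Nu →
        Raise.TangentBound (X.DQ (Finset.univ.image qv)).univMat X.frameSite
          (X.coordQ (Finset.univ.image qv)) X.C.ϖ g := by
  let := charP_residue X.C
  have D := X.resDatum
  let S₀ : Finset Nat.Primes := X.ramSet.subtype Nat.Prime
  have hS₀ : ∀ v : Nat.Primes, v ∈ S₀ ↔ (v : ℕ) ∈ X.ramSet := fun v => Finset.mem_subtype
  have hpS : ExtCitation.pPrime p ∈ S₀ := (hS₀ _).mpr (Finset.mem_insert_self _ _)
  obtain ⟨U, hUn, hU, hker, hle⟩ := D.exists_level (S := S₀) exists_level_curveRes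
    fun q hq A hA τ hτ => curveRes_inertia_eq_one
      (X.unramAt_of_notMem q.2 fun h => hq ((hS₀ q).mpr h)) hA hτ
  obtain ⟨m₀, hm₀⟩ := D.exists_twPrimes_ge hUn hU hker hle hpS
  refine ⟨m₀, fun m hm n avoid => ?_⟩
  obtain ⟨qv, hinj, hgood, hbound⟩ := hm₀ m hm n avoid
  refine ⟨fun i => (qv i : ℕ), fun i j h => hinj (Subtype.ext h),
    fun i => ⟨(qv i).2, (hgood i).1, fun h => (hgood i).2.1 ((hS₀ _).mpr h), (hgood i).2.2.1, ?_⟩,
    ?_⟩
  · obtain ⟨φ, hφ⟩ := (hgood i).2.2.2
    have : Fact (qv i : ℕ).Prime := ⟨(qv i).2⟩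
    exact ⟨_, φ, liesOverPrime_padicPlace, hφ⟩
  intro g hg
  set Q : Finset ℕ := Finset.univ.image fun i => (qv i : ℕ)
  intro R' _ _ _ f hsurj hz
  obtain ⟨_, hs, hf⟩ := residue_surjective_of_quotient hsurj
  obtain ⟨_, hTV⟩ := finrank_tanLoc_le hs hf hsurj
  have : Module.Finite (ResidueField X.C.O) (tanSpace hs f) := Module.Finite.of_finite
  have hmain := hbound (tanSpace hs f) (fun v => X.allowance v)
    (by rintro _ ⟨φ, rfl⟩; exact (X.isTanLift_tanMap hs hf φ.1).mem)
    (by
      rintro _ ⟨φ, rfl⟩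
      obtain ⟨L, hL, h⟩ := (X.isTanLift_tanMap hs hf φ.1).coc_continuous
      exact ⟨L, hL, fun σ hσ => (h σ hσ).2⟩)
    (by
      rintro _ ⟨φ, rfl⟩ q hq hqv A hA τ hτ
      refine (X.isTanLift_tanMap hs hf φ.1).coc_unram q.2 (fun h => ?_) hA hτ
      rcases Finset.mem_union.mp h with h | h
      · exact hq ((hS₀ q).mpr h)
      · obtain ⟨i, -, hi⟩ := Finset.mem_image.mp h
        exact hqv i (Subtype.ext hi))
    fun v hv => tanSpace_local_condition hs hf hsurj hz v ((hS₀ v).mp hv)
  rw [finrank_tanSpace_inf_cob hs hf hsurj, zero_add] at hmain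
  have h1 : Module.finrank (ResidueField X.C.O) (tanSpace hs f) +
      ((∑ v : X.Sigma, X.fixDim v.1) + Fintype.card X.Nu) ≤ m := X.sum_allowance ▸ hmain
  have h2 := Finset.sum_le_sum fun v (_ : v ∈ (Finset.univ : Finset X.Sigma)) =>
    finrank_siteCent_le hs v
  rw [Finset.sum_add_distrib, Finset.sum_const, smul_eq_mul, mul_one, Finset.card_univ] at h2
  omega

end Ctx

end FermatAgent.Lifting

end
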