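import Fermat.Agent.Lifting.AuxData
import Fermat.Agent.Lifting.TangentMain
import Fermat.Agent.Lifting.SitesAll
import Fermat.Agent.Lifting.BaseRepOf
import Fermat.Agent.Lifting.Nontrivial
import Fermat.Agent.Lifting.Endgame
import Fermat.Agent.Lifting.LowerSeedOf
import Fermat.Agent.RT.Ladder.NewBase
import Fermat.Agent.RT.Raise.FamilyMain

/-!
# The family of levels of raising of a seed and its two supports

Taylor-Wiles primes of every depth give levels of raising over the base ring of a seed; the point of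
the curve then lies in the support of the top level, and some prime of characteristic zero of the
support of the level of the seed is unramified at all framed primes, which gives a residual level
without framed primes.
-/

set_option autoImplicit false

noncomputable section

open IsLocalRing GaloisRep FermatAgent.GaloisBasic WeierstrassCurve
open scoped Classical

namespace FermatAgent.Lifting

open RT Assembly

attribute [local instance] dualAlgebra

local notation "GQ" => AlgebraicClosure ℚ ≃ₐ[ℚ] AlgebraicClosure ℚ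

namespace Ctx

variable {p : ℕ} [hp : Fact p.Prime] (X : Ctx p)

seal DiamondDatum.sideAction DiamondDatum.spec RT.Ladder.AuxPrimes.datum in
/-- **The family of levels of raising**: for some `r` and every `n` there are `r` Taylor–Wiles
primes of depth `n` whose levels, with all sets of raised primes, are levels of raising over the
universal ring of the seed, new at the raised primes. -/
theorem exists_family :
    ∃ (r g : ℕ) (rk : Finset X.Nu → ℕ)
      (b₀ : ∀ A, Module.Basis (Fin (rk A)) X.C.O (X.raiseBase.Triv A))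
      (ρ₀ : ∀ A, X.D.UR →ₐ[X.C.O] Matrix (Fin (rk A)) (Fin (rk A)) X.C.O)
      (rkK : Finset X.Nu → X.Nu → ℕ)
      (ρK : ∀ A v, X.D.UR →ₐ[X.C.O] Matrix (Fin (rkK A v)) (Fin (rkK A v)) X.C.O)
      (L : ∀ n, Raise.RaiseLevel X.C.ϖ X.C.half X.C.ζ X.C.ζ' X.frameSite (fun v : X.Sigma => v.1)
        X.coordSite g r X.D.univMat X.coordBase ρ₀ ρK (fun _ v => X.tauAt v) n),
      g + Fintype.card X.Nu + 1 = r + Fintype.card X.Sigma ∧ 0 < rk ∅ ∧
        X.raiseBase.BaseRep X.D.univMat b₀ ρ₀ ∧ Raise.NewAt L := by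
  obtain ⟨m₀, hm₀⟩ := X.exists_tangentBound
  set r := max m₀ (Fintype.card X.Nu + 1)
  set g := r + Fintype.card X.Sigma - (Fintype.card X.Nu + 1) with hgdef
  have hr : Fintype.card X.Nu + 1 ≤ r := le_max_right _ _
  have hg : g + Fintype.card X.Nu + 1 = r + Fintype.card X.Sigma := by omega
  choose qv hinj hgood htan using fun n => hm₀ r (le_max_left _ _) n ∅
  let Q : ℕ → Finset ℕ := fun n => Finset.univ.image (qv n)
  have hK : ∀ n, Nonempty (X.AuxPack (Q n) r n) := fun n =>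
    X.exists_auxPack (qv n) (hinj n) fun i => by
      obtain ⟨h1, -, h2, h3, P, φ, h4, h5, h6, -⟩ := hgood n i
      exact ⟨h1, h2, h3, P, φ, h4, h5, h6⟩
  let K := fun n => (hK n).some
  have : ∀ n, NeZero (K n).N := fun n => (K n).neN
  have hw := X.raiseBase_witness
  obtain ⟨rk, b₀, hrk⟩ := hw.exists_baseBasis X.raiseBase_criteria X.nontrivial_base
  obtain ⟨ρ₀, hρ₀⟩ := X.exists_baseRep_all hrk b₀
  choose b hb using fun n A => (K n).T.exists_basis A (b₀ A)
  have hτ : X.localCase = .ordinary → curveRes X.C X.hΔ X.pTau = 1 := X.curveRes_pTau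
  have h₀ : ∀ n, Raise.BasePoint (X.DQ (Q n)) X.D.univMat := fun n =>
    ⟨X.D.residue_surjective_UR, X.D.univMat_continuous, X.base_residual (Q n), X.base_normal (Q n),
      univMat_dense X.D, fun k _ hc => X.base_cond (Q n) k hc⟩
  let Z : ∀ n, Raise.SiteCoords (X.DQ (Q n)) X.D.univMat X.C.ϖ X.frameSite
      (fun v : X.Sigma => v.1) X.coordBase g := fun n =>
    ⟨X.coordQ (Q n), X.coordQ_mem hτ (Q n), X.coordQ_map (Q n), htan n g (by omega),
      X.det_frame (Q n), X.det_frame_inert (Q n), X.tame_frame (Q n)⟩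
  let S : ∀ n, (K n).T.TameSel (X.DQ (Q n)) := fun n =>
    ⟨X.auxSel r, (K n).aux, (K n).hu, X.one_lt_auxModuli r n, (K n).hrel⟩
  let W : ∀ n, DiamondDatum.SiteWeights (S n).sel (X.auxModuli r n) X.Sigma X.C.ϖ X.C.ζ := fun n =>
    ⟨Sum.inr, X.inr_notMem_auxSel r, X.auxWeight r, fun i _ => X.auxWeight_pow r n i,
      fun i _ => X.dvd_auxWeight r i, fun _ => rfl⟩
  have hd : ∀ n k (_ : k ≤ n) (j : {j // j ∈ X.auxSel r}), p ^ (k + 1) ≤ X.auxModuli r n j.1 :=
    fun n k hk j => RT.Ladder.depth_le hp.out (X.depth_auxModuli r n j) hk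
  obtain ⟨rkK, ρK, St, hρK, -, hL⟩ := RT.Ladder.exists_raiseLevels_of_modules
    (p := p) (κ := fun _ => Fin r ⊕ X.Sigma) (m := fun n => X.auxModuli r n)
    (N := fun n => (K n).N) (D := fun n => X.DQ (Q n)) (σ := X.Sigma)
    (half := X.C.half) X.C.zeta_mul
    complexConjugation_mul_self (fun n => X.trace_univMatQ_complexConjugation (Q n))
    (fun n => (K n).T) (fun n => X.residualFactsQ (Q n)) hrk b₀ b hb
    (fun n => X.auxCriteria (K n).T) h₀ X.base_det ρ₀ hρ₀ S (fun n => (K n).unr₀) W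
    (fun n => (K n).site_u)
    (fun v => by
      obtain ⟨P, hP, -, hI⟩ := (X.frameSite_spec v).place
      exact ES.padCyclo_inertia p (X.mem_frames.mp v.2).1 (X.mem_frames.mp v.2).2.2.1 hP hI.mem)
    (fun n => (K n).site_rel) (fun _ => X.auxEquiv r) (fun n => X.depth_auxModuli r n)
    (d' := X.coordSite) Z (fun _ v => X.tauAt v)
    (fun n A v => X.tauOp (K n).T (Q n) (b n) hrk A v)
    (fun n A v hv r' hr' hrr => X.tauOp_unit (K n).T (Q n) (b n) hrk hv r' hr' hrr)
    (fun n k hk => {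
      side := X.condAt_side (K n).T (Q n) (b n) hrk (K n).hu (X.one_lt_auxModuli r n)
        (K n).hrel (X.auxEquiv r) (hd n k hk) (fun _ => 1) (fun _ _ => one_pow _) 
        (K n).facts
      sideχ := X.condAt_side (K n).T (Q n) (b n) hrk (K n).hu (X.one_lt_auxModuli r n)
        (K n).hrel (X.auxEquiv r) (hd n k hk) (X.auxWeight r) (fun i _ => X.auxWeight_pow r n i)
        (K n).facts ∅
      eqs := X.sites_eqs (K n).T (Q n) (b n) hrk (K n).hu (X.one_lt_auxModuli r n) (K n).hrel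
        (X.auxEquiv r) (hd n k hk) (fun _ => 1) (fun _ _ => one_pow _) hτ
      unram := X.sites_unram (K n).T (Q n) (b n) hrk (K n).hu (X.one_lt_auxModuli r n) (K n).hrel
        (X.auxEquiv r) (hd n k hk) (fun _ => 1) (fun _ _ => one_pow _) (K n).facts
      unramχ := X.sites_unram (K n).T (Q n) (b n) hrk (K n).hu (X.one_lt_auxModuli r n) (K n).hrel
        (X.auxEquiv r) (hd n k hk) (X.auxWeight r) (fun i _ => X.auxWeight_pow r n i) 
        (K n).facts })
    (fun n k hk A v hv => X.sites_tau (K n).T (Q n) (b n) hrk (K n).hu (X.one_lt_auxModuli r n)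
      (K n).hrel (X.auxEquiv r) (hd n k hk) (fun _ => 1) (fun _ _ => one_pow _) hτ 
      (K n).facts hv)
  refine ⟨r, g, rk, b₀, ρ₀, rkK, ρK, fun n => (hL n).some, hg, hrk ∅, hρ₀, fun A v h => Or.inl ?_⟩
  intro y hy hyA hyK hy0 _
  exact hw.ker_cokernel_not_le X.raiseBase_criteria b₀ X.D.univMat ρ₀ hρ₀ h (St A v h) y hyA
    (hρK A v h ▸ hyK) hy0

lemma zeta_pow_frame {z : X.C.O} (hz : z ^ p = 1) (v : X.Sigma) : z ^ v.1 = z := by
  have h1 : v.1 % p = 1 := by
    have h := congrArg ZMod.val (X.mem_frames.mp v.2).2.2.2.2.1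
    rwa [ZMod.val_natCast, ZMod.val_one] at h
  rw [pow_eq_pow_mod _ hz, h1, pow_one]

lemma natCast_frame_ne_one (v : X.Sigma) : (v.1 : X.C.O) ≠ 1 := fun h =>
  (X.mem_frames.mp v.2).1.ne_one (Nat.cast_eq_one.mp h)

lemma algebraMap_ϖ_mem : algebraMap X.C.O X.D.UR X.C.ϖ ∈ maximalIdeal X.D.UR :=
  map_nonunit (algebraMap X.C.O X.D.UR) _ (X.C.max_eq ▸ Ideal.mem_span_singleton_self _)

lemma raiseParams :
    Raise.RaiseParams X.C.ϖ X.C.half X.C.ζ X.C.ζ' X.C.J X.C.r₂ X.frameSite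
      (fun v : X.Sigma => v.1) X.D.univMat where
  max_eq := X.C.max_eq
  two_half := X.C.two_half
  J_sq := X.C.J_sq
  zeta_ne := X.C.zeta_ne
  zeta_mul := X.C.zeta_mul
  r₂_mem := X.C.r₂_mem
  r₂_sq := X.C.r₂_sq
  sgn_sq v := (X.frameSite_spec v).sgn_sq
  q_residue := X.frames_residue
  q_ne_one := X.natCast_frame_ne_one
  zeta_pow := X.zeta_pow_frame X.C.zeta_pow
  zeta'_pow := X.zeta_pow_frame X.C.zeta'_pow
  ϖ_mem := X.algebraMap_ϖ_mem
  residual := residualShape_of_frameAt (q := fun v : X.Sigma => v.1) X.frameSite_spec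
    X.D.univMat_residual

lemma lvl_univ : X.raiseBase.lvl Finset.univ = X.topLevel := by
  show X.M * ∏ v : X.Nu, v.1 = _
  rw [Finset.prod_coe_sort X.raised fun q => q]

lemma aAt_univ : X.raiseBase.aAt Finset.univ = heckeVal X.C X.W X.raised := funext fun i => by
  by_cases hi : i.1.1 ∈ X.raised
  · rw [show i = X.raiseBase.site ⟨i.1.1, hi⟩ from Subtype.ext (Subtype.ext rfl),
      X.raiseBase.aAt_site (Finset.mem_univ _)]
    exact (heckeVal_mem X.C X.W (E := X.varLevel) hi).symm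
  · rw [X.raiseBase.aAt_of_notMem fun h => ?_]
    · exact (heckeVal_notMem X.C X.W (Finset.notMem_empty _)).trans
        (heckeVal_notMem X.C X.W hi).symm
    · obtain ⟨v, -, rfl⟩ := Finset.mem_map.mp h
      exact hi v.2

/-- **`R = T` with raising**: the point of the curve in the universal ring of the seed lies in the
support of the localised module of the top level, the seed's level times all raised primes. -/
theorem topSupport :
    ∃ (s : ℕ)
      (b : Module.Basis (Fin s) X.C.O (HM.TrivLoc (M := X.topLevel) (goodPr X.varLevel) X.topIdeal))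
      (ρ₀ : X.D.UR →ₐ[X.C.O] Matrix (Fin s) (Fin s) X.C.O),
      X.IsHeckeTrace b ρ₀ ∧
      ∀ (φ : X.D.UR →ₐ[X.C.O] X.C.O) (N : MatRep X.C.O), MatConj (curveMat X.C X.hΔ) N →
        (∀ x, (X.D.univMat x).map φ = N x) → RingHom.ker ρ₀ ≤ RingHom.ker φ := by
  obtain ⟨r, g, rk, b₀, ρ₀, rkK, ρK, L, hg, hrk, hρ₀, hnew⟩ := X.exists_family 
  have : Finite (ResidueField X.D.UR) :=
    Finite.of_surjective _ (iotaRes_bijective X.D.residue_surjective_UR).2
  have hdvd : ∀ i : GoodIdx X.varLevel, i.1.1 ∉ X.raised →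
      ¬ X.raiseBase.ell i ∣ X.raiseBase.lvl Finset.univ := fun i hi hd => by
    rw [X.lvl_univ] at hd
    exact ((X.prime_dvd_topLevel i.1.2).mp hd).elim (fun h => i.2 (h.trans X.dvd_varLevel)) hi
  have hker : ∀ (φ : X.D.UR →ₐ[X.C.O] X.C.O) (N : MatRep X.C.O),
      MatConj (curveMat X.C X.hΔ) N → (∀ x, (X.D.univMat x).map φ = N x) →
        RingHom.ker (ρ₀ Finset.univ) ≤ RingHom.ker φ := by
    intro φ N hN hφ
    have htau : ∀ (A : Finset X.Nu) (v : X.Nu) (P : RT.Pt (Fin 3) X.C.O), P.coords 0 = 0 →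
        X.tauAt v ∈ P.prime := fun A v P hP0 => X.tauAt_mem v P hP0
    have hA : ∀ v ∈ (Finset.univ : Finset X.Nu),
        φ (X.coordBase v 0) = 0 ∧ φ (X.coordBase v 2) = 0 := fun v _ => X.point_coordBase hN hφ v
    have hn : ∀ v, v ∉ (Finset.univ : Finset X.Nu) →
        φ (X.coordBase v 1) = 0 ∧ φ (X.coordBase v 2) = 0 := fun v hv =>
      absurd (Finset.mem_univ v) hv
    refine Raise.ker_le_ker_of_family X.raiseParams hg L htau hnew hrk Finset.univ φ
      (fun v => ?_) hA hn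
    obtain ⟨P, hPl, -, hI⟩ := (X.frameSite_spec v).place
    rw [X.choices.trace_point hN hφ, trace_curveMat,
      trace_tateMat_inertia X.hΔ X.semistable (X.mem_frames.mp v.2).1
        (X.mem_frames.mp v.2).2.2.1 hPl hI.mem, map_ofNat]
  suffices h : ∀ (M' : ℕ) (_ : NeZero M') (a' : GoodIdx X.varLevel → X.C.O),
      M' = X.raiseBase.lvl Finset.univ → a' = X.raiseBase.aAt Finset.univ →
      ∃ (s : ℕ) (b : Module.Basis (Fin s) X.C.O
          (HM.TrivLoc (M := M') (goodPr X.varLevel) (HM.resIdeal a')))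
        (ρ : X.D.UR →ₐ[X.C.O] Matrix (Fin s) (Fin s) X.C.O),
        X.IsHeckeTrace b ρ ∧
        ∀ (φ : X.D.UR →ₐ[X.C.O] X.C.O) (N : MatRep X.C.O), MatConj (curveMat X.C X.hΔ) N →
          (∀ x, (X.D.univMat x).map φ = N x) → RingHom.ker ρ ≤ RingHom.ker φ by
    exact h X.topLevel inferInstance _ X.lvl_univ.symm X.aAt_univ.symm
  intro M' _ a' hM ha
  subst hM ha
  exact ⟨rk Finset.univ, b₀ Finset.univ, ρ₀ Finset.univ,
    fun i hi hip P hPl σ hσ => hρ₀ Finset.univ i (hdvd i hi) hip P σ hPl hσ, hker⟩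

/-- **Lowering at the framed primes**: some prime of characteristic zero of the universal ring in
the support of the level of the seed has trivial inertia at all framed primes. -/
theorem baseSupport :
    ∃ (s : ℕ)
      (b : Module.Basis (Fin s) X.C.O (HM.TrivLoc (M := X.M) (goodPr X.varLevel) X.baseIdeal))
      (ρ₀ : X.D.UR →ₐ[X.C.O] Matrix (Fin s) (Fin s) X.C.O),
      X.IsHeckeTrace b ρ₀ ∧
      ∃ y : Ideal X.D.UR, y.IsPrime ∧ RingHom.ker ρ₀ ≤ y ∧
        (∀ a : X.C.O, a ≠ 0 → algebraMap X.C.O X.D.UR a ∉ y) ∧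
        ∀ (v : X.Sigma) (i j : Fin 2), X.D.univMat (X.frameSite v).inert i j -
          (1 : Matrix (Fin 2) (Fin 2) X.D.UR) i j ∈ y := by
  obtain ⟨r, g, rk, b₀, ρ₀, rkK, ρK, L, hg, hrk, hρ₀, hnew⟩ := X.exists_family 
  have : Finite (ResidueField X.D.UR) :=
    Finite.of_surjective _ (iotaRes_bijective X.D.residue_surjective_UR).2
  obtain ⟨y, hy, hker, hy0, hsite⟩ := Raise.exists_prime_of_family X.raiseParams
    hg L (fun A v P hP0 => X.tauAt_mem v P hP0) hnew hrk ∅ Finset.univ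
  suffices h : ∀ (M' : ℕ) (_ : NeZero M') (a' : GoodIdx X.varLevel → X.C.O),
      M' = X.raiseBase.lvl ∅ → a' = X.raiseBase.aAt ∅ →
      ∃ (s : ℕ) (b : Module.Basis (Fin s) X.C.O
          (HM.TrivLoc (M := M') (goodPr X.varLevel) (HM.resIdeal a')))
        (ρ : X.D.UR →ₐ[X.C.O] Matrix (Fin s) (Fin s) X.C.O),
        X.IsHeckeTrace b ρ ∧ RingHom.ker ρ ≤ y by
    obtain ⟨s, b, ρ, hρ, hk⟩ := h X.M inferInstance (heckeVal X.C X.W ∅)
      (show X.M = X.M * ∏ v ∈ (∅ : Finset X.Nu), v.1 by rw [Finset.prod_empty, mul_one])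
      (funext fun i => (X.raiseBase.aAt_of_notMem (by simp)).symm)
    exact ⟨s, b, ρ, hρ, y, hy, hk, hy0, fun v i j => hsite v (Finset.mem_univ v) i j⟩
  intro M' _ a' hM ha
  subst hM ha
  refine ⟨rk ∅, b₀ ∅, ρ₀ ∅, fun i hi hip P hPl σ hσ => hρ₀ ∅ i (fun hd => ?_) hip P σ hPl hσ, hker⟩
  rw [show X.raiseBase.lvl ∅ = X.M * 1 from rfl, mul_one] at hd
  exact i.2 (hd.trans X.dvd_varLevel)

/-- **A residual level without framed primes.** -/
theorem exists_level_without_frames :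
    ∃ N : ℕ, N ∣ X.M ∧ X.W.IsResiduallyModularOfLevel p N ∧ ∀ q ∈ X.frames, ¬ q ∣ N := by
  classical
  obtain ⟨s, b, ρ₀, hρ, y, hy, hker, hyO, hsite⟩ := X.baseSupport
  obtain ⟨i₀, hi₀, hne⟩ := exists_witness X.C X.hΔ X.idx X.varLevel_ne_zero ∅ X.M
  choose P hP using fun i : GoodIdx X.varLevel => exists_liesOverPrime i.1.2
  choose F hF using fun i : GoodIdx X.varLevel => exists_isFrobeniusAt i.1.2 (hP i)
  have hgood : ∀ ℓ : ℕ, ℓ.Prime → ℓ ∉ X.ramSet →
      ¬ ℓ ∣ X.varLevel ∧ ℓ ∉ X.raised ∧ ℓ ≠ p ∧ X.W.IsGoodPrimeFor ℓ := by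
    intro ℓ hℓ hS
    have hg := X.choices.good ℓ hℓ hS
    simp only [ramSet, Finset.mem_insert, Finset.mem_union, not_or] at hS
    have hℓM : ¬ ℓ ∣ X.M := fun hd =>
      hS.2.1 (Nat.mem_primeFactors.mpr ⟨hℓ, hd, NeZero.ne _⟩)
    refine ⟨fun hd => ?_, fun hr => (X.mem_raised.mp hr).2.1 hg, hS.1, hg⟩
    rw [varLevel] at hd
    split_ifs at hd
    · rcases hℓ.dvd_mul.mp hd with hd | hd
      · exact hS.1 ((Nat.prime_dvd_prime_iff_eq hℓ hp.out).mp hd)
      · exact hℓM hd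
    · exact hℓM hd
  obtain ⟨h'⟩ := nonempty_pointForm (O := X.C.O) (p := p) natCast_mem_maximalIdeal
    X.D.univMat_continuous (goodPr X.varLevel) X.baseIdeal i₀ hi₀ hne b ρ₀
    {i | i.1.1 ∉ X.raised ∧ i.1.1 ≠ p}
    (fun i => (X.D.univMat (F i)).trace)
    (fun i hi => hρ i hi.1 hi.2 _ (hP i) _ (hF i)) X.ramSet
    (fun ℓ hℓ hS A hA σ hσ => X.det_univMat_frobenius hℓ (hgood ℓ hℓ hS).2.2.1 hA hσ)
    (fun ℓ hℓ hS A hA σ hσ => by
      refine ⟨⟨⟨ℓ, hℓ⟩, (hgood ℓ hℓ hS).1⟩, ⟨(hgood ℓ hℓ hS).2.1, (hgood ℓ hℓ hS).2.2.1⟩, rfl, ?_⟩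
      exact X.trace_univMat_frobenius hℓ hS hA (hP _) hσ (hF _))
    y hker hyO
  exact exists_level_avoiding X.hΔ X.seed.sq h' X.span_univMat X.ramSet
    (fun ℓ hℓ hS hg A hA σ hσ => by
      rw [X.residue_trace_univMat,
        trace_curveRes_frobenius X.semistable hℓ (hgood ℓ hℓ hS).2.2.1 hA hσ,
        frobVal_good hg, map_intCast, map_intCast])
    X.frames fun q hq => by
      obtain ⟨P₁, hP₁, -, hτ⟩ := (X.frameSite_spec ⟨q, hq⟩).place
      exact ⟨(X.mem_frames.mp hq).1, (X.mem_frames.mp hq).2.2.1, P₁, _, hτ,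
        X.inertTrivial_univMat hq hP₁, hsite ⟨q, hq⟩⟩

end Ctx

/-- **Modularity lifting with level raising** (Wiles, Taylor–Wiles): an eigenform congruent modulo
`p` to a semistable curve, at a clean squarefree level, gives an eigenform of squarefree level with
the eigenvalues of the curve at the good primes outside it. -/
theorem raiseLift (W : WeierstrassCurve ℤ) (p M : ℕ)
    (g : CuspForm (CongruenceSubgroup.Gamma0 M) 2) (𝔪 : Ideal ZC) (hΔ : W.Δ ≠ 0)
    (hW : W.IsSemistableModel) (hp : p.Prime) (hp2 : p ≠ 2) (hirr : W.ModRepIsIrreducible p)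
    (hM : Squarefree M) (hc : Congr W p M g 𝔪)
    (hclean : CleanLevel W p M) :
    ∃ (M' : ℕ) (f : CuspForm (CongruenceSubgroup.Gamma0 M') 2), Squarefree M' ∧
      f.IsNormalizedEigenform ∧
      ∀ ℓ : ℕ, ℓ.Prime → W.IsGoodPrimeFor ℓ → ¬ ℓ ∣ M' → ℓ ≠ p →
        ModularFormClass.qCoeff f ℓ = (W.apOfModel ℓ : ℂ) := by
  have : Fact p.Prime := ⟨hp⟩
  obtain ⟨C⟩ := nonempty_coeff (p := p) hp2
  obtain ⟨S, -⟩ := exists_seed hΔ hW hp2 hirr hM ⟨g, 𝔪, hc⟩ hclean
  let X : Ctx p := ⟨W, C, hΔ, hW, hp2, hirr, S⟩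
  obtain ⟨s, b, ρ₀, hρ, hker⟩ := X.topSupport
  obtain ⟨φ, N, hN, hφ⟩ := X.choices.exists_point (C := C)
  obtain ⟨f, hf, hfa⟩ := X.exists_form_of_ker_le b ρ₀ hρ hN hφ (hker φ N hN hφ)
  exact ⟨X.topLevel, f, X.squarefree_topLevel, hf, hfa⟩

end FermatAgent.Lifting

end
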