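import Fermat.Agent.Lifting.MazurCoreMain

/-!
# Mazur's principle

The core of Mazur's principle (`mazurCore`) gives the principle (`mazurPrinciple`). At `p = 3` the
geometry needs a prime `r ≡ 2 (mod 3)` in the level prime to `q`. It is added by stabilisation and
removed afterwards, as a newform congruent to the curve avoids it.
-/

set_option autoImplicit false

noncomputable section

open WeierstrassCurve CuspForm ModularFormClass
open scoped WeierstrassCurve.Affine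

namespace FermatAgent.Lifting

open Assembly (ZC Congr UnramAt)

/-- **Mazur's principle**: an unramified prime `q ≢ 1 (mod p)`, `q ≠ p`, can be removed from a
squarefree residual level. -/
theorem mazurPrinciple (W : WeierstrassCurve ℤ) (p M q : ℕ) (hΔ : W.Δ ≠ 0)
    (hW : W.IsSemistableModel) (hp : p.Prime) (hp2 : p ≠ 2) (hirr : W.ModRepIsIrreducible p)
    (hM : Squarefree M) (hq : q.Prime) (hqp : q ≠ p) (hq1 : (q : ZMod p) ≠ 1) (hqM : q ∣ M)
    (hu : UnramAt W p q) (hres : W.IsResiduallyModularOfLevel p M) :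
    W.IsResiduallyModularOfLevel p (M / q) := by
  classical
  have := Fact.mk hp
  have hMq : Squarefree (M / q) := hM.squarefree_of_dvd (Nat.div_dvd_of_dvd hqM)
  obtain ⟨N, g, 𝔪, hNM, hnew, hcg⟩ := Assembly.exists_congr_newform hΔ hp hM hres
  by_cases hqN : q ∣ N
  swap
  · exact Assembly.residual_of_dvd ((Nat.Coprime.dvd_of_dvd_mul_left
      (hq.coprime_iff_not_dvd.mpr hqN).symm (by rwa [Nat.mul_div_cancel' hqM]))) hMq.ne_zero
      (Assembly.isResiduallyModularOfLevel_iff.mpr ⟨g, 𝔪, hcg⟩)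
  have hN : Squarefree N := hM.squarefree_of_dvd hNM
  have : NeZero N := ⟨hN.ne_zero⟩
  have hNq : N / q ∣ M / q := Nat.div_dvd_div hqN hNM
  suffices H : ∃ L, L ∣ M / q ∧ W.IsResiduallyModularOfLevel p L by
    obtain ⟨L, hL, h⟩ := H
    exact Assembly.residual_of_dvd hL hMq.ne_zero h
  by_cases h3 : p = 3
  swap
  · obtain ⟨L, hL, h⟩ :=
      mazurCore W p N q g 𝔪 hΔ hW hp hp2 hirr hN hq hqp hq1 hqN hu (fun h => absurd h h3) hcg
    exact ⟨L, hL.trans hNq, h⟩
  obtain ⟨r, hrM, hr3, haux⟩ := exists_auxPrime hp2 h3 hΔ hW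
    (Assembly.indexTwo W p hΔ hW hp hp2 hirr) M.primeFactors
  have hrP : r.Prime := haux.1
  have hrM' : ¬ r ∣ M := fun h => hrM (Nat.mem_primeFactors.mpr ⟨hrP, h, hM.ne_zero⟩)
  have hrN : ¬ r ∣ N := fun h => hrM' (h.trans hNM)
  have hT : ∀ t ∈ ({r} : Finset ℕ), t.Prime ∧ ¬ t ∣ N := fun t ht => by
    rw [Finset.mem_singleton.mp ht]; exact ⟨hrP, hrN⟩
  have hadd := Assembly.exists_add_primes hcg.1 {r} hT
  have hNr : Squarefree (N * ∏ t ∈ ({r} : Finset ℕ), t) := Assembly.squarefree_mul_prod hN hT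
  rw [Finset.prod_singleton] at hadd hNr
  obtain ⟨h, hh, hcoef⟩ := hadd
  have hcg' : Congr W p (N * r) h 𝔪 := ⟨hh, hcg.2.1, hcg.2.2.1, fun ℓ hℓ hgd hℓN hℓp => by
    obtain ⟨a, ha, hm⟩ := hcg.2.2.2 ℓ hℓ hgd (fun h => hℓN (h.trans (dvd_mul_right N r))) hℓp
    refine ⟨a, ?_, hm⟩
    rw [ha, hcoef ℓ hℓ (fun h => hℓN ?_)]
    rw [Finset.mem_singleton.mp h]
    exact dvd_mul_left r N⟩
  have hqr : N * r / q = N / q * r := by
    rw [mul_comm N r, Nat.mul_div_assoc r hqN, mul_comm]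
  obtain ⟨L, hL, hresL⟩ := mazurCore W p (N * r) q h 𝔪 hΔ hW hp hp2 hirr hNr hq hqp hq1
    (hqN.trans (dvd_mul_right N r)) hu (fun _ => ⟨r, hrP, hr3, hqr ▸ dvd_mul_left r _⟩) hcg'
  rw [hqr] at hL
  have hLsq : Squarefree L := hNr.squarefree_of_dvd
    (hL.trans (mul_dvd_mul_right (Nat.div_dvd_of_dvd hqN) r))
  obtain ⟨d, g', 𝔪', hdL, hnew', hcg''⟩ := Assembly.exists_congr_newform hΔ hp hLsq hresL
  have hrd : ¬ r ∣ d :=
    not_dvd_of_isAux hΔ (hLsq.squarefree_of_dvd hdL) hnew' hcg'' haux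
  exact ⟨d, ((hrP.coprime_iff_not_dvd.mpr hrd).symm.dvd_of_dvd_mul_right (hdL.trans hL)).trans hNq,
    Assembly.isResiduallyModularOfLevel_iff.mpr ⟨g', 𝔪', hcg''⟩⟩

end FermatAgent.Lifting

end
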