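import Fermat.Agent.Lifting.Family
import Fermat.Agent.Assembly.CleanLevel

/-!
# A residual level at which every prime other than `p` is ramified

Mazur's principle removes the unramified primes `q ≢ 1 (mod p)`; the seed with all bad primes
`q ≡ 1 (mod p)` in the level is lowered at its framed primes by the minimal lifting.
-/

set_option autoImplicit false

noncomputable section

open IsLocalRing WeierstrassCurve CuspForm ModularFormClass
open scoped WeierstrassCurve.Affine

namespace FermatAgent.Lifting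

open Assembly

/-- **Lowering of a seed**: minimal lifting gives a residual level dividing that of the seed which
contains none of its primes `q ≡ 1 (mod p)` at which the residual representation is unramified with
Frobenius trace `± 2`. -/
theorem exists_lower_seed {W : WeierstrassCurve ℤ} {p : ℕ} [Fact p.Prime] (hΔ : W.Δ ≠ 0)
    (hW : W.IsSemistableModel) (hp2 : p ≠ 2) (hirr : W.ModRepIsIrreducible p)
    (s : Seed W p) :
    ∃ N : ℕ, N ∣ s.M ∧ W.IsResiduallyModularOfLevel p N ∧
      ∀ q : ℕ, q.Prime → q ≠ p → q ∣ N → ¬ IsFramePrime W p q := by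
  obtain ⟨C⟩ := nonempty_coeff (p := p) hp2
  let X : Ctx p := ⟨W, C, hΔ, hW, hp2, hirr, s⟩
  have hfr : ∀ q : ℕ, q.Prime → q ≠ p → q ∣ s.M → IsFramePrime W p q → q ∈ X.frames :=
    fun q hq hqp hd h => X.mem_frames.mpr
      ⟨hq, hd, hqp, fun ha => (s.aux_spec q ha).2.2.2.2.1 h.1, h⟩
  obtain ⟨N, hN, hres, hno⟩ := X.exists_level_without_frames
  exact ⟨N, hN, hres, fun q hq hqp hd h => hno q (hfr q hq hqp (hd.trans hN) h) hd⟩

/-- **Lowering to ramified primes**: a squarefree residual level, prime to `p` if the reduction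
there is good, gives one all whose primes `q ≠ p` are residually ramified and without a new `p`. -/
theorem exists_ramified_level {W : WeierstrassCurve ℤ} {p M : ℕ} [hp : Fact p.Prime] (hΔ : W.Δ ≠ 0)
    (hW : W.IsSemistableModel) (hp2 : p ≠ 2) (hirr : W.ModRepIsIrreducible p) (hM : Squarefree M)
    (hgp : W.IsGoodPrimeFor p → ¬ p ∣ M) (hres : W.IsResiduallyModularOfLevel p M) :
    ∃ N : ℕ, Squarefree N ∧ W.IsResiduallyModularOfLevel p N ∧ (p ∣ N → p ∣ M) ∧
      ∀ q : ℕ, q.Prime → q ≠ p → q ∣ N → ¬ UnramAt W p q := by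
  classical
  obtain ⟨M₂, h, 𝔪, hM₂, hch, hclean, hpM⟩ :=
    exists_clean_level hΔ hW hp.out hp2 hirr hM hres hgp
  obtain ⟨s, hsp⟩ := exists_seed hΔ hW hp2 hirr hM₂
    (isResiduallyModularOfLevel_iff.mpr ⟨h, 𝔪, hch⟩) hclean
  obtain ⟨N, hNs, hresN, hfr⟩ := exists_lower_seed hΔ hW hp2 hirr s
  obtain ⟨N', g', 𝔪', hN', hnew, hcg'⟩ :=
    exists_congr_newform hΔ hp.out (s.sq.squarefree_of_dvd hNs) hresN
  have hN's : N' ∣ s.M := hN'.trans hNs
  have hN'sq : Squarefree N' := s.sq.squarefree_of_dvd hN's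
  refine ⟨N', hN'sq, isResiduallyModularOfLevel_iff.mpr ⟨g', 𝔪', hcg'⟩, fun hd =>
    hpM (hsp (hd.trans hN's)), fun q hq hqp hqN => ?_⟩
  have haux : q ∉ s.aux := fun ha =>
    not_dvd_of_isAux hΔ hN'sq hnew hcg' (s.aux_spec q ha).2 hqN
  exact ((s.level q hq hqp (hqN.trans hN's) haux).resolve_left (hfr q hq hqp (hqN.trans hN')))

/-- A squarefree level all whose primes other than `p` are ramified divides every congruent
level with the same behaviour at `p`. -/
theorem dvd_of_ramified {W : WeierstrassCurve ℤ} {p M N : ℕ} [hp : Fact p.Prime] [NeZero M]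
    (hΔ : W.Δ ≠ 0) (hirr : W.ModRepIsIrreducible p)
    {g : CuspForm (CongruenceSubgroup.Gamma0 M) 2} {𝔪 : Ideal (integralClosure ℤ ℂ)}
    (hcg : Congr W p M g 𝔪) (hN : Squarefree N) (hpN : p ∣ N → p ∣ M)
    (hram : ∀ r : ℕ, r.Prime → r ≠ p → r ∣ N → ¬ UnramAt W p r) : N ∣ M := by
  rw [← Nat.prod_primeFactors_of_squarefree hN]
  refine Finset.prod_primes_dvd M (fun r hr => (Nat.prime_of_mem_primeFactors hr).prime)
    fun r hr => ?_
  obtain ⟨hrP, hrN, -⟩ := Nat.mem_primeFactors.mp hr
  rcases eq_or_ne r p with rfl | hrp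
  · exact hpN hrN
  · by_contra hrM
    exact hram r hrP hrp hrN ((hcg.galoisCongr hΔ hp.out).unramified hirr r hrP hrM hrp)

end FermatAgent.Lifting

end
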