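import Fermat.Agent.ES.Hecke.Commute
import Fermat.Agent.Period.HeckeAction

/-!
# Characters of exponent `p` as additive homomorphisms

A nontrivial character of exponent `p` of `Γ₀(L)` gives a nonzero homomorphism to `ℤ/p` on which
the Hecke operators away from the level act as they do on the character.
-/

set_option autoImplicit false

noncomputable section

open scoped MatrixGroups
open CongruenceSubgroup

namespace FermatAgent.Lifting

variable {p : ℕ} [hp : Fact p.Prime]

/-- A character of exponent `p` as a homomorphism to `ℤ/p`, with its Hecke operators. -/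
theorem exists_additive_of_char {L : ℕ} {ψ : Gamma0 L →* ℂˣ} (hψ : ψ ^ p = 1) (h1 : ψ ≠ 1) :
    ∃ e : Additive (Gamma0 L) →+ ZMod p, e ≠ 0 ∧ ∀ (ℓ : ℕ) (hℓ : ℓ.Prime) (b : ℕ), ¬ ℓ ∣ L →
      ES.heckeChar L hℓ ψ = ψ ^ b → Period.heckeOp ℤ L hℓ e = (b : ℤ) • e := by
  have hζ : IsPrimitiveRoot (Units.mk0 _ ((Complex.isPrimitiveRoot_exp p hp.out.ne_zero).ne_zero
      hp.out.ne_zero)) p :=
    IsPrimitiveRoot.coe_units_iff.mp (Complex.isPrimitiveRoot_exp p hp.out.ne_zero)
  set ζ : ℂˣ := Units.mk0 _ ((Complex.isPrimitiveRoot_exp p hp.out.ne_zero).ne_zero hp.out.ne_zero)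
  have hmem : ∀ γ, ψ γ ∈ Subgroup.zpowers ζ := fun γ => by
    rw [hζ.zpowers_eq, mem_rootsOfUnity, ← MonoidHom.pow_apply, hψ, MonoidHom.one_apply]
  let ψ' : Gamma0 L →* Subgroup.zpowers ζ := ψ.codRestrict _ hmem
  let e : Additive (Gamma0 L) →+ ZMod p :=
    (hζ.zmodEquivZPowers.symm.toAddMonoidHom).comp (MonoidHom.toAdditive ψ')
  refine ⟨e, fun h => h1 ?_, fun ℓ hℓ b hℓL hb => ?_⟩
  · refine MonoidHom.ext fun γ => ?_
    have h' : hζ.zmodEquivZPowers.symm (Additive.ofMul (ψ' γ)) = 0 :=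
      DFunLike.congr_fun h (Additive.ofMul γ)
    rw [map_eq_zero_iff _ hζ.zmodEquivZPowers.symm.injective, ofMul_eq_zero] at h'
    exact congrArg Subtype.val h'
  · have : Fact ℓ.Prime := ⟨hℓ⟩
    have : NeZero ℓ := ⟨hℓ.ne_zero⟩
    refine AddMonoidHom.ext fun γ => ?_
    obtain ⟨γ, rfl⟩ := Additive.ofMul.surjective γ
    have hval : (∏ i, ψ' ((Period.transferDataT hℓL).factor γ i)) = ψ' γ ^ b := by
      refine Subtype.ext ?_
      rw [SubmonoidClass.coe_pow]
      simp only [ψ', MonoidHom.codRestrict_apply]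
      rw [← MonoidHom.pow_apply, ← hb, ES.heckeChar_of_not_dvd hℓL]
      push_cast
      rfl
    unfold Period.heckeOp
    rw [dif_neg hℓL, Period.TransferData.op_apply, AddMonoidHom.smul_apply, natCast_zsmul,
      ← map_nsmul]
    show _ = hζ.zmodEquivZPowers.symm (MonoidHom.toAdditive ψ' (b • Additive.ofMul γ))
    rw [map_nsmul (MonoidHom.toAdditive ψ')]
    show _ = hζ.zmodEquivZPowers.symm (Additive.ofMul (ψ' γ ^ b))
    rw [← hval, ofMul_prod, map_sum]
    rfl

end FermatAgent.Lifting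

end
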