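import Fermat.Agent.Lifting.EigenSystem
import Fermat.Agent.RT.Endgame
import Fermat.Agent.RT.Cond.Transfer
import Fermat.Agent.RT.TameRep
import Fermat.Agent.ES.Tate.Attach
import Fermat.Agent.GaloisBasic.CharpolyDensity
import Fermat.Agent.Assembly.Vocabulary
import Fermat.Agent.GaloisBasic.TracePairing

/-!
# The representation of a prime of characteristic zero and that of its eigenform

A prime of the base ring in the support of a localised Hecke module gives an eigenform whose
lattice carries the specialised representation: the traces agree, so whatever acts trivially at the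
prime acts trivially on the lattice.
-/

set_option autoImplicit false

noncomputable section

open scoped MatrixGroups
open CongruenceSubgroup IsLocalRing FermatAgent.GaloisBasic

namespace FermatAgent.Lifting

open Assembly (ZC)

local notation "GQ" => AlgebraicClosure ℚ ≃ₐ[ℚ] AlgebraicClosure ℚ

/-- The eigencharacter of an eigenform with values in the algebraic integers. -/
def charZC {M : ℕ} [NeZero M] {f : CuspForm (Gamma0 M) 2} (hf : f.IsNormalizedEigenform) :
    CuspForm.heckeAlgebra M 2 ∅ →+* ZC :=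
  ((MF.isEigen_iff_isNormalizedEigenform f).mpr hf).char ∅ |>.codRestrict ZC fun t =>
    haveI : Module.Finite ℤ (CuspForm.heckeAlgebra M 2 ∅) := MF.moduleFinite_heckeAlgebra M 2 ∅
    map_isIntegral_int _ (IsIntegral.of_finite ℤ t)

/-- The character of an eigenform takes its `ℓ`-th coefficient at the Hecke operator. -/
lemma charZC_heckeAt {M : ℕ} [NeZero M] {f : CuspForm (Gamma0 M) 2} (hf : f.IsNormalizedEigenform)
    {ℓ : ℕ} (hℓ : ℓ.Prime) {a : ZC} (ha : (a : ℂ) = ModularFormClass.qCoeff f ℓ) :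
    charZC hf ⟨_, MF.heckeAt_mem hℓ (Set.notMem_empty ℓ)⟩ = a :=
  Subtype.ext ((((MF.isEigen_iff_isNormalizedEigenform f).mpr hf).char_heckeAt hℓ
    (Set.notMem_empty ℓ)).trans ha.symm)

/-- `χ` is the eigensystem of `f`: after an embedding of `B` in an algebraically closed field of
characteristic zero its values are those of `f` moved by a map of the algebraic integers. -/
def IsSystemOf {M : ℕ} [NeZero M] {f : CuspForm (Gamma0 M) 2} (hf : f.IsNormalizedEigenform)
    {B : Type} [CommRing B] (χ : CuspForm.heckeAlgebra M 2 ∅ →+* B) : Prop :=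
  ∃ (K : Type) (_ : Field K) (_ : CharZero K) (_ : IsAlgClosed K) (j : B →+* K) (σ : ZC →+* K),
    Function.Injective j ∧ ∀ t, j (χ t) = σ (charZC hf t)

/-- Equal traces transfer spanning between two dimensional representations. -/
theorem span_eq_top_of_trace_eq {G : Type*} [Monoid G] {k : Type*} [Field k]
    {M M' : G →* Matrix (Fin 2) (Fin 2) k} (htr : ∀ g, (M' g).trace = (M g).trace)
    (hspan : Submodule.span k (Set.range M) = ⊤) : Submodule.span k (Set.range M') = ⊤ := by
  classical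
  set L := Finsupp.linearCombination k (fun g => M g)
  set L' := Finsupp.linearCombination k (fun g => M' g)
  have hL : LinearMap.range L = ⊤ := by rw [Finsupp.range_linearCombination, hspan]
  have hker : LinearMap.ker L' ≤ LinearMap.ker L := by
    intro c hc
    rw [LinearMap.mem_ker] at hc ⊢
    have key : ∀ h, (L c * M h).trace = (L' c * M' h).trace := fun h => by
      simp only [L, L', Finsupp.linearCombination_apply, Finsupp.sum, Finset.sum_mul,
        Matrix.trace_sum, smul_mul_assoc, Matrix.trace_smul, ← map_mul, htr]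
    refine GaloisBasic.eq_zero_of_trace_mul_span hspan fun h => ?_
    rw [key, hc, zero_mul, Matrix.trace_zero]
  have h1 : Module.finrank k (LinearMap.range L) ≤ Module.finrank k (LinearMap.range L') := by
    let e := L'.quotKerEquivRange
    let q := (LinearMap.ker L').liftQ L hker
    have hq : LinearMap.range q = LinearMap.range L := Submodule.range_liftQ _ _ _
    rw [← hq, ← e.finrank_eq]
    have : Module.Finite k ((G →₀ k) ⧸ LinearMap.ker L') := Module.Finite.equiv e.symm
    exact LinearMap.finrank_range_le q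
  rw [← Finsupp.range_linearCombination]
  refine Submodule.eq_top_of_finrank_eq (le_antisymm (Submodule.finrank_le _) ?_)
  rw [hL, finrank_top] at h1
  exact h1

section

variable {O : Type} [CommRing O] {R : Type} [CommRing R] [Algebra O R]

/-- The quotient at a prime containing the kernel of a matrix representation is finite. -/
private lemma finite_quotient_of_ker_le [IsNoetherianRing O] {s : ℕ}
    (ρ₀ : R →ₐ[O] Matrix (Fin s) (Fin s) O) {y : Ideal R} (hker : RingHom.ker ρ₀ ≤ y) :
    Module.Finite O (R ⧸ y) := by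
  have : IsNoetherian O (Matrix (Fin s) (Fin s) O) :=
    isNoetherian_of_isNoetherianRing_of_finite O _
  have : Module.Finite O ρ₀.range :=
    Module.Finite.of_injective ρ₀.range.val.toLinearMap Subtype.val_injective
  let e := Ideal.quotientKerAlgEquivOfSurjective ρ₀.rangeRestrict_surjective
  have hk : RingHom.ker ρ₀.rangeRestrict ≤ y := fun r hr => hker (by
    rw [RingHom.mem_ker] at hr ⊢
    exact congrArg Subtype.val hr)
  have : Module.Finite O (R ⧸ RingHom.ker ρ₀.rangeRestrict) :=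
    Module.Finite.equiv e.symm.toLinearEquiv
  exact Module.Finite.of_surjective (Ideal.Quotient.factorₐ O hk).toLinearMap
    (Ideal.Quotient.factor_surjective hk)

/-- A map from the quotient into a local algebra gives a local homomorphism. -/
private lemma isLocalHom_comp_mk [IsLocalRing O] [IsLocalRing R] {y : Ideal R}
    [Algebra.IsIntegral O (R ⧸ y)] {B : Type} [CommRing B] [IsLocalRing B] [Algebra O B]
    [IsLocalHom (algebraMap O B)] (φq : R ⧸ y →ₐ[O] B) :
    IsLocalHom ((φq.comp (Ideal.Quotient.mkₐ O y) : R →ₐ[O] B) : R →+* B) := by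
  set φB : R →ₐ[O] B := φq.comp (Ideal.Quotient.mkₐ O y)
  have : ((maximalIdeal B).comap φq).IsMaximal :=
    Ideal.isMaximal_of_isIntegral_of_isMaximal_comap (R := O) _ (by
      have : ((maximalIdeal B).comap φq).comap (algebraMap O (R ⧸ y)) = maximalIdeal O := by
        ext o
        rw [Ideal.mem_comap, Ideal.mem_comap, AlgHom.commutes, mem_maximalIdeal, mem_maximalIdeal,
          mem_nonunits_iff, mem_nonunits_iff, isUnit_map_iff]
      rw [this]
      exact maximalIdeal.isMaximal O)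
  have hmaxc : (maximalIdeal B).comap (φB : R →+* B) = maximalIdeal R := by
    refine IsLocalRing.eq_maximalIdeal ?_
    exact Ideal.comap_isMaximal_of_surjective (Ideal.Quotient.mk y) Ideal.Quotient.mk_surjective
      (K := (maximalIdeal B).comap φq)
  exact ⟨fun r hr => by
    by_contra hr'
    have h1 : r ∈ (maximalIdeal B).comap (φB : R →+* B) :=
      hmaxc.symm ▸ (mem_maximalIdeal r).mpr hr'
    exact h1 hr⟩

end

/-- The traces of an eigenform agree with those of a representation agreeing at Frobenius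
elements. -/
private lemma trace_eigMat_eq {B : Type} [CommRing B] [IsDomain B] [IsDiscreteValuationRing B]
    [CharZero B] {p : ℕ}
    [Fact p.Prime] {M : ℕ} [NeZero M] (ιB : ℤ_[p] →+* B)
    (χB : CuspForm.heckeAlgebra M 2 ∅ →+* B) (hpB : (p : B) ∈ maximalIdeal B) {R : Type}
    [CommRing R] [IsLocalRing R] (φB : R →+* B) [IsLocalHom φB] {M₀ : MatRep R}
    (hM₀c : MatContinuous R M₀) (S : Finset ℕ)
    (hdet : ∀ ℓ : ℕ, ℓ.Prime → ℓ ∉ S → ∀ A : ValuationSubring (AlgebraicClosure ℚ),
      A.LiesOverPrime ℓ → ∀ σ : GQ, A.IsFrobeniusAt σ ℓ → (M₀ σ).det = (ℓ : R))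
    (htr : ∀ ℓ : ℕ, ∀ hℓ : ℓ.Prime, ℓ ∉ S → ∀ A : ValuationSubring (AlgebraicClosure ℚ),
      A.LiesOverPrime ℓ → ∀ σ : GQ, A.IsFrobeniusAt σ ℓ →
        χB ⟨_, MF.heckeAt_mem hℓ (Set.notMem_empty ℓ)⟩ = φB (M₀ σ).trace)
    (g : GQ) : (ES.eigMat ιB χB g).trace = φB (M₀ g).trace := by
  have hc : MatContinuous B (mapRep φB M₀) := hM₀c.map _
  have hM : ∀ g, LinearMap.charpoly ((toRep _ hc).ρ g) = (mapRep φB M₀ g).charpoly :=
    fun g => Matrix.charpoly_toLin' _
  have h := charpoly_eq_of_frobenius (ES.eigRep ιB χB hpB) (toRep _ hc)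
    (insert p (S ∪ M.primeFactors)) (fun ℓ hℓ hℓS A hA τ hτ => ?_) g
  · rw [hM] at h
    have h0 := (ES.charpoly_eigEnd ιB χB hpB g).symm.trans h
    have h1 := congrArg (fun P : Polynomial B => P.coeff 1) h0
    rw [Matrix.charpoly_fin_two] at h1
    simp [Polynomial.coeff_X_pow] at h1
    rw [h1]
    exact (AddMonoidHom.map_trace φB.toAddMonoidHom _).symm
  rw [Finset.mem_insert, Finset.mem_union, not_or, not_or] at hℓS
  have hℓM : ¬ ℓ ∣ M := fun hd => hℓS.2.2 (Nat.mem_primeFactors.mpr ⟨hℓ, hd, NeZero.ne M⟩)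
  rw [ES.charpoly_eigRep_frobenius ιB χB hpB hℓ hℓM hℓS.1 hA hτ, hM, Matrix.charpoly_fin_two]
  have ht : χB ⟨_, MF.heckeAt_mem hℓ (Set.notMem_empty ℓ)⟩ = (mapRep φB M₀ τ).trace :=
    (htr ℓ hℓ hℓS.2.1 A hA τ hτ).trans (AddMonoidHom.map_trace φB.toAddMonoidHom _)
  have hd : (mapRep φB M₀ τ).det = (ℓ : B) := by
    rw [mapRep_apply, ← RingHom.mapMatrix_apply, ← RingHom.map_det, hdet ℓ hℓ hℓS.2.1 A hA τ hτ,
      map_natCast]
  rw [ht, hd]

variable {O : Type} [CommRing O] [IsDomain O] [IsDiscreteValuationRing O]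
  [IsAdicComplete (maximalIdeal O) O] [Finite (ResidueField O)] [CharZero O]
  {R₀ : Type} [CommRing R₀] [IsLocalRing R₀] [Algebra O R₀] [IsLocalHom (algebraMap O R₀)]
  {p : ℕ} [hp : Fact p.Prime]

/-- The eigenform of a prime of characteristic zero and the comparison of the representations. -/
structure PointForm (M₀ : MatRep R₀) (y : Ideal R₀) (p M : ℕ) [Fact p.Prime] [NeZero M] where
  /-- the ring of values -/
  B : Type
  [instCommRing : CommRing B]
  [instIsDomain : IsDomain B]
  [instDVR : IsDiscreteValuationRing B]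
  [instCharZero : CharZero B]
  /-- the eigenform -/
  f : CuspForm (Gamma0 M) 2
  eigen : f.IsNormalizedEigenform
  /-- an algebraically closed field comparing the two systems of values -/
  K : Type
  [instField : Field K]
  [instCharZeroK : CharZero K]
  [instAlgClosed : IsAlgClosed K]
  /-- the embedding of `B` into `K` -/
  j : B →+* K
  j_injective : Function.Injective j
  /-- the map of algebraic integers into `K` -/
  emb : ZC →+* K
  /-- the eigensystem of `f` with values in `B` -/
  χ : CuspForm.heckeAlgebra M 2 ∅ →+* B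
  χ_eq : ∀ t, j (χ t) = emb (charZC eigen t)
  p_mem : (p : B) ∈ maximalIdeal B
  /-- the specialisation of `R₀` at the prime -/
  φ : R₀ →+* B
  [instLocal : IsLocalHom φ]
  le_ker : y ≤ RingHom.ker φ
  /-- the structure map from the `p`-adic integers -/
  ι : ℤ_[p] →+* B
  trace_eq : ∀ g : GQ,
    (ES.eigMat ι χ g).trace = φ (M₀ g).trace

attribute [instance] PointForm.instCommRing PointForm.instIsDomain PointForm.instDVR
  PointForm.instCharZero PointForm.instLocal
  PointForm.instField PointForm.instCharZeroK PointForm.instAlgClosed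

omit [IsLocalHom (algebraMap O R₀)] in
/-- **The form of a prime of characteristic zero in the support.** -/
theorem nonempty_pointForm (hpO : (p : O) ∈ maximalIdeal O) {M₀ : MatRep R₀}
    (hM₀c : MatContinuous R₀ M₀) {L M : ℕ} [NeZero M] {ι : Type} (pr : ι → HM.HPrime L)
    (𝔪 : Ideal (MvPolynomial ι O)) [𝔪.IsPrime] (i₀ : ι)
    (hi₀ : (((pr i₀).1.1 : ℕ) : ZMod M) = 1)
    (hne : MvPolynomial.X i₀ - MvPolynomial.C (((pr i₀).1.1 : ℕ) + 1 : O) ∉ 𝔪) {s : ℕ}
    (b : Module.Basis (Fin s) O (HM.TrivLoc (M := M) pr 𝔪))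
    (ρ₀ : R₀ →ₐ[O] Matrix (Fin s) (Fin s) O) (good : Set ι)
    (x : ι → R₀)
    (hx : ∀ i ∈ good, ρ₀ (x i) = LinearMap.toMatrixAlgEquiv b
      (Algebra.lsmul O O (HM.TrivLoc (M := M) pr 𝔪) (MvPolynomial.X i : MvPolynomial ι O)))
    (S : Finset ℕ) (hdet : ∀ ℓ : ℕ, ℓ.Prime → ℓ ∉ S → ∀ A : ValuationSubring (AlgebraicClosure ℚ),
      A.LiesOverPrime ℓ → ∀ σ : GQ, A.IsFrobeniusAt σ ℓ → (M₀ σ).det = (ℓ : R₀))
    (hfrob : ∀ ℓ : ℕ, ℓ.Prime → ℓ ∉ S → ∀ A : ValuationSubring (AlgebraicClosure ℚ),
      A.LiesOverPrime ℓ → ∀ σ : GQ, A.IsFrobeniusAt σ ℓ →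
        ∃ i ∈ good, ((pr i).1.1 : ℕ) = ℓ ∧ x i = (M₀ σ).trace)
    (y : Ideal R₀) (hker : RingHom.ker ρ₀ ≤ y)
    (hy : ∀ a : O, a ≠ 0 → algebraMap O R₀ a ∉ y) :
    Nonempty (PointForm M₀ y p M) := by
  classical
  have : IsAddTorsionFree O := .of_isTorsionFree O O
  -- the quotient at the prime
  have : Module.Finite O (R₀ ⧸ y) := finite_quotient_of_ker_le ρ₀ hker
  have : Algebra.IsIntegral O (R₀ ⧸ y) := Algebra.IsIntegral.of_finite _ _
  have : FaithfulSMul O (R₀ ⧸ y) := (faithfulSMul_iff_algebraMap_injective O _).mpr fun a a' h => by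
    by_contra hne'
    exact hy _ (sub_ne_zero.mpr hne') (by
      rw [← Ideal.Quotient.eq_zero_iff_mem, map_sub, map_sub]
      exact sub_eq_zero.mpr h)
  set F := FractionRing O
  set Ω := AlgebraicClosure F
  have : IsScalarTower O F Ω := inferInstance
  have : FaithfulSMul O Ω := (faithfulSMul_iff_algebraMap_injective O Ω).mpr (by
    rw [IsScalarTower.algebraMap_eq O F Ω]
    exact (algebraMap F Ω).injective.comp (IsFractionRing.injective O _))
  have : CharZero Ω := charZero_of_injective_algebraMap (FaithfulSMul.algebraMap_injective O Ω)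
  obtain ⟨ψ, hψ⟩ := HM.exists_ringHom_extension (T := R₀ ⧸ y) (algebraMap O Ω)
  let ψA : R₀ ⧸ y →ₐ[O] Ω := { ψ with commutes' := RingHom.congr_fun hψ }
  let φΩ : R₀ →ₐ[O] Ω := ψA.comp (Ideal.Quotient.mkₐ O y)
  have hyφ : y ≤ RingHom.ker φΩ := fun r hr => by
    show ψA (Ideal.Quotient.mk y r) = 0
    rw [Ideal.Quotient.eq_zero_iff_mem.mpr hr, map_zero]
  obtain ⟨f, σ, hf, hfσ⟩ := RT.exists_eigenform_of_ker_le_field pr 𝔪 i₀ hi₀ hne b ρ₀ good x hx
    (φΩ : R₀ →+* Ω) (hker.trans hyφ)
  -- a finite level containing all the values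
  have hfin : Module.Finite ℤ (CuspForm.heckeAlgebra M 2 ∅) := MF.moduleFinite_heckeAlgebra M 2 ∅
  obtain ⟨E₁, hE₁, hχ₁⟩ := ES.exists_finite_subfield (F := F)
    (σ.comp (charZC hf)).toAddMonoidHom.toIntLinearMap
  obtain ⟨E₂, hE₂, hψ₂⟩ := ES.exists_finite_subfield (F := F) ψA.toLinearMap
  set E := E₁ ⊔ E₂
  have hχ : ∀ a, σ.comp (charZC hf) a ∈ E := fun a => (le_sup_left : E₁ ≤ E) (hχ₁ a)
  have hψE : ∀ r, ψA r ∈ E := fun r => (le_sup_right : E₂ ≤ E) (hψ₂ r)
  have : IsScalarTower O E Ω := IsScalarTower.of_algebraMap_eq fun o =>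
    IsScalarTower.algebraMap_apply O F Ω o
  obtain ⟨hdvr, hfinA, hloc, hcomp, hres, hlh⟩ := ES.integralClosure_spec O (FractionRing O) E
  set B := integralClosure O E
  have := hloc; have := hdvr; have := hcomp; have := hres; have := hlh; have := hfinA
  have : CharZero B := charZero_of_injective_algebraMap
    (ES.injective_algebraMap_integralClosure O (FractionRing O) E)
  have hpB : (p : B) ∈ maximalIdeal B := by
    rw [← map_natCast (algebraMap O B)]
    exact map_nonunit (algebraMap O B) _ hpO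
  obtain ⟨ιB⟩ := ES.exists_padicRingHom p B hpB
  let j : B →+* Ω := (algebraMap E Ω).comp B.toSubring.subtype
  have hj : Function.Injective j := (algebraMap E Ω).injective.comp Subtype.val_injective
  -- extend the embedding from the values to all algebraic integers
  let χE : CuspForm.heckeAlgebra M 2 ∅ →+* E := (σ.comp (charZC hf)).codRestrict E hχ
  have hχint : ∀ a, χE a ∈ B := fun a =>
    ((IsIntegral.of_finite ℤ a).map χE.toIntAlgHom).tower_top
  let χB : CuspForm.heckeAlgebra M 2 ∅ →+* B := χE.codRestrict B hχint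
  let φq : R₀ ⧸ y →ₐ[O] B := (ψA.codRestrict (E.toSubalgebra.restrictScalars O) hψE).codRestrict B
    fun r => (isIntegral_algHom_iff (IsScalarTower.toAlgHom O E Ω) (algebraMap E Ω).injective).mp
      ((Algebra.IsIntegral.isIntegral (R := O) r).map ψA)
  let φB : R₀ →ₐ[O] B := φq.comp (Ideal.Quotient.mkₐ O y)
  have : IsLocalHom (φB : R₀ →+* B) := isLocalHom_comp_mk φq
  have key : ∀ g : GQ, (ES.eigMat ιB χB g).trace = φB (M₀ g).trace :=
    trace_eigMat_eq ιB χB hpB (φB : R₀ →+* B) hM₀c S hdet fun ℓ hℓ hℓS A hA τ hτ => by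
      obtain ⟨i, hi, hiℓ, hxi⟩ := hfrob ℓ hℓ hℓS A hA τ hτ
      obtain ⟨a, ha, hσa⟩ := hfσ i hi
      rw [hiℓ] at ha
      refine hj ?_
      show σ (charZC hf _) = φΩ (M₀ τ).trace
      rw [charZC_heckeAt hf hℓ ha, hσa, hxi]
      rfl
  exact ⟨{
    B := B, f := f, eigen := hf, K := Ω, j := j, j_injective := hj, emb := σ, χ := χB
    χ_eq := fun _ => rfl, p_mem := hpB, φ := φB, ι := ιB, trace_eq := key
    le_ker := fun r hr => by
      show φq (Ideal.Quotient.mk y r) = 0
      rw [Ideal.Quotient.eq_zero_iff_mem.mpr hr, map_zero] }⟩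

/-- **Inertia trivial at the prime fixes the lattice of the eigenform.** -/
theorem PointForm.eigEnd_eq_one {M : ℕ} [NeZero M] {M₀ : MatRep R₀} {y : Ideal R₀}
    (h : PointForm M₀ y p M)
    (hspan : Submodule.span (ResidueField R₀) (Set.range fun g => (M₀ g).map (residue R₀)) = ⊤)
    {P : ValuationSubring (AlgebraicClosure ℚ)} {q : ℕ} (hP : RT.InertTrivial M₀ P q p) {τ : GQ}
    (hτ : RT.IsTameGen P p τ)
    (hy : ∀ i j, M₀ τ i j - (1 : Matrix (Fin 2) (Fin 2) R₀) i j ∈ y) {g : GQ}
    (hg : g ∈ P.inertiaSubgroupIn ℚ) : ES.eigEnd h.ι h.χ g = 1 := by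
  classical
  set N := mapRep h.φ M₀ with hN
  have h1 : ∀ a b, h.φ ((1 : Matrix (Fin 2) (Fin 2) R₀) a b) =
      (1 : Matrix (Fin 2) (Fin 2) h.B) a b := fun a b => by
    rw [Matrix.one_apply, Matrix.one_apply, apply_ite h.φ, map_one, map_zero]
  have hN1 : N τ = 1 := by
    ext a b
    have h0 := h.le_ker (hy a b)
    rw [RingHom.mem_ker, map_sub, sub_eq_zero, h1] at h0
    exact h0
  have hI : RT.InertTrivial N P q p :=
    { prime := hP.prime, lies := hP.lies, ne := hP.ne, pmem := h.p_mem, cont := hP.cont.map _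
      res := fun σ hσ a b => by
        rw [← h1 a b, hN, mapRep_apply, Matrix.map_apply, ← map_sub]
        exact map_nonunit h.φ _ (hP.res σ hσ a b) }
  have hNg : N g = 1 := hI.eq_one hτ hN1 hg
  have htrace : ∀ x, (ES.eigMat h.ι h.χ x).trace = (N x).trace := fun x => by
    rw [h.trace_eq]
    exact AddMonoidHom.map_trace h.φ.toAddMonoidHom _
  have hspanN : Submodule.span (ResidueField h.B)
      (Set.range fun x => (N x).map (residue h.B)) = ⊤ := by
    have h2 : ∀ x, (N x).map (residue h.B) =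
        ((M₀ x).map (residue R₀)).map (ResidueField.map h.φ) := fun x => by
      ext a b
      simp [hN]
    simpa only [h2] using RT.span_map_eq_top hspan (ResidueField.map h.φ)
  have hspanE : Submodule.span (ResidueField h.B)
      (Set.range fun x => (ES.eigMat h.ι h.χ x).map (residue h.B)) = ⊤ := by
    refine span_eq_top_of_trace_eq
      (M := (residue h.B).mapMatrix.toMonoidHom.comp N)
      (M' := (residue h.B).mapMatrix.toMonoidHom.comp (ES.eigMat h.ι h.χ)) (fun x => ?_) hspanN
    show ((ES.eigMat h.ι h.χ x).map (residue h.B)).trace = ((N x).map (residue h.B)).trace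
    have e : ∀ X : Matrix (Fin 2) (Fin 2) h.B, (X.map (residue h.B)).trace = residue h.B X.trace :=
      fun X => (AddMonoidHom.map_trace (residue h.B).toAddMonoidHom X).symm
    rw [e, e, htrace]
  have hmat : ES.eigMat h.ι h.χ g = 1 := RT.eq_one_of_trace_invariant hspanE fun x => by
    rw [htrace, htrace, map_mul, hNg, mul_one]
  exact (LinearMap.toMatrixAlgEquiv (ES.eigBasis h.χ)).injective (hmat.trans (map_one _).symm)

omit [IsDiscreteValuationRing O] [IsAdicComplete (maximalIdeal O) O] [Finite (ResidueField O)]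
  [CharZero O] [IsDomain O] [IsLocalHom (algebraMap O R₀)] [Algebra O R₀] in
/-- **The congruence of the eigenform.** At a Frobenius its coefficient reduces to the residual
trace. -/
theorem PointForm.exists_congr {M : ℕ} [NeZero M] {M₀ : MatRep R₀} {y : Ideal R₀}
    (h : PointForm M₀ y p M) :
    ∃ 𝔪' : Ideal ZC, 𝔪'.IsMaximal ∧ (p : ZC) ∈ 𝔪' ∧ ∀ ℓ : ℕ, ℓ.Prime → ¬ ℓ ∣ M → ℓ ≠ p →
      ∀ A : ValuationSubring (AlgebraicClosure ℚ), A.LiesOverPrime ℓ → ∀ σ : GQ,
        A.IsFrobeniusAt σ ℓ → ∀ v : ℤ, residue R₀ (M₀ σ).trace = (v : ResidueField R₀) →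
          ∃ a : ZC, (a : ℂ) = ModularFormClass.qCoeff h.f ℓ ∧ a - (v : ZC) ∈ 𝔪' := by
  classical
  let : Algebra h.B h.K := h.j.toAlgebra
  set C := integralClosure h.B h.K
  obtain ⟨Q, σ', hσ', -, hQc, hmax, hp'⟩ := exists_maximal_over (O := h.B) h.j_injective h.emb
    hp.out h.p_mem
  refine ⟨Q.comap σ', hmax, hp',
    fun ℓ hℓ hℓM hℓp A hA σ hσ v hv => ?_⟩
  set t : CuspForm.heckeAlgebra M 2 ∅ := ⟨_, MF.heckeAt_mem hℓ (Set.notMem_empty ℓ)⟩
  refine ⟨charZC h.eigen t, ((MF.isEigen_iff_isNormalizedEigenform _).mpr h.eigen).char_heckeAt hℓ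
    (Set.notMem_empty ℓ), ?_⟩
  have hquad := ES.charpoly_eigRep_frobenius h.ι h.χ h.p_mem hℓ hℓM hℓp hA hσ
  rw [show (ES.eigRep h.ι h.χ h.p_mem).ρ σ = ES.eigEnd h.ι h.χ σ from rfl] at hquad
  have h0 := (ES.charpoly_eigEnd h.ι h.χ h.p_mem σ).symm.trans hquad
  have h1 := congrArg (fun P : Polynomial h.B => P.coeff 1) h0
  simp [Polynomial.coeff_X_pow] at h1
  have hmem : h.χ t - (v : h.B) ∈ maximalIdeal h.B := by
    rw [← h1, h.trace_eq, ← map_intCast h.φ, ← map_sub]
    refine map_nonunit h.φ _ ?_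
    rw [← residue_eq_zero_iff, map_sub, hv, map_intCast, sub_self]
  rw [Ideal.mem_comap, map_sub, map_intCast,
    show σ' (charZC h.eigen t) = algebraMap h.B C (h.χ t) from
      Subtype.ext ((hσ' _).trans (h.χ_eq t).symm),
    ← map_intCast (algebraMap h.B C), ← map_sub, ← Ideal.mem_comap, hQc]
  exact hmem

end FermatAgent.Lifting

end
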