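import Fermat.Agent.Lifting.PointForm
import Fermat.Agent.BAD.Toric.Main
import Fermat.Agent.MF.Mult.Hom
import Fermat.Agent.Assembly.Bound
import Fermat.Agent.ES.Tate.EigenRep
import Fermat.Agent.HM.H1.TrivialChar

/-!
# An eigensystem fixed by inertia at a prime exactly dividing the level is old

If it is not, both transfers to the lower level of its parabolic homomorphisms vanish, and
`toricSq` makes the square of Frobenius act as `q²`, against the determinant.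
-/

set_option autoImplicit false

noncomputable section

open scoped MatrixGroups Pointwise Matrix
open CongruenceSubgroup IsLocalRing ModularFormClass ModularCurve.Period

namespace FermatAgent.Lifting

open Assembly (ZC)
open Period (parRank parElt parHom parabolicCoords)
open MF.Mult (atPrime)
open BAD.Toric (toricSq eisDefect trCor trCorW)

section LinearAlgebra

variable {p : ℕ} [Fact p.Prime] {r : ℕ} {κ : Type*}

/-- Equations implied over `ℤ_p` are implied over every field containing it. -/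
theorem mulVec_eq_zero_of_padic (rows : κ → Fin r → ℤ_[p]) (C : Matrix (Fin r) (Fin r) ℤ_[p])
    (h : ∀ w, (∀ k, rows k ⬝ᵥ w = 0) → C *ᵥ w = 0) {K : Type*} [Field K] (φ : ℤ_[p] →+* K)
    (hφ : Function.Injective φ) (u : Fin r → K) (hu : ∀ k, (φ ∘ rows k) ⬝ᵥ u = 0) :
    C.map φ *ᵥ u = 0 := by
  classical
  set a : ℤ_[p] →+* ℚ_[p] := algebraMap ℤ_[p] ℚ_[p]
  set Φ : ℚ_[p] →+* K := IsFractionRing.lift hφ
  have hΦ : ∀ x, Φ (a x) = φ x := fun x => IsFractionRing.lift_algebraMap hφ x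
  funext i
  set W : Submodule ℚ_[p] (Fin r → ℚ_[p]) := Submodule.span ℚ_[p] (Set.range fun k => a ∘ rows k)
  have hmem : a ∘ C i ∈ W := by
    rw [← Subspace.forall_mem_dualAnnihilator_apply_eq_zero_iff]
    intro f hf
    rw [Submodule.mem_dualAnnihilator] at hf
    set v : Fin r → ℚ_[p] := fun j => f fun l => if l = j then 1 else 0 with hv
    have hfv : ∀ x, f x = x ⬝ᵥ v := fun x => by
      rw [LinearMap.pi_apply_eq_sum_univ f x]
      exact Finset.sum_congr rfl fun j _ => by simp [hv, eq_comm]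
    obtain ⟨b, hb⟩ := IsLocalization.exist_integer_multiples_of_finite (nonZeroDivisors ℤ_[p]) v
    choose w hw using hb
    have hb0 : a (b : ℤ_[p]) ≠ 0 :=
      fun h0 => nonZeroDivisors.coe_ne_zero b (IsFractionRing.injective ℤ_[p] ℚ_[p]
        (h0.trans (map_zero _).symm))
    have hdot : ∀ x : Fin r → ℤ_[p], a (x ⬝ᵥ w) = a b * f (a ∘ x) := fun x => by
      rw [hfv, dotProduct, dotProduct, map_sum, Finset.mul_sum]
      refine Finset.sum_congr rfl fun j _ => ?_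
      rw [map_mul, show a (w j) = _ from hw j, Algebra.smul_def, Function.comp_apply]
      ring
    have h1 := h w fun k => by
      refine IsFractionRing.injective ℤ_[p] ℚ_[p] ?_
      rw [map_zero]
      show a _ = 0
      rw [hdot, hf _ (Submodule.subset_span ⟨k, rfl⟩), mul_zero]
    have h2 := hdot (C i)
    rw [show C i ⬝ᵥ w = 0 from congrFun h1 i, map_zero] at h2
    exact (mul_eq_zero.mp h2.symm).resolve_left hb0
  suffices H : ∀ x ∈ W, (Φ ∘ x) ⬝ᵥ u = 0 by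
    have := H _ hmem
    rw [← Function.comp_assoc, show (Φ : ℚ_[p] → K) ∘ a = φ from funext hΦ] at this
    exact this
  intro x hx
  induction hx using Submodule.span_induction with
  | mem y hy =>
    obtain ⟨k, rfl⟩ := hy
    rw [← Function.comp_assoc, show (Φ : ℚ_[p] → K) ∘ a = φ from funext hΦ]
    exact hu k
  | zero => simp [dotProduct]
  | add y z _ _ ihy ihz =>
    rw [show Φ ∘ (y + z) = Φ ∘ y + Φ ∘ z from funext fun j => map_add Φ _ _, add_dotProduct, ihy,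
      ihz, add_zero]
  | smul c y _ ihy =>
    rw [show Φ ∘ (c • y) = Φ c • (Φ ∘ y) from funext fun j => map_mul Φ _ _, smul_dotProduct, ihy,
      smul_zero]

end LinearAlgebra

section Transfer

variable {D : HM.ALData} {K : Type} [Field K]

local notation "hq₁" => Nat.coprime_one_right (HM.ALData.q D)

/-- The two transfers of an eigen homomorphism are eigen homomorphisms. -/
theorem heckeOp_transfers {ψ : Additive (Gamma0 D.N) →+ K} (lam : ℕ → K)
    (hψ : ∀ (ℓ : ℕ) (hℓ : ℓ.Prime), ¬ ℓ ∣ D.N → Period.heckeOp K D.N hℓ ψ = lam ℓ • ψ)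
    {ℓ : ℕ} (hℓ : ℓ.Prime) (hℓN : ¬ ℓ ∣ D.N) :
    Period.heckeOp K D.L hℓ ((D.corCorr (L := 1) (one_dvd D.L)).homOp ψ) =
        lam ℓ • (D.corCorr (L := 1) (one_dvd D.L)).homOp ψ ∧
      Period.heckeOp K D.L hℓ ((D.corCorr (L := 1) (one_dvd D.L)).homOp
          ((D.wCorr (L := 1) (one_dvd D.L) hq₁).homOp ψ)) =
        lam ℓ • (D.corCorr (L := 1) (one_dvd D.L)).homOp
          ((D.wCorr (L := 1) (one_dvd D.L) hq₁).homOp ψ) := by
  have := Fact.mk hℓ
  have hℓL : ¬ ℓ ∣ D.L := fun h => hℓN (h.trans D.L_dvd_N)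
  have hne : ℓ ≠ D.q := fun e => hℓN (e ▸ D.q_dvd_N)
  have key : ∀ φ : Additive (Gamma0 D.N) →+ K, Period.heckeOp K D.N hℓ φ = lam ℓ • φ →
      Period.heckeOp K D.L hℓ ((D.corCorr (L := 1) (one_dvd D.L)).homOp φ) =
        lam ℓ • (D.corCorr (L := 1) (one_dvd D.L)).homOp φ := fun φ h => by
    rw [← HM.homOp_heckeCorr_eq (L := 1) (S := K) (Nat.coprime_one_right ℓ) hℓL,
      ← HM.homOp_cor_comm hne, HM.homOp_heckeCorr_eq (S := K) (Nat.coprime_one_right ℓ) hℓN, h]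
    exact HM.Corr.homOp_smul _ _ _
  refine ⟨key ψ (hψ ℓ hℓ hℓN), key _ ?_⟩
  rw [← HM.homOp_heckeCorr_eq (L := 1) (S := K) (Nat.coprime_one_right ℓ) hℓN,
    HM.homOp_w_comm hq₁ hne, HM.homOp_heckeCorr_eq (S := K) (Nat.coprime_one_right ℓ) hℓN,
    hψ ℓ hℓ hℓN]
  exact HM.Corr.homOp_smul _ _ _

end Transfer

/-- An eigensystem occurring in parabolic homomorphisms of level `M` is that of an eigenform. -/
theorem exists_eigenform_of_hom {M : ℕ} [NeZero M] {K : Type} [Field K] [CharZero K]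
    [IsAlgClosed K] (σ : ZC →+* K) (S : Set ℕ) (a : ℕ → ZC) {ψ : Additive (Gamma0 M) →+ K}
    (hψ : ψ ∈ parabolicHoms K (Gamma0 M) K) (h0 : ψ ≠ 0)
    (h : ∀ (ℓ : ℕ) (hℓ : ℓ.Prime), ℓ ∉ S → Period.heckeOp K M hℓ ψ = σ (a ℓ) • ψ) :
    ∃ g : CuspForm (Gamma0 M) 2, g.IsNormalizedEigenform ∧
      ∀ ℓ : ℕ, ℓ.Prime → ℓ ∉ S → qCoeff g ℓ = a ℓ := by
  obtain ⟨χ, hχ⟩ := MF.Mult.exists_char M S (x := ⟨ψ, hψ⟩) (by simpa using h0) (fun ℓ => σ (a ℓ)) h
  obtain ⟨τ, hτ⟩ := MF.Mult.exists_inverse_of_integers σ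
  obtain ⟨g, hg, hgχ⟩ := MF.Mult.exists_eigenform_of_char τ χ
  refine ⟨g, hg, fun ℓ hℓ hS => ?_⟩
  rw [hgχ ℓ hℓ hS ⟨σ (a ℓ), map_isIntegral_int σ (integralClosure.isIntegral _)⟩
    (hχ ℓ hℓ hS).symm]
  exact (hτ (a ℓ) _).mp rfl

variable {p : ℕ} [Fact p.Prime]

/-- On `ℤ_p`-valued homomorphisms fixed by inertia and killed by the transfers, the square of
Frobenius is `q²` on the image of `T_ℓ - ℓ - 1`. -/
theorem galMat_sq_of_toric (D : HM.ALData) (hqp : D.q ≠ p) {ℓ : ℕ} (hℓ : ℓ.Prime)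
    (hℓN : ¬ ℓ ∣ D.N) {A : ValuationSubring (AlgebraicClosure ℚ)} (hA : A.LiesOverPrime D.q)
    {g : AlgebraicClosure ℚ ≃ₐ[ℚ] AlgebraicClosure ℚ} (hg : A.IsFrobeniusAt g D.q)
    (w : Fin (parRank (Gamma0 D.N)) → ℤ_[p])
    (hI : ∀ s ∈ A.inertiaSubgroupIn ℚ, ES.galMat p D.N s *ᵥ w = w)
    (h₁ : ∀ γ, ∑ i, w i * ∑ x, ((parHom (Gamma0 D.N) i (Additive.ofMul
      ((D.corCorr (L := 1) (one_dvd D.L)).fac γ x)) : ℤ) : ℤ_[p]) = 0)
    (h₂ : ∀ γ, ∑ i, w i * ∑ x, ((parHom (Gamma0 D.N) i (Additive.ofMul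
      ((D.wCorr (L := 1) (one_dvd D.L) (Nat.coprime_one_right D.q)).fac
        ((D.corCorr (L := 1) (one_dvd D.L)).fac γ x) ())) : ℤ) : ℤ_[p]) = 0) :
    ((ES.galMat p D.N g * ES.galMat p D.N g - ((D.q * D.q : ℕ) : ℤ_[p]) • 1) *
      (ES.heckePadMat p (atPrime D.N ∅ hℓ (Set.notMem_empty ℓ)) -
        ((ℓ + 1 : ℕ) : ℤ_[p]) • 1)) *ᵥ w = 0 := by
  obtain ⟨e, he, key⟩ := toricSq D hℓ hℓN
  set co := parabolicCoords (Gamma0 D.N) ℤ_[p] ℤ_[p] with hco
  obtain ⟨ψ, rfl⟩ := co.surjective w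
  have hval : ∀ γ : Gamma0 D.N, ψ.1 (Additive.ofMul γ) =
      ∑ i, co ψ i * ((parHom (Gamma0 D.N) i (Additive.ofMul γ) : ℤ) : ℤ_[p]) := fun γ => by
    rw [Period.eq_sum_parHom ψ.2]
    refine Finset.sum_congr rfl fun i _ => ?_
    rw [zsmul_eq_mul, mul_comm]
    rfl
  set t := atPrime D.N ∅ hℓ (Set.notMem_empty ℓ)
  set χ := Period.parAction D.N ∅ ℤ_[p] ℤ_[p] t ψ - (ℓ + 1) • ψ with hχ
  have hfix : ∀ s ∈ A.inertiaSubgroupIn ℚ, ES.galPad p s ψ = ψ := fun s hs =>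
    co.injective (by rw [← ES.galMat_mulVec]; exact hI s hs)
  have hdef : ∀ k, eisDefect hℓ (ES.padChar p k ψ) = ES.padChar p k χ := fun k => by
    have h1 : ES.padChar p k (Period.parAction D.N ∅ ℤ_[p] ℤ_[p] t ψ) =
        ⟨ES.heckeChar D.N hℓ (ES.padChar p k ψ).1,
          ES.heckeChar_mem_parGroup hℓ (ES.padChar p k ψ).2⟩ := by
      rw [show Period.parAction D.N ∅ ℤ_[p] ℤ_[p] t ψ =
        ⟨Period.heckeOp ℤ_[p] D.N hℓ ψ.1, Period.isParabolicHom_heckeOp ℤ_[p] hℓ ψ.2⟩ from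
        Subtype.ext (Period.parAction_heckeAt ℤ_[p] ℤ_[p] hℓ (Set.notMem_empty ℓ) ψ)]
      exact Subtype.ext (ES.padChar_heckeOp p hℓ k ψ)
    rw [eisDefect, ← h1, mul_inv_eq_iff_eq_mul, ← ES.padChar_nsmul, ← ES.padChar_add, hχ,
      sub_add_cancel]
  have hsq : e • ES.galPad p g (ES.galPad p g χ) = (D.q * D.q * e) • χ :=
    ES.padChar_ext p fun k => by
    rw [ES.padChar_nsmul, ES.padChar_nsmul, ES.padChar_galPad, ES.padChar_galPad, ← hdef]
    refine key (p ^ k) (Nat.Coprime.pow_left k ((Nat.coprime_primes Fact.out D.prime).mpr hqp.symm))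
      _ (fun γ => ?_) (fun γ => ?_) A hA (fun s hs => ?_) g hg
    · rw [trCor]
      simp only [ES.padChar_apply, ← ES.zU_sum, ← map_sum, hval]
      rw [Finset.sum_comm]
      simp only [← Finset.mul_sum, h₁ γ, map_zero]
      exact map_one _
    · rw [trCorW]
      simp only [ES.padChar_apply, ← ES.zU_sum, ← map_sum, hval]
      rw [Finset.sum_comm]
      simp only [← Finset.mul_sum, h₂ γ, map_zero]
      exact map_one _
    · rw [← ES.padChar_galPad, hfix s hs]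
  have hco' : (ES.galMat p D.N g * ES.galMat p D.N g) *ᵥ co χ =
      ((D.q * D.q : ℕ) : ℤ_[p]) • co χ := by
    rw [← Matrix.mulVec_mulVec, ES.galMat_mulVec, ES.galMat_mulVec]
    refine smul_right_injective _ (Nat.cast_ne_zero.mpr he : (e : ℤ_[p]) ≠ 0) ?_
    show (e : ℤ_[p]) • _ = (e : ℤ_[p]) • _
    rw [Nat.cast_smul_eq_nsmul, Nat.cast_smul_eq_nsmul, Nat.cast_smul_eq_nsmul, ← map_nsmul, hsq,
      map_nsmul, mul_comm (D.q * D.q) e, mul_smul]
  rw [← Matrix.mulVec_mulVec, Matrix.sub_mulVec (A := ES.heckePadMat p t), Matrix.smul_mulVec,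
    Matrix.one_mulVec, ES.heckePadMat_mulVec, ← hco, ← map_smul, ← map_sub,
    Nat.cast_smul_eq_nsmul ℤ_[p] (ℓ + 1), ← hχ,
    Matrix.sub_mulVec, hco', Matrix.smul_mulVec, Matrix.one_mulVec, sub_self]

/-- If no eigenform of the lower level has the eigenvalues, both transfers of an eigenvector of
the eigensystem vanish. -/
private theorem transfers_eq_zero {D : HM.ALData} [NeZero D.N] [NeZero D.L] {B : Type}
    [CommRing B] {K : Type} [Field K] [CharZero K] [IsAlgClosed K]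
    (χ : CuspForm.heckeAlgebra D.N 2 ∅ →+* B) (j : B →+* K) (σ : ZC →+* K) (a : ℕ → ZC)
    (ha : ∀ (ℓ : ℕ) (hℓ : ℓ.Prime),
      j (χ (atPrime D.N ∅ hℓ (Set.notMem_empty ℓ))) = σ (a ℓ))
    (hold : ∀ g : CuspForm (Gamma0 D.L) 2, g.IsNormalizedEigenform →
      ¬ ∀ ℓ : ℕ, ℓ.Prime → ℓ ∉ {n | n ∣ D.N} → qCoeff g ℓ = a ℓ) (v : ES.eigLat χ) :
    let ψ := ((parabolicCoords (Gamma0 D.N) K K).symm (j ∘ v.1)).1
    (D.corCorr (L := 1) (one_dvd D.L)).homOp ψ = 0 ∧ (D.corCorr (L := 1) (one_dvd D.L)).homOp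
      ((D.wCorr (L := 1) (one_dvd D.L) (Nat.coprime_one_right D.q)).homOp ψ) = 0 := by
  intro ψ
  set P := (parabolicCoords (Gamma0 D.N) K K).symm (j ∘ v.1)
  have hP : P ∈ Period.parEigen K (j.comp χ) := by
    rw [← ES.coords_mem_eigLat, LinearEquiv.apply_symm_apply]
    exact ES.map_mem_eigLat χ j v.2
  have hψ : ∀ (ℓ : ℕ) (hℓ : ℓ.Prime), ¬ ℓ ∣ D.N →
      Period.heckeOp K D.N hℓ ψ = σ (a ℓ) • ψ := fun ℓ hℓ _ => by
    have h1 := congrArg Subtype.val
      ((Period.mem_parEigen.mp hP) (atPrime D.N ∅ hℓ (Set.notMem_empty ℓ)))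
    rw [Period.parAction_heckeAt K K hℓ (Set.notMem_empty ℓ), RingHom.comp_apply, ha ℓ hℓ] at h1
    exact h1
  have main : ∀ η : Additive (Gamma0 D.L) →+ K, η ∈ parabolicHoms K (Gamma0 D.L) K →
      (∀ (ℓ : ℕ) (hℓ : ℓ.Prime), ℓ ∉ {n | n ∣ D.N} →
        Period.heckeOp K D.L hℓ η = σ (a ℓ) • η) → η = 0 := by
    intro η hη hT'
    by_contra h0
    obtain ⟨g, hg, hgc⟩ := exists_eigenform_of_hom σ {n | n ∣ D.N} a hη h0 hT'
    exact hold g hg hgc
  exact ⟨main _ ((D.corCorr (L := 1) (one_dvd D.L)).homOp_parabolic P.2)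
      fun ℓ hℓ hℓN => (heckeOp_transfers (fun ℓ => σ (a ℓ)) hψ hℓ hℓN).1,
    main _ ((D.corCorr (L := 1) (one_dvd D.L)).homOp_parabolic
        ((D.wCorr (L := 1) (one_dvd D.L) (Nat.coprime_one_right D.q)).homOp_parabolic P.2))
      fun ℓ hℓ hℓN => (heckeOp_transfers (fun ℓ => σ (a ℓ)) hψ hℓ hℓN).2⟩

/-- Ring maps from `ℤ_p` to a domain of characteristic zero are injective. -/
theorem injective_of_charZero {R : Type} [CommRing R] [IsDomain R]
    [CharZero R] (ι : ℤ_[p] →+* R) : Function.Injective ι := by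
  rw [RingHom.injective_iff_ker_eq_bot]
  by_contra h
  obtain ⟨k, hk⟩ := PadicInt.ideal_eq_span_pow_p h
  have := RingHom.mem_ker.mp (hk ▸ Ideal.mem_span_singleton_self _)
  rw [map_pow, map_natCast, pow_eq_zero_iff'] at this
  exact (Nat.cast_ne_zero.mpr (Fact.out : p.Prime).ne_zero) this.1

/-- Equations implied over `ℤ_p` for vectors fixed by `I` and killed by sums over `el` hold for
the coordinates of a parabolic homomorphism with both properties. -/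
theorem mulVec_eq_zero_of_fixed {N : ℕ} [NeZero N]
    (I : Set (AlgebraicClosure ℚ ≃ₐ[ℚ] AlgebraicClosure ℚ)) {κ X : Type*} [Fintype X]
    (el : κ → X → Gamma0 N)
    (C : Matrix (Fin (parRank (Gamma0 N))) (Fin (parRank (Gamma0 N))) ℤ_[p])
    (hker : ∀ w, (∀ s ∈ I, ES.galMat p N s *ᵥ w = w) → (∀ k, ∑ i, w i * ∑ x,
      ((parHom (Gamma0 N) i (Additive.ofMul (el k x)) : ℤ) : ℤ_[p]) = 0) → C *ᵥ w = 0)
    {B : Type} [CommRing B] (ι : ℤ_[p] →+* B) {K : Type} [Field K] [CharZero K] (j : B →+* K)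
    (hι : Function.Injective (j.comp ι)) (v : Fin (parRank (Gamma0 N)) → B)
    (hfix : ∀ s ∈ I, (ES.galMat p N s).map ι *ᵥ v = v)
    (hkill : ∀ k, ∑ x, ((parabolicCoords (Gamma0 N) K K).symm (j ∘ v)).1
      (Additive.ofMul (el k x)) = 0) : C.map (j.comp ι) *ᵥ (j ∘ v) = 0 := by
  let rows : (I × Fin (parRank (Gamma0 N))) ⊕ κ → Fin (parRank (Gamma0 N)) → ℤ_[p] :=
    fun k => k.elim (fun s => (ES.galMat p N s.1.1 - 1) s.2) fun k i =>
      ∑ x, ((parHom (Gamma0 N) i (Additive.ofMul (el k x)) : ℤ) : ℤ_[p])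
  refine mulVec_eq_zero_of_padic rows C (fun w hw => hker w
    (fun s hs => sub_eq_zero.mp (funext fun i => ?_)) fun k => ?_) (j.comp ι) hι (j ∘ v) ?_
  · have := hw (Sum.inl (⟨s, hs⟩, i))
    rw [Pi.sub_apply, Pi.zero_apply, ← this]
    show _ = ((ES.galMat p N s - 1) *ᵥ w) i
    rw [Matrix.sub_mulVec, Matrix.one_mulVec]
    rfl
  · rw [← hw (Sum.inr k)]; exact Finset.sum_congr rfl fun _ _ => mul_comm _ _
  rintro (⟨s, i⟩ | k)
  · have h2 : ((ES.galMat p N s.1 - 1).map ι *ᵥ v) i = 0 := by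
      rw [Matrix.map_sub ι (map_sub ι) _ _, Matrix.map_one _ (map_zero ι) (map_one ι),
        Matrix.sub_mulVec, Matrix.one_mulVec, hfix s.1 s.2, sub_self, Pi.zero_apply]
    calc _ = j (((ES.galMat p N s.1 - 1).map ι *ᵥ v) i) := by
          rw [RingHom.map_mulVec, Matrix.map_map]; rfl
      _ = 0 := by rw [h2, map_zero]
  · rw [← hkill k]
    simp only [rows, dotProduct, Function.comp_apply, Sum.elim_inr, map_sum, map_intCast,
      Finset.sum_mul]
    rw [Finset.sum_comm]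
    refine Finset.sum_congr rfl fun x _ => ?_
    rw [Period.eq_sum_parHom ((parabolicCoords (Gamma0 N) K K).symm (j ∘ v)).2]
    refine Finset.sum_congr rfl fun i _ => ?_
    rw [zsmul_eq_mul]
    exact congrArg _
      (congrFun ((parabolicCoords (Gamma0 N) K K).apply_symm_apply (j ∘ v)) i).symm

/-- If both transfers of an eigenvector fixed by inertia vanish, the square of Frobenius is `q²`
on it. -/
private theorem eigEnd_sq_apply {D : HM.ALData} [NeZero D.N] (hqp : D.q ≠ p)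
    {B : Type} [CommRing B] [IsDomain B] [CharZero B]
    (ι : ℤ_[p] →+* B) (χ : CuspForm.heckeAlgebra D.N 2 ∅ →+* B) {K : Type} [Field K]
    [CharZero K] (j : B →+* K) (hj : Function.Injective j)
    {A : ValuationSubring (AlgebraicClosure ℚ)} (hA : A.LiesOverPrime D.q)
    (hI : ∀ g ∈ A.inertiaSubgroupIn ℚ, ES.eigEnd ι χ g = 1) {ℓ : ℕ} (hℓ : ℓ.Prime)
    (hℓN : ¬ ℓ ∣ D.N)
    (hne : j (χ (atPrime D.N ∅ hℓ (Set.notMem_empty ℓ)) - (ℓ + 1 : ℕ)) ≠ 0)
    {g : AlgebraicClosure ℚ ≃ₐ[ℚ] AlgebraicClosure ℚ} (hg : A.IsFrobeniusAt g D.q)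
    (v : ES.eigLat χ)
    (hz : let ψ := ((parabolicCoords (Gamma0 D.N) K K).symm (j ∘ v.1)).1
      (D.corCorr (L := 1) (one_dvd D.L)).homOp ψ = 0 ∧ (D.corCorr (L := 1) (one_dvd D.L)).homOp
        ((D.wCorr (L := 1) (one_dvd D.L) (Nat.coprime_one_right D.q)).homOp ψ) = 0) :
    (ES.eigEnd ι χ g * ES.eigEnd ι χ g) v = (((D.q * D.q : ℕ) : B) • 1 : Module.End B _) v := by
  classical
  set t := atPrime D.N ∅ hℓ (Set.notMem_empty ℓ)
  set G := ES.eigEnd ι χ g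
  refine Subtype.ext (hj.comp_left ?_)
  obtain ⟨hz₁, hz₂⟩ := hz
  set C := (ES.galMat p D.N g * ES.galMat p D.N g - ((D.q * D.q : ℕ) : ℤ_[p]) • 1) *
    (ES.heckePadMat p t - ((ℓ + 1 : ℕ) : ℤ_[p]) • 1) with hCdef
  have hC := mulVec_eq_zero_of_fixed (A.inertiaSubgroupIn ℚ : Set _)
    (Sum.elim (fun γ x => (D.corCorr (L := 1) (one_dvd D.L)).fac γ x) fun γ x =>
      (D.wCorr (L := 1) (one_dvd D.L) (Nat.coprime_one_right D.q)).fac
        ((D.corCorr (L := 1) (one_dvd D.L)).fac γ x) ())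
    C (fun w hs hk => galMat_sq_of_toric D hqp hℓ hℓN hA hg w hs (fun γ => hk (.inl γ))
      fun γ => hk (.inr γ))
    ι j (hj.comp (injective_of_charZero ι)) v.1 (fun s hs => ?_) ?_
  · have hmap : C.map (j.comp ι) *ᵥ (j ∘ v.1) = j ∘ (C.map ι *ᵥ v.1) := funext fun i => by
      rw [Function.comp_apply, RingHom.map_mulVec, Matrix.map_map]
      rfl
    have hCv : C.map ι *ᵥ v.1 = (χ t - (ℓ + 1 : ℕ)) •
        ((G * G - ((D.q * D.q : ℕ) : B) • 1) v).1 := by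
      rw [hCdef, Matrix.map_mul, ← Matrix.mulVec_mulVec, Matrix.map_sub ι (map_sub ι) _ _,
        Matrix.map_sub ι (map_sub ι) _ _, Matrix.map_mul, Matrix.map_smul' ι _ _ (map_mul ι),
        Matrix.map_smul' ι _ _ (map_mul ι), Matrix.map_one _ (map_zero ι) (map_one ι),
        map_natCast, map_natCast,
        show (ES.heckePadMat p t).map ι = ES.intMat B t from ES.intMat_map ι _,
        Matrix.sub_mulVec (A := ES.intMat B _), (ES.mem_eigLat χ).mp v.2, Matrix.smul_mulVec,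
        Matrix.one_mulVec, ← sub_smul, Matrix.mulVec_smul, Matrix.sub_mulVec,
        ← Matrix.mulVec_mulVec, Matrix.smul_mulVec, Matrix.one_mulVec]
      rfl
    rw [hmap, hCv] at hC
    funext i
    have h1 := congrFun hC i
    simp only [Function.comp_apply, Pi.smul_apply, smul_eq_mul, map_mul, Pi.zero_apply,
      mul_eq_zero, hne, false_or] at h1
    rw [LinearMap.sub_apply, Submodule.coe_sub, Pi.sub_apply, map_sub, sub_eq_zero] at h1
    exact h1
  · exact ((ES.coe_eigEnd _ _ _ _).symm.trans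
      (congrArg Subtype.val (LinearMap.congr_fun (hI s hs) v)))
  · rintro (γ | γ)
    · exact (HM.Corr.homOp_apply _ _ _).symm.trans (DFunLike.congr_fun hz₁ (Additive.ofMul γ))
    · have h1 := DFunLike.congr_fun hz₂ (Additive.ofMul γ)
      simp only [HM.Corr.homOp_apply, AddMonoidHom.zero_apply, Fintype.sum_unique] at h1
      exact h1

/-- An eigensystem fixed by inertia at one place over a prime exactly dividing the level is
old there. -/
theorem old_of_inertia_trivial {p : ℕ} [Fact p.Prime] {N q : ℕ} [NeZero N]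
    (hqP : q.Prime) (hqN : q ∣ N) (hq2 : ¬ q ^ 2 ∣ N) (hqp : q ≠ p) {B : Type} [CommRing B]
    [IsDomain B] [IsDiscreteValuationRing B] [CharZero B] (hpm : (p : B) ∈ maximalIdeal B)
    (ι : ℤ_[p] →+* B) (χ : CuspForm.heckeAlgebra N 2 ∅ →+* B) {f : CuspForm (Gamma0 N) 2}
    (hf : f.IsNormalizedEigenform) (hsys : IsSystemOf hf χ)
    {A : ValuationSubring (AlgebraicClosure ℚ)} (hA : A.LiesOverPrime q)
    (hI : ∀ g ∈ A.inertiaSubgroupIn ℚ, ES.eigEnd ι χ g = 1) :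
    ∃ (g : CuspForm (Gamma0 (N / q)) 2) (S : Finset ℕ), g.IsNormalizedEigenform ∧
      ∀ ℓ : ℕ, ℓ.Prime → ℓ ∉ S → ¬ ℓ ∣ N → qCoeff g ℓ = qCoeff f ℓ := by
  classical
  obtain ⟨K, _, _, _, j, σ, hj, hχ⟩ := hsys
  obtain ⟨D, hDq, hDL⟩ := HM.ALData.exists_data (L := N / q) hqP
    (fun hd => hq2 (pow_two q ▸ Nat.mul_dvd_of_dvd_div hqN hd))
    (Nat.div_pos (Nat.le_of_dvd (NeZero.pos N) hqN) hqP.pos).ne'
  obtain rfl : N = D.N := by rw [HM.ALData.N, hDq, hDL, Nat.div_mul_cancel hqN]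
  subst hDq
  rw [← hDL]
  by_contra hold
  set t := fun (ℓ : ℕ) (hℓ : ℓ.Prime) => atPrime D.N ∅ hℓ (Set.notMem_empty ℓ) with ht
  set a : ℕ → ZC := fun ℓ => if h : ℓ.Prime then charZC hf (t ℓ h) else 0 with ha
  have ha' : ∀ (ℓ : ℕ) (hℓ : ℓ.Prime), a ℓ = charZC hf (t ℓ hℓ) := fun ℓ hℓ => by
    rw [ha]; exact dif_pos hℓ
  have haf : ∀ ℓ : ℕ, ℓ.Prime → (a ℓ : ℂ) = qCoeff f ℓ := fun ℓ hℓ => by
    rw [ha' ℓ hℓ]
    exact ((MF.isEigen_iff_isNormalizedEigenform f).mpr hf).char_heckeAt hℓ (Set.notMem_empty ℓ)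
  -- the transfers vanish
  have : NeZero D.L := ⟨D.L_ne_zero⟩
  have hzero := transfers_eq_zero χ j σ a (fun ℓ hℓ => by rw [hχ, ha' ℓ hℓ])
    fun g hg hgc => hold ⟨g, ∅, hg, fun ℓ hℓ _ hℓN => (hgc ℓ hℓ hℓN).trans (haf ℓ hℓ)⟩
  -- the auxiliary prime
  obtain ⟨ℓ, hℓlt, hℓ⟩ := Nat.exists_infinite_primes (D.N + 1)
  have hℓN : ¬ ℓ ∣ D.N := fun h => by have := Nat.le_of_dvd (NeZero.pos D.N) h; omega
  have hne : j (χ (t ℓ hℓ) - (ℓ + 1 : ℕ)) ≠ 0 := by
    rw [map_sub, hχ, map_natCast, sub_ne_zero, ← map_natCast σ, ← ha' ℓ hℓ]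
    intro h
    refine Assembly.coeffBound D.N f ℓ (NeZero.pos _) hf hℓ hℓN ?_
    rw [← haf ℓ hℓ, MF.Mult.injective_of_integers σ h]
    push_cast
    rfl
  obtain ⟨g, hg⟩ := GaloisBasic.exists_isFrobeniusAt D.prime hA
  set G := ES.eigEnd ι χ g
  have hG : G * G = ((D.q * D.q : ℕ) : B) • 1 := LinearMap.ext fun v =>
    eigEnd_sq_apply hqp ι χ j hj hA hI hℓ hℓN hne hg v (hzero v)
  -- against the determinant
  set F : Module.End B (ES.eigLat χ) ≃ₐ[B] Matrix (Fin 2) (Fin 2) B :=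
    LinearMap.toMatrixAlgEquiv (ES.eigBasis χ)
  have h2 : ES.eigMat ι χ g * ES.eigMat ι χ g = ((D.q * D.q : ℕ) : B) • 1 := by
    have := congrArg F hG
    rw [map_mul, map_smul, map_one] at this
    exact this
  have h3 := congrArg Matrix.det h2
  rw [Matrix.det_mul, ES.det_eigMat ι χ hpm, ES.padCyclo_frobenius p D.prime hqp hA hg,
    map_natCast, Matrix.det_smul, Matrix.det_one, mul_one, Fintype.card_fin] at h3
  norm_cast at h3
  have := Nat.mul_le_mul D.prime.two_le D.prime.two_le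
  nlinarith

end FermatAgent.Lifting

end
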