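import Fermat.Agent.Lifting.CoordQ
import Fermat.Agent.Lifting.Criteria
import Fermat.Agent.Lifting.AuxPrime
import Fermat.Agent.CFT.Selmer.LocalTools
import Fermat.Agent.CFT.SelmerP.OrdMain
import Fermat.Agent.CFT.Selmer.Residual
import Fermat.Agent.CFT.Selmer.Unipotent

/-!
# Tangent cocycles of the lifting problems, prime by prime

The residual hypotheses of the Selmer count for the curve, and the local behaviour of a cocycle
with a lift to dual numbers satisfying the conditions of lifting.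
-/

set_option autoImplicit false

noncomputable section

open IsLocalRing GaloisRep FermatAgent.GaloisBasic WeierstrassCurve
open FermatAgent.CFT FermatAgent.CFT.Selmer FermatAgent.CFT.Global
open scoped Classical

namespace FermatAgent.Lifting

open RT Assembly

attribute [local instance] dualAlgebra

local notation "GQ" => AlgebraicClosure ℚ ≃ₐ[ℚ] AlgebraicClosure ℚ
local notation "Qbar" => AlgebraicClosure ℚ

variable {k : Type} [Field k]

/-- A coboundary from a vanishing trace against a regular semisimple matrix. -/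
lemma exists_cob_of_trace_mul {F G c : M22 k} (hFG : F * G = 1)
    (hD : F.trace ^ 2 - 4 * F.det ≠ 0) (hc : c.trace = 0) (h : (c * F).trace = 0) :
    ∃ e : M22 k, c = F * e * G - e := by
  set D := F.trace ^ 2 - 4 * F.det with hDdef
  set Y := c * F with hY
  have hYF : (Y * F).trace = 0 := by
    rw [hY, mul_assoc, Selmer.mul_self_eq, mul_sub, Matrix.trace_sub, mul_smul_comm, mul_smul_comm,
      Matrix.trace_smul, Matrix.trace_smul, mul_one, ← hY, h, hc, smul_zero, smul_zero, sub_zero]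
  have key : F * (F * Y - Y * F) - (F * Y - Y * F) * F = D • Y := by
    rw [Matrix.trace_fin_two] at h hYF
    simp only [Matrix.mul_apply, Fin.sum_univ_two] at hYF
    have h11 : Y 1 1 = -Y 0 0 := by linear_combination h
    rw [hDdef, Matrix.trace_fin_two, Matrix.det_fin_two]
    ext i j
    fin_cases i <;> fin_cases j <;>
      simp [Matrix.mul_apply, Fin.sum_univ_two, h11] at hYF ⊢
    · linear_combination (-(F 0 0 - F 1 1)) * hYF
    · linear_combination (-2 * F 0 1) * hYF
    · linear_combination (-2 * F 1 0) * hYF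
    · linear_combination (F 0 0 - F 1 1) * hYF
  refine ⟨D⁻¹ • (F * Y - Y * F), ?_⟩
  set e := D⁻¹ • (F * Y - Y * F)
  have he : F * e - e * F = Y := by
    simp only [e, mul_smul_comm, smul_mul_assoc, ← smul_sub, key, smul_smul, inv_mul_cancel₀ hD,
      one_smul]
  calc c = Y * G := by rw [hY, mul_assoc, hFG, mul_one]
    _ = F * e * G - e * (F * G) := by rw [← he, sub_mul, mul_assoc e F G]
    _ = _ := by rw [hFG, mul_one]

lemma fst_dual_two : (2 : DualNumber k).fst = 2 := by
  rw [← one_add_one_eq_two, TrivSqZeroExt.fst_add, TrivSqZeroExt.fst_one, one_add_one_eq_two]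

lemma snd_dual_two : (2 : DualNumber k).snd = 0 := by
  rw [← one_add_one_eq_two, TrivSqZeroExt.snd_add, TrivSqZeroExt.snd_one, add_zero]

/-- The maximal ideal of dual numbers has square zero. -/
lemma maximalIdeal_dual_sq : maximalIdeal (DualNumber k) ^ 2 = ⊥ := by
  rw [pow_two, eq_bot_iff, Ideal.mul_le]
  intro x hx y hy
  rw [mem_maximalIdeal, mem_nonunits_iff, TrivSqZeroExt.isUnit_iff_isUnit_fst,
    isUnit_iff_ne_zero, not_not] at hx hy
  rw [Ideal.mem_bot]
  exact TrivSqZeroExt.ext (by simp [hx]) (by simp [hx, hy])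

variable {W : WeierstrassCurve ℤ} {p : ℕ} [hp : Fact p.Prime] {C : Coeff p} {hΔ : W.Δ ≠ 0}

/-- A prime with residually trivial inertia is unramified. -/
theorem unramAt_of_curveRes {q : ℕ}
    (h : ∀ A : ValuationSubring Qbar, A.LiesOverPrime q → ∀ σ ∈ A.inertiaSubgroupIn ℚ,
      curveRes C hΔ σ = 1) : UnramAt W p q := by
  intro A hA σ hσ x
  let := charP_residue C
  obtain ⟨t, ht⟩ := exists_torsion_basis (p := p) hΔ
  have h2 := h A hA σ hσ
  rw [curveRes_apply C hΔ σ, ← ht σ] at h2
  have h1 : Affine.Point.galoisRepModuleEnd (K := Qbar) ℚ (W.map (Int.castRingHom ℚ)).toAffine p σ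
      = 1 := by
    refine (LinearMap.toMatrix t t).injective ?_
    rw [LinearMap.toMatrix_one]
    refine Matrix.map_injective (ZMod.castHom (dvd_refl p) (ResidueField C.O)).injective ?_
    show Matrix.map _ _ = Matrix.map 1 _
    rw [Matrix.map_one _ (map_zero _) (map_one _)]
    exact h2
  exact LinearMap.congr_fun h1 x

/-- Triviality of inertia moves between the places over a prime. -/
lemma apply_inertia_eq_one_of_padicPlace {r : MatRep k} {q : ℕ} [Fact q.Prime]
    (h : ∀ σ ∈ (padicPlace q).inertiaSubgroupIn ℚ, r σ = 1) (A : ValuationSubring Qbar)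
    (hA : A.LiesOverPrime q) {σ : GQ} (hσ : σ ∈ A.inertiaSubgroupIn ℚ) : r σ = 1 := by
  obtain ⟨g, -, hI⟩ := conj_mem_groups (Fact.out : q.Prime) liesOverPrime_padicPlace hA
  have h1 := h _ (hI σ hσ)
  rw [map_mul, map_mul] at h1
  calc r σ = r g * (r g⁻¹ * r σ * r g) * r g⁻¹ := by
        rw [← map_mul, ← map_mul, ← map_mul, ← map_mul]; congr 1; group
    _ = 1 := by rw [h1, mul_one, rep_mul_inv]

namespace Ctx

variable (X : Ctx p)

lemma natCast_residue_eq (a : ℕ) : (a : ResidueField X.C.O) =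
    (letI := charP_residue X.C; ZMod.castHom (dvd_refl p) (ResidueField X.C.O) (a : ZMod p)) := by
  rw [map_natCast]

/-- The residual determinant is the cyclotomic character modulo `p`. -/
lemma det_curveRes_chiK (g : GQ) :
    letI := charP_residue X.C
    (curveRes X.C X.hΔ g).det = (chiK (ResidueField X.C.O) p g : ResidueField X.C.O) := by
  let := charP_residue X.C
  rw [det_curveRes, ← cycloO_apply]
  exact CFT.SelmerP.residue_cycloO g

/-- **The residual hypotheses of the Selmer count.** -/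
theorem resDatum : letI := charP_residue X.C; ResDatum p (curveRes X.C X.hΔ) := by
  let := charP_residue X.C
  set r := curveRes X.C X.hΔ
  have hspan : Submodule.span (ResidueField X.C.O) (Set.range r) = ⊤ := X.choices.span
  have hirr : ∀ v : Fin 2 → ResidueField X.C.O, v ≠ 0 →
      ∃ g, ∀ c : ResidueField X.C.O, (r g).mulVec v ≠ c • v :=
    fun v hv => RT.exists_mulVec_ne_smul_of_span hspan hv
  refine ⟨X.ne_two, fun g => X.det_curveRes_chiK g, hirr, fun Y hY hY0 => ?_⟩
  by_contra hno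
  push Not at hno
  by_cases hd : Y.det = 0
  · obtain ⟨v, hv, hst⟩ := exists_stable_of_nilpotent r hY0
      (by rw [Selmer.mul_self_eq, hY, hd, zero_smul, zero_smul, sub_zero]) hno
    obtain ⟨g, hg⟩ := hirr v hv
    obtain ⟨c, hc⟩ := hst g
    exact hg c hc
  · obtain ⟨G, hG, hcomm⟩ := exists_index_two r hY hd X.two_ne_zero_residue hspan hno
    have hall : ∀ Z : M22 (ResidueField X.C.O), Z * Y = Y * Z := fun Z => by
      have hZ : Z ∈ Submodule.span (ResidueField X.C.O) (r '' (G : Set GQ)) :=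
        (span_curveRes X.C X.hΔ X.idx G hG) ▸ Submodule.mem_top
      induction hZ using Submodule.span_induction with
      | mem x hx => obtain ⟨g, hg, rfl⟩ := hx; exact hcomm g hg
      | zero => simp
      | add x y _ _ hx hy => rw [add_mul, mul_add, hx, hy]
      | smul a x _ hx => rw [smul_mul_assoc, mul_smul_comm, hx]
    have a0 := congrFun (congrFun (hall (Matrix.single 0 1 1)) 0) 0
    have a1 := congrFun (congrFun (hall (Matrix.single 0 1 1)) 0) 1
    have b0 := congrFun (congrFun (hall (Matrix.single 1 0 1)) 0) 0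
    simp [Matrix.mul_apply, Matrix.single] at a0 a1 b0
    rw [Matrix.trace_fin_two, a1, ← two_mul] at hY
    have h00 : Y 0 0 = 0 := (mul_eq_zero.mp hY).resolve_left X.two_ne_zero_residue
    refine hY0 (Matrix.ext fun i j => ?_)
    fin_cases i <;> fin_cases j <;> simp_all

/-- Outside the ramification set the curve is residually unramified. -/
lemma unramAt_of_notMem {q : ℕ} (hq : q.Prime) (hqS : q ∉ X.ramSet) : UnramAt X.W p q :=
  unramAt_of_good X.hΔ hq (fun h => hqS (Finset.mem_insert.mpr (Or.inl h)))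
    (X.choices.good q hq hqS)

/-- A cocycle with a lift to dual numbers satisfying the conditions of lifting. -/
structure IsTanLift (Q : Finset ℕ) (c : GQ → M22 (ResidueField X.C.O))
    (N : MatRep (DualNumber (ResidueField X.C.O))) : Prop where
  mem : c ∈ adCoc (curveRes X.C X.hΔ)
  entries : ∀ g i j, N g i j = TrivSqZeroExt.inl (curveRes X.C X.hΔ g i j) +
    TrivSqZeroExt.inr ((c g * curveRes X.C X.hΔ g) i j)
  cont : MatContinuous (DualNumber (ResidueField X.C.O)) N
  cond : (liftMatCond X.C.O p (X.ramSet ∪ Q) X.traceSet X.localCase).P N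

namespace IsTanLift

variable {X} {Q : Finset ℕ} {c : GQ → M22 (ResidueField X.C.O)}
  {N : MatRep (DualNumber (ResidueField X.C.O))} (h : X.IsTanLift Q c N)

include h

lemma apply_fst (g : GQ) (i j : Fin 2) : (N g i j).fst = curveRes X.C X.hΔ g i j := by
  simp [h.entries]

/-- The derivative of the lift is the cocycle times the residual matrix. -/
lemma apply_snd (g : GQ) (i j : Fin 2) : (N g i j).snd = (c g * curveRes X.C X.hΔ g) i j := by
  simp [h.entries]

lemma eq_of_apply_eq {g g' : GQ} (e : N g = N g') :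
    curveRes X.C X.hΔ g = curveRes X.C X.hΔ g' ∧ c g = c g' := by
  have h1 : curveRes X.C X.hΔ g = curveRes X.C X.hΔ g' := Matrix.ext fun i j => by
    rw [← h.apply_fst, ← h.apply_fst, e]
  refine ⟨h1, ?_⟩
  have h2 : c g * curveRes X.C X.hΔ g = c g' * curveRes X.C X.hΔ g' := Matrix.ext fun i j => by
    rw [← h.apply_snd, ← h.apply_snd, e]
  rw [← h1] at h2
  have h3 := congrArg (· * curveRes X.C X.hΔ g⁻¹) h2
  simpa only [mul_assoc, rep_mul_inv, mul_one] using h3

lemma coc_one : c 1 = 0 := by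
  have := h.mem.1 1 1
  rw [mul_one, map_one, inv_one, map_one, one_mul, mul_one] at this
  exact left_eq_add.mp this

lemma of_apply_eq_one {g : GQ} (e : N g = 1) : curveRes X.C X.hΔ g = 1 ∧ c g = 0 := by
  have h1 := h.eq_of_apply_eq (g := g) (g' := 1) (e.trans (map_one N).symm)
  rwa [map_one, h.coc_one] at h1

lemma apply_eq_one {g : GQ} (hr : curveRes X.C X.hΔ g = 1) (hc : c g = 0) : N g = 1 := by
  ext i j
  all_goals rw [h.entries, hr, hc, zero_mul, Matrix.zero_apply, TrivSqZeroExt.inr_zero, add_zero,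
    Matrix.one_apply, Matrix.one_apply]
  all_goals split_ifs <;> simp

/-- The cocycle and the residual representation factor through a finite extension of `ℚ`. -/
lemma coc_continuous : ∃ L : IntermediateField ℚ Qbar, FiniteDimensional ℚ L ∧
    ∀ σ ∈ L.fixingSubgroup, curveRes X.C X.hΔ σ = 1 ∧ c σ = 0 := by
  obtain ⟨L, hL, hM⟩ := h.cont 2
  refine ⟨L, hL, fun σ hσ => h.of_apply_eq_one (Matrix.ext fun i j => ?_)⟩
  have := hM σ hσ i j
  rwa [maximalIdeal_dual_sq, Ideal.mem_bot, sub_eq_zero] at this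

/-- The cocycle is unramified outside the ramification set and `Q`. -/
lemma coc_unram {q : ℕ} (hq : q.Prime) (hqS : q ∉ X.ramSet ∪ Q) {A : ValuationSubring Qbar}
    (hA : A.LiesOverPrime q) {τ : GQ} (hτ : τ ∈ A.inertiaSubgroupIn ℚ) : c τ = 0 :=
  (h.of_apply_eq_one ((liftMatCond_iff.mp h.cond).2.1 τ ⟨q, A, hq, hqS, hA, hτ⟩)).2

lemma inertTrivial {q : ℕ} (hq : q.Prime) (hqp : q ≠ p) {P : ValuationSubring Qbar}
    (hP : P.LiesOverPrime q) (hr : ∀ σ ∈ P.inertiaSubgroupIn ℚ, curveRes X.C X.hΔ σ = 1) :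
    InertTrivial N P q p := by
  refine ⟨hq, hP, hqp, ?_, h.cont, fun σ hσ i j => ?_⟩
  · rw [mem_maximalIdeal, mem_nonunits_iff, TrivSqZeroExt.isUnit_iff_isUnit_fst,
      TrivSqZeroExt.fst_natCast, isUnit_iff_ne_zero, not_not]
    let := charP_residue X.C
    exact CharP.cast_eq_zero _ p
  · rw [mem_maximalIdeal, mem_nonunits_iff, TrivSqZeroExt.isUnit_iff_isUnit_fst,
      TrivSqZeroExt.fst_sub, h.apply_fst, hr σ hσ, isUnit_iff_ne_zero, not_not, Matrix.one_apply,
      Matrix.one_apply]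
    split_ifs <;> simp

lemma coc_pow {τ : GQ} (hr : curveRes X.C X.hΔ τ = 1) (n : ℕ) : c (τ ^ n) = n • c τ := by
  induction n with
  | zero => rw [pow_zero, zero_smul, h.coc_one]
  | succ n ih =>
    have hr' : curveRes X.C X.hΔ τ⁻¹ = 1 := by
      simpa [hr] using rep_mul_inv (curveRes X.C X.hΔ) τ
    rw [pow_succ, h.mem.1, ih, ← inv_pow, map_pow, map_pow, hr, hr', one_pow, one_mul, mul_one,
      succ_nsmul]

/-- The tame relation on the cocycle. -/
lemma coc_tame {q : ℕ} (hq : q.Prime) (hqp : q ≠ p) {P : ValuationSubring Qbar}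
    (hP : P.LiesOverPrime q) (hr : ∀ σ ∈ P.inertiaSubgroupIn ℚ, curveRes X.C X.hΔ σ = 1) {F τ : GQ}
    (hF : P.IsFrobeniusAt F q) (hτ : IsTameGen P p τ) :
    curveRes X.C X.hΔ F * c τ = (q : ResidueField X.C.O) • (c τ * curveRes X.C X.hΔ F) := by
  have e := (h.inertTrivial hq hqp hP hr).tame hτ hF
  rw [← map_pow, ← map_mul, ← map_mul] at e
  obtain ⟨-, e2⟩ := h.eq_of_apply_eq e
  have hτ1 := hr τ hτ.mem
  have hτ1' : curveRes X.C X.hΔ τ⁻¹ = 1 := by
    simpa [hτ1] using rep_mul_inv (curveRes X.C X.hΔ) τ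
  rw [h.mem.1, h.mem.1, h.coc_pow hτ1, ← inv_pow, map_pow, map_pow, hτ1, hτ1', one_pow, one_mul,
    mul_one, add_comm (q • c τ), add_right_inj] at e2
  have e3 := congrArg (· * curveRes X.C X.hΔ F) e2
  simp only [mul_assoc, rep_inv_mul, mul_one] at e3
  rw [e3, Nat.cast_smul_eq_nsmul, smul_mul_assoc]

/-- **A framed site.** -/
theorem locCob_frame {q : ℕ} (hq : q.Prime) (hqp : q ≠ p) {P : ValuationSubring Qbar}
    (hP : P.LiesOverPrime q) (hr : ∀ σ ∈ P.inertiaSubgroupIn ℚ, curveRes X.C X.hΔ σ = 1) {F τ : GQ}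
    (hF : P.IsFrobeniusAt F q) (hτ : IsTameGen P p τ)
    (he : ∃ e, c F = e - curveRes X.C X.hΔ F * e * curveRes X.C X.hΔ F⁻¹) (hcτ : c τ = 0) :
    c ∈ locCob (curveRes X.C X.hΔ) (P.decompositionSubgroup ℚ) := by
  obtain ⟨e, he⟩ := he
  have hN : N τ = 1 := h.apply_eq_one (hr τ hτ.mem) hcτ
  refine mem_locCob_decomposition hq hP hF h.mem h.coc_continuous (e := -e) ?_ fun σ hσ => ?_
  · rw [he, mul_neg, neg_mul, sub_neg_eq_add, neg_add_eq_sub]
  · have hr' : curveRes X.C X.hΔ σ⁻¹ = 1 := by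
      simpa [hr σ hσ] using rep_mul_inv (curveRes X.C X.hΔ) σ
    rw [(h.of_apply_eq_one ((h.inertTrivial hq hqp hP hr).eq_one hτ hN hσ)).2, hr σ hσ, hr',
      one_mul, mul_one, sub_self]

/-- **An auxiliary prime of the level.** -/
theorem coc_aux {q : ℕ} (hq : q ∈ X.seed.aux) {P : ValuationSubring Qbar}
    (hP : P.LiesOverPrime q) {τ : GQ} (hτ : τ ∈ P.inertiaSubgroupIn ℚ) : c τ = 0 := by
  obtain ⟨-, hq0, hqp, hg, hq1, hne⟩ := X.seed.aux_spec q hq
  have := Fact.mk hq0
  have hr : ∀ σ ∈ P.inertiaSubgroupIn ℚ, curveRes X.C X.hΔ σ = 1 := fun σ hσ =>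
    curveRes_inertia_eq_one (unramAt_of_good X.hΔ hq0 hqp hg) hP hσ
  obtain ⟨F, hF⟩ := exists_isFrobeniusAt hq0 hP
  obtain ⟨τ₀, hτ₀⟩ := exists_isTameGen (p := p) hq0 hP hqp
  let := charP_residue X.C
  have hinj := (ZMod.castHom (dvd_refl p) (ResidueField X.C.O)).injective
  have hqk : ((q : ℕ) : ResidueField X.C.O) = residue X.C.O (q : X.C.O) := (map_natCast _ _).symm
  have hz := eq_zero_of_frob_conj (F := curveRes X.C X.hΔ F) (q₀ := (q : ResidueField X.C.O))
    (by rw [Ne, CharP.cast_eq_zero_iff (ResidueField X.C.O) p]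
        exact fun hd => hqp ((Nat.prime_dvd_prime_iff_eq hp.out hq0).mp hd).symm)
    (by rw [X.natCast_residue_eq, ← map_one (ZMod.castHom (dvd_refl p) (ResidueField X.C.O))]
        exact fun hh => hq1 (hinj hh))
    (by rw [det_curveRes_frobenius hq0 hqp hP hF, hqk])
    (by rw [trace_curveRes_frobenius X.semistable hq0 hqp hP hF, frobVal_good hg, map_intCast]
        intro hh
        refine hne (hinj ?_)
        simp only [map_pow, map_add, map_one, map_intCast, map_natCast]
        exact hh)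
    (h.coc_tame hq0 hqp hP hr hF hτ₀)
  exact (h.of_apply_eq_one ((h.inertTrivial hq0 hqp hP hr).eq_one hτ₀
    (h.apply_eq_one (hr τ₀ hτ₀.mem) hz) hτ)).2

/-- Trace two on inertia is orthogonality. -/
lemma trace_coc {τ : GQ} (hτ : τ ∈ inertiaAtSet X.traceSet) :
    (curveRes X.C X.hΔ τ).trace = 2 ∧ (c τ * curveRes X.C X.hΔ τ).trace = 0 := by
  have ht := (liftMatCond_iff.mp h.cond).2.2.1 τ hτ
  rw [Matrix.trace_fin_two] at ht
  constructor
  · have := congrArg TrivSqZeroExt.fst ht
    rw [TrivSqZeroExt.fst_add, h.apply_fst, h.apply_fst] at this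
    rw [Matrix.trace_fin_two, this]
    exact fst_dual_two
  · have := congrArg TrivSqZeroExt.snd ht
    rw [TrivSqZeroExt.snd_add, h.apply_snd, h.apply_snd] at this
    rw [Matrix.trace_fin_two, this]
    exact snd_dual_two

/-- **A raised prime away from `p`.** -/
theorem locCob_raise {v : X.Nu} (hv : v.1 ≠ p)
    (ψ : (X.DQ Q).UR →ₐ[X.C.O] DualNumber (ResidueField X.C.O))
    (hψ : ∀ g, ((X.DQ Q).univMat g).map ψ = N g)
    (hz : ∀ i, ψ (Raise.siteVals (X.DQ Q).univMat (X.raiseSite v hv) i) = 0) :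
    ∀ P : ValuationSubring Qbar, P.LiesOverPrime v.1 →
      c ∈ locCob (curveRes X.C X.hΔ) (P.decompositionSubgroup ℚ) := by
  obtain ⟨hq0, hbad, -⟩ := X.mem_raised.mp v.2
  have := Fact.mk hq0
  set d := X.raiseSite v hv
  obtain ⟨P, hP, hF, hτ, hin⟩ := (X.raiseSite_spec v hv).place
  have hS : Raise.SiteShape (X.DQ Q).univMat d := X.siteShapeQ Q v hv
  have htr : ∀ g, ψ ((X.DQ Q).univMat g).trace = (N g).trace := fun g => by
    rw [← hψ, Matrix.trace_fin_two, Matrix.trace_fin_two, map_add]; rfl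
  have ht : ψ ((X.DQ Q).univMat d.inert).trace = 2 := by
    rw [htr, Matrix.trace_fin_two]
    refine TrivSqZeroExt.ext ?_ ?_
    · rw [TrivSqZeroExt.fst_add, h.apply_fst, h.apply_fst, hin _ hτ.mem, Matrix.one_apply_eq,
        Matrix.one_apply_eq, one_add_one_eq_two]
      exact fst_dual_two.symm
    · rw [TrivSqZeroExt.snd_add, h.apply_snd, h.apply_snd, hin _ hτ.mem, mul_one,
        ← Matrix.trace_fin_two, h.mem.2]
      exact snd_dual_two.symm
  have hN : N d.inert = 1 :=
    (hψ d.inert).symm.trans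
      (hS.map_inert_eq_one (ψ : (X.DQ Q).UR →+* DualNumber (ResidueField X.C.O)) ht (hz 1) (hz 2) :)
  have hroot : ψ (Raise.siteRoot (X.DQ Q).univMat d) =
      TrivSqZeroExt.inl (residue X.C.O d.α₀) := by
    have h0 : ψ (Raise.siteRoot (X.DQ Q).univMat d - algebraMap X.C.O (X.DQ Q).UR d.α₀) = 0 :=
      hz 0
    rw [map_sub, AlgHom.commutes, sub_eq_zero] at h0
    rw [h0, dual_algebraMap]
  obtain ⟨hsum, hprod, -, -⟩ := hS.roots
  set β := ψ (Raise.siteRoot' (X.DQ Q).univMat d)
  have hβ : β = (N d.frob).trace - TrivSqZeroExt.inl (residue X.C.O d.α₀) := by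
    rw [← htr, ← hsum, map_add, hroot, add_sub_cancel_left]
  have hp' := congrArg ψ hprod
  rw [map_mul, hroot, hS.det, map_natCast] at hp'
  have hs0 : residue X.C.O d.α₀ * β.snd = 0 := by
    have := congrArg TrivSqZeroExt.snd hp'
    simpa using this
  have hα : residue X.C.O d.α₀ ≠ 0 := (residue_ne_zero_iff_isUnit _).mpr d.isUnit_α₀
  have htF : (c d.frob * curveRes X.C X.hΔ d.frob).trace = 0 := by
    have h3 := congrArg TrivSqZeroExt.snd hβ
    rw [(mul_eq_zero.mp hs0).resolve_left hα, TrivSqZeroExt.snd_sub, TrivSqZeroExt.snd_inl,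
      sub_zero, Matrix.trace_fin_two, TrivSqZeroExt.snd_add, h.apply_snd, h.apply_snd] at h3
    rw [Matrix.trace_fin_two]
    exact h3.symm
  have hdet : (curveRes X.C X.hΔ d.frob).det = residue X.C.O (d.α₀ * d.sgn) := by
    rw [det_curveRes_frobenius hq0 hv hP hF, Raise.RaiseSite.α₀, mul_right_comm, d.sgn_sq, one_mul,
      (X.raiseSite_spec v hv).q_eq]
  obtain ⟨e, he⟩ := exists_cob_of_trace_mul (rep_mul_inv (curveRes X.C X.hΔ) d.frob) (by
    rw [(X.raiseSite_spec v hv).trace, hdet, map_add, map_mul]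
    have e1 : residue X.C.O d.α₀ - residue X.C.O d.sgn ≠ 0 := by
      rw [← map_sub]; exact (residue_ne_zero_iff_isUnit _).mpr d.isUnit_diff
    intro h0
    refine e1 (pow_eq_zero_iff two_ne_zero |>.mp ?_)
    rw [← h0]; ring) (h.mem.2 _) htF
  have hP' : c ∈ locCob (curveRes X.C X.hΔ) (P.decompositionSubgroup ℚ) := by
    refine mem_locCob_decomposition hq0 hP hF h.mem h.coc_continuous (e := e) he fun σ hσ => ?_
    have hr' : curveRes X.C X.hΔ σ⁻¹ = 1 := by
      simpa [hin σ hσ] using rep_mul_inv (curveRes X.C X.hΔ) σ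
    rw [(h.of_apply_eq_one ((h.inertTrivial hq0 hv hP hin).eq_one hτ hN hσ)).2, hin σ hσ, hr',
      one_mul, mul_one, sub_self]
  intro P' hP''
  obtain ⟨g, hD, -⟩ := conj_mem_groups hq0 hP hP''
  exact locCob_conj h.mem g hD hP'

end IsTanLift

end Ctx

end FermatAgent.Lifting

end
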