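import Fermat.Agent.Lifting.DiamondChar
import Fermat.Agent.Lifting.TangentLocal
import Fermat.Agent.Lifting.LowerSeedOf
import Fermat.Agent.BAD.Diamond.Main

/-!
# The auxiliary data of Taylor-Wiles primes

The diamond character, the roots of the Frobenius polynomials, the tame elements and the relations
on the localised modules for a set of Taylor-Wiles primes of given depth together with the framed
primes.
-/

set_option autoImplicit false

noncomputable section

open IsLocalRing GaloisRep FermatAgent.GaloisBasic WeierstrassCurve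
open scoped Classical

namespace FermatAgent.Lifting

open RT Assembly

attribute [local instance] dualAlgebra

local notation "GQ" => AlgebraicClosure ℚ ≃ₐ[ℚ] AlgebraicClosure ℚ
local notation "Qbar" => AlgebraicClosure ℚ

/-- A squarefree number times distinct primes not dividing it is squarefree. -/
lemma squarefree_mul_prod {ι : Type} (f : ι → ℕ) (S : Finset ι) {M : ℕ} (hM : Squarefree M)
    (hp : ∀ i ∈ S, (f i).Prime) (hinj : Set.InjOn f (S : Set ι)) (hnd : ∀ i ∈ S, ¬ f i ∣ M) :
    Squarefree (M * ∏ i ∈ S, f i) := by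
  induction S using Finset.induction_on with
  | empty => rwa [Finset.prod_empty, mul_one]
  | @insert a S ha ih =>
    rw [Finset.prod_insert ha, mul_comm (f a), ← mul_assoc]
    have ih' := ih (fun i hi => hp i (Finset.mem_insert_of_mem hi))
      (hinj.mono (Finset.coe_subset.mpr (Finset.subset_insert a S)))
      fun i hi => hnd i (Finset.mem_insert_of_mem hi)
    refine (Nat.squarefree_mul ?_).mpr ⟨ih', (hp a (Finset.mem_insert_self a S)).squarefree⟩
    refine Nat.Coprime.symm
      ((hp a (Finset.mem_insert_self a S)).coprime_iff_not_dvd.mpr fun hd => ?_)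
    rcases (hp a (Finset.mem_insert_self a S)).dvd_mul.mp hd with hd | hd
    · exact hnd a (Finset.mem_insert_self a S) hd
    · obtain ⟨i, hi, hid⟩ := (hp a (Finset.mem_insert_self a S)).prime.exists_mem_finset_dvd hd
      have he := (Nat.prime_dvd_prime_iff_eq (hp a (Finset.mem_insert_self a S))
        (hp i (Finset.mem_insert_of_mem hi))).mp hid
      exact ha (hinj (Finset.mem_insert_self a S) (Finset.mem_insert_of_mem hi) he ▸ hi)

variable {p : ℕ} [hp : Fact p.Prime]

/-- Roots of a Frobenius polynomial with distinct residues, of product exactly `q`. -/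
lemma exists_twRoots (C : Coeff p) (a : ℤ) {q : ℕ} (hq1 : (q : ZMod p) = 1)
    (ht : (residue C.O (a : C.O)) ^ 2 ≠ 4) :
    ∃ α β : C.O, residue C.O (α + β) = residue C.O (a : C.O) ∧ α * β = (q : C.O) ∧ IsUnit α ∧
      IsUnit (α - β) ∧ IsUnit (α ^ 2 - 1) := by
  obtain ⟨x, hx⟩ := C.split a q
  rw [← map_intCast (residue C.O) a, ← map_intCast (residue C.O) (q : ℤ), Int.cast_natCast,
    residue_natCast_of_one C hq1] at hx
  set t := residue C.O (a : C.O)
  have hx1 : x * (t - x) = 1 := by linear_combination -hx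
  have hx0 : x ≠ 0 := left_ne_zero_of_mul_eq_one hx1
  obtain ⟨α, hα⟩ := residue_surjective x
  obtain ⟨u, hu⟩ : IsUnit α :=
    (residue_ne_zero_iff_isUnit α).mp (by rw [hα]; exact hx0)
  set β : C.O := (q : C.O) * ↑u⁻¹
  have hαβ : α * β = (q : C.O) := by rw [← hu, mul_left_comm, Units.mul_inv, mul_one]
  have hβ : residue C.O β = t - x := mul_left_cancel₀ hx0 (by
    rw [hx1, ← hα, ← map_mul, hαβ, residue_natCast_of_one C hq1])
  refine ⟨α, β, ?_, hαβ, ⟨u, hu⟩, ?_, ?_⟩
  · rw [map_add, hα, hβ, add_sub_cancel]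
  · refine (residue_ne_zero_iff_isUnit _).mp fun h0 => ht ?_
    rw [map_sub, hα, hβ, sub_eq_zero] at h0
    have ht2 : t = 2 * x := by linear_combination -h0
    linear_combination (t + 2 * x) * ht2 + 4 * hx1 - 4 * x * ht2
  · refine (residue_ne_zero_iff_isUnit _).mp fun h0 => ht ?_
    rw [map_sub, map_pow, map_one, hα, sub_eq_zero] at h0
    have ht2 : t = 2 * x := by linear_combination (-t + x) * h0 + x * hx1
    linear_combination (t + 2 * x) * ht2 + 4 * h0

namespace Ctx

variable (X : Ctx p)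

/-- The moduli of depth `n` at `r` auxiliary primes and at the framed primes. -/
def auxModuli (r n : ℕ) : Fin r ⊕ X.Sigma → ℕ := Sum.elim (fun _ => p ^ (n + 1)) fun _ => p

lemma auxModuli_pow (r n : ℕ) (j : Fin r ⊕ X.Sigma) : ∃ k, X.auxModuli r n j = p ^ k := by
  rcases j with j | v
  · exact ⟨n + 1, rfl⟩
  · exact ⟨1, (pow_one p).symm⟩

instance neZero_auxModuli (r n : ℕ) (j : Fin r ⊕ X.Sigma) : NeZero (X.auxModuli r n j) := by
  obtain ⟨k, hk⟩ := X.auxModuli_pow r n j
  exact ⟨hk ▸ pow_ne_zero k hp.out.ne_zero⟩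

instance isLocalRing_auxModuli (r n : ℕ) :
    IsLocalRing (MonoidAlgebra X.C.O (CycProd (X.auxModuli r n))) :=
  GroupRing.isLocalRing (p := p) (cycProd_isPGroup (X.auxModuli_pow r n)) natCast_mem_maximalIdeal

/-- The auxiliary primes among the indices. -/
def auxSel (r : ℕ) : Finset (Fin r ⊕ X.Sigma) := Finset.univ.map Function.Embedding.inl

/-- The framed primes are not among the selected coordinates. -/
lemma inr_notMem_auxSel (r : ℕ) (v : X.Sigma) : Sum.inr v ∉ X.auxSel r := by simp [auxSel]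

/-- The auxiliary primes among the indices, numbered. -/
def auxEquiv (r : ℕ) : Fin r ≃ {j // j ∈ X.auxSel r} :=
  Equiv.ofBijective (fun i => ⟨Sum.inl i, Finset.mem_map_of_mem _ (Finset.mem_univ i)⟩)
    ⟨fun i j h => Sum.inl_injective (congrArg Subtype.val h), fun ⟨j, hj⟩ => by
      obtain ⟨i, -, rfl⟩ := Finset.mem_map.mp hj
      exact ⟨i, rfl⟩⟩

/-- The moduli at the Taylor–Wiles primes exceed one. -/
lemma one_lt_auxModuli (r n : ℕ) : ∀ j ∈ X.auxSel r, 1 < X.auxModuli r n j := fun j hj => by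
  obtain ⟨i, -, rfl⟩ := Finset.mem_map.mp hj
  exact Nat.one_lt_pow (Nat.succ_ne_zero n) hp.out.one_lt

/-- The moduli at the Taylor–Wiles primes are at least `p ^ (n + 1)`. -/
lemma depth_auxModuli (r n : ℕ) (j : {j // j ∈ X.auxSel r}) :
    p ^ (n + 1) ≤ X.auxModuli r n j.1 := by
  obtain ⟨i, -, hi⟩ := Finset.mem_map.mp j.2
  exact hi ▸ le_refl _

/-- The values of the second specialisation: trivial at auxiliary primes, `ζ` at framed primes. -/
def auxWeight (r : ℕ) : Fin r ⊕ X.Sigma → X.C.O := Sum.elim (fun _ => 1) fun _ => X.C.ζ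

/-- The weight at a coordinate is killed by the modulus of that coordinate. -/
lemma auxWeight_pow (r n : ℕ) (j : Fin r ⊕ X.Sigma) :
    X.auxWeight r j ^ X.auxModuli r n j = 1 := by
  rcases j with j | v
  · exact one_pow _
  · exact X.C.zeta_pow

/-- The weights are congruent to one modulo `ϖ`. -/
lemma dvd_auxWeight (r : ℕ) (j : Fin r ⊕ X.Sigma) : X.C.ϖ ∣ X.auxWeight r j - 1 := by
  rcases j with j | v
  · rw [auxWeight, Sum.elim_inl, sub_self]
    exact dvd_zero _
  · rw [← Ideal.mem_span_singleton, ← X.C.max_eq]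
    exact sub_one_mem_of_pow_eq_one natCast_mem_maximalIdeal X.C.zeta_pow

/-- Auxiliary data of depth `n` with `r` primes in `Q`. -/
structure AuxPack (Q : Finset ℕ) (r n : ℕ) : Type where
  /-- The modulus. -/
  N : ℕ
  [neN : NeZero N]
  /-- The auxiliary primes. -/
  T : RT.Ladder.AuxPrimes X.raiseBase (X.auxModuli r n) N
  /-- The tame data at the auxiliary primes. -/
  aux : {j // j ∈ X.auxSel r} → TameAux p (X.DQ Q).rbar
  hu : ∀ j, T.δ (HM.cycloN N (aux j).τ) =
    cycGen (m := X.auxModuli r n) j.1 * cycGen (m := X.auxModuli r n) j.1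
  hrel : ∀ A, T.TameRel (X.auxSel r) aux A
  site_u : ∀ v : X.Sigma, T.δ (HM.cycloN N (X.frameSite v).inert) =
    cycGen (m := X.auxModuli r n) (Sum.inr v) * cycGen (m := X.auxModuli r n) (Sum.inr v)
  site_rel : ∀ A (v : X.Sigma),
    (HM.galLoc p X.C.O T.surj T.neg (HM.resIdeal (T.aS A)) (T.hloc A) (X.frameSite v).inert - 1) *
      (HM.galLoc p X.C.O T.surj T.neg (HM.resIdeal (T.aS A)) (T.hloc A) (X.frameSite v).inert -
        algebraMap (MvPolynomial (GoodIdx X.varLevel)
            (MonoidAlgebra X.C.O (CycProd (X.auxModuli r n)))) _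
          (MvPolynomial.C (HM.detChar p X.C.O T.δ (X.frameSite v).inert))) = 0
  unr₀ : ∀ j, X.D.univMat (aux j).τ = 1
  facts : X.LevelFacts T Q

attribute [instance] AuxPack.neN

/-- The primes of the diamond character: the auxiliary primes and the framed primes. -/
private def auxEll {r : ℕ} (qv : Fin r → ℕ) : Fin r ⊕ X.Sigma → ℕ := Sum.elim qv Subtype.val

/-- The primes of the diamond character are distinct primes different from `p` which are congruent
to one modulo the moduli. -/
private lemma auxEll_spec {r n : ℕ} {qv : Fin r → ℕ} (hinj : Function.Injective qv)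
    (hqP : ∀ i, (qv i).Prime) (hqp : ∀ i, qv i ≠ p) (hqM : ∀ i, ¬ qv i ∣ X.M)
    (hqd : ∀ i, p ^ (n + 1) ∣ qv i - 1) :
    (∀ j, (X.auxEll qv j).Prime) ∧ Function.Injective (X.auxEll qv) ∧
      (∀ j, X.auxEll qv j ≠ p) ∧ ∀ j, X.auxModuli r n j ∣ X.auxEll qv j - 1 := by
  let ell := X.auxEll qv
  have hell : ∀ j, (ell j).Prime := by
    rintro (i | v)
    exacts [hqP i, (X.mem_frames.mp v.2).1]
  have hframe : ∀ (i : Fin r) (v : X.Sigma), qv i ≠ v.1 := fun i v h =>
    hqM i (h ▸ (X.mem_frames.mp v.2).2.1)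
  have hellinj : Function.Injective ell := by
    rintro (i | v) (i' | v') h
    · exact congrArg Sum.inl (hinj h)
    · exact absurd h (hframe i v')
    · exact absurd h.symm (hframe i' v)
    · exact congrArg Sum.inr (Subtype.ext h)
  have hellp : ∀ j, ell j ≠ p := by
    rintro (i | v)
    exacts [hqp i, (X.mem_frames.mp v.2).2.2.1]
  have hdvd : ∀ j, X.auxModuli r n j ∣ ell j - 1 := by
    rintro (i | v)
    · exact hqd i
    · show p ∣ v.1 - 1
      rw [← ZMod.natCast_eq_zero_iff, Nat.cast_sub (X.mem_frames.mp v.2).1.one_le, Nat.cast_one,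
        (X.mem_frames.mp v.2).2.2.2.2.1, sub_self]
  exact ⟨hell, hellinj, hellp, hdvd⟩

/-- The auxiliary primes with a given diamond character and given roots. -/
private lemma exists_auxPrimes {r n : ℕ} {qv : Fin r → ℕ} (hinj : Function.Injective qv)
    (hqS : ∀ i, qv i ∉ X.ramSet) (hqM : ∀ i, ¬ qv i ∣ X.M)
    (idx : Fin r → GoodIdx X.varLevel) (hidxv : ∀ i, (idx i).1.1 = qv i)
    {δ : (ZMod (∏ j, X.auxEll qv j))ˣ →* CycProd (X.auxModuli r n)} (hδ : Function.Surjective δ)
    (hδneg : δ (-1) = 1) {a b : Fin r → X.C.O}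
    (hsum : ∀ i, residue X.C.O (a i + b i) = residue X.C.O (frobVal X.W (qv i) : X.C.O))
    (hprod : ∀ i, a i * b i = (qv i : X.C.O)) (hunit : ∀ i, IsUnit (a i))
    (hdist : ∀ i, IsUnit (a i - b i)) (hnew : ∀ i, IsUnit (a i ^ 2 - 1)) :
    ∃ T : RT.Ladder.AuxPrimes X.raiseBase (X.auxModuli r n) (∏ j, X.auxEll qv j),
      T.δ = δ ∧ T.Q = Finset.univ.image idx := by
  have hidx : Function.Injective idx := fun i j h => hinj (by rw [← hidxv i, ← hidxv j, h])
  have hQval : ∀ i ∈ Finset.univ.image idx, ∃ j, idx j = i := fun i hi => by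
    obtain ⟨j, -, hj⟩ := Finset.mem_image.mp hi
    exact ⟨j, hj⟩
  have hθ : ∀ q : ℕ, HM.thetaAt (1 : (ZMod 1)ˣ →* X.C.O) q = 1 := fun q => by
    rw [HM.thetaAt, dif_pos (Nat.coprime_one_right _), MonoidHom.one_apply]
  have : NeZero ((X.raiseBase.M * ∏ v, X.raiseBase.ell (X.raiseBase.site v)) *
      ∏ i ∈ Finset.univ.image idx, X.raiseBase.ell i) :=
    ⟨mul_ne_zero (mul_ne_zero X.raiseBase.M_ne
      (Finset.prod_ne_zero_iff.mpr fun v _ => (X.raiseBase.pr _).1.2.ne_zero))
      (Finset.prod_ne_zero_iff.mpr fun i _ => (X.raiseBase.pr i).1.2.ne_zero)⟩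
  obtain ⟨i₀, hi₀, hu₀⟩ := exists_witness (C := X.C) X.hΔ X.idx X.varLevel_ne_zero ∅
    ((X.raiseBase.M * ∏ v, X.raiseBase.ell (X.raiseBase.site v)) *
      ∏ i ∈ Finset.univ.image idx, X.raiseBase.ell i)
  refine ⟨{
    δ := δ
    Q := Finset.univ.image idx
    α := Function.extend idx a 0
    β := Function.extend idx b 0
    surj := hδ
    neg := hδneg
    pow := X.auxModuli_pow r n
    disj := fun v hv => by
      obtain ⟨i, hi⟩ := hQval _ hv
      have he : qv i = v.1 := (hidxv i).symm.trans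
        (congrArg (fun k : GoodIdx X.varLevel => k.1.1) hi)
      exact hqS i (he ▸ Finset.mem_insert_of_mem (Finset.mem_union_right _
        ((X.isBad_iff (X.mem_raised.mp v.2).1).mp (X.mem_raised.mp v.2).2.1)))
    aux_not_dvd := fun i hi => by
      obtain ⟨j, rfl⟩ := hQval i hi
      show ¬ (idx j).1.1 ∣ X.M
      rw [hidxv]
      exact hqM j
    N_dvd := by
      rw [auxEll, Fintype.prod_sum_type, mul_comm, Finset.prod_image hidx.injOn]
      refine mul_dvd_mul ?_ (dvd_of_eq (Finset.prod_congr rfl fun i _ => (hidxv i).symm))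
      show ∏ v : X.Sigma, v.1 ∣ X.M
      rw [Finset.prod_coe_sort X.frames fun q => q]
      exact Finset.prod_primes_dvd _ (fun q hq => (X.mem_frames.mp hq).1.prime)
        fun q hq => (X.mem_frames.mp hq).2.1
    roots := fun i hi => by
      obtain ⟨j, rfl⟩ := hQval i hi
      rw [hidx.extend_apply, hidx.extend_apply]
      refine ⟨?_, ?_, hunit j, hdist j, ?_⟩
      · rw [← residue_eq_zero_iff, map_sub, hsum]
        show residue X.C.O (heckeVal X.C X.W ∅ (idx j)) - _ = 0
        rw [heckeVal_notMem X.C X.W (Finset.notMem_empty _)]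
        show residue X.C.O (frobVal X.W (idx j).1.1 : X.C.O) - _ = 0
        rw [hidxv, sub_self]
      · rw [hθ, mul_one]
        show _ = ((idx j).1.1 : X.C.O)
        rw [hidxv]
        exact hprod j
      · rw [hθ]
        exact hnew j
    witness := ⟨i₀, hi₀, by
      rw [HM.X_sub_C_mem_resIdeal, mem_maximalIdeal, mem_nonunits_iff, not_not] at hu₀
      exact hu₀⟩ }, rfl, rfl⟩

/-- The tame data at one auxiliary prime. -/
private def tameAuxOf (Q : Finset ℕ) {q : ℕ} (hqP : q.Prime) (hqS : q ∉ X.ramSet) (hqp : q ≠ p)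
    (hq1 : (q : ZMod p) = 1) {P : ValuationSubring Qbar} (hP : P.LiesOverPrime q) {φ τq : GQ}
    (hφ : P.IsFrobeniusAt φ q) (hτq : IsTameGen P p τq) {a b : X.C.O}
    (hsum : residue X.C.O (a + b) = residue X.C.O (frobVal X.W q : X.C.O))
    (hprod : a * b = (q : X.C.O)) (hdist : IsUnit (a - b)) : TameAux p (X.DQ Q).rbar where
  P := P
  q := q
  F := φ
  τ := τq
  α₀ := a
  β₀ := b
  prime := hqP
  lies := hP
  ne := hqp
  one_mod := by
    rw [← map_natCast (residue X.C.O)]
    exact residue_natCast_of_one X.C hq1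
  frob := hφ
  gen := hτq
  unram := fun σ hσ => curveRes_inertia_eq_one (C := X.C) (hΔ := X.hΔ)
    (X.unramAt_of_notMem hqP hqS) hP hσ
  sum_eq := by
    rw [hsum]
    exact (trace_curveRes_frobenius X.semistable hqP hqp hP hφ).symm
  prod_eq := by
    rw [hprod]
    exact (det_curveRes_frobenius hqP hqp hP hφ).symm
  distinct := hdist

/-- The levels with auxiliary primes are squarefree. -/
private lemma not_sq_dvd_lvlQ {r n N : ℕ} (T : RT.Ladder.AuxPrimes X.raiseBase (X.auxModuli r n) N)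
    (A : Finset X.raised) {q : ℕ} (hq : q.Prime) : ¬ q ^ 2 ∣ T.lvlQ A := fun h => by
  have hsq : Squarefree (T.lvlQ A) :=
    squarefree_mul_prod X.raiseBase.ell T.Q
      (squarefree_mul_prod (fun v => X.raiseBase.ell (X.raiseBase.site v)) A X.seed.sq
        (fun v _ => (X.raiseBase.pr _).1.2)
        (fun v _ w _ h => X.raiseBase.site.injective (X.raiseBase.ell_inj h))
        fun v _ => X.raiseBase.not_dvd v)
      (fun i _ => (X.raiseBase.pr i).1.2) (fun i _ j _ h => X.raiseBase.ell_inj h)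
      fun i hi => T.aux_not_dvd_lvl A hi
  exact hq.ne_one (Nat.isUnit_iff.mp (hsq q (by rwa [← sq])))

/-- **The auxiliary data of Taylor-Wiles primes.** -/
theorem exists_auxPack {r n : ℕ} (qv : Fin r → ℕ) (hinj : Function.Injective qv)
    (hq : ∀ i, (qv i).Prime ∧ qv i ∉ X.ramSet ∧ p ^ (n + 1) ∣ qv i - 1 ∧
      ∃ (P : ValuationSubring Qbar) (φ : GQ), P.LiesOverPrime (qv i) ∧
        P.IsFrobeniusAt φ (qv i) ∧ (curveRes X.C X.hΔ φ).trace ^ 2 ≠ 4) :
    Nonempty (X.AuxPack (Finset.univ.image qv) r n) := by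
  choose hqP hqS hqd P φ hP hφ ht using hq
  have hqp : ∀ i, qv i ≠ p := fun i h => hqS i (Finset.mem_insert.mpr (Or.inl h))
  have hqM : ∀ i, ¬ qv i ∣ X.M := fun i h => hqS i (Finset.mem_insert_of_mem
    (Finset.mem_union_left _ (Nat.mem_primeFactors.mpr ⟨hqP i, h, X.seed.sq.ne_zero⟩)))
  have hqE : ∀ i, ¬ qv i ∣ X.varLevel := fun i => by
    rw [varLevel]
    split_ifs
    · exact fun h => ((hqP i).dvd_mul.mp h).elim
        (fun h => hqp i ((Nat.prime_dvd_prime_iff_eq (hqP i) hp.out).mp h)) (hqM i)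
    · exact hqM i
  have hq1 : ∀ i, (qv i : ZMod p) = 1 := fun i => by
    have h1 : ((qv i - 1 : ℕ) : ZMod p) = 0 :=
      (ZMod.natCast_eq_zero_iff _ _).mpr ((dvd_pow_self p (Nat.succ_ne_zero n)).trans (hqd i))
    rwa [Nat.cast_sub (hqP i).one_le, Nat.cast_one, sub_eq_zero] at h1
  -- the indices
  obtain ⟨hell, hellinj, hellp, hdvd⟩ := X.auxEll_spec hinj hqP hqp hqM hqd
  choose τq hτq using fun i => exists_isTameGen (p := p) (hqP i) (hP i) (hqp i)
  choose Pf hPf hFf hτf using fun v => (X.frameSite_spec v).place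
  let PP : Fin r ⊕ X.Sigma → ValuationSubring Qbar := Sum.elim P Pf
  let τ : Fin r ⊕ X.Sigma → GQ := Sum.elim τq fun v => (X.frameSite v).inert
  have : NeZero (∏ j, X.auxEll qv j) := ⟨Finset.prod_ne_zero_iff.mpr fun j _ => (hell j).ne_zero⟩
  obtain ⟨δ, hδ, hδneg, hδτ⟩ := exists_diamond X.ne_two (X.auxEll qv) hell hellinj hellp
    (X.auxModuli r n) (X.auxModuli_pow r n) hdvd PP (by rintro (i | v); exacts [hP i, hPf v]) τ
    (by rintro (i | v); exacts [hτq i, hτf v])
  -- the roots
  let idx : Fin r → GoodIdx X.varLevel := fun i => ⟨⟨qv i, hqP i⟩, hqE i⟩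
  have hidx : Function.Injective idx := fun i j h =>
    hinj (congrArg (fun k : GoodIdx X.varLevel => k.1.1) h)
  have ht' : ∀ i, (residue X.C.O (frobVal X.W (qv i) : X.C.O)) ^ 2 ≠ 4 := fun i => by
    rw [← trace_curveRes_frobenius (C := X.C) (hΔ := X.hΔ) X.semistable (hqP i) (hqp i) (hP i)
      (hφ i)]
    exact ht i
  choose a b hsum hprod hunit hdist hnew using fun i => exists_twRoots X.C _ (hq1 i) (ht' i)
  -- the auxiliary primes
  obtain ⟨T, hTδ, hTQ⟩ := X.exists_auxPrimes hinj hqS hqM idx (fun _ => rfl) hδ hδneg hsum hprod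
    hunit hdist hnew
  have hQval : ∀ i ∈ T.Q, ∃ j, idx j = i := fun i hi => by
    obtain ⟨j, -, hj⟩ := Finset.mem_image.mp (hTQ ▸ hi)
    exact ⟨j, hj⟩
  let aux : {j // j ∈ X.auxSel r} → TameAux p (X.DQ (Finset.univ.image qv)).rbar := fun j =>
    let i := (X.auxEquiv r).symm j
    X.tameAuxOf _ (hqP i) (hqS i) (hqp i) (hq1 i) (hP i) (hφ i) (hτq i) (hsum i) (hprod i)
      (hdist i)
  have hsel : ∀ j : {j // j ∈ X.auxSel r}, Sum.inl ((X.auxEquiv r).symm j) = j.1 := fun j =>
    congrArg Subtype.val ((X.auxEquiv r).apply_symm_apply j)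
  have hns : ∀ A, ∀ q : ℕ, q.Prime → ¬ q ^ 2 ∣ T.lvlQ A := fun A q => X.not_sq_dvd_lvlQ T A
  have hNdvd : ∀ q : ℕ, q.Prime → q ∣ ∏ j, X.auxEll qv j → ∃ j, q = X.auxEll qv j :=
      fun q hq h => by
    obtain ⟨j, -, hj⟩ := hq.prime.exists_mem_finset_dvd h
    exact ⟨j, (Nat.prime_dvd_prime_iff_eq hq (hell j)).mp hj⟩
  refine ⟨{
    N := ∏ j, X.auxEll qv j, T := T, aux := aux
    hu := fun j => by rw [← hsel j, hTδ]; exact hδτ (Sum.inl _)
    hrel := fun A j => BAD.galLoc_quadratic_prime p X.C.O T.surj T.neg _ (T.hloc A)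
      (hqP ((X.auxEquiv r).symm j)) ?_ (hns A _ (hqP _)) (hqp _) (hP _) (hτq _).mem
    site_u := fun v => by rw [hTδ]; exact hδτ (Sum.inr v)
    site_rel := fun A v => BAD.galLoc_quadratic_prime p X.C.O T.surj T.neg _ (T.hloc A)
      (X.mem_frames.mp v.2).1 ((X.mem_frames.mp v.2).2.1.trans (T.M_dvd_lvlQ A))
      (hns A _ (X.mem_frames.mp v.2).1) (X.mem_frames.mp v.2).2.2.1 (hPf v) (hτf v).mem
    unr₀ := fun j => (of_liftMatCond X.D.residue_surjective_UR X.D.univMat_continuous
      X.D.univRep_cond).2 _ ⟨qv ((X.auxEquiv r).symm j), P _, hqP _, hqS _, hP _, (hτq _).mem⟩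
    facts := {
      mem_Q := fun i hi => by
        obtain ⟨j, rfl⟩ := hQval i hi
        exact Finset.mem_image_of_mem _ (Finset.mem_univ j)
      trace_N := fun q hq h => by
        obtain ⟨hq0, hqM', -, hqf⟩ := X.mem_traceSet.mp hq
        obtain ⟨i | v, hj⟩ := hNdvd q hq0 h
        · exact hqM i ((show q = qv i from hj) ▸ hqM')
        · exact hqf ((show q = v.1 from hj).symm ▸ v.2)
      sq_N := by
        have h := squarefree_mul_prod (X.auxEll qv) Finset.univ squarefree_one (fun j _ => hell j)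
          hellinj.injOn fun j _ h => (hell j).ne_one (Nat.dvd_one.mp h)
        rwa [one_mul] at h
      sq_lvl := fun A q hq _ => hns A q hq
      p_N := fun h => by
        obtain ⟨j, hj⟩ := hNdvd p hp.out h
        exact hellp j hj.symm
      p_Q := fun i hi => by
        obtain ⟨j, rfl⟩ := hQval i hi
        exact hqp j } }⟩
  exact (Finset.dvd_prod_of_mem X.raiseBase.ell (hTQ ▸
    Finset.mem_image_of_mem idx (Finset.mem_univ ((X.auxEquiv r).symm j)))).mul_left _

end Ctx

end FermatAgent.Lifting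

end
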