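import Fermat.Agent.Lifting.Setup
import Fermat.Agent.RT.Ladder.Frame

/-!
# The base of level raising attached to a seed
-/

set_option autoImplicit false

noncomputable section

open scoped MatrixGroups
open IsLocalRing GaloisRep FermatAgent.GaloisBasic WeierstrassCurve CongruenceSubgroup

namespace FermatAgent.Lifting

open RT Assembly

attribute [local instance] dualAlgebra

/-- A prime `≡ 2 (mod 3)` in the level excludes elliptic points of order three. -/
lemma trace_ne_one_of_prime_dvd {M r : ℕ} (hr : r.Prime) (hrM : r ∣ M) (hr3 : r % 3 = 2)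
    (γ : SL(2, ℤ)) (hγ : γ ∈ Gamma0 M) : (γ : Matrix (Fin 2) (Fin 2) ℤ).trace ≠ 1 := fun ht => by
  have := Fact.mk hr
  have hc : ((γ 1 0 : ℤ) : ZMod r) = 0 := (ZMod.intCast_zmod_eq_zero_iff_dvd _ _).mpr
    ((Int.natCast_dvd_natCast.mpr hrM).trans
      ((ZMod.intCast_zmod_eq_zero_iff_dvd _ _).mp (Gamma0_mem.mp hγ)))
  have hd := congrArg (Int.cast : ℤ → ZMod r) γ.det_coe
  have ht' := congrArg (Int.cast : ℤ → ZMod r) ht
  rw [Matrix.det_fin_two] at hd
  rw [Matrix.trace_fin_two] at ht'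
  push_cast at hd ht'
  rw [hc, mul_zero, sub_zero] at hd
  set a : ZMod r := ((γ 0 0 : ℤ) : ZMod r)
  set d : ZMod r := ((γ 1 1 : ℤ) : ZMod r)
  have h3 : (-a) ^ 3 = 1 := by linear_combination (-(a + 1) * a) * ht' + (a + 1) * hd
  have ha : (-a) ≠ 0 := fun h => by rw [h, zero_pow three_ne_zero] at h3; exact zero_ne_one h3
  have h2 : (-a) ^ (r - 1) = 1 := ZMod.pow_card_sub_one_eq_one ha
  have h1 : -a = 1 := by
    conv_rhs => rw [← h2, show r - 1 = 3 * (r / 3) + 1 by omega, pow_add, pow_mul, h3, one_pow,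
      one_mul, pow_one]
  have h30 : ((3 : ℕ) : ZMod r) = 0 := by
    push_cast
    linear_combination a * ht' - hd + (a - 2) * h1
  rw [ZMod.natCast_eq_zero_iff, Nat.prime_dvd_prime_iff_eq hr Nat.prime_three] at h30
  omega

namespace Ctx

variable {p : ℕ} [hp : Fact p.Prime] (X : Ctx p)

/-- At a raised prime the multiplicative sign squares to one. -/
lemma multSign_sq_raised {q : ℕ} (hq : q ∈ X.raised) : multSign X.W q ^ 2 = 1 := by
  obtain ⟨hq0, hbad, -⟩ := X.mem_raised.mp hq
  have hd : (q : ℤ) ∣ X.W.Δ := not_not.mp hbad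
  obtain ⟨A, hA⟩ := exists_liesOverPrime hq0
  obtain ⟨σ, hσ⟩ := exists_isFrobeniusAt hq0 hA
  exact (TateRep.frobenius_eq_zsmul hq0 hA X.hΔ hd (X.semistable q hq0 hd) hσ).1

/-- The sites among the variables. -/
def siteIdx : X.Nu ↪ GoodIdx X.varLevel where
  toFun v := ⟨⟨v.1, (X.mem_raised.mp v.2).1⟩, X.raised_not_dvd_varLevel v.2⟩
  inj' _ _ h := Subtype.ext (congrArg (fun i : GoodIdx X.varLevel => i.1.1) h)

/-- No elliptic points of order three at a level keeping the primes of `M` away from `p`. -/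
lemma noElliptic_of {L : ℕ} (hL : ∀ r : ℕ, r.Prime → r ≠ p → r ∣ X.M → r ∣ L) :
    RT.Ladder.NoElliptic X.C.O L := by
  by_cases h3 : p = 3
  · obtain ⟨r, hr, hr3⟩ := X.seed.aux_three h3
    obtain ⟨hrM, hr0, hrp, -⟩ := X.seed.aux_spec r hr
    exact Or.inr fun γ hγ => trace_ne_one_of_prime_dvd hr0 (hL r hr0 hrp hrM) hr3 γ hγ
  · refine Or.inl ?_
    have h := isUnit_intCast (p := p) X.C (z := 3) (by
      rw [Int.cast_ofNat, show (3 : ZMod p) = ((3 : ℕ) : ZMod p) by norm_num, Ne,
        ZMod.natCast_eq_zero_iff, Nat.prime_dvd_prime_iff_eq hp.out Nat.prime_three]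
      exact h3)
    exact_mod_cast h

lemma noElliptic : RT.Ladder.NoElliptic X.C.O X.M := X.noElliptic_of fun _ _ _ h => h

/-- For a raised prime `q` the element `q - 1` is a unit of the coefficient ring. -/
lemma isUnit_raised_sub_one {q : ℕ} (hq : q ∈ X.raised) : IsUnit ((q : X.C.O) - 1) := by
  rw [show (q : X.C.O) - 1 = ((q - 1 : ℤ) : X.C.O) by push_cast; rfl]
  refine isUnit_intCast X.C ?_
  push_cast
  rw [sub_ne_zero]
  rcases eq_or_ne q p with rfl | hqp
  · rw [ZMod.natCast_self]; exact zero_ne_one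
  · exact (X.raised_spec hq hqp).1

/-- **The base of level raising.** -/
def raiseBase : RT.Ladder.RaiseBase p X.C.O X.Nu (GoodIdx X.varLevel) 1 where
  pr := goodPr X.varLevel
  site := X.siteIdx
  M := X.M
  a₀ := heckeVal X.C X.W ∅
  sgn v := (multSign X.W v.1 : X.C.O)
  Sbad := X.varLevel.primeFactors
  pr_inj _ _ h := Subtype.ext (congrArg (fun x : HM.HPrime 1 => x.1) h)
  good q hq hqS :=
    ⟨⟨⟨q, hq⟩, fun h => hqS (Nat.mem_primeFactors.mpr ⟨hq, h, X.varLevel_ne_zero⟩)⟩, rfl⟩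
  M_ne := NeZero.ne _
  not_dvd v := (X.mem_raised.mp v.2).2.2
  sgn_sq v := by rw [← Int.cast_mul, ← sq, X.multSign_sq_raised v.2, Int.cast_one]
  low v := by
    rw [heckeVal_notMem X.C X.W (Finset.notMem_empty _)]
    show (frobVal X.W v.1 : X.C.O) - _ ∈ _
    rw [frobVal_bad (X.mem_raised.mp v.2).2.1]
    convert Ideal.zero_mem _ using 1
    show ((multSign X.W v.1 * (v.1 + 1) : ℤ) : X.C.O) -
      (multSign X.W v.1 : X.C.O) * (1 + ((v.1 : ℕ) : X.C.O)) = 0
    push_cast
    ring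
  distinct v := X.isUnit_raised_sub_one v.2
  p_mem := natCast_mem_maximalIdeal
  two := IsUnit.of_mul_eq_one _ X.C.two_half
  three := X.noElliptic

/-- **The residual facts of the problem.** -/
theorem residualFacts : RT.Ladder.ResidualFacts X.raiseBase X.D X.C.half where
  span := X.choices.span
  two_half := X.C.two_half
  det g := det_curveRes X.C X.hΔ g
  trace i _ hip P σ hP hσ := by
    show (curveRes X.C X.hΔ σ).trace = residue X.C.O (heckeVal X.C X.W ∅ i)
    rw [heckeVal_notMem X.C X.W (Finset.notMem_empty _)]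
    exact trace_curveRes_frobenius X.semistable i.1.2 hip hP hσ

end Ctx

end FermatAgent.Lifting

end
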