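import Fermat.Agent.ES.Tate.Extend

/-!
# The coefficient ring of modularity lifting

For an odd prime `p`: a finite extension of `ℤ_p` with the roots of unity of order `p`, a square
root of `-1`, a square root of the parameter of the auxiliary characters and residue field
containing the roots of all quadratic polynomials over `𝔽_p`.
-/

set_option autoImplicit false

noncomputable section

open IsLocalRing

namespace FermatAgent.Lifting

/-- The coefficient ring and its elements. -/
structure Coeff (p : ℕ) [Fact p.Prime] where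
  /-- the coefficient ring -/
  O : Type
  [instCommRing : CommRing O]
  [instIsDomain : IsDomain O]
  [instDVR : IsDiscreteValuationRing O]
  [instComplete : IsAdicComplete (maximalIdeal O) O]
  [instFinite : Finite (ResidueField O)]
  [instCharZero : CharZero O]
  [instAlgebra : Algebra ℤ_[p] O]
  [instModuleFinite : Module.Finite ℤ_[p] O]
  [instLocalHom : IsLocalHom (algebraMap ℤ_[p] O)]
  /-- a uniformiser -/
  ϖ : O
  max_eq : maximalIdeal O = Ideal.span {ϖ}
  /-- the inverse of two -/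
  half : O
  two_half : 2 * half = 1
  /-- a square root of `-1` -/
  J : O
  J_sq : J ^ 2 = -1
  /-- a `p`-th root of unity -/
  ζ : O
  /-- the inverse of `ζ`, distinct from it -/
  ζ' : O
  zeta_ne : ζ ≠ ζ'
  zeta_mul : ζ * ζ' = 1
  zeta_pow : ζ ^ p = 1
  zeta'_pow : ζ' ^ p = 1
  /-- a square root of `half * (ζ - ζ')` -/
  r₂ : O
  r₂_mem : r₂ ∈ maximalIdeal O
  r₂_sq : r₂ ^ 2 = half * (ζ - ζ')
  split : ∀ a b : ℤ, ∃ x : ResidueField O, x ^ 2 - a * x + b = 0
  /-- an embedding into the algebraic closure of `ℚ_[p]` -/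
  emb : O →+* PadicAlgCl p
  emb_injective : Function.Injective emb

attribute [instance] Coeff.instCommRing Coeff.instIsDomain Coeff.instDVR Coeff.instComplete
  Coeff.instFinite Coeff.instCharZero Coeff.instAlgebra Coeff.instModuleFinite Coeff.instLocalHom

variable {p : ℕ} [hp : Fact p.Prime]

theorem exists_quadratic_root (a b : PadicAlgCl p) :
    ∃ x : PadicAlgCl p, x ^ 2 - a * x + b = 0 := by
  obtain ⟨s, hs⟩ := IsAlgClosed.exists_pow_nat_eq (a ^ 2 - 4 * b) (n := 2) two_pos
  exact ⟨(a + s) / 2, by linear_combination (1 / 4 : PadicAlgCl p) * hs⟩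

/-- A root of unity of order `p` is residually trivial. -/
theorem sub_one_mem_of_pow_eq_one {O : Type} [CommRing O] [IsLocalRing O]
    (hp' : (p : O) ∈ maximalIdeal O) {x : O} (hx : x ^ p = 1) : x - 1 ∈ maximalIdeal O := by
  have : CharP (ResidueField O) p := (CharP.charP_iff_prime_eq_zero hp.out).mpr (by
    rw [← map_natCast (residue O), residue_eq_zero_iff]; exact hp')
  rw [← residue_eq_zero_iff, map_sub, map_one]
  have h : (residue O x - 1) ^ p = 0 := by
    rw [sub_pow_char, one_pow, ← map_pow, hx, map_one, sub_self]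
  exact pow_eq_zero_iff hp.out.ne_zero |>.mp h

/-- `p` lies in the maximal ideal of a local `ℤ_p`-algebra with local structure map. -/
theorem natCast_mem_maximalIdeal {O : Type} [CommRing O] [IsLocalRing O] [Algebra ℤ_[p] O]
    [IsLocalHom (algebraMap ℤ_[p] O)] : (p : O) ∈ maximalIdeal O := by
  rw [← map_natCast (algebraMap ℤ_[p] O)]
  exact map_nonunit _ _ ((mem_maximalIdeal _).mpr PadicInt.p_nonunit)

/-- **The coefficient ring exists.** -/
theorem nonempty_coeff (hp2 : p ≠ 2) : Nonempty (Coeff p) := by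
  classical
  let K₀ := PadicAlgCl p
  obtain ⟨z, hz⟩ := HasEnoughRootsOfUnity.exists_primitiveRoot K₀ p
  obtain ⟨i, hi⟩ := IsAlgClosed.exists_pow_nat_eq (-1 : K₀) (n := 2) two_pos
  obtain ⟨r, hr⟩ := IsAlgClosed.exists_pow_nat_eq ((1 / 2 : K₀) * (z - z ^ (p - 1)))
    (n := 2) two_pos
  choose w hw using fun ab : Fin p × Fin p => exists_quadratic_root (ab.1.1 : K₀) (ab.2.1 : K₀)
  set s : Finset K₀ := {z, i, r} ∪ Finset.univ.image w with hs
  set K : IntermediateField ℚ_[p] K₀ := IntermediateField.adjoin ℚ_[p] (s : Set K₀) with hK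
  have : FiniteDimensional ℚ_[p] K :=
    IntermediateField.finiteDimensional_adjoin fun x _ => Algebra.IsIntegral.isIntegral x
  have : IsScalarTower ℤ_[p] K K₀ := IsScalarTower.of_algebraMap_eq fun x => rfl
  have : IsScalarTower ℤ_[p] ℚ_[p] K := IsScalarTower.of_algebraMap_eq fun x => rfl
  obtain ⟨hdvr, hfin, _, hcomp, hres, hlocal⟩ := FermatAgent.ES.integralClosure_spec ℤ_[p] ℚ_[p] K
  set O := integralClosure ℤ_[p] K
  have := hdvr
  have := hfin
  have : IsAdicComplete (maximalIdeal O) O := hcomp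
  have : Finite (ResidueField O) := hres
  have : IsLocalHom (algebraMap ℤ_[p] O) := hlocal
  have : CharZero O := charZero_of_injective_algebraMap
    (R := ℤ_[p]) (FermatAgent.ES.injective_algebraMap_integralClosure ℤ_[p] ℚ_[p] K)
  set j : O →+* K₀ := (algebraMap K K₀).comp O.toSubring.subtype
  have hj : Function.Injective j := (algebraMap K K₀).injective.comp Subtype.val_injective
  have hmem : ∀ x ∈ s, IsIntegral ℤ_[p] x → ∃ o : O, j o = x := fun x hx hint =>
    ⟨⟨⟨x, IntermediateField.subset_adjoin _ _ hx⟩,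
      (isIntegral_algHom_iff (IsScalarTower.toAlgHom ℤ_[p] K K₀)
        (algebraMap K K₀).injective).mp hint⟩, rfl⟩
  -- the elements
  have hzint : IsIntegral ℤ_[p] z := IsIntegral.of_pow hp.out.pos (hz.pow_eq_one ▸ isIntegral_one)
  obtain ⟨ζ, hζ⟩ := hmem z (by simp [hs]) hzint
  obtain ⟨J, hJ⟩ := hmem i (by simp [hs])
    (IsIntegral.of_pow two_pos (hi ▸ isIntegral_one.neg))
  have hζp : ζ ^ p = 1 := hj (by rw [map_pow, hζ, hz.pow_eq_one, map_one])
  have hζζ' : ζ * ζ ^ (p - 1) = 1 := by rw [← pow_succ', Nat.sub_add_cancel hp.out.one_le, hζp]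
  have hne : ζ ≠ ζ ^ (p - 1) := fun e => by
    have h2 : ζ ^ 2 = 1 := by rw [sq]; exact (congrArg (ζ * ·) e).trans hζζ'
    have hd := hz.dvd_of_pow_eq_one 2 (by rw [← hζ, ← map_pow, h2, map_one])
    exact hp2 ((Nat.prime_dvd_prime_iff_eq hp.out Nat.prime_two).mp hd)
  have hu2 : IsUnit ((2 : ℕ) : ℤ_[p]) := PadicInt.isUnit_iff.mpr
    (PadicInt.norm_natCast_eq_one_iff.mpr ((Nat.coprime_primes hp.out Nat.prime_two).mpr hp2))
  set half : O := algebraMap ℤ_[p] O (hu2.unit⁻¹ : ℤ_[p]ˣ) with hhalfdef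
  have hhalf : 2 * half = 1 := by
    rw [hhalfdef, show (2 : O) = algebraMap ℤ_[p] O ((2 : ℕ) : ℤ_[p]) by rw [map_natCast]; rfl,
      ← map_mul,
      IsUnit.mul_val_inv, map_one]
  have hjhalf : j half = 1 / 2 := by
    rw [eq_div_iff (by norm_num : (2 : K₀) ≠ 0), mul_comm, ← map_ofNat j 2, ← map_mul, hhalf,
      map_one]
  have hjsq : j (half * (ζ - ζ ^ (p - 1))) = r ^ 2 := by
    rw [map_mul, map_sub, map_pow, hjhalf, hζ, hr]
  obtain ⟨r₂, hr₂⟩ := hmem r (by simp [hs]) (IsIntegral.of_pow two_pos (by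
    rw [← hjsq]
    exact (half * (ζ - ζ ^ (p - 1))).2.map (IsScalarTower.toAlgHom ℤ_[p] K K₀)))
  have hr₂2 : r₂ ^ 2 = half * (ζ - ζ ^ (p - 1)) := hj (by rw [map_pow, hr₂, hjsq])
  have hpm : (p : O) ∈ maximalIdeal O := natCast_mem_maximalIdeal
  have hζ1 := sub_one_mem_of_pow_eq_one hpm hζp
  have hζ1' : ζ ^ (p - 1) - 1 ∈ maximalIdeal O :=
    sub_one_mem_of_pow_eq_one hpm (by rw [← pow_mul, mul_comm, pow_mul, hζp, one_pow])
  have hr₂m : r₂ ∈ maximalIdeal O :=
    (maximalIdeal.isMaximal O).isPrime.mem_of_pow_mem 2 (by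
      rw [hr₂2]
      exact Ideal.mul_mem_left _ _ (by simpa using sub_mem hζ1 hζ1'))
  obtain ⟨ϖ, hϖ⟩ := IsPrincipalIdealRing.principal (maximalIdeal O)
  refine ⟨{
    O := O, ϖ := ϖ, max_eq := hϖ, half := half, two_half := hhalf,
    J := J, J_sq := hj (by rw [map_pow, hJ, hi, map_neg, map_one])
    ζ := ζ, ζ' := ζ ^ (p - 1), zeta_ne := hne, zeta_mul := hζζ', zeta_pow := hζp,
    zeta'_pow := by rw [← pow_mul, mul_comm, pow_mul, hζp, one_pow]
    r₂ := r₂, r₂_mem := hr₂m, r₂_sq := hr₂2, emb := j, emb_injective := hj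
    split := fun a b => ?_ }⟩
  have : CharP (ResidueField O) p := (CharP.charP_iff_prime_eq_zero hp.out).mpr (by
    rw [← map_natCast (residue O), residue_eq_zero_iff]; exact hpm)
  have hbound : ∀ c : ℤ, ∃ n : Fin p, (c : ResidueField O) = ((n.1 : ℕ) : ResidueField O) :=
    fun c => by
    refine ⟨⟨(c : ZMod p).val, ZMod.val_lt _⟩, ?_⟩
    conv_lhs => rw [← map_intCast (ZMod.castHom (dvd_refl p) (ResidueField O)) c,
      ← ZMod.natCast_zmod_val (c : ZMod p), map_natCast]
  obtain ⟨a', ha⟩ := hbound a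
  obtain ⟨b', hb⟩ := hbound b
  have hwint : IsIntegral ℤ_[p] (w (a', b')) := by
    refine ⟨Polynomial.X ^ 2 - Polynomial.C ((a'.1 : ℕ) : ℤ_[p]) * Polynomial.X +
      Polynomial.C ((b'.1 : ℕ) : ℤ_[p]), by monicity!, ?_⟩
    simpa [Polynomial.eval₂_add, Polynomial.eval₂_sub, Polynomial.eval₂_mul] using hw (a', b')
  obtain ⟨x, hx⟩ := hmem _ (by simp [hs]) hwint
  refine ⟨residue O x, ?_⟩
  have h0 : x ^ 2 - (a'.1 : O) * x + (b'.1 : O) = 0 := hj (by
    simp only [map_add, map_sub, map_mul, map_pow, hx, map_natCast, map_zero]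
    exact hw (a', b'))
  have := congrArg (residue O) h0
  simp only [map_add, map_sub, map_mul, map_pow, map_natCast, map_zero] at this
  rw [ha, hb]
  exact this

end FermatAgent.Lifting

end
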