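import Fermat.Agent.RT.Cond.Cyclo
import Fermat.Agent.RT.Cond.Flat
import Fermat.Agent.RT.Cond.Ordinary

/-!
# The deformation conditions of lifting

Determinant cyclotomic, unramified outside a finite set, inertia of trace two at a set of primes
and one of three conditions at `p`: flat, strictly ordinary, ordinary.
-/

set_option autoImplicit false

noncomputable section

open IsLocalRing GaloisRep FermatAgent.GaloisBasic

namespace FermatAgent.Lifting

open RT

variable {𝒪 : Type} [CommRing 𝒪] [IsLocalRing 𝒪]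

/-- The trace two at an element, as an expression. -/
def traceTwoExpr (σ : GQ) : MatExpr 𝒪 where
  E := fun A _ _ M => algebraMap A _ ((M σ).trace - 2)
  natural := fun _A _B _ _ _ _ φ Φ htr hsc M N hM => by
    rw [hsc, map_sub φ, map_ofNat φ, ← htr, hM]

variable (𝒪) in
/-- Trace two on a set of elements. -/
def traceTwoMatCond (Z : Set GQ) : MatCond 𝒪 := eqMatCond fun σ : Z => traceTwoExpr σ.1

/-- The trace two condition says that the trace is two on the set. -/
lemma traceTwoMatCond_iff {A : Type} [CommRing A] [IsLocalRing A] [Algebra 𝒪 A] {Z : Set GQ}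
    {M : MatRep A} : (traceTwoMatCond 𝒪 Z).P M ↔ ∀ σ ∈ Z, (M σ).trace = 2 := by
  constructor
  · intro h σ hσ
    have h1 : algebraMap A (Matrix (Fin 2) (Fin 2) A) ((M σ).trace - 2) = 0 := h ⟨σ, hσ⟩
    have h2 := congrFun (congrFun h1 0) 0
    rwa [Matrix.algebraMap_matrix_apply, if_pos rfl, Algebra.algebraMap_self, RingHom.id_apply,
      Matrix.zero_apply, sub_eq_zero] at h2
  · intro h σ
    show algebraMap A _ ((M σ.1).trace - 2) = 0
    rw [h σ.1 σ.2, sub_self, map_zero]

/-- The inertia groups over the primes of a finite set. -/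
def inertiaAtSet (T : Finset ℕ) : Set GQ :=
  {σ | ∃ (q : ℕ) (P : ValuationSubring Qbar),
    q.Prime ∧ q ∈ T ∧ P.LiesOverPrime q ∧ σ ∈ P.inertiaSubgroupIn ℚ}

/-- The equations other than the strict one. -/
def IsWeakEq {c : GQ →* 𝒪} {p : ℕ} : OrdEq c p → Prop
  | .strict _ _ => False
  | _ => True

variable (c : GQ →* 𝒪) (p : ℕ)

/-- The ordinary condition: the equations other than the strict one. -/
def weakOrdMatCond : MatCond 𝒪 := eqMatCond fun e : {e : OrdEq c p // IsWeakEq e} => e.1.expr

variable {c p}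

/-- The strictly ordinary condition implies the ordinary one. -/
lemma weakOrdMatCond_of_ordMatCond {A : Type} [CommRing A] [IsLocalRing A] [Algebra 𝒪 A]
    {M : MatRep A} (h : (ordMatCond c p).P M) : (weakOrdMatCond c p).P M :=
  fun e => h e.1

/-- The three cases at `p`. -/
inductive LocalCase
  | flat
  | strict
  | ordinary

variable [hp : Fact p.Prime] [Algebra ℤ_[p] 𝒪] [Finite (ResidueField 𝒪)]

variable (p 𝒪) in
/-- The condition at `p` of a case. -/
def pMatCond : LocalCase → MatCond 𝒪
  | .flat => flatMatCond p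
  | .strict => ordMatCond (cycloO p 𝒪) p
  | .ordinary => weakOrdMatCond (cycloO p 𝒪) p

variable (p 𝒪) in
/-- The conditions besides determinant and ramification: trace two at `T`, the case at `p`. -/
def restMatCond (T : Finset ℕ) (cs : LocalCase) : MatCond 𝒪 :=
  (traceTwoMatCond 𝒪 (inertiaAtSet T)).inf (pMatCond 𝒪 p cs)

variable (p 𝒪) in
/-- **The deformation condition of lifting.** -/
def liftMatCond (S T : Finset ℕ) (cs : LocalCase) : MatCond 𝒪 :=
  (detMatCond (cycloO p 𝒪)).inf ((unrMatCond S).inf (restMatCond 𝒪 p T cs))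

/-- The lifting condition: determinant cyclotomic, trivial on inertia outside `S`, trace two on
inertia at `T`, and the condition of the case at `p`. -/
lemma liftMatCond_iff {A : Type} [CommRing A] [IsLocalRing A] [Algebra 𝒪 A] {S T : Finset ℕ}
    {cs : LocalCase} {M : MatRep A} : (liftMatCond 𝒪 p S T cs).P M ↔
      (∀ σ, (M σ).det = algebraMap 𝒪 A (cycloO p 𝒪 σ)) ∧ (∀ σ ∈ inertiaOutside S, M σ = 1) ∧
        (∀ σ ∈ inertiaAtSet T, (M σ).trace = 2) ∧ (pMatCond 𝒪 p cs).P M := by
  show (_ ∧ _ ∧ (traceTwoMatCond 𝒪 _).P M ∧ _) ↔ _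
  rw [traceTwoMatCond_iff]
  exact Iff.rfl

/-- The condition weakens as the ramification set grows. -/
lemma liftMatCond_mono {A : Type} [CommRing A] [IsLocalRing A] [Algebra 𝒪 A] {S S' T : Finset ℕ}
    {cs : LocalCase} (hS : S ⊆ S') {M : MatRep A} (h : (liftMatCond 𝒪 p S T cs).P M) :
    (liftMatCond 𝒪 p S' T cs).P M := by
  obtain ⟨h1, h2, h3, h4⟩ := liftMatCond_iff.mp h
  exact liftMatCond_iff.mpr ⟨h1, fun σ ⟨q, P, hq, hqS, hP, hσ⟩ =>
    h2 σ ⟨q, P, hq, fun hm => hqS (hS hm), hP, hσ⟩, h3, h4⟩

end FermatAgent.Lifting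

end
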