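import Fermat.Agent.Lifting.PRoot
import Fermat.Agent.RT.Ladder.Main

/-!
# The coordinates at all raised sites

The coordinates, their values at the point of the curve, the composites of the degeneracy maps and
their values at the multiplicative lifting prime.
-/

set_option autoImplicit false

noncomputable section

open IsLocalRing GaloisRep FermatAgent.GaloisBasic WeierstrassCurve

namespace FermatAgent.Lifting

open RT Assembly

attribute [local instance] dualAlgebra

namespace Ctx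

variable {p : ℕ} [hp : Fact p.Prime] (X : Ctx p)

/-- If `p` is a raised site the case at `p` is the ordinary one. -/
lemma ordinary_of_site {v : X.Nu} (h : v.1 = p) : X.localCase = .ordinary :=
  X.p_mem_raised_iff.mp (Eq.mp (congrArg (fun t => t ∈ X.raised) h) v.2)

/-- The coordinates at a raised site. -/
def coordQ (Q : Finset ℕ) (v : X.Nu) : Fin 3 → (X.DQ Q).UR :=
  if h : v.1 = p then X.pCoord Q else X.tameCoord Q v h

/-- At `p` the coordinates are those of the multiplicative lifting prime. -/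
lemma coordQ_p (Q : Finset ℕ) {v : X.Nu} (h : v.1 = p) : X.coordQ Q v = X.pCoord Q := dif_pos h

/-- Away from `p` the coordinates are the values of the universal representation at the site. -/
lemma coordQ_tame (Q : Finset ℕ) {v : X.Nu} (h : v.1 ≠ p) :
    X.coordQ Q v = Raise.siteVals (X.DQ Q).univMat (X.raiseSite v h) := dif_neg h

/-- They lie in the maximal ideal. -/
lemma coordQ_mem (hτ : X.localCase = .ordinary → curveRes X.C X.hΔ X.pTau = 1) (Q : Finset ℕ)
    (v : X.Nu) (i : Fin 3) : X.coordQ Q v i ∈ maximalIdeal (X.DQ Q).UR := by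
  by_cases h : v.1 = p
  · rw [X.coordQ_p Q h]
    exact X.pCoord_mem Q (X.ordinary_of_site h) (hτ (X.ordinary_of_site h)) i
  · rw [X.coordQ_tame Q h]
    exact X.tameCoord_mem Q v h i

/-- The coordinates of the problem without auxiliary ramification. -/
def coordBase (v : X.Nu) : Fin 3 → X.D.UR :=
  if h : v.1 = p then
    ![X.frobQuot X.D.univMat - algebraMap X.C.O _ (multSign X.W p : X.C.O),
      X.tauTrace X.D.univMat, 0]
  else Raise.siteVals X.D.univMat (X.raiseSite v h)

/-- The coordinates are compatible with the maps to the base ring. -/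
theorem coordQ_map (Q : Finset ℕ) (π : (X.DQ Q).UR →ₐ[X.C.O] X.D.UR)
    (hπ : ∀ x, ((X.DQ Q).univMat x).map π = X.D.univMat x) (v : X.Nu) (i : Fin 3) :
    π (X.coordQ Q v i) = X.coordBase v i := by
  by_cases h : v.1 = p
  · have hm : mapRep (π : (X.DQ Q).UR →+* X.D.UR) (X.DQ Q).univMat = X.D.univMat :=
      MonoidHom.ext fun x => (hπ x)
    rw [X.coordQ_p Q h, coordBase, dif_pos h]
    fin_cases i
    · show π (X.frobQuot _ - _) = _
      rw [map_sub, AlgHom.commutes, X.frobQuot_map, hm]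
      rfl
    · show π (X.tauTrace _) = _
      rw [X.tauTrace_map, hm]
      rfl
    · exact map_zero π
  · rw [coordBase, dif_neg h, X.coordQ_tame Q h]
    exact X.tameCoord_map Q v h π hπ i

/-- **The point of the curve is of raised type at every site.** -/
theorem point_coordBase {φ : X.D.UR →ₐ[X.C.O] X.C.O} {M : MatRep X.C.O}
    (hM : MatConj (curveMat X.C X.hΔ) M) (hφ : ∀ x, (X.D.univMat x).map φ = M x) (v : X.Nu) :
    φ (X.coordBase v 0) = 0 ∧ φ (X.coordBase v 2) = 0 := by
  by_cases h : v.1 = p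
  · have hm : mapRep (φ : X.D.UR →+* X.C.O) X.D.univMat = M := MonoidHom.ext fun x => (hφ x)
    rw [coordBase, dif_pos h]
    refine ⟨?_, map_zero φ⟩
    show φ (X.frobQuot _ - _) = 0
    rw [map_sub, AlgHom.commutes, X.frobQuot_map, hm, X.frobQuot_conj hM, sub_eq_zero]
    have hc := X.frobQuot_curve (A := X.C.O) (X.ordinary_of_site h)
    rwa [show mapRep (algebraMap X.C.O X.C.O) (curveMat X.C X.hΔ) = curveMat X.C X.hΔ from
      MonoidHom.ext fun x => Matrix.ext fun i j => rfl] at hc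
  · rw [coordBase, dif_neg h]
    exact X.point_tameCoord hM hφ v h

/-- The composite of the degeneracy maps at a raised site, as a series in the coordinates. -/
def tauAt (v : X.Nu) : MvPowerSeries (Fin 3) X.C.O :=
  if h : v.1 = p then (MvPowerSeries.C (X.raiseBase.sgn v) + MvPowerSeries.X 0) ^ 2 - 1
  else (X.raiseSite v h).tauS 1

/-- It vanishes at the pinned points. -/
lemma tauAt_mem (v : X.Nu) (P : RT.Pt (Fin 3) X.C.O) (hP : P.coords 0 = 0) :
    X.tauAt v ∈ P.prime := by
  by_cases h : v.1 = p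
  · rw [tauAt, dif_pos h, RT.Pt.prime, RingHom.mem_ker, map_sub, map_pow, map_add, map_one,
      show P.hom (MvPowerSeries.C (X.raiseBase.sgn v)) = X.raiseBase.sgn v from P.hom.commutes _]
    simp [RT.Pt.hom, hP, sq, X.raiseBase.sgn_sq v]
  · rw [tauAt, dif_neg h]
    exact (X.raiseSite v h).tauS_mem 1 P hP

/-- The equations at `p`. -/
theorem coordSite_eqs_p (hτ : X.localCase = .ordinary → curveRes X.C X.hΔ X.pTau = 1)
    (Q : Finset ℕ) {v : X.Nu} (h : v.1 = p) (x : MvPowerSeries (Fin 3) X.C.O)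
    (hx : x ∈ (X.coordSite v).eqs) :
    evalAdic (R := X.C.O) (maximalIdeal (X.DQ Q).UR) (X.coordQ Q v)
      (X.coordQ_mem hτ Q v) x = 0 := by
  rw [coordSite, dif_pos h] at hx
  rcases hx with rfl | hx
  · rw [evalAdic_X, X.coordQ_p Q h]
    rfl
  · rw [Set.mem_singleton_iff] at hx
    rw [hx, map_mul, evalAdic_X, evalAdic_X, X.coordQ_p Q h]
    exact X.pCoord_mul Q (X.ordinary_of_site h)

section Level

variable {κ : Type} [Fintype κ] [DecidableEq κ] {m : κ → ℕ} [∀ i, NeZero (m i)] {N : ℕ} [NeZero N]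
  [IsLocalRing (MonoidAlgebra X.C.O (CycProd m))]
variable (T : RT.Ladder.AuxPrimes X.raiseBase m N) (Q : Finset ℕ) {rk : Finset X.Nu → ℕ}
  (b : ∀ A, Module.Basis (Fin (rk A)) (MonoidAlgebra X.C.O (CycProd m)) (T.Mod A))
  (hrk : ∀ A, 0 < rk A)

/-- The composite of the degeneracy maps in the Hecke algebra of a level. -/
def tauOp (A : Finset X.Nu) (v : X.Nu) : (X.levelDatum T Q A (b A) (hrk A)).act.Img :=
  if h : v.1 = p then T.rootImg (X.residualFactsQ Q) A (b A) (hrk A) v
  else DiamondDatum.tauImg (X.levelDatum T Q A (b A) (hrk A)) (X.raiseSite v h) 1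

/-- It is a unit multiple of `r * r - 1`. -/
theorem tauOp_unit {A : Finset X.Nu} {v : X.Nu} (hv : v ∉ A)
    (r : (X.levelDatum T Q A (b A) (hrk A)).act.Img)
    (hr : (X.levelDatum T Q A (b A) (hrk A)).act.res r = residue X.C.O (X.raiseBase.sgn v))
    (hrr : r * r - T.trOp (X.residualFactsQ Q) A (b A) (hrk A) (X.raiseBase.site v) * r +
      (X.raiseBase.ell (X.raiseBase.site v) : _) = 0) :
    ∃ u, IsUnit u ∧ u * (r * r - 1) = X.tauOp T Q b hrk A v := by
  by_cases h : v.1 = p
  · exact ⟨1, isUnit_one, by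
      rw [one_mul, tauOp, dif_pos h, T.rootImg_eq (X.residualFactsQ Q) A (b A) (hrk A) hv r hr hrr]⟩
  · obtain ⟨P, hP, hF, -, -⟩ := (X.raiseSite_spec v h).place
    obtain ⟨u, hu, he⟩ := T.exists_unit_tauImg (X.residualFactsQ Q) A (b A) (hrk A) hv h
      (X.raiseSite v h) (X.raiseSite_spec v h).q_eq (X.raiseSite_spec v h).sgn_eq hP hF r hr hrr
    exact ⟨u, hu, by rw [tauOp, dif_neg h]; exact he⟩

variable {sel : Finset κ} {aux : {j // j ∈ sel} → TameAux p (X.DQ Q).rbar}
  (hu : ∀ j, T.δ (HM.cycloN N (aux j).τ) = cycGen (m := m) j.1 * cycGen (m := m) j.1)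
  (h1 : ∀ j ∈ sel, 1 < m j) (hrel : ∀ A, T.TameRel sel aux A)
variable {B : Type} [CommRing B] [IsLocalRing B] [Algebra X.C.O B] [Finite B]
  (φ : MonoidAlgebra X.C.O (CycProd m) →ₐ[X.C.O] B)

/-- **The value of the composite at `p`.** -/
theorem map_tauAt_p (hτ : X.localCase = .ordinary → curveRes X.C X.hΔ X.pTau = 1)
    (hN : Squarefree N) (hNM : ∀ A, ∀ q : ℕ, q.Prime → q ∣ N → ¬ q ^ 2 ∣ T.lvlQ A) (hpN : ¬ p ∣ N)
    (hφ : ∀ y, φ y - algebraMap X.C.O B (GroupRing.aug X.C.O (CycProd m) y) ∈ maximalIdeal B)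
    {k : ℕ} (hk : (p : B) ^ k = 0) {A : Finset X.Nu} {v : X.Nu} (hv : v ∉ A) (hvp : v.1 = p)
    (hcrit : T.SiteCriterion A v)
    (hcA : DiamondDatum.CondAt (X.levelAux T Q b hrk hu h1 hrel A) φ)
    (hcI : DiamondDatum.CondAt (X.levelAux T Q b hrk hu h1 hrel (insert v A)) φ)
    (f : (X.DQ Q).UR →ₐ[X.C.O] Matrix (Fin (rk A)) (Fin (rk A)) B)
    (hf : ∀ g, f ((X.DQ Q).univMat g).trace =
      (DiamondDatum.sideAction (X.levelAux T Q b hrk hu h1 hrel A) φ).Φ
        ((X.levelDatum T Q A (b A) (hrk A)).td.t g)) :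
    f (evalAdic (R := X.C.O) (maximalIdeal (X.DQ Q).UR) (X.coordQ Q v) (X.coordQ_mem hτ Q v)
        (X.tauAt v)) =
      (DiamondDatum.newPhi (X.levelAux T Q b hrk hu h1 hrel A) (X.tauOp T Q b hrk A v)).map φ := by
  set A₁ := X.levelAux T Q b hrk hu h1 hrel A
  obtain ⟨J, -, r, -, -, -, -, hr, hrr, -, -, -⟩ :=
    T.exists_siteMatrices (X.residualFactsQ Q) A (b A) (hrk A) hv (b (insert v A)) (hrk _) hcrit
  have hd := X.frobQuot_side_notMem T Q b hrk hu h1 hrel φ hN hNM hpN hφ hk hv hvp hcrit hcA hcI r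
    hr hrr f hf
  have hs : X.raiseBase.sgn v = (multSign X.W p : X.C.O) := by
    show (multSign X.W v.1 : X.C.O) = _
    rw [hvp]
  have he : evalAdic (R := X.C.O) (maximalIdeal (X.DQ Q).UR) (X.coordQ Q v) (X.coordQ_mem hτ Q v)
      (X.tauAt v) = X.frobQuot (X.DQ Q).univMat * X.frobQuot (X.DQ Q).univMat - 1 := by
    rw [tauAt, dif_pos hvp, map_sub, map_pow, map_add, map_one, evalAdic_C, evalAdic_X,
      X.coordQ_p Q hvp, hs]
    show (_ + (X.frobQuot _ - _)) ^ 2 - 1 = _
    ring
  rw [he, map_sub, map_mul, map_one, hd, tauOp, dif_pos hvp,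
    T.rootImg_eq (X.residualFactsQ Q) A (b A) (hrk A) hv r hr hrr, ← DiamondDatum.incl_sideProj,
    map_sub, map_mul, map_one, map_sub, map_mul, map_one]

end Level

end Ctx

end FermatAgent.Lifting

end
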