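import Fermat.Agent.Lifting.Coords
import Fermat.Agent.Lifting.PointP
import Fermat.Agent.CFT.SelmerP.OrdMain

/-!
# The coordinates at a multiplicative lifting prime in the ordinary case

The eigenvalue of a Frobenius on the quotient by the line and the trace of the value at the element
moving only the roots of `p`, on every deformation; their product relation in the universal ring.
-/

set_option autoImplicit false

noncomputable section

open IsLocalRing GaloisRep FermatAgent.GaloisBasic WeierstrassCurve

namespace FermatAgent.Lifting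

open RT Assembly

attribute [local instance] dualAlgebra

local notation "GQ" => AlgebraicClosure ℚ ≃ₐ[ℚ] AlgebraicClosure ℚ

/-- An inertia element at `p` with residually nontrivial cyclotomic character. -/
theorem nonempty_ordIndex {p : ℕ} [hp : Fact p.Prime] (C : Coeff p) (hp2 : p ≠ 2) :
    Nonempty (OrdIndex (cycloO p C.O) p) := by
  have := charP_residue C
  obtain ⟨σ, hσ, hu⟩ := CFT.SelmerP.exists_inertia_isUnit_cycloO (𝒪 := C.O) hp2
  obtain ⟨u, hu⟩ := hu.exists_left_inv
  exact ⟨⟨_, CFT.Global.liesOverPrime_padicPlace, σ, hσ, u, hu⟩⟩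

namespace Ctx

variable {p : ℕ} [hp : Fact p.Prime] (X : Ctx p)

/-- The place and inertia element at `p`. -/
def pIdx : OrdIndex (cycloO p X.C.O) p := (nonempty_ordIndex X.C X.ne_two).some

/-- The Frobenius at `p`. -/
def pFrob : GQ := (exists_isFrobeniusAt hp.out X.pIdx.lies).choose

/-- The chosen element is a Frobenius at `p`. -/
lemma pFrob_spec : X.pIdx.P.IsFrobeniusAt X.pFrob p :=
  (exists_isFrobeniusAt hp.out X.pIdx.lies).choose_spec

/-- The inertia element moving only the roots of `p`. -/
def pTau : GQ := (CFT.SelmerP.exists_isTauZero X.pIdx.lies X.ne_two).choose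

/-- The chosen element of inertia is the one moving only the roots of `p`. -/
lemma pTau_spec : CFT.SelmerP.IsTauZero X.pIdx.P p X.pTau :=
  (CFT.SelmerP.exists_isTauZero X.pIdx.lies X.ne_two).choose_spec

/-- The residual projection to the line. -/
def pProj : Matrix (Fin 2) (Fin 2) (ResidueField X.C.O) := ordProj X.pIdx (curveRes X.C X.hΔ)

/-- A constant matrix moving the residual line. -/
def pMat : Matrix (Fin 2) (Fin 2) X.C.O := by
  classical
  exact if h : ∃ E : Matrix (Fin 2) (Fin 2) X.C.O,
      (1 - X.pProj) * E.map (residue X.C.O) * X.pProj ≠ 0 then h.choose else 0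

variable {A B : Type} [CommRing A] [Algebra X.C.O A] [CommRing B] [Algebra X.C.O B]

/-- The eigenvalue of Frobenius on the quotient by the line. -/
def frobQuot (M : MatRep A) : A := ((1 - ordProj X.pIdx M) * M X.pFrob).trace

/-- The trace at the tame element against the constant matrix. -/
def tauTrace (M : MatRep A) : A :=
  ((M X.pTau - 1) * X.pMat.map (algebraMap X.C.O A)).trace

lemma map_ordProj (φ : A →ₐ[X.C.O] B) (M : MatRep A) (i : OrdIndex (cycloO p X.C.O) p) :
    (φ.mapMatrix) (ordProj i M) = ordProj i (mapRep (φ : A →+* B) M) := by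
  rw [ordProj, ordProj, map_smul, map_sub, map_one]
  rfl

/-- The eigenvalue on the quotient by the line commutes with algebra maps. -/
lemma frobQuot_map (φ : A →ₐ[X.C.O] B) (M : MatRep A) :
    φ (X.frobQuot M) = X.frobQuot (mapRep (φ : A →+* B) M) := by
  rw [frobQuot, frobQuot, ← map_ordProj X φ M]
  refine (AddMonoidHom.map_trace φ.toRingHom.toAddMonoidHom _).trans ?_
  show (φ.mapMatrix ((1 - ordProj X.pIdx M) * M X.pFrob)).trace = _
  rw [map_mul, map_sub, map_one]
  rfl

/-- The trace at the inertia element commutes with algebra maps. -/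
lemma tauTrace_map (φ : A →ₐ[X.C.O] B) (M : MatRep A) :
    φ (X.tauTrace M) = X.tauTrace (mapRep (φ : A →+* B) M) := by
  rw [tauTrace, tauTrace]
  refine (AddMonoidHom.map_trace φ.toRingHom.toAddMonoidHom _).trans ?_
  show (φ.mapMatrix ((M X.pTau - 1) * X.pMat.map (algebraMap X.C.O A))).trace = _
  rw [map_mul, map_sub, map_one, AlgHom.mapMatrix_apply, AlgHom.mapMatrix_apply, Matrix.map_map,
    show ((φ : A → B) ∘ algebraMap X.C.O A) = algebraMap X.C.O B from funext φ.commutes]
  rfl

/-- The eigenvalue on the quotient by the line is invariant under conjugation. -/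
lemma frobQuot_conj {M M' : MatRep A} (h : MatConj M M') : X.frobQuot M' = X.frobQuot M := by
  obtain ⟨U, hU⟩ := h
  have h1 : ordProj X.pIdx M' = U.1 * ordProj X.pIdx M * (U⁻¹).1 := by
    rw [ordProj, ordProj, hU, mul_smul_comm, smul_mul_assoc, mul_sub, mul_one, sub_mul, U.mul_inv]
  rw [frobQuot, frobQuot, h1, hU, ← Matrix.trace_units_conj U ((1 - ordProj X.pIdx M) * M X.pFrob)]
  congr 1
  calc (1 - U.1 * ordProj X.pIdx M * (U⁻¹).1) * (U.1 * M X.pFrob * (U⁻¹).1)
      = (U.1 * (1 - ordProj X.pIdx M) * (U⁻¹).1) * (U.1 * M X.pFrob * (U⁻¹).1) := by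
        rw [mul_sub U.1, mul_one, sub_mul U.1, U.mul_inv]
    _ = U.1 * (1 - ordProj X.pIdx M) * ((U⁻¹).1 * U.1) * M X.pFrob * (U⁻¹).1 := by
        simp only [mul_assoc]
    _ = _ := by rw [U.inv_mul, mul_one, ← mul_assoc]

/-- **The eigenvalue of the curve is its sign.** -/
theorem frobQuot_curve (hord : X.localCase = .ordinary) :
    X.frobQuot (mapRep (algebraMap X.C.O A) (curveMat X.C X.hΔ)) =
      algebraMap X.C.O A (multSign X.W p : X.C.O) := by
  have h := X.caseOK
  rw [hord] at h
  exact trace_frobenius_curveMat X.C X.hΔ X.semistable X.ne_two h X.pIdx X.pFrob_spec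

/-- In the ordinary case the sign at `p` squares to one. -/
lemma pSign_sq (hord : X.localCase = .ordinary) :
    (multSign X.W p : X.C.O) * (multSign X.W p : X.C.O) = 1 := by
  have h := X.caseOK
  rw [hord] at h
  rw [← Int.cast_mul, ← sq, multSign_sq_p X.hΔ X.semistable h, Int.cast_one]

/-- The residual representation satisfies the weak equations. -/
lemma weakOrd_curveRes (hord : X.localCase = .ordinary) :
    (weakOrdMatCond (cycloO p X.C.O) p).P (curveRes X.C X.hΔ) := by
  have h := pMatCond_curveMat (C := X.C) (isArtinianTestAlgebra_residueField X.C) X.hΔ X.semistable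
    X.ne_two X.caseOK
  rw [hord] at h
  exact h

/-- The residual representation has cyclotomic determinant. -/
lemma det_curveRes_cycloO (σ : GQ) :
    (curveRes X.C X.hΔ σ).det = algebraMap X.C.O (ResidueField X.C.O) (cycloO p X.C.O σ) :=
  (det_curveRes X.C X.hΔ σ).trans rfl

/-- The constant matrix moves the residual line. -/
lemma pMat_spec (hord : X.localCase = .ordinary) :
    (1 - X.pProj) * X.pMat.map (residue X.C.O) * X.pProj ≠ 0 := by
  classical
  have hS := CFT.SelmerP.ordShape_of_weakOrd (X.weakOrd_curveRes hord) X.det_curveRes_cycloO X.pIdx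
  have hex : ∃ E : Matrix (Fin 2) (Fin 2) X.C.O,
      (1 - X.pProj) * E.map (residue X.C.O) * X.pProj ≠ 0 := by
    by_contra hno
    push Not at hno
    have hall : ∀ Y, (1 - X.pProj) * Y * X.pProj = 0 := fun Y => by
      choose f hf using fun r c => residue_surjective (Y r c)
      have := hno (Matrix.of f)
      rwa [show (Matrix.of f).map (residue X.C.O) = Y from Matrix.ext hf] at this
    have hp1 : X.pProj.trace = 1 := hS.trace
    have hq1 : (1 - X.pProj).trace = 1 := hS.trace_one_sub
    obtain ⟨⟨a, b⟩, hab⟩ : ∃ x : Fin 2 × Fin 2, (1 - X.pProj) x.1 x.2 ≠ 0 := by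
      by_contra hz
      push Not at hz
      rw [Matrix.trace_fin_two, hz (0, 0), hz (1, 1), add_zero] at hq1
      exact zero_ne_one hq1
    obtain ⟨⟨c, d⟩, hcd⟩ : ∃ x : Fin 2 × Fin 2, X.pProj x.1 x.2 ≠ 0 := by
      by_contra hz
      push Not at hz
      rw [Matrix.trace_fin_two, hz (0, 0), hz (1, 1), add_zero] at hp1
      exact zero_ne_one hp1
    have := congrFun (congrFun (hall (Matrix.single b c 1)) a) d
    rw [Matrix.mul_apply, Finset.sum_eq_single c] at this
    · rw [Matrix.mul_apply, Finset.sum_eq_single b] at this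
      · rw [Matrix.single_apply_same, mul_one, Matrix.zero_apply] at this
        rcases mul_eq_zero.mp this with h | h
        · exact hab h
        · exact hcd h
      · intro k _ hk
        rw [Matrix.single_apply, if_neg (fun h => hk h.1.symm), mul_zero]
      · exact fun h => absurd (Finset.mem_univ _) h
    · intro k _ hk
      rw [Matrix.mul_apply, Finset.sum_eq_zero, zero_mul]
      intro l _
      rw [Matrix.single_apply, if_neg (fun h => hk h.2.symm), mul_zero]
    · exact fun h => absurd (Finset.mem_univ _) h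
  rw [pMat, dif_pos hex]
  exact hex.choose_spec

/-- **The product relation over a complete ring.** -/
theorem relation_of_cond (hord : X.localCase = .ordinary) {R : Type} [CommRing R] [IsLocalRing R]
    [IsNoetherianRing R] [Algebra X.C.O R] [IsLocalHom (algebraMap X.C.O R)]
    (hs : Function.Surjective (residue R ∘ algebraMap X.C.O R)) {S T : Finset ℕ} {M : MatRep R}
    (hc : MatContinuous R M) (h : (liftMatCond X.C.O p S T X.localCase).cond (toRep M hc)) :
    (X.frobQuot M * X.frobQuot M - 1) * X.tauTrace M = 0 := by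
  refine GaloisBasic.eq_zero_of_forall_mem_pow fun n => Ideal.pow_le_pow_right n.le_succ ?_
  obtain ⟨hloc, htest, -⟩ := GaloisBasic.isArtinianTestAlgebra_quotient hs n
  set I := maximalIdeal R ^ (n + 1) with hI
  have h1 := h htest (Ideal.Quotient.mkₐ X.C.O I)
    (IsLocalHom.of_surjective _ Ideal.Quotient.mk_surjective)
    Ideal.Quotient.mk_surjective (Pi.basisFun R (Fin 2))
  rw [matrixIn_toRep] at h1
  obtain ⟨hdet, -, -, hP⟩ := liftMatCond_iff.mp h1
  rw [hord] at hP
  set φ := Ideal.Quotient.mkₐ X.C.O I
  set M' := mapRep (Ideal.Quotient.mk I) M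
  have := htest.isArtinian
  have := htest.isLocalHom
  have : Finite (R ⧸ I) := finite_of_isArtinianTestAlgebra htest
  have : IsLocalHom (Ideal.Quotient.mk I) := IsLocalHom.of_surjective _ Ideal.Quotient.mk_surjective
  have hc' : MatContinuous _ M' := hc.map _
  have hpB : IsNilpotent (p : R ⧸ I) := by
    refine ⟨n + 1, ?_⟩
    rw [← map_natCast (Ideal.Quotient.mk I), ← map_pow, Ideal.Quotient.eq_zero_iff_mem, hI]
    refine Ideal.pow_mem_pow ?_ _
    rw [← map_natCast (algebraMap X.C.O R)]
    exact map_nonunit (algebraMap X.C.O R) _ natCast_mem_maximalIdeal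
  have hB := CFT.SelmerP.weakOrd_sq_sub_one_smul hpB hP hdet
    ((matContinuous_iff_of_isArtinian M').mp hc') X.pIdx X.pTau_spec
    X.pFrob_spec.mem_decompositionSubgroup
  rw [← Ideal.Quotient.eq_zero_iff_mem]
  show φ _ = 0
  rw [map_mul, map_sub, map_mul, map_one, X.frobQuot_map, X.tauTrace_map]
  show (X.frobQuot M' * X.frobQuot M' - 1) * X.tauTrace M' = 0
  rw [tauTrace, ← smul_eq_mul, ← Matrix.trace_smul, ← smul_mul_assoc]
  rw [show (X.frobQuot M' * X.frobQuot M' - 1) • (M' X.pTau - 1) = 0 from hB, zero_mul,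
    Matrix.trace_zero]

section Universal

variable (Q : Finset ℕ)

/-- **The product relation in the universal ring.** -/
theorem univ_relation (hord : X.localCase = .ordinary) :
    (X.frobQuot (X.DQ Q).univMat * X.frobQuot (X.DQ Q).univMat - 1) *
      X.tauTrace (X.DQ Q).univMat = 0 :=
  X.relation_of_cond hord (X.DQ Q).residue_surjective_UR (X.DQ Q).univMat_continuous
    (X.DQ Q).univRep_cond

lemma residue_frobQuot (hord : X.localCase = .ordinary) :
    residue (X.DQ Q).UR (X.frobQuot (X.DQ Q).univMat) =
      residue (X.DQ Q).UR (algebraMap X.C.O (X.DQ Q).UR (multSign X.W p : X.C.O)) := by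
  have h : mapRep (residue (X.DQ Q).UR) (X.DQ Q).univMat =
      mapRep (algebraMap X.C.O (ResidueField (X.DQ Q).UR)) (curveMat X.C X.hΔ) := by
    rw [(X.DQ Q).univMat_residual]
    refine MonoidHom.ext fun σ => Matrix.ext fun r c => ?_
    show iotaRes (X.DQ Q).UR (residue X.C.O (curveMat X.C X.hΔ σ r c)) = _
    rw [← residue_algebraMap]
    rfl
  refine ((X.frobQuot_map (IsScalarTower.toAlgHom X.C.O (X.DQ Q).UR
    (ResidueField (X.DQ Q).UR)) _).trans ?_)
  refine Eq.trans (b := X.frobQuot (mapRep (algebraMap X.C.O (ResidueField (X.DQ Q).UR))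
    (curveMat X.C X.hΔ))) (congrArg X.frobQuot ?_) ((X.frobQuot_curve hord).trans rfl)
  exact h

/-- The coordinates at `p`. -/
def pCoord : Fin 3 → (X.DQ Q).UR :=
  ![X.frobQuot (X.DQ Q).univMat - algebraMap X.C.O _ (multSign X.W p : X.C.O),
    X.tauTrace (X.DQ Q).univMat, 0]

/-- **The coordinates at `p` satisfy the equations of the site.** -/
theorem pCoord_mul (hord : X.localCase = .ordinary) : X.pCoord Q 0 * X.pCoord Q 1 = 0 := by
  show (X.frobQuot _ - algebraMap X.C.O _ (multSign X.W p : X.C.O)) * X.tauTrace _ = 0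
  set d := X.frobQuot (X.DQ Q).univMat
  set s := algebraMap X.C.O (X.DQ Q).UR (multSign X.W p : X.C.O)
  have hs : s * s = 1 := by rw [← map_mul, X.pSign_sq hord, map_one]
  have hu : IsUnit (d + s) := by
    rw [← residue_ne_zero_iff_isUnit, map_add, X.residue_frobQuot Q hord, ← map_add,
      residue_ne_zero_iff_isUnit, show s + s = algebraMap X.C.O _
        (2 * (multSign X.W p : X.C.O)) by rw [two_mul, map_add]]
    exact ((IsUnit.of_mul_eq_one _ X.C.two_half).mul
      (IsUnit.of_mul_eq_one _ (X.pSign_sq hord))).map _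
  refine hu.mul_left_cancel ?_
  rw [mul_zero, ← X.univ_relation Q hord]
  linear_combination (-(X.tauTrace (X.DQ Q).univMat)) * hs

/-- The coordinates at `p` lie in the maximal ideal when the tame element is residually trivial. -/
theorem pCoord_mem (hord : X.localCase = .ordinary) (hτ : curveRes X.C X.hΔ X.pTau = 1)
    (j : Fin 3) : X.pCoord Q j ∈ maximalIdeal (X.DQ Q).UR := by
  fin_cases j
  · show X.frobQuot _ - _ ∈ _
    rw [← residue_eq_zero_iff, map_sub, X.residue_frobQuot Q hord, sub_self]
  · show X.tauTrace _ ∈ _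
    rw [← residue_eq_zero_iff]
    refine (X.tauTrace_map (IsScalarTower.toAlgHom X.C.O (X.DQ Q).UR
      (ResidueField (X.DQ Q).UR)) _).trans ?_
    have h1 : mapRep (residue (X.DQ Q).UR) (X.DQ Q).univMat X.pTau = 1 := by
      rw [(X.DQ Q).univMat_residual, mapRep_apply]
      show (curveRes X.C X.hΔ X.pTau).map _ = 1
      rw [hτ, Matrix.map_one _ (map_zero _) (map_one _)]
    show ((mapRep (residue (X.DQ Q).UR) (X.DQ Q).univMat X.pTau - 1) * _).trace = 0
    rw [h1, sub_self, zero_mul, Matrix.trace_zero]
  · exact Ideal.zero_mem _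

end Universal

end Ctx

end FermatAgent.Lifting

end
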