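import Mathlib
import Fermat.Agent.RT.Tame
import Fermat.Agent.RT.GroupRing
import Fermat.Agent.BAD.Diamond.Prime

/-!
# Diamond characters in which tame generators act by squares of the standard generators
-/

set_option autoImplicit false

noncomputable section

open FermatAgent.GaloisBasic FermatAgent.RT
open scoped Classical

namespace FermatAgent.Lifting

local notation "GQ" => AlgebraicClosure ℚ ≃ₐ[ℚ] AlgebraicClosure ℚ
local notation "Qbar" => AlgebraicClosure ℚ

/-- The cyclotomic characters are compatible. -/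
lemma cycloN_unitsMap {d N : ℕ} [NeZero d] [NeZero N] (h : d ∣ N) (g : GQ) :
    ZMod.unitsMap h (HM.cycloN N g) = HM.cycloN d g := by
  refine (HM.cycloN_eq fun t ht => ?_).symm
  have : NeZero ((N : ℕ) : Qbar) := ⟨Nat.cast_ne_zero.mpr (NeZero.ne N)⟩
  have htN : t ^ N = 1 := by
    obtain ⟨c, rfl⟩ := h
    rw [pow_mul, ht, one_pow]
  have hu : IsUnit t := IsUnit.of_pow_eq_one htN (NeZero.ne N)
  have hs := modularCyclotomicCharacter.spec Qbar (IsAlgClosed.card_rootsOfUnity_eq Qbar N)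
    g.toRingEquiv (t := hu.unit) ((mem_rootsOfUnity N _).2 (Units.ext (by simp [htN])))
  simp only [IsUnit.unit_spec] at hs
  refine (show g t = g.toRingEquiv t from rfl).trans (hs.trans ?_)
  show t ^ ((HM.cycloN N g : (ZMod N)ˣ) : ZMod N).val = _
  rw [ZMod.unitsMap_def, Units.coe_map, MonoidHom.coe_coe, ZMod.castHom_apply,
    ZMod.cast_eq_val ((HM.cycloN N g : (ZMod N)ˣ) : ZMod N), ZMod.val_natCast]
  exact pow_eq_pow_mod _ ht

variable {p : ℕ} [hp : Fact p.Prime]

/-- **A character in which a tame generator has the value two.** -/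
theorem exists_char_two {ℓ : ℕ} (hℓ : ℓ.Prime) [NeZero ℓ] (hℓp : ℓ ≠ p) {P : ValuationSubring Qbar}
    (hP : P.LiesOverPrime ℓ) {τ : GQ} (hτ : IsTameGen P p τ) {mm : ℕ} (hmm : ∃ k, mm = p ^ k)
    (hdvd : mm ∣ ℓ - 1) :
    ∃ ψ : (ZMod ℓ)ˣ →* Multiplicative (ZMod mm),
      ψ (HM.cycloN ℓ τ) = Multiplicative.ofAdd (2 : ZMod mm) := by
  obtain ⟨k, rfl⟩ := hmm
  have : Fact ℓ.Prime := ⟨hℓ⟩
  have hℓ1 : 0 < ℓ - 1 := Nat.sub_pos_of_lt hℓ.one_lt
  set e := (ℓ - 1) / p ^ k
  have he : e * p ^ k = ℓ - 1 := Nat.div_mul_cancel hdvd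
  let pw : (ZMod ℓ)ˣ →* (ZMod ℓ)ˣ := powMonoidHom e
  have hpw : ∀ u, pw u ^ p ^ k = 1 := fun u => by
    show (u ^ e) ^ p ^ k = 1
    rw [← pow_mul, he, ZMod.units_pow_card_sub_one_eq_one]
  let f : GQ →* (ZMod ℓ)ˣ := pw.comp (HM.cycloN ℓ)
  have hopen : IsOpen (f.ker : Set GQ) := by
    obtain ⟨L, hL, hLc⟩ := HM.exists_level_cycloN ℓ
    refine Subgroup.isOpen_mono (fun σ hσ => ?_) L.fixingSubgroup_isOpen
    show pw (HM.cycloN ℓ σ) = 1
    rw [hLc σ ((IntermediateField.mem_fixingSubgroup_iff _ σ).mp hσ), map_one]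
  have hPg : IsPGroup p ((P.inertiaSubgroupIn ℚ).map f) := by
    rintro ⟨_, σ, -, rfl⟩
    refine ⟨k, Subtype.ext ?_⟩
    rw [Subgroup.coe_pow, Subgroup.coe_one]
    exact hpw _
  have hgen := map_inertia_eq_zpowers f hℓ hP hℓp hopen hPg hτ
  set g := f τ with hgdef
  have hmem : ∀ u, pw u ∈ Subgroup.zpowers g := fun u => by
    obtain ⟨σ, hσ, hσu⟩ := exists_inertia_cyclotomic hℓ hP u
    rw [← hgen]
    exact ⟨σ, hσ, by show pw (HM.cycloN ℓ σ) = _; rw [HM.cycloN_eq hσu]⟩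
  have hord : orderOf g = p ^ k := by
    refine Nat.dvd_antisymm (orderOf_dvd_of_pow_eq_one (hpw _)) ?_
    obtain ⟨γ, hγ⟩ := IsCyclic.exists_ofOrder_eq_natCard (α := (ZMod ℓ)ˣ)
    rw [Nat.card_eq_fintype_card, ZMod.card_units] at hγ
    obtain ⟨j, hj⟩ := Subgroup.mem_zpowers_iff.mp (hmem γ)
    have h1 : orderOf (γ ^ e) = p ^ k := by
      rw [orderOf_pow, hγ, ← he, Nat.gcd_mul_right_left, Nat.mul_div_cancel_left]
      exact Nat.pos_of_ne_zero fun h0 => by rw [h0, zero_mul] at he; omega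
    rw [← h1, show γ ^ e = g ^ j from hj.symm, orderOf_dvd_iff_pow_eq_one, ← zpow_natCast,
      ← zpow_mul, mul_comm, zpow_mul, zpow_natCast, pow_orderOf_eq_one, one_zpow]
  let g₀ : Subgroup.zpowers g := ⟨g, Subgroup.mem_zpowers g⟩
  have hg₀ : ∀ x, x ∈ Subgroup.zpowers g₀ := fun x => by
    obtain ⟨j, hj⟩ := Subgroup.mem_zpowers_iff.mp x.2
    exact Subgroup.mem_zpowers_iff.mpr ⟨j, Subtype.ext hj⟩
  have hd2 : orderOf (Multiplicative.ofAdd (2 : ZMod (p ^ k))) ∣ orderOf g₀ := by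
    rw [Subgroup.orderOf_mk g (Subgroup.mem_zpowers g), hord]
    refine orderOf_dvd_of_pow_eq_one (Multiplicative.toAdd.injective ?_)
    simp only [toAdd_pow, toAdd_ofAdd, toAdd_one, nsmul_eq_mul, ZMod.natCast_self, zero_mul]
  refine ⟨(monoidHomOfForallMemZpowers hg₀ hd2).comp (pw.codRestrict _ hmem), ?_⟩
  rw [MonoidHom.comp_apply, show pw.codRestrict _ hmem (HM.cycloN ℓ τ) = g₀ from Subtype.ext rfl,
    monoidHomOfForallMemZpowers_apply_gen]

/-- **The diamond character of a finite family of primes.** -/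
theorem exists_diamond (hp2 : p ≠ 2) {κ : Type} [Fintype κ] [DecidableEq κ] (ell : κ → ℕ)
    (hell : ∀ j, (ell j).Prime) (hinj : Function.Injective ell) (hne : ∀ j, ell j ≠ p)
    (m : κ → ℕ) [∀ j, NeZero (m j)] (hm : ∀ j, ∃ k, m j = p ^ k) (hdvd : ∀ j, m j ∣ ell j - 1)
    (P : κ → ValuationSubring Qbar) (hP : ∀ j, (P j).LiesOverPrime (ell j)) (τ : κ → GQ)
    (hτ : ∀ j, IsTameGen (P j) p (τ j)) [NeZero (∏ j, ell j)] :
    ∃ δ : (ZMod (∏ j, ell j))ˣ →* CycProd m, Function.Surjective δ ∧ δ (-1) = 1 ∧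
      ∀ j, δ (HM.cycloN (∏ j, ell j) (τ j)) = cycGen (m := m) j * cycGen (m := m) j := by
  have : ∀ j, NeZero (ell j) := fun j => ⟨(hell j).ne_zero⟩
  choose ψ hψ using fun j => exists_char_two (hell j) (hne j) (hP j) (hτ j) (hm j) (hdvd j)
  have hdN : ∀ j, ell j ∣ ∏ i, ell i := fun j => Finset.dvd_prod_of_mem _ (Finset.mem_univ j)
  let δ : (ZMod (∏ j, ell j))ˣ →* CycProd m :=
    { toFun := fun u => Multiplicative.ofAdd fun j =>
        Multiplicative.toAdd (ψ j (ZMod.unitsMap (hdN j) u))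
      map_one' := by simp [← Pi.zero_def]
      map_mul' := fun u v => by
        refine Multiplicative.toAdd.injective (funext fun j => ?_)
        simp }
  have hval : ∀ j, δ (HM.cycloN (∏ j, ell j) (τ j)) = cycGen (m := m) j * cycGen (m := m) j := by
    intro j
    refine Multiplicative.toAdd.injective (funext fun i => ?_)
    show Multiplicative.toAdd (ψ i (ZMod.unitsMap (hdN i) _)) = _
    rw [cycloN_unitsMap, toAdd_mul, Pi.add_apply]
    simp only [cycGen, toAdd_ofAdd]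
    by_cases hij : i = j
    · subst hij
      rw [hψ, toAdd_ofAdd, Pi.single_eq_same, one_add_one_eq_two]
    · rw [Pi.single_eq_of_ne hij, add_zero, BAD.cycloN_of_inertia (hell j) (fun hd => hij ?_) (hP j)
        (hτ j).mem, map_one, toAdd_one]
      exact hinj ((Nat.prime_dvd_prime_iff_eq (hell j) (hell i)).mp hd).symm
  have h2 : ∀ j, IsUnit (2 : ZMod (m j)) := fun j => by
    obtain ⟨k, hk⟩ := hm j
    rw [show (2 : ZMod (m j)) = ((2 : ℕ) : ZMod (m j)) by norm_num, ZMod.isUnit_iff_coprime, hk]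
    exact Nat.Coprime.pow_right k ((Nat.coprime_primes Nat.prime_two hp.out).mpr (Ne.symm hp2))
  refine ⟨δ, fun v => ?_, ?_, hval⟩
  · choose half hhalf using fun j => (h2 j).exists_left_inv
    refine ⟨∏ j, HM.cycloN (∏ j, ell j) (τ j) ^ ((half j * Multiplicative.toAdd v j).val),
      Multiplicative.toAdd.injective (funext fun i => ?_)⟩
    simp only [map_prod, map_pow, hval, toAdd_prod, toAdd_pow, toAdd_mul, cycGen, toAdd_ofAdd,
      Finset.sum_apply, Pi.smul_apply, Pi.add_apply]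
    rw [Finset.sum_eq_single i (fun j _ hj => by simp [Pi.single_eq_of_ne (Ne.symm hj)])
      (fun h => absurd (Finset.mem_univ i) h), Pi.single_eq_same, nsmul_eq_mul, ZMod.natCast_val,
      ZMod.cast_id, one_add_one_eq_two, mul_comm (half i) _, mul_assoc, hhalf, mul_one]
  · refine Multiplicative.toAdd.injective (funext fun i => ?_)
    have h1 : δ (-1) * δ (-1) = 1 := by rw [← map_mul, neg_mul_neg, one_mul, map_one]
    have h3 := congrFun (congrArg Multiplicative.toAdd h1) i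
    rw [toAdd_mul, toAdd_one, Pi.add_apply, Pi.zero_apply, ← two_mul] at h3
    rw [toAdd_one, Pi.zero_apply]
    exact (h2 i).mul_right_eq_zero.mp h3

end FermatAgent.Lifting

end
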