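import Fermat.Agent.CFT.Euler.UnitChar
import Fermat.Agent.GaloisBasic.FiniteFrobenius

/-!
# Finitely many homomorphisms with bounded ramification

Homomorphisms of the Galois group to a finite group whose restriction to a level has values in a
commutative subgroup of exponent `p` and which are unramified outside a finite set are finite in
number.
-/

set_option autoImplicit false

noncomputable section

open scoped Classical NumberField
open FermatAgent.CFT FermatAgent.CFT.Coh FermatAgent.CFT.Local FermatAgent.CFT.Global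
open FermatAgent.GaloisBasic

namespace FermatAgent.Lifting

local notation "GQ" => AlgebraicClosure ℚ ≃ₐ[ℚ] AlgebraicClosure ℚ
local notation "Qbar" => AlgebraicClosure ℚ

/-- A finite Galois extension is unramified outside a finite set. -/
theorem exists_isUnramifiedOutside (K : IntermediateField ℚ Qbar) [FiniteDimensional ℚ K]
    [IsGalois ℚ K] : ∃ S : Finset Nat.Primes, K.IsUnramifiedOutside S := by
  obtain ⟨S₀, hS₀⟩ := exists_finite_inertiaTrivial K
  refine ⟨S₀.subtype Nat.Prime, inferInstance, fun q hq A hA σ hσ => ?_⟩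
  rw [← restrictNormalHom_eq_one_iff]
  exact hS₀ q q.2 (fun h => hq (Finset.mem_subtype.mpr h)) A hA _ fun c =>
    mem_centerIn_of_inertia K q.2 hA hσ c

variable {p : ℕ} [hp : Fact p.Prime]

/-- A level inside a given open subgroup, containing the roots of unity, with principal primes
outside a finite set containing `p` and a given one. -/
theorem exists_setting_field (L : IntermediateField ℚ Qbar) [FiniteDimensional ℚ L]
    (S : Finset Nat.Primes) :
    ∃ (K : IntermediateField ℚ Qbar) (_ : FiniteDimensional ℚ K) (S' : Finset Nat.Primes),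
      L ≤ K ∧ zet p ∈ K ∧ S ⊆ S' ∧ ExtCitation.pPrime p ∈ S' ∧ K.IsUnramifiedOutside S' ∧
      PrincipalOutside (above K S') := by
  have : FiniteDimensional ℚ (IntermediateField.adjoin ℚ ({zet p} : Set Qbar)) :=
    IntermediateField.adjoin.finiteDimensional (Algebra.IsIntegral.isIntegral _)
  set K := IntermediateField.normalClosure ℚ
    ↥(L ⊔ IntermediateField.adjoin ℚ ({zet p} : Set Qbar)) Qbar
  have : Normal ℚ K := normalClosure.normal ℚ _ Qbar
  have : IsGalois ℚ K := ⟨⟩
  obtain ⟨S₁, hS₁⟩ := exists_isUnramifiedOutside K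
  obtain ⟨T₀, hT₀⟩ := exists_generator (K := K)
  have hle := (L ⊔ IntermediateField.adjoin ℚ ({zet p} : Set Qbar)).le_normalClosure
  refine ⟨K, inferInstance, S ∪ S₁ ∪ T₀.image qP ∪ {ExtCitation.pPrime p}, le_sup_left.trans hle,
    hle (le_sup_right (a := L) (IntermediateField.mem_adjoin_simple_self ℚ _)), ?_,
    Finset.mem_union_right _ (Finset.mem_singleton_self _), ?_, fun P hP => ?_⟩
  · exact fun q hq => Finset.mem_union_left _ (Finset.mem_union_left _ (Finset.mem_union_left _ hq))
  · exact ⟨inferInstance, fun q hq => hS₁.2 q fun h =>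
      hq (Finset.mem_union_left _ (Finset.mem_union_left _ (Finset.mem_union_right _ h)))⟩
  · have hT : ∀ {P' : PK K}, P' ∈ T₀ → P' ∈ above K
        (S ∪ S₁ ∪ T₀.image qP ∪ {ExtCitation.pPrime p}) := fun h => mem_above.mpr
      (Finset.mem_union_left _ (Finset.mem_union_right _ (Finset.mem_image_of_mem _ h)))
    obtain ⟨c, hc, hc0, h1, h2⟩ := hT₀ P fun h => hP (hT h)
    exact ⟨c, hc, hc0, h1, fun P' hP' => h2 P' fun h => hP' (hT h)⟩

/-- Additive characters separate the points of a space over `ZMod p`. -/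
theorem eq_of_forall_char {V : Type} [AddCommGroup V] [Module (ZMod p) V] {v w : V}
    (h : ∀ φ : V →+ ZMod p, φ v = φ w) : v = w := by
  refine sub_eq_zero.mp ((Module.forall_dual_apply_eq_zero_iff (ZMod p) (v - w)).mp fun φ => ?_)
  rw [map_sub, sub_eq_zero]
  exact h φ.toAddMonoidHom

/-- **Finiteness of homomorphisms with abelian restriction and bounded ramification.** -/
theorem finite_homs {X H : Type} [Group X] [Finite X] [Group H] (π : X →* H) (ρ : GQ →* H)
    (hab : ∀ a b, π a = 1 → π b = 1 → a * b = b * a) (hexp : ∀ a, π a = 1 → a ^ p = 1)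
    (hρ : ∃ L : IntermediateField ℚ Qbar, FiniteDimensional ℚ L ∧ ∀ σ ∈ L.fixingSubgroup, ρ σ = 1)
    (S : Finset ℕ) :
    Finite {f : GQ →* X // (∀ σ, π (f σ) = ρ σ) ∧
      (∃ L : IntermediateField ℚ Qbar, FiniteDimensional ℚ L ∧ ∀ σ ∈ L.fixingSubgroup, f σ = 1) ∧
      ∀ q : ℕ, q.Prime → q ∉ S → ∀ A : ValuationSubring Qbar, A.LiesOverPrime q →
        ∀ σ ∈ A.inertiaSubgroupIn ℚ, f σ = 1} := by
  obtain ⟨L, hL, hLρ⟩ := hρ
  have := hL
  obtain ⟨K, hKfd, S', hLK, hζ, hSS', hpS, hK, hgen⟩ :=
    exists_setting_field (p := p) L (S.subtype Nat.Prime)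
  have := hKfd
  have : K.fixingSubgroup.FiniteIndex := LQ.finiteIndex (fixingSubgroup_mem_galLevels K)
  have : Finite (GQ ⧸ K.fixingSubgroup) := Subgroup.finite_quotient_of_finiteIndex
  let A : Subgroup X := π.ker
  let : CommGroup A := { (inferInstance : Group A) with
    mul_comm := fun a b => Subtype.ext (hab a b a.2 b.2) }
  have : NeZero p := ⟨hp.out.ne_zero⟩
  let : Module (ZMod p) (Additive A) := AddCommGroup.zmodModule fun a =>
    Subtype.ext (hexp (Additive.toMul a).1 (Additive.toMul a).2)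
  have : Finite (Additive A) := inferInstanceAs (Finite A)
  have : Finite (Additive A →+ ZMod p) := Finite.of_injective _ DFunLike.coe_injective
  have := (Euler.finite_range_unitKum (p := p) (K := K) (S := S') hζ).to_subtype
  have hmemA : ∀ (f : GQ →* X), (∀ σ, π (f σ) = ρ σ) → ∀ σ ∈ K.fixingSubgroup, f σ ∈ A := by
    intro f hf σ hσ
    show π (f σ) = 1
    rw [hf, hLρ σ (IntermediateField.fixingSubgroup_antitone hLK hσ)]
  let toA : X → Additive A := fun x => if h : x ∈ A then Additive.ofMul ⟨x, h⟩ else 0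
  have key : ∀ f : {f : GQ →* X // (∀ σ, π (f σ) = ρ σ) ∧
      (∃ L : IntermediateField ℚ Qbar, FiniteDimensional ℚ L ∧ ∀ σ ∈ L.fixingSubgroup, f σ = 1) ∧
      ∀ q : ℕ, q.Prime → q ∉ S → ∀ A : ValuationSubring Qbar, A.LiesOverPrime q →
        ∀ σ ∈ A.inertiaSubgroupIn ℚ, f σ = 1}, ∀ n : Additive A →+ ZMod p,
      (fun g : K.fixingSubgroup => n (toA (f.1 g.1))) ∈ Set.range
        (fun a : ↥(tUnits K (above K S' : Set (PK K))) =>
          fun g : K.fixingSubgroup => kum (zet_spec p) a.1 g.1) := by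
    rintro ⟨f, hfπ, ⟨F, hF, hFf⟩, hfur⟩ n
    have := hF
    set N := K.fixingSubgroup ⊓ f.ker
    have hFN : (F ⊔ K).fixingSubgroup ≤ N := fun σ hσ =>
      ⟨IntermediateField.fixingSubgroup_antitone le_sup_right hσ,
        hFf σ (IntermediateField.fixingSubgroup_antitone le_sup_left hσ)⟩
    have hNQ : N ∈ (LQ : Levels GQ) := ⟨F ⊔ K, inferInstance, hFN⟩
    have hN : N ∈ LS S' := by
      have hfix := fixingSubgroup_fixedField_of_mem hNQ
      refine ⟨IntermediateField.fixedField N, ⟨?_, fun q hq A hA σ hσ => ?_⟩, hfix.le⟩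
      · have hle : IntermediateField.fixedField N ≤ F ⊔ K := by
          rw [← InfiniteGalois.fixedField_fixingSubgroup (F ⊔ K)]
          exact IntermediateField.fixedField_antitone hFN
        exact Module.Finite.of_injective (IntermediateField.inclusion hle).toLinearMap
          (IntermediateField.inclusion hle).injective
      · rw [hfix]
        exact ⟨hK.2 q hq A hA hσ, hfur q q.2 (fun h => hq (hSS' (Finset.mem_subtype.mpr h)))
          A hA σ hσ⟩
    obtain ⟨a, ha, he⟩ := Euler.exists_unit_of_char (p := p) hζ hpS hK hgen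
      (fun g => n (toA (f g)))
      (fun g hg h hh => by
        have e : toA (f (g * h)) = toA (f g) + toA (f h) := by
          simp only [toA, dif_pos (hmemA f hfπ g hg), dif_pos (hmemA f hfπ h hh),
            dif_pos (hmemA f hfπ _ (mul_mem hg hh))]
          exact congrArg Additive.ofMul (Subtype.ext (map_mul f g h))
        rw [e, map_add])
      ⟨N, hN, fun g _ s hs _ => by rw [map_mul, show f s = 1 from hs.2, mul_one]⟩
    exact ⟨⟨a, ha⟩, funext fun g => (he g.1 g.2).symm⟩
  refine Finite.of_injective (fun f => ((fun q : GQ ⧸ K.fixingSubgroup => f.1 q.out),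
    fun n => (⟨_, key f n⟩ : Set.range (fun a : ↥(tUnits K (above K S' : Set (PK K))) =>
      fun g : K.fixingSubgroup => kum (zet_spec p) a.1 g.1)))) fun f f' h => ?_
  refine Subtype.ext (MonoidHom.ext fun g => ?_)
  set r := ((g : GQ) : GQ ⧸ K.fixingSubgroup).out
  have hu : r⁻¹ * g ∈ K.fixingSubgroup := by rw [← QuotientGroup.eq, QuotientGroup.out_eq']
  have h1 : f.1 r = f'.1 r := congrFun (congrArg Prod.fst h) _
  have h2 : toA (f.1 (r⁻¹ * g)) = toA (f'.1 (r⁻¹ * g)) := by
    refine eq_of_forall_char (p := p) fun φ => ?_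
    exact congrFun (congrArg Subtype.val (congrFun (congrArg Prod.snd h) φ)) ⟨_, hu⟩
  simp only [toA, dif_pos (hmemA f.1 f.2.1 _ hu), dif_pos (hmemA f'.1 f'.2.1 _ hu)] at h2
  have h3 : f.1 (r⁻¹ * g) = f'.1 (r⁻¹ * g) := congrArg (fun x => (Additive.toMul x).1) h2
  calc f.1 g = f.1 r * f.1 (r⁻¹ * g) := by rw [← map_mul, mul_inv_cancel_left]
    _ = f'.1 r * f'.1 (r⁻¹ * g) := by rw [h1, h3]
    _ = f'.1 g := by rw [← map_mul, mul_inv_cancel_left]

end FermatAgent.Lifting

end
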