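import Fermat.Agent.Lifting.TangentBound
import Fermat.Agent.CFT.FlatBound.Main
import Fermat.Agent.CFT.SelmerP.OrdMain
import Fermat.Agent.CFT.SelmerP.TauTrace

/-!
# The bound at `p` of lifting

In the flat, the strict and the ordinary case, cocycles with lifts to dual numbers of the type of
the case satisfy the local bound at `p`.
-/

set_option autoImplicit false

noncomputable section

open IsLocalRing GaloisRep FermatAgent.GaloisBasic WeierstrassCurve
open FermatAgent.CFT FermatAgent.CFT.Selmer FermatAgent.CFT.Global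
open scoped Classical

namespace FermatAgent.Lifting

open RT Assembly

attribute [local instance] dualAlgebra

local notation "GQ" => AlgebraicClosure ℚ ≃ₐ[ℚ] AlgebraicClosure ℚ
local notation "Qbar" => AlgebraicClosure ℚ

variable {p : ℕ} [hp : Fact p.Prime]

namespace Ctx

variable (X : Ctx p)

/-- The projection of a lift reduces to that of the curve. -/
private lemma map_fst_ordProj {c : GQ → M22 (ResidueField X.C.O)}
    {N : MatRep (DualNumber (ResidueField X.C.O))}
    (hent : ∀ g i j, N g i j = TrivSqZeroExt.inl (curveRes X.C X.hΔ g i j) +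
      TrivSqZeroExt.inr ((c g * curveRes X.C X.hΔ g) i j)) :
    (TrivSqZeroExt.fstHom (ResidueField X.C.O) (ResidueField X.C.O)
      (ResidueField X.C.O)).toRingHom.mapMatrix (ordProj X.pIdx N) = X.pProj := by
  set π := ordProj X.pIdx N
  let ψ : DualNumber (ResidueField X.C.O) →+* ResidueField X.C.O :=
    (TrivSqZeroExt.fstHom (ResidueField X.C.O) (ResidueField X.C.O)
      (ResidueField X.C.O)).toRingHom
  show ψ.mapMatrix π = _
  have hψa : ∀ x : X.C.O, ψ (algebraMap X.C.O _ x) = residue X.C.O x := fun x => by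
    rw [dual_algebraMap]; rfl
  have hψN : ∀ g, ψ.mapMatrix (N g) = curveRes X.C X.hΔ g := fun g => by
    ext i j
    simp [ψ, hent g i j]
  ext i j
  have h1 := congrFun (congrFun (hψN X.pIdx.σ₀) i) j
  rw [RingHom.mapMatrix_apply, Matrix.map_apply] at h1
  have h2 : π i j = algebraMap X.C.O (DualNumber (ResidueField X.C.O)) X.pIdx.u *
      (N X.pIdx.σ₀ i j - (1 : Matrix (Fin 2) (Fin 2) (DualNumber (ResidueField X.C.O))) i j) :=
    Algebra.smul_def X.pIdx.u (N X.pIdx.σ₀ i j - (1 : Matrix (Fin 2) (Fin 2) _) i j)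
  rw [RingHom.mapMatrix_apply, Matrix.map_apply, h2, map_mul, map_sub, hψa, h1]
  show _ = X.pIdx.u • (curveRes X.C X.hΔ X.pIdx.σ₀ i j -
    (1 : Matrix (Fin 2) (Fin 2) (ResidueField X.C.O)) i j)
  rw [Algebra.smul_def]
  congr 2
  rw [Matrix.one_apply, Matrix.one_apply]
  split_ifs <;> simp

/-- In the ordinary case a lift of the pinned type is trivial at the tame element. -/
lemma lift_tau_eq_one (hord : X.localCase = .ordinary)
    {c : GQ → M22 (ResidueField X.C.O)} {N : MatRep (DualNumber (ResidueField X.C.O))}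
    (hent : ∀ g i j, N g i j = TrivSqZeroExt.inl (curveRes X.C X.hΔ g i j) +
      TrivSqZeroExt.inr ((c g * curveRes X.C X.hΔ g) i j))
    (hdet : ∀ σ, (N σ).det = algebraMap X.C.O _ (cycloO p X.C.O σ))
    (hw : (weakOrdMatCond (cycloO p X.C.O) p).P N) (ht : X.tauTrace N = 0) : N X.pTau = 1 := by
  have S := CFT.SelmerP.ordShape_of_weakOrd hw hdet X.pIdx
  set π := ordProj X.pIdx N with hπ
  set E : Matrix (Fin 2) (Fin 2) (DualNumber (ResidueField X.C.O)) :=
    X.pMat.map (algebraMap X.C.O _) with hE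
  let ψ : DualNumber (ResidueField X.C.O) →+* ResidueField X.C.O :=
    (TrivSqZeroExt.fstHom (ResidueField X.C.O) (ResidueField X.C.O)
      (ResidueField X.C.O)).toRingHom
  have hψa : ∀ x : X.C.O, ψ (algebraMap X.C.O _ x) = residue X.C.O x := fun x => by
    rw [dual_algebraMap]; rfl
  have hψπ : ψ.mapMatrix π = X.pProj := X.map_fst_ordProj hent
  have hψE : ψ.mapMatrix E = X.pMat.map (residue X.C.O) := by
    ext i j
    simp only [hE, RingHom.mapMatrix_apply, Matrix.map_apply, hψa]
  set Z := (1 - π) * E * π with hZ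
  have hψZ : ψ.mapMatrix Z = (1 - X.pProj) * X.pMat.map (residue X.C.O) * X.pProj := by
    rw [hZ, map_mul, map_mul, map_sub, map_one, hψπ, hψE]
  obtain ⟨⟨a, b⟩, hab⟩ : ∃ x : Fin 2 × Fin 2, ψ (Z x.1 x.2) ≠ 0 := by
    by_contra hz
    push Not at hz
    refine X.pMat_spec hord ?_
    rw [← hψZ]
    exact Matrix.ext fun i j => hz (i, j)
  refine S.eq_one_of_trace X.pTau_spec.mem ?_ E (Matrix.single b a 1) ?_ ht
  · show algebraMap X.C.O _ (cycloO p X.C.O X.pTau) = 1
    rw [cycloO_apply, CFT.SelmerP.padCyclo_tauZero X.pTau_spec, map_one, map_one]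
  · rw [show (Z * Matrix.single b a (1 : DualNumber (ResidueField X.C.O))).trace = Z a b by
      fin_cases a <;> fin_cases b <;>
        simp [Matrix.trace_fin_two, Matrix.mul_apply, Matrix.single_apply]]
    rw [TrivSqZeroExt.isUnit_iff_isUnit_fst]
    exact isUnit_iff_ne_zero.mpr hab

/-- In the flat case the lifted cocycles are flat. -/
private lemma isFlatCoc_of_hasPLift (hcase : X.localCase = .flat)
    {c : GQ → M22 (ResidueField X.C.O)} (hc : X.HasPLift c) :
    CFT.FlatBound.IsFlatCoc (padicPlace p) (curveRes X.C X.hΔ) c := by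
  have := charP_residue X.C
  have hdual := dual_test (𝒪 := X.C.O)
  obtain ⟨N, hN, hent, -, hP, -⟩ := hc
  rw [hcase] at hP
  exact CFT.FlatBound.isFlatCoc_of_isFlatAt (hN := hN) p liesOverPrime_padicPlace hent
    (RT.isFlatAt_of_flatMatCond p hdual ((MatCond.cond_toRep_iff _ hdual N hN).mpr hP))

/-- In the strict case the lifted cocycles have lifts of ordinary shape with the strict equation. -/
private lemma exists_strictShape_of_hasPLift [CharP (ResidueField X.C.O) p]
    (hcase : X.localCase = .strict)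
    (i : OrdIndex (cycloO p X.C.O) p) (hi : i.P = padicPlace p)
    {c : GQ → M22 (ResidueField X.C.O)} (hcV : c ∈ adCoc (curveRes X.C X.hΔ)) (hc : X.HasPLift c) :
    ∃ N : MatRep (DualNumber (ResidueField X.C.O)),
      (∀ g, N g = epsLift (curveRes X.C X.hΔ) c g) ∧
      CFT.SelmerP.OrdShape (padicPlace p) N
        (fun σ => TrivSqZeroExt.inl (curveRes X.C X.hΔ σ).det)
        ((TrivSqZeroExt.inl (residue X.C.O i.u) : DualNumber (ResidueField X.C.O)) •
          (N i.σ₀ - 1)) ∧
      ∀ σ ∈ (padicPlace p).decompositionSubgroup ℚ,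
        (N σ * ((TrivSqZeroExt.inl (residue X.C.O i.u) : DualNumber (ResidueField X.C.O)) •
          (N i.σ₀ - 1))).trace =
          TrivSqZeroExt.inl (chiK (ResidueField X.C.O) p σ : ResidueField X.C.O) *
            (N σ * (1 - (TrivSqZeroExt.inl (residue X.C.O i.u) :
              DualNumber (ResidueField X.C.O)) • (N i.σ₀ - 1))).trace := by
  rw [← hi]
  obtain ⟨N, hN, hent, hdet, hP, -⟩ := hc
  rw [hcase] at hP
  have hN' : ∀ g, N g = epsLift (curveRes X.C X.hΔ) c g := fun g => Matrix.ext (hent g)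
  have hπ := CFT.SelmerP.ordProj_dual i N
  refine ⟨N, hN', hπ ▸ CFT.SelmerP.ordShape_of_weakOrd (weakOrdMatCond_of_ordMatCond hP)
    (fun σ => by rw [hN', CFT.SelmerP.det_epsLift hcV]) i, fun σ hσ => ?_⟩
  have h := congrFun (congrFun (hP (.strict i ⟨σ, hσ⟩)) 0) 0
  simp only [OrdEq.expr, Matrix.algebraMap_matrix_apply, if_pos, Matrix.zero_apply,
    Algebra.algebraMap_self, RingHom.id_apply, sub_eq_zero, hπ, dual_algebraMap,
    CFT.SelmerP.residue_cycloO] at h
  exact h

/-- **The bound at `p` of lifting.** -/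
theorem localBoundP (V : Submodule (ResidueField X.C.O) (GQ → M22 (ResidueField X.C.O)))
    [Module.Finite (ResidueField X.C.O) V] (hV : V ≤ adCoc (curveRes X.C X.hΔ))
    (hcont : ∀ c ∈ V, ∃ L : IntermediateField ℚ Qbar, FiniteDimensional ℚ L ∧
      ∀ σ ∈ L.fixingSubgroup, c σ = 0)
    (hlift : ∀ c ∈ V, X.HasPLift c) :
    Module.finrank (ResidueField X.C.O) V + X.localCase.ordCount ≤
      Module.finrank (ResidueField X.C.O)
        (V ⊓ locCob (curveRes X.C X.hΔ) ((padicPlace p).decompositionSubgroup ℚ) :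
          Submodule (ResidueField X.C.O) (GQ → M22 (ResidueField X.C.O))) +
      Module.finrank (ResidueField X.C.O)
        (locFix (curveRes X.C X.hΔ) ((padicPlace p).decompositionSubgroup ℚ)) + 1 := by
  have := charP_residue X.C
  have hp2 := X.ne_two
  have hA : (padicPlace p).LiesOverPrime p := liesOverPrime_padicPlace
  have hpO : (p : X.C.O) ∈ maximalIdeal X.C.O := natCast_mem_maximalIdeal
  cases hcase : X.localCase with
  | flat =>
    have hflat : ∀ c ∈ V, CFT.FlatBound.IsFlatCoc (padicPlace p) (curveRes X.C X.hΔ) c :=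
      fun c hc => X.isFlatCoc_of_hasPLift hcase (hlift c hc)
    exact CFT.FlatBound.finrank_le_flat hA hp2 (fun σ _ => X.det_curveRes_chiK σ)
      exists_level_curveRes (hflat 0 V.zero_mem) V fun c hc => ⟨hV hc, hcont c hc, hflat c hc⟩
  | strict =>
    obtain ⟨τ, hτ, w, hw⟩ := CFT.SelmerP.exists_inertia_isUnit_cycloO (𝒪 := X.C.O) hp2
    let i : OrdIndex (cycloO p X.C.O) p :=
      ⟨padicPlace p, hA, τ, hτ, (w⁻¹ : (X.C.O)ˣ), by rw [← hw, w.inv_mul]⟩
    refine CFT.SelmerP.finrank_le_strict hp2 (curveRes X.C X.hΔ) exists_level_curveRes V hV hcont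
      (σ₀ := τ) (u := residue X.C.O (w⁻¹ : (X.C.O)ˣ)) fun c hc =>
        X.exists_strictShape_of_hasPLift hcase i rfl (hV hc) (hlift c hc)
  | ordinary =>
    refine Nat.add_le_add_right ?_ 1
    refine CFT.SelmerP.finrank_le_weakOrd hp2 hpO (curveRes X.C X.hΔ) exists_level_curveRes V hV
      hcont X.pIdx X.pTau_spec X.pFrob_spec
      (d₀ := residue X.C.O (multSign X.W p : X.C.O))
      (by rw [← map_mul, X.pSign_sq hcase, map_one]) fun c hc => ?_
    obtain ⟨N, hN, hent, hdet, hP, hq⟩ := hlift c hc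
    obtain ⟨hF, ht⟩ := hq hcase
    rw [hcase] at hP
    refine ⟨N, fun g => Matrix.ext fun i j => hent g i j, hP, hdet, ?_,
      X.lift_tau_eq_one hcase hent hdet hP ht⟩
    rw [← dual_algebraMap]
    exact hF

end Ctx

end FermatAgent.Lifting

end
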