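import Fermat.Agent.Assembly.Chain
import Fermat.Agent.Lifting.RamifiedLevel

/-!
# Removal of an unramified prime from a squarefree residual level

Every odd residual characteristic: when the curve has good reduction at `p` the exact conductor
level, which is prime to `p`, is lowered instead of the given one.
-/

set_option autoImplicit false

noncomputable section

open IsLocalRing WeierstrassCurve CuspForm ModularFormClass
open scoped WeierstrassCurve.Affine

namespace FermatAgent.Lifting

open Assembly

/-- **Ribet's level lowering**: a prime `q ≠ p` at which the irreducible mod `p` representation of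
a semistable curve is unramified can be removed from a squarefree residual level. -/
theorem residual_div_of_unram {W : WeierstrassCurve ℤ} {p M q : ℕ} [hp : Fact p.Prime]
    (hΔ : W.Δ ≠ 0) (hW : W.IsSemistableModel) (hp2 : p ≠ 2) (hirr : W.ModRepIsIrreducible p)
    (hM : Squarefree M) (hq : q.Prime) (hqp : q ≠ p) (hqM : q ∣ M) (hu : UnramAt W p q)
    (hres : W.IsResiduallyModularOfLevel p M) : W.IsResiduallyModularOfLevel p (M / q) := by
  have hMq : Squarefree (M / q) := hM.squarefree_of_dvd (Nat.div_dvd_of_dvd hqM)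
  obtain ⟨g, 𝔪, hcg⟩ := isResiduallyModularOfLevel_iff.mp hres
  have : NeZero M := ⟨hM.ne_zero⟩
  suffices H : ∃ N : ℕ, Squarefree N ∧ W.IsResiduallyModularOfLevel p N ∧ (p ∣ N → p ∣ M) ∧
      ∀ r : ℕ, r.Prime → r ≠ p → r ∣ N → ¬ UnramAt W p r by
    obtain ⟨N, hN, hresN, hpN, hram⟩ := H
    refine residual_of_dvd ?_ hMq.ne_zero hresN
    refine Nat.Coprime.dvd_of_dvd_mul_left
      (hq.coprime_iff_not_dvd.mpr fun hd => hram q hq hqp hd hu).symm ?_
    rw [Nat.mul_div_cancel' hqM]
    exact dvd_of_ramified hΔ hirr hcg hN hpN hram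
  by_cases hgd : W.IsGoodPrimeFor p ∧ p ∣ M
  · obtain ⟨N, hN, hbad, hresN⟩ := residual_of_exact hΔ (exactConductor hΔ hW) hp.out
    have hpN : ¬ p ∣ N := fun hd => hgd.1 ((hbad p hp.out).1 hd)
    obtain ⟨N', h1, h2, h3, h4⟩ := exists_ramified_level hΔ hW hp2 hirr hN (fun _ => hpN) hresN
    exact ⟨N', h1, h2, fun hd => absurd (h3 hd) hpN, h4⟩
  · exact exists_ramified_level hΔ hW hp2 hirr hM (fun hg hd => hgd ⟨hg, hd⟩) hres

end FermatAgent.Lifting

end
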