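import Fermat.Agent.Lifting.Nonvanishing

/-!
# Data of Mazur's principle

The torsion representation in matrices over `ℤ/p`, and the eigenhomomorphism modulo `p` of a
congruent eigenform.
-/

set_option autoImplicit false

noncomputable section

open IsLocalRing WeierstrassCurve CongruenceSubgroup
open scoped MatrixGroups WeierstrassCurve.Affine
open ModularCurve.Period
open FermatAgent.Period (heckeOp)

namespace FermatAgent.Lifting

open Assembly (ZC Congr UnramAt)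

local notation "GQ" => AlgebraicClosure ℚ ≃ₐ[ℚ] AlgebraicClosure ℚ

variable {W : WeierstrassCurve ℤ} {p : ℕ} [hp : Fact p.Prime]

/-- The torsion in a basis, as invertible matrices over `ℤ/p`. -/
def residGL (hΔ : W.Δ ≠ 0) : GQ →* Matrix.GeneralLinearGroup (Fin 2) (ZMod p) :=
  (GaloisBasic.mapRep PadicInt.toZMod (tateMat (p := p) hΔ)).toHomUnits

/-- The mod `p` representation is the Tate module modulo `p`. -/
lemma residGL_val (hΔ : W.Δ ≠ 0) (σ : GQ) :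
    (residGL (p := p) hΔ σ : Matrix (Fin 2) (Fin 2) (ZMod p)) =
    (tateMat (p := p) hΔ σ).map PadicInt.toZMod := rfl

/-- The mod `p` representation factors through a finite extension of `ℚ`. -/
theorem exists_level_residGL (hΔ : W.Δ ≠ 0) :
    ∃ L : IntermediateField ℚ (AlgebraicClosure ℚ), FiniteDimensional ℚ L ∧
      ∀ g ∈ L.fixingSubgroup, residGL (p := p) hΔ g = 1 := by
  obtain ⟨L, hL, h⟩ := matContinuous_tateMat (p := p) hΔ 1
  refine ⟨L, hL, fun σ hσ => Units.ext (Matrix.ext fun i j => ?_)⟩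
  have h1 := h σ hσ i j
  rw [pow_one, ← PadicInt.ker_toZMod, RingHom.mem_ker, map_sub, sub_eq_zero] at h1
  rw [residGL_val, Matrix.map_apply, h1, Units.val_one, Matrix.one_apply, Matrix.one_apply,
    apply_ite PadicInt.toZMod, map_one, map_zero]

/-- The determinant at a Frobenius element over `ℓ ≠ p` is `ℓ`. -/
theorem det_residGL_frobenius (hΔ : W.Δ ≠ 0) {ℓ : ℕ} (hℓ : ℓ.Prime) (hℓp : ℓ ≠ p)
    {A : ValuationSubring (AlgebraicClosure ℚ)} (hA : A.LiesOverPrime ℓ) {σ : GQ}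
    (hσ : A.IsFrobeniusAt σ ℓ) :
    Matrix.det (residGL (p := p) hΔ σ : Matrix (Fin 2) (Fin 2) (ZMod p)) = ℓ := by
  rw [residGL_val, ← RingHom.mapMatrix_apply, ← RingHom.map_det, det_tateMat,
    ES.padCyclo_frobenius p hℓ hℓp hA hσ, map_natCast]

/-- The trace at a Frobenius element over a good `ℓ ≠ p` is `a_ℓ`. -/
theorem trace_residGL_frobenius (hΔ : W.Δ ≠ 0) {ℓ : ℕ} (hℓ : ℓ.Prime) (hℓp : ℓ ≠ p)
    (hg : W.IsGoodPrimeFor ℓ) {A : ValuationSubring (AlgebraicClosure ℚ)} (hA : A.LiesOverPrime ℓ)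
    {σ : GQ} (hσ : A.IsFrobeniusAt σ ℓ) :
    Matrix.trace (residGL (p := p) hΔ σ : Matrix (Fin 2) (Fin 2) (ZMod p)) = W.apOfModel ℓ := by
  have h := trace_tateMat_of_charpoly hΔ ((TateRep.tateRep_good hΔ hℓ hℓp hg).2 A hA σ hσ)
  refine ((AddMonoidHom.map_trace (PadicInt.toZMod (p := p)).toAddMonoidHom _).symm).trans ?_
  rw [h]
  simp

/-- Where the torsion is unramified inertia maps to one. -/
theorem residGL_inertia_eq_one (hΔ : W.Δ ≠ 0) {q : ℕ} (hu : UnramAt W p q)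
    {A : ValuationSubring (AlgebraicClosure ℚ)} (hA : A.LiesOverPrime q) {σ : GQ}
    (hσ : σ ∈ A.inertiaSubgroupIn ℚ) : residGL (p := p) hΔ σ = 1 := by
  obtain ⟨t, ht⟩ := exists_torsion_basis (p := p) hΔ
  have h1 : Affine.Point.galoisRepModuleEnd (K := AlgebraicClosure ℚ) ℚ
      (W.map (Int.castRingHom ℚ)).toAffine p σ = 1 := LinearMap.ext fun x => hu A hA σ hσ x
  have h2 := ht σ
  rw [h1, LinearMap.toMatrix_one] at h2
  exact Units.ext (by rw [residGL_val, ← h2, Units.val_one])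

/-- The matrices of the mod `p` representation span all matrices. -/
theorem span_residGL (hΔ : W.Δ ≠ 0) (hidx : Assembly.IrredIndexTwo W p) :
    Submodule.span (ZMod p) (Set.range fun x =>
      (residGL (p := p) hΔ x : Matrix (Fin 2) (Fin 2) (ZMod p))) = ⊤ := by
  obtain ⟨t, ht⟩ := exists_torsion_basis (p := p) hΔ
  simp only [residGL_val, ← ht]
  rw [← Set.image_univ, ← Set.image_image, ← LinearEquiv.coe_coe, Submodule.span_image, eq_top_iff,
    ← LinearEquiv.range (LinearMap.toMatrix t t), ← Submodule.map_top,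
    ← hidx _ index_ker_cycloN_three]
  exact Submodule.map_mono (Submodule.span_mono (Set.image_mono (Set.subset_univ _)))

/-- A good prime with `a_ℓ ≢ ℓ + 1`. -/
theorem exists_nonEis_prime (hp2 : p ≠ 2) (hΔ : W.Δ ≠ 0) (hidx : Assembly.IrredIndexTwo W p)
    {E : ℕ} (hE : E ≠ 0) : ∃ ℓ : ℕ, ℓ.Prime ∧ ¬ ℓ ∣ E ∧ W.IsGoodPrimeFor ℓ ∧
      (W.apOfModel ℓ : ZMod p) ≠ (ℓ + 1 : ℕ) := by
  obtain ⟨C⟩ := nonempty_coeff (p := p) hp2
  set E' := E * W.Δ.natAbs
  obtain ⟨i, -, hi⟩ := exists_witness C hΔ hidx (E := E')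
    (mul_ne_zero hE (Int.natAbs_ne_zero.2 hΔ)) ∅ 1
  have hg : W.IsGoodPrimeFor i.1.1 := fun h => i.2 ((Int.natCast_dvd.1 h).mul_left E)
  refine ⟨i.1.1, i.1.2, fun h => i.2 (h.mul_right _), hg, fun h => hi ?_⟩
  rw [HM.X_sub_C_mem_resIdeal, heckeVal_notMem C W (Finset.notMem_empty _), frobVal_good hg,
    goodPr_val]
  have hd : (p : ℤ) ∣ W.apOfModel i.1.1 - (i.1.1 + 1 : ℕ) := by
    rw [← ZMod.intCast_zmod_eq_zero_iff_dvd, Int.cast_sub, Int.cast_natCast, h, sub_self]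
  obtain ⟨c, hc⟩ := hd
  have e : (W.apOfModel i.1.1 : C.O) - ((i.1.1 : ℕ) + 1) = (p : C.O) * c := by
    have := congrArg (Int.cast : ℤ → C.O) hc
    push_cast at this
    exact this
  rw [e]
  exact Ideal.mul_mem_right _ _ natCast_mem_maximalIdeal

/-- **The eigenhomomorphism modulo `p`.** -/
theorem exists_eigen_parHom {N : ℕ} [NeZero N] {g : CuspForm (Gamma0 N) 2} {𝔪 : Ideal ZC}
    (hcg : Congr W p N g 𝔪) :
    ∃ φ : parabolicHoms (ZMod p) (Gamma0 N) (ZMod p), φ ≠ 0 ∧ ∀ (ℓ : ℕ) (hℓ : ℓ.Prime),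
      W.IsGoodPrimeFor ℓ → ¬ ℓ ∣ N → ℓ ≠ p →
        heckeOp (ZMod p) N hℓ φ.1 = (W.apOfModel ℓ : ZMod p) • φ.1 := by
  obtain ⟨Φ, ⟨γ₀, hγ₀⟩, hΦ⟩ := exists_int_eigenHom hcg.1 hcg.2.1 hcg.2.2.1
  set cast := (Int.castRingHom (ZMod p)).toAddMonoidHom
  refine ⟨⟨cast.comp Φ.1, fun γ hγ => ?_⟩, fun h => ?_, fun ℓ hℓ hg hℓN hℓp => ?_⟩
  · show cast (Φ.1 _) = 0
    rw [Φ.2 γ hγ, map_zero]
  · exact hγ₀ (DFunLike.congr_fun (congrArg Subtype.val h) γ₀)
  · show heckeOp (ZMod p) N hℓ (cast.comp Φ.1) = (W.apOfModel ℓ : ZMod p) • cast.comp Φ.1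
    rw [Period.heckeOp_comp ℤ]
    exact AddMonoidHom.ext (hΦ ℓ hℓ _ (hcg.2.2.2 ℓ hℓ hg hℓN hℓp))

end FermatAgent.Lifting

end
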