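import Fermat.Agent.Lifting.Seed
import Fermat.Agent.Assembly.IndexTwo.Main
import Fermat.Agent.Lifting.MazurData
import Fermat.Agent.BAD.AtP.Drop.Lift
import Fermat.Agent.BAD.Toric.GalEnd
import Fermat.Agent.BAD.Toric.MazurFrob
import Fermat.Agent.BAD.Toric.WConj

/-!
# The core of Mazur's principle

If `q` could not be removed, Frobenius at `q` would be `-q W` on the eigencharacters modulo `p`
fixed by inertia, which forces `q ≡ 1 (mod p)`.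
-/

set_option autoImplicit false

noncomputable section

open WeierstrassCurve CongruenceSubgroup
open scoped MatrixGroups
open ModularCurve.Period
open FermatAgent.ES (parGroup galChar goodLevel_Gamma0 heckeChar GQ)
open FermatAgent.BAD.Ihara (chr galW eigenW)

namespace FermatAgent.Lifting

open Assembly (ZC Congr UnramAt)

/-- Mazur's relation: on an eigencharacter of level `N` modulo `p` fixed by inertia at `q`, not
Eisenstein and with no counterpart of level `N / q`, Frobenius at `q` is `-q W`. -/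
def MazurRel (D : HM.ALData) [NeZero D.N] (p : ℕ) [Fact p.Prime] (E : ℕ) : Prop :=
  ∀ (φ : parGroup (Gamma0 D.N) p) (b : ℕ → ℕ),
    (∀ (ℓ : ℕ) (hℓ : ℓ.Prime), ¬ ℓ ∣ E → heckeChar D.N hℓ φ.1 = φ.1 ^ b ℓ) →
    (∃ ℓ : ℕ, ℓ.Prime ∧ ¬ ℓ ∣ E ∧ (b ℓ : ZMod p) ≠ (ℓ + 1 : ℕ)) →
    (∀ ψ : Gamma0 D.L →* ℂˣ, ψ ^ p = 1 →
      (∀ (ℓ : ℕ) (hℓ : ℓ.Prime), ¬ ℓ ∣ E → heckeChar D.L hℓ ψ = ψ ^ b ℓ) → ψ = 1) →
    ∀ {A : ValuationSubring (AlgebraicClosure ℚ)}, A.LiesOverPrime D.q →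
    (∀ s ∈ A.inertiaSubgroupIn ℚ, galChar (goodLevel_Gamma0 D.N) p s φ = φ) →
    ∀ {h : AlgebraicClosure ℚ ≃ₐ[ℚ] AlgebraicClosure ℚ}, A.IsFrobeniusAt h D.q →
    ∀ γ, (galChar (goodLevel_Gamma0 D.N) p h φ).1 γ *
      φ.1 ((D.wCorr (L := 1) (one_dvd D.L) (Nat.coprime_one_right D.q)).fac γ ()) ^ D.q = 1

/-- If the level cannot be lowered at `q`, Mazur's relation between Frobenius and the involution
on eigencharacters fixed by inertia forces `q ≡ 1 (mod p)`. -/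
theorem cast_eq_one_of_mazurRel {W : WeierstrassCurve ℤ} {p : ℕ} [Fact p.Prime] (hΔ : W.Δ ≠ 0)
    (hp2 : p ≠ 2) (hirr : W.ModRepIsIrreducible p)
    (hspan : Submodule.span (ZMod p) (Set.range fun x =>
      (residGL (p := p) hΔ x : Matrix (Fin 2) (Fin 2) (ZMod p))) = ⊤)
    (D : HM.ALData) [NeZero D.N] {g : CuspForm (Gamma0 D.N) 2} {𝔪 : Ideal ZC}
    (hcg : Congr W p D.N g 𝔪) (hqp : D.q ≠ p) (hu : UnramAt W p D.q)
    (hnot : ¬ W.IsResiduallyModularOfLevel p D.L) {E : ℕ} (hE0 : E ≠ 0) (hNE : D.N ∣ E)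
    (hpE : p ∣ E) (hΔE : W.Δ.natAbs ∣ E)
    (hns : ∃ ℓ : ℕ, ℓ.Prime ∧ ¬ ℓ ∣ E ∧ (W.apOfModel ℓ : ZMod p) ≠ (ℓ + 1 : ℕ))
    (hfrob : MazurRel D p E) :
    (D.q : ZMod p) = 1 := by
  classical
  set S := E.primeFactors
  have hgood : ∀ ℓ : ℕ, ℓ.Prime → ℓ ∉ S → ¬ ℓ ∣ D.N ∧ ℓ ≠ p ∧ W.IsGoodPrimeFor ℓ := fun ℓ hℓ hS =>
    have h : ¬ ℓ ∣ E := fun h => hS (Nat.mem_primeFactors.mpr ⟨hℓ, h, hE0⟩)
    ⟨fun h' => h (h'.trans hNE), fun h' => h (h' ▸ hpE),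
      fun h' => h ((Int.natCast_dvd.1 h').trans hΔE)⟩
  set a : ℕ → ZMod p := fun ℓ => (W.apOfModel ℓ : ZMod p) with ha
  obtain ⟨φ₀, hφ₀, heig⟩ := exists_eigen_parHom (p := p) hcg
  have hne : ∃ y ∈ eigenW D.N S a, y ≠ 0 := by
    refine ⟨φ₀, fun ℓ hℓ hS => Subtype.ext ?_, hφ₀⟩
    obtain ⟨h1, h2, h4⟩ := hgood ℓ hℓ hS
    exact heig ℓ hℓ h4 h1 h2
  obtain ⟨A, hA⟩ := GaloisBasic.exists_liesOverPrime D.prime
  obtain ⟨gF, hgF⟩ := GaloisBasic.exists_isFrobeniusAt D.prime hA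
  obtain ⟨M, m, hM0, -, hM, -, hLM, h12⟩ := BAD.Toric.exists_auxLevel D
  have : NeZero M := ⟨hM0⟩
  have hb : ∀ ℓ, (((a ℓ).val : ℕ) : ZMod p) = (W.apOfModel ℓ : ZMod p) := fun ℓ =>
    ZMod.natCast_zmod_val _
  refine BAD.Toric.cast_eq_one_of_relation S (residGL (p := p) hΔ) a
    ⟨fun ℓ hℓ hS => ⟨(hgood ℓ hℓ hS).1, (hgood ℓ hℓ hS).2.1⟩, exists_level_residGL hΔ,
    fun ℓ hℓ hS B hB τ hτ => ⟨trace_residGL_frobenius hΔ hℓ (hgood ℓ hℓ hS).2.1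
      (hgood ℓ hℓ hS).2.2 hB hτ, det_residGL_frobenius hΔ hℓ (hgood ℓ hℓ hS).2.1 hB hτ⟩⟩
    hp2 hspan hne (q := D.q) ?_ (fun s hs => residGL_inertia_eq_one hΔ hu hA hs)
    (det_residGL_frobenius hΔ D.prime hqp hA hgF)
    (BAD.wAut hM hLM p) (BAD.wAut_wAut hM hLM) (BAD.Toric.galChar_wAut D hM hLM h12)
    fun φ hI hφ => ?_
  · rw [Ne, ZMod.natCast_eq_zero_iff, Nat.prime_dvd_prime_iff_eq Fact.out D.prime]
    exact Ne.symm hqp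
  obtain ⟨ℓ₀, hℓ₀, hℓ₀E, hℓ₀a⟩ := hns
  have hrel := hfrob φ (fun ℓ => (a ℓ).val)
    (fun ℓ hℓ h => hφ ℓ hℓ fun hS => h (Nat.mem_primeFactors.mp hS).2.1)
    ⟨ℓ₀, hℓ₀, hℓ₀E, by rw [hb]; exact hℓ₀a⟩
    (fun ψ hψ hψe => by
      by_contra hψ1
      exact hnot (BAD.AtP.Drop.isResiduallyModularOfLevel_of_eigenChar hΔ hp2 hirr hψ hψ1 hE0
        (fun ℓ => (a ℓ).val) (fun ℓ hℓ h _ => hψe ℓ hℓ h) fun ℓ _ _ _ _ _ => hb ℓ))
    hA hI hgF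
  refine Subtype.ext (MonoidHom.ext fun γ => ?_)
  rw [Subgroup.coe_mul, MonoidHom.mul_apply, SubmonoidClass.coe_pow, MonoidHom.pow_apply]
  exact (congrArg (fun x => (galChar (goodLevel_Gamma0 D.N) p gF φ).1 γ * x ^ D.q)
    (BAD.Toric.wAut_apply_fac D hM hLM φ γ)).trans (hrel γ)

/-- **The core of Mazur's principle**: an unramified prime `q ≢ 1 (mod p)` can be removed from a
squarefree residual level `N`, provided that for `p = 3` the rest of the level has a prime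
`r ≡ 2 (mod 3)`. -/
theorem mazurCore (W : WeierstrassCurve ℤ) (p N q : ℕ) (g : CuspForm (Gamma0 N) 2)
    (𝔪 : Ideal Assembly.ZC) (hΔ : W.Δ ≠ 0) (hW : W.IsSemistableModel) (hp : p.Prime) (hp2 : p ≠ 2)
    (hirr : W.ModRepIsIrreducible p) (hN : Squarefree N) (hq : q.Prime) (hqp : q ≠ p)
    (hq1 : (q : ZMod p) ≠ 1) (hqN : q ∣ N) (hu : Assembly.UnramAt W p q)
    (h3 : p = 3 → ∃ r : ℕ, r.Prime ∧ r % 3 = 2 ∧ r ∣ N / q) (hcg : Assembly.Congr W p N g 𝔪) :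
    ∃ L : ℕ, L ∣ N / q ∧ W.IsResiduallyModularOfLevel p L := by
  classical
  have := Fact.mk hp
  by_contra hcon
  obtain ⟨D, rfl, hDL⟩ := HM.ALData.exists_data (q := q) (L := N / q) hq (fun h => by
    have h2 : q * q ∣ N := by
      rw [← Nat.mul_div_cancel' hqN]
      exact Nat.mul_dvd_mul_left q h
    exact hq.ne_one (Nat.isUnit_iff.mp (hN q h2)))
    (Nat.div_ne_zero_iff_of_dvd hqN |>.mpr ⟨hN.ne_zero, hq.ne_zero⟩)
  obtain rfl : N = D.N := by rw [HM.ALData.N, hDL, Nat.div_mul_cancel hqN]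
  have hnot : ¬ W.IsResiduallyModularOfLevel p D.L := fun h => hcon ⟨D.L, hDL ▸ dvd_rfl, h⟩
  rw [← hDL] at h3
  have hidx : Assembly.IrredIndexTwo W p := Assembly.indexTwo W p hΔ hW hp hp2 hirr
  set E := D.N * p * W.Δ.natAbs
  have hE0 : E ≠ 0 := mul_ne_zero (mul_ne_zero (NeZero.ne D.N) hp.ne_zero)
    (Int.natAbs_ne_zero.2 hΔ)
  obtain ⟨ℓ₀, hℓ₀, hℓ₀E, -, hℓ₀a⟩ := exists_nonEis_prime (p := p) hp2 hΔ hidx hE0
  exact hq1 (cast_eq_one_of_mazurRel hΔ hp2 hirr (span_residGL hΔ hidx) D hcg hqp hu hnot hE0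
    ((dvd_mul_right D.N p).mul_right _) ((dvd_mul_left p _).mul_right _) (dvd_mul_left _ _)
    ⟨ℓ₀, hℓ₀, hℓ₀E, hℓ₀a⟩ fun φ b heig hns hlow _ hA hI _ hgF =>
      (BAD.Toric.mazur_frob D hp2 (Ne.symm hqp) h3 φ b ((dvd_mul_right D.N p).mul_right _)
        heig hns hlow hA hI hgF).2.2)

end FermatAgent.Lifting

end
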