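import Fermat.Agent.Lifting.Nonvanishing
import Fermat.Agent.Assembly.Lift
import Fermat.Agent.Lifting.MazurAux

/-!
# Vanishing without a residual level

If no divisor of `N` is a residual level then neither is a divisor of `N` times unramified primes
`q ≢ 1 (mod p)`, removed by Mazur's principle, and primes `q ≡ 1 (mod p)` of good reduction with
`a_q² ≢ 4`, which cannot divide the level of a congruent newform; so those localised modules vanish.
-/

set_option autoImplicit false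

noncomputable section

open IsLocalRing WeierstrassCurve

namespace FermatAgent.Lifting

variable {W : WeierstrassCurve ℤ} {p : ℕ} [hp : Fact p.Prime]

/-- Primes removed by Mazur's principle. -/
theorem exists_dvd_of_mazur (hΔ : W.Δ ≠ 0) (hW : W.IsSemistableModel) (hp2 : p ≠ 2)
    (hirr : W.ModRepIsIrreducible p) {N : ℕ}
    (A : Finset ℕ)
    (hA : ∀ q ∈ A, q.Prime ∧ q ≠ p ∧ (q : ZMod p) ≠ 1 ∧ Assembly.UnramAt W p q) :
    ∀ L, Squarefree L → L ∣ N * ∏ q ∈ A, q → W.IsResiduallyModularOfLevel p L →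
      ∃ d, d ∣ N ∧ W.IsResiduallyModularOfLevel p d := by
  classical
  induction A using Finset.induction_on with
  | empty => exact fun L _ hd hres => ⟨L, by simpa using hd, hres⟩
  | insert q A hqA ih =>
    intro L hL hd hres
    obtain ⟨hq, hqp, hq1, hqu⟩ := hA q (Finset.mem_insert_self q A)
    rw [Finset.prod_insert hqA, mul_left_comm] at hd
    have ih' := ih fun r hr => hA r (Finset.mem_insert_of_mem hr)
    by_cases hqL : q ∣ L
    · refine ih' (L / q) (hL.squarefree_of_dvd (Nat.div_dvd_of_dvd hqL)) ?_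
        (mazurPrinciple W p L q hΔ hW hp.out hp2 hirr hL hq hqp hq1 hqL hqu hres)
      exact Nat.dvd_of_mul_dvd_mul_left hq.pos (by rwa [Nat.mul_div_cancel' hqL])
    · exact ih' L hL ((Nat.Coprime.symm (hq.coprime_iff_not_dvd.mpr hqL)).dvd_of_dvd_mul_left hd)
        hres

/-- **Vanishing.** -/
theorem subsingleton_trivLoc (C : Coeff p) (hΔ : W.Δ ≠ 0)
    (hW : W.IsSemistableModel) (hp2 : p ≠ 2)
    (hirr : W.ModRepIsIrreducible p) {N : ℕ}
    (hno : ∀ d, d ∣ N → ¬ W.IsResiduallyModularOfLevel p d) (A Q : Finset ℕ)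
    (hA : ∀ q ∈ A, q.Prime ∧ q ≠ p ∧ (q : ZMod p) ≠ 1 ∧ Assembly.UnramAt W p q)
    (hQ : ∀ q ∈ Q, q.Prime ∧ q ≠ p ∧ (q : ZMod p) = 1 ∧ W.IsGoodPrimeFor q ∧
      ¬ (p : ℤ) ∣ W.apOfModel q ^ 2 - 4)
    (hsq : Squarefree (N * (∏ q ∈ A, q) * ∏ q ∈ Q, q)) [NeZero (N * (∏ q ∈ A, q) * ∏ q ∈ Q, q)]
    {E : ℕ} (hE : E ≠ 0) (V : Finset ℕ) :
    Subsingleton (HM.TrivLoc (M := N * (∏ q ∈ A, q) * ∏ q ∈ Q, q) (goodPr E)
      (HM.resIdeal (heckeVal C W V : GoodIdx E → C.O))) := by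
  classical
  rw [← not_nontrivial_iff_subsingleton]
  intro hnt
  obtain ⟨d, g, 𝔪, hd, hnew, hcg⟩ := Assembly.exists_congr_newform hΔ hp.out hsq
    (isResiduallyModularOfLevel_of_nontrivial C hΔ
      (Assembly.indexTwo W p hΔ hW hp.out hp2 hirr) hE V hnt)
  have hdQ : d.Coprime (∏ q ∈ Q, q) := Nat.Coprime.prod_right fun q hq => by
    obtain ⟨hqP, hqp, hq1, hqg, hqa⟩ := hQ q hq
    refine (hqP.coprime_iff_not_dvd.mpr fun hqd => hqa ?_).symm
    have h := Assembly.newFrobenius W p d q g 𝔪 hΔ hp.out hnew (hsq.squarefree_of_dvd hd)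
      hqP hqp hqd hqg hcg
    rw [← ZMod.intCast_zmod_eq_zero_iff_dvd] at h ⊢
    push_cast at h ⊢
    rw [hq1, one_add_one_eq_two] at h
    linear_combination h
  obtain ⟨d', hd', hres⟩ := exists_dvd_of_mazur hΔ hW hp2 hirr A hA d
    (hsq.squarefree_of_dvd hd) (hdQ.dvd_of_dvd_mul_right hd)
    (Assembly.isResiduallyModularOfLevel_iff.mpr ⟨g, 𝔪, hcg⟩)
  exact hno d' hd' hres

/-- **Vanishing at a level of which `p` is raised.** -/
theorem subsingleton_trivLoc_of_div (C : Coeff p) (hΔ : W.Δ ≠ 0)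
    (hW : W.IsSemistableModel) (hp2 : p ≠ 2)
    (hirr : W.ModRepIsIrreducible p) {M : ℕ}
    (hM : Squarefree M) (hpM : p ∣ M)
    (hno : ∀ d, d ∣ M / p → ¬ W.IsResiduallyModularOfLevel p d) (A Q : Finset ℕ)
    (hA : ∀ q ∈ A, q.Prime ∧ ¬ q ∣ M ∧ ¬ W.IsGoodPrimeFor q ∧ (q : ZMod p) ≠ 1 ∧
      Assembly.UnramAt W p q)
    (hQ : ∀ q ∈ Q, q.Prime ∧ ¬ q ∣ M ∧ (q : ZMod p) = 1 ∧ W.IsGoodPrimeFor q ∧
      ¬ (p : ℤ) ∣ W.apOfModel q ^ 2 - 4)
    [NeZero (M / p * (∏ q ∈ A, q) * ∏ q ∈ Q, q)] {E : ℕ} (hE : E ≠ 0) (V : Finset ℕ) :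
    Subsingleton (HM.TrivLoc (M := M / p * (∏ q ∈ A, q) * ∏ q ∈ Q, q) (goodPr E)
      (HM.resIdeal (heckeVal C W V : GoodIdx E → C.O))) := by
  classical
  have hne : ∀ q : ℕ, ¬ q ∣ M → q ≠ p := fun q h e => h (e ▸ hpM)
  refine subsingleton_trivLoc C hΔ hW hp2 hirr hno A Q
    (fun q hq => ⟨(hA q hq).1, hne q (hA q hq).2.1, (hA q hq).2.2.2⟩)
    (fun q hq => ⟨(hQ q hq).1, hne q (hQ q hq).2.1, (hQ q hq).2.2⟩) ?_ hE V
  have hd : Disjoint A Q := Finset.disjoint_left.mpr fun q h1 h2 =>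
    (hA q h1).2.2.1 (hQ q h2).2.2.2.1
  have hMp : Squarefree (M / p) := hM.squarefree_of_dvd (Nat.div_dvd_of_dvd hpM)
  rw [mul_assoc, ← Finset.prod_union hd]
  exact Assembly.squarefree_mul_prod hMp fun q hq => by
    rcases Finset.mem_union.mp hq with h | h
    · exact ⟨(hA q h).1, fun hd => (hA q h).2.1 (hd.trans (Nat.div_dvd_of_dvd hpM))⟩
    · exact ⟨(hQ q h).1, fun hd => (hQ q h).2.1 (hd.trans (Nat.div_dvd_of_dvd hpM))⟩

end FermatAgent.Lifting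

end
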