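import Fermat.Agent.Lifting.CondAt
import Fermat.Agent.Lifting.CurveLift
import Fermat.Agent.Lifting.Vanishing
import Fermat.Agent.PSEMI.Ord.ExtraPush

/-!
# The strictly ordinary condition on the modules of auxiliary levels

When `p` divides the level of the seed, the classes of the level prime to `p` vanish at the
residual system, so `U_p² = θ(p)` and the equations of an ordinary representation are strict.
-/

set_option autoImplicit false

noncomputable section

open IsLocalRing GaloisRep FermatAgent.GaloisBasic WeierstrassCurve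

namespace FermatAgent.Lifting

open RT Assembly

attribute [local instance] dualAlgebra

local notation "GQ" => AlgebraicClosure ℚ ≃ₐ[ℚ] AlgebraicClosure ℚ
local notation "Qbar" => AlgebraicClosure ℚ

/-- At a multiplicative `p` inertia has residual trace `1 + χ`. -/
theorem trace_curveRes_inertia {W : WeierstrassCurve ℤ} {p : ℕ} [Fact p.Prime] (C : Coeff p)
    (hΔ : W.Δ ≠ 0) (hW : W.IsSemistableModel) (hp2 : p ≠ 2) (hbad : ¬ W.IsGoodPrimeFor p)
    {P : ValuationSubring Qbar} (hP : P.LiesOverPrime p) {σ : GQ}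
    (hσ : σ ∈ P.inertiaSubgroupIn ℚ) :
    (curveRes C hΔ σ).trace = 1 + residue C.O (cycloO p C.O σ) := by
  obtain ⟨U, hD, hI, -⟩ := exists_adapted_tateMat (p := p) hΔ hW hp2 hbad P hP
  have h11 := hI σ hσ
  have h00 := (hD σ (inertiaSubgroupIn_le_decompositionSubgroup P hσ)).2
  rw [h11, mul_one] at h00
  have ht : (tateMat (p := p) hΔ σ).trace = 1 + ES.padCyclo p σ := by
    rw [← Matrix.trace_units_conj U, Matrix.trace_fin_two, h00, h11, add_comm]
  rw [curveRes, curveMat, mapRep_apply, mapRep_apply, cycloO_apply]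
  show ((tateMat (p := p) hΔ σ).map (algebraMap ℤ_[p] C.O) |>.map (residue C.O)).trace = _
  rw [← map_one (residue C.O), ← map_one (algebraMap ℤ_[p] C.O), ← map_add, ← map_add, ← ht]
  simp [Matrix.trace_fin_two]

namespace Ctx

variable {p : ℕ} [hp : Fact p.Prime] (X : Ctx p)

/-- No elliptic points of order three below `p`. -/
lemma noElliptic_div (hpM : p ∣ X.M) : RT.Ladder.NoElliptic X.C.O (X.M / p) :=
  X.noElliptic_of fun _ hr hrp hrM => Nat.dvd_div_of_mul_dvd
    (((Nat.coprime_primes hp.out hr).mpr hrp.symm).mul_dvd_of_dvd_of_dvd hpM hrM)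

section Level

variable {κ : Type} [Fintype κ] [DecidableEq κ] {m : κ → ℕ} [∀ i, NeZero (m i)] {N : ℕ} [NeZero N]
  [IsLocalRing (MonoidAlgebra X.C.O (CycProd m))]
variable (T : RT.Ladder.AuxPrimes X.raiseBase m N) (A : Finset X.Nu)

/-- The level below `p`. -/
abbrev belowLvl : ℕ :=
  X.M / p * (∏ q ∈ A.map (Function.Embedding.subtype _), q) * (∏ q ∈ (∅ : Finset ℕ), q) *
    ∏ i ∈ T.Q, X.raiseBase.ell i

omit [NeZero N] [IsLocalRing (MonoidAlgebra X.C.O (CycProd m))] in
lemma belowLvl_mul (hpM : p ∣ X.M) : T.lvlQ A = X.belowLvl T A * p := by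
  rw [belowLvl, Finset.prod_empty, Finset.prod_map, mul_one]
  show X.M * (∏ v ∈ A, v.1) * _ = X.M / p * (∏ v ∈ A, v.1) * _ * p
  conv_lhs => rw [← Nat.div_mul_cancel hpM]
  ring

omit [NeZero N] [IsLocalRing (MonoidAlgebra X.C.O (CycProd m))] in
lemma not_dvd_belowLvl (hpM : p ∣ X.M) : ¬ p ∣ X.belowLvl T A := fun hd => by
  rw [belowLvl, Finset.prod_empty, Finset.prod_map, mul_one] at hd
  rcases hp.out.dvd_mul.mp hd with hd | hd
  · rcases hp.out.dvd_mul.mp hd with hd | hd
    · refine hp.out.ne_one (Nat.isUnit_iff.mp (X.seed.sq p ?_))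
      have := Nat.mul_dvd_mul_right hd p
      rwa [Nat.div_mul_cancel hpM] at this
    · obtain ⟨v, -, hv⟩ := hp.out.prime.exists_mem_finset_dvd hd
      have hv' := (Nat.prime_dvd_prime_iff_eq hp.out (X.mem_raised.mp v.2).1).mp hv
      exact (X.mem_raised.mp v.2).2.2 (Eq.subst (motive := fun t => t ∣ X.M) hv' hpM)
  · obtain ⟨i, hi, hid⟩ := hp.out.prime.exists_mem_finset_dvd hd
    exact T.aux_not_dvd i hi (Eq.subst (motive := fun t => t ∣ X.M)
      ((Nat.prime_dvd_prime_iff_eq hp.out (X.raiseBase.pr i).1.2).mp hid) hpM)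

omit [NeZero N] in
include T in
/-- **Nothing comes from the level below `p`.** -/
theorem subsingleton_below
    (hpM : p ∣ X.M) (hN0 : N ∣ X.belowLvl T A) :
    Subsingleton (HM.ThetaLoc hN0 (HM.diamondChar X.C.O T.δ) X.raiseBase.pr
      (HM.resIdeal (T.aS A)) (MonoidAlgebra X.C.O (CycProd m))) := by
  classical
  set A' := A.map (Function.Embedding.subtype fun q => q ∈ X.raised)
  set L₀ := X.M / p * (∏ q ∈ A', q) * ∏ q ∈ (∅ : Finset ℕ), q
  have hne : X.belowLvl T A ≠ 0 := fun h =>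
    T.lvlQ_ne A (by rw [X.belowLvl_mul T A hpM, h, zero_mul])
  have : NeZero L₀ := ⟨left_ne_zero_of_mul hne⟩
  have : NeZero (X.belowLvl T A) := ⟨hne⟩
  have hA' : ∀ q ∈ A', q.Prime ∧ ¬ q ∣ X.M ∧ ¬ X.W.IsGoodPrimeFor q ∧ (q : ZMod p) ≠ 1 ∧
      Assembly.UnramAt X.W p q := fun q hq => by
    obtain ⟨v, -, rfl⟩ := Finset.mem_map.mp hq
    obtain ⟨h1, h2, h3⟩ := X.mem_raised.mp v.2
    exact ⟨h1, h3, h2, X.raised_spec v.2 fun h =>
      h3 (Eq.subst (motive := fun t => t ∣ X.M) h.symm hpM)⟩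
  have hlow := subsingleton_trivLoc_of_div X.C X.hΔ X.semistable X.ne_two X.irr
    X.seed.sq hpM (fun d hd => X.seed.p_strict hpM d hd) A' ∅ hA'
    (fun q hq => absurd hq (Finset.notMem_empty q)) X.varLevel_ne_zero A'
  have hval : (heckeVal X.C X.W A' : GoodIdx X.varLevel → X.C.O) = X.raiseBase.aAt A := by
    funext i
    by_cases hi : i ∈ A.map X.raiseBase.site
    · obtain ⟨v, hv, rfl⟩ := Finset.mem_map.mp hi
      rw [X.raiseBase.aAt_site hv, heckeVal_mem]
      · rfl
      · exact Finset.mem_map.mpr ⟨v, hv, rfl⟩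
    · rw [X.raiseBase.aAt_of_notMem hi, heckeVal_notMem X.C X.W (fun h => hi ?_)]
      · exact (heckeVal_notMem X.C X.W (Finset.notMem_empty _)).symm
      · obtain ⟨v, hv, hv'⟩ := Finset.mem_map.mp h
        exact Finset.mem_map.mpr ⟨v, hv, Subtype.ext (Subtype.ext hv')⟩
  rw [hval] at hlow
  set R := MonoidAlgebra X.C.O (CycProd m)
  have : IsNoetherianRing R := GroupRing.isNoetherianRing
  have : IsAdicComplete (maximalIdeal R) R := GroupRing.isAdicComplete
  let : Algebra R X.C.O := (GroupRing.aug X.C.O (CycProd m)).toRingHom.toAlgebra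
  have haug : ∀ x : R, algebraMap R X.C.O x = GroupRing.aug X.C.O (CycProd m) x := fun _ => rfl
  have hsurj : Function.Surjective (algebraMap R X.C.O) := fun o =>
    ⟨algebraMap X.C.O _ o, AlgHom.commutes _ o⟩
  have hbig : L₀ ∣ T.lvlQ A := by
    rw [X.belowLvl_mul T A hpM]
    exact dvd_mul_of_dvd_left (dvd_mul_right _ _) _
  have hnon : HM.NonEis hN0 (HM.diamondChar X.C.O T.δ) X.raiseBase.pr
      (HM.resIdeal (T.aS A)) := by
    obtain ⟨h1, h2, -, i, hi, hi', hne'⟩ := T.nonEis A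
    refine ⟨h1, h2, (X.noElliptic_div hpM).of_dvd ?_ (algebraMap X.C.O R), i,
      fun hd => hi ?_, hi', hne'⟩
    · exact ((dvd_mul_right _ _).trans (dvd_mul_right _ _)).trans (dvd_mul_right _ _)
    · rw [X.belowLvl_mul T A hpM]
      exact dvd_mul_of_dvd_left hd _
  obtain ⟨π, -, -, -, hker⟩ := HM.exists_auxiliary_quotient (R := R) (R' := X.C.O)
    (θ₀ := (1 : (ZMod 1)ˣ →* X.C.O)) hsurj (one_dvd N)
    (MonoidHom.ext fun u => by
      simp only [HM.pushChar, HM.inflateChar, MonoidHom.comp_apply, HM.diamondChar,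
        MonoidHom.one_apply]
      exact GroupRing.aug_of _)
    (one_dvd L₀) hN0 T.Q (fun i hi hd => T.aux_not_dvd_lvl A hi (by
      refine hd.trans ?_
      show _ ∣ X.M * ∏ v ∈ A, v.1
      simp only [L₀, A', Finset.prod_empty, Finset.prod_map, mul_one]
      exact Nat.mul_dvd_mul_right (Nat.div_dvd_of_dvd hpM) _))
    (fun i _ j h => X.raiseBase.pr_inj h) rfl (X.raiseBase.aAt A) T.α T.β
    (fun i hi => by
      rw [X.raiseBase.aAt_of_notMem fun h => by
        obtain ⟨v, -, rfl⟩ := Finset.mem_map.mp h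
        exact T.disj v hi]
      exact T.roots i hi)
    (T.aS A)
    (fun i => by rw [haug, AlgHom.commutes, Algebra.algebraMap_self, RingHom.id_apply]
                 exact (sub_self (T.aQ A i)).symm ▸ zero_mem _) hnon
  have := HM.moduleFinite_thetaLoc (hNM := hN0) (θ := HM.diamondChar X.C.O T.δ)
    (pr := X.raiseBase.pr) (𝔪 := HM.resIdeal (T.aS A)) R
  set H := HM.ThetaLoc hN0 (HM.diamondChar X.C.O T.δ) X.raiseBase.pr
      (HM.resIdeal (T.aS A)) R
  have htop : (⊤ : Submodule R H) ≤ RingHom.ker (algebraMap R X.C.O) • ⊤ := fun x _ =>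
    (hker x).mp (@Subsingleton.elim _ hlow _ _)
  have hbot := Submodule.eq_bot_of_le_smul_of_le_jacobson_bot _ _ Module.Finite.fg_top htop
    ((le_maximalIdeal (RingHom.ker_ne_top _)).trans (IsLocalRing.maximalIdeal_le_jacobson _))
  exact ⟨fun x y => ((Submodule.mem_bot R).mp (hbot.le (Submodule.mem_top (x := x)))).trans
    ((Submodule.mem_bot R).mp (hbot.le (Submodule.mem_top (x := y)))).symm⟩

omit [NeZero N] [IsLocalRing (MonoidAlgebra X.C.O (CycProd m))] in
/-- The residual traces are those of the eigensystem of a level. -/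
theorem trace_curveRes_level (i : (Set.univ : Set (GoodIdx X.varLevel)))
    (hiM : ¬ X.raiseBase.ell i.1 ∣ T.lvlQ A) (hip : X.raiseBase.ell i.1 ≠ p)
    (P : ValuationSubring Qbar) (σ : GQ) (hP : P.LiesOverPrime (X.raiseBase.ell i.1))
    (hσ : P.IsFrobeniusAt σ (X.raiseBase.ell i.1)) :
    (curveRes X.C X.hΔ σ).trace = resAug (T.aS A i.1) := by
  refine (X.residualFacts.trace i.1 (fun h => hiM (h.trans (T.M_dvd_lvlQ A))) hip P σ hP
    hσ).trans ?_
  rw [resAug_apply, AlgHom.commutes, T.aQ_of_not_dvd hiM]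
  rfl

variable {Q : Finset ℕ} {s : ℕ}
  (b : Module.Basis (Fin s) (MonoidAlgebra X.C.O (CycProd m)) (T.Mod A)) (hs : 0 < s)
variable {Ax : (X.levelDatum T Q A b hs).AuxSet} {r n : ℕ} (e : Fin r ≃ {j // j ∈ Ax.sel})
  (hdepth : ∀ j : {j // j ∈ Ax.sel}, p ^ (n + 1) ≤ m j.1)

/-- **The strictly ordinary condition.** -/
theorem pCondAt_strict
    (hstrict : X.localCase = .strict) (hN : Squarefree N)
    (hNM : ∀ q : ℕ, q.Prime → q ∣ N → ¬ q ^ 2 ∣ T.lvlQ A) (hpN : ¬ p ∣ N)
    (z : κ → X.C.O) (hz : ∀ i, i ∉ Ax.sel → z i ^ m i = 1) :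
    X.PCondAt T A b hs e hdepth z hz := by
  intro M hres htr hdet
  rw [hstrict]
  have hpM : p ∣ X.M := X.p_dvd_of_strict hstrict
  have hbad : ¬ X.W.IsGoodPrimeFor p := fun h => X.seed.p_good h hpM
  have : NeZero (X.belowLvl T A) :=
    ⟨fun h => T.lvlQ_ne A (by rw [X.belowLvl_mul T A hpM, h, zero_mul])⟩
  have hN0 : N ∣ X.belowLvl T A :=
    Nat.Coprime.dvd_of_dvd_mul_right (hp.out.coprime_iff_not_dvd.mpr hpN).symm
      (X.belowLvl_mul T A hpM ▸ T.dvd_lvlQ A)
  have hpr : ∀ i, ((X.raiseBase.pr i).1.1 : ℕ) ≠ p := fun i h =>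
    i.2 (Eq.mpr (congrArg (· ∣ X.varLevel) h) (hpM.trans X.dvd_varLevel))
  obtain ⟨r', E, hE, hpush, hcomm⟩ := PSEMI.exists_extraTransfer p T.surj T.neg (T.aS A)
    (T.hloc A) (Nat.coprime_one_right p)
  have hsq := congrArg (endMat b) (PSEMI.extraLoc_sq hp.out (X.belowLvl_mul T A hpM)
    (X.not_dvd_belowLvl T A hpM) hN0 (T.dvd_lvlQ A) (Nat.coprime_one_right p) hpr
    (X.subsingleton_below T A hpM hN0))
  rw [map_mul, ← MvPolynomial.algebraMap_eq, endMat_algebraMap] at hsq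
  have hθ : IsUnit (HM.thetaAt (HM.diamondChar X.C.O T.δ) p) := by
    rw [HM.thetaAt, dif_pos (hp.out.coprime_iff_not_dvd.mpr hpN)]
    exact (Group.isUnit _).map _
  have hUu := ((Commute.refl _).isUnit_mul_iff.mp (hsq ▸ hθ.map _)).1
  refine side_ord Ax (X.levelGal T Q A b hs) hres htr (cycloO p X.C.O)
    (X.levelDatum_det T Q A b hs) hdet fun i => ?_
  obtain ⟨h1, h2, h3, -, h5⟩ := PSEMI.modRho_ord_of_push p T.surj T.neg (T.aS A)
    X.raiseBase.p_mem (T.hloc A) b Set.univ X.raiseBase.Sbad X.raiseBase.good_univ T.pow hs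
    T.odd_card (curveRes X.C X.hΔ) X.choices.span ((matContinuous_curveMat X.C X.hΔ).map _)
    (det_curveRes X.C X.hΔ) (X.trace_curveRes_level T A)
    (fun P hP σ hσ => trace_curveRes_inertia X.C X.hΔ X.semistable X.ne_two hbad hP hσ)
    hN hNM hpN (hpM.trans (T.M_dvd_lvlQ A))
    (by
      rw [X.belowLvl_mul T A hpM, pow_two]
      exact fun h => X.not_dvd_belowLvl T A hpM (Nat.dvd_of_mul_dvd_mul_right hp.out.pos h))
    hE _ hpush hUu hcomm i
  refine ⟨h1, h2, h3, h5 fun F hF => ?_⟩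
  rw [smul_mul_smul_comm, hsq, Algebra.algebraMap_eq_smul_one, smul_smul,
    PSEMI.twistDet_sq_mul_thetaAt T.odd_card hp.out hpN i.lies hF, one_smul]

end Level

end Ctx

end FermatAgent.Lifting

end
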