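import Fermat.Agent.Lifting.PValues
import Fermat.Agent.RT.Ladder.Tame

/-!
# The eigenvalue of Frobenius where `p` is not raised

It is the root near the sign of the Frobenius polynomial of the twisted `T_p`, by the degeneracy map
to the level with `p` raised.
-/

set_option autoImplicit false

noncomputable section

open IsLocalRing GaloisRep FermatAgent.GaloisBasic

namespace FermatAgent.RT.Ladder.AuxPrimes

variable {p : ℕ} [hp : Fact p.Prime]
variable {𝒪 : Type} [CommRing 𝒪] [IsDomain 𝒪] [IsDiscreteValuationRing 𝒪]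
  [IsAdicComplete (maximalIdeal 𝒪) 𝒪] [Finite (ResidueField 𝒪)] [Algebra ℤ_[p] 𝒪] [CharZero 𝒪]
variable {ν ι : Type} [DecidableEq ι] {L : ℕ} [Fintype ν] [DecidableEq ν]
variable {B : RaiseBase p 𝒪 ν ι L} {κ : Type} [Fintype κ] [DecidableEq κ] {m : κ → ℕ}
  [∀ i, NeZero (m i)] {N : ℕ} [NeZero N] (T : AuxPrimes B m N)
  [IsLocalRing (MonoidAlgebra 𝒪 (CycProd m))] {D : DefProblem 𝒪} {half : 𝒪}
  (hD : ResidualFacts B D half) (A : Finset ν) {s : ℕ}
  (b : Module.Basis (Fin s) (MonoidAlgebra 𝒪 (CycProd m)) (T.Mod A)) (hs : 0 < s)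

omit [IsAdicComplete (maximalIdeal 𝒪) 𝒪] [Finite (ResidueField 𝒪)] in
/-- The root near the sign of the polynomial of a site outside the level is unique. -/
theorem siteRoot_unique {v : ν} (hv : v ∉ A) (r r' : (T.datum hD A b hs).act.Img)
    (hr : (T.datum hD A b hs).act.res r = residue 𝒪 (B.sgn v))
    (h : r * r - T.trOp hD A b hs (B.site v) * r + (B.ell (B.site v) : _) = 0)
    (hr' : (T.datum hD A b hs).act.res r' = residue 𝒪 (B.sgn v))
    (h' : r' * r' - T.trOp hD A b hs (B.site v) * r' + (B.ell (B.site v) : _) = 0) : r = r' := by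
  have hu : IsUnit (r + r' - T.trOp hD A b hs (B.site v)) := by
    refine (T.datum hD A b hs).act.isUnit_of_res_ne_zero ?_
    rw [map_sub, map_add, hr, hr', res_trOp T hD A b hs (T.not_dvd_lvlQ hv),
      show residue 𝒪 (B.a₀ (B.site v)) =
        residue 𝒪 (B.sgn v * (1 + (B.ell (B.site v) : 𝒪))) from Ideal.Quotient.eq.mpr (B.low v),
      ← map_add, ← map_sub,
      show B.sgn v + B.sgn v - B.sgn v * (1 + (B.ell (B.site v) : 𝒪)) =
        -(B.sgn v * ((B.ell (B.site v) : 𝒪) - 1)) by ring]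
    exact (((IsUnit.of_mul_eq_one _ (B.sgn_sq v)).mul (B.distinct v)).neg.map
      (residue 𝒪)).ne_zero
  rw [← sub_eq_zero]
  exact hu.mul_left_eq_zero.mp (by linear_combination h - h')

/-- The value `r * r - 1` at the root near the sign, zero if there is none. -/
def rootImg (v : ν) : (T.datum hD A b hs).act.Img :=
  by classical exact if h : ∃ r, (T.datum hD A b hs).act.res r = residue 𝒪 (B.sgn v) ∧
      r * r - T.trOp hD A b hs (B.site v) * r + (B.ell (B.site v) : _) = 0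
    then h.choose * h.choose - 1 else 0

omit [IsAdicComplete (maximalIdeal 𝒪) 𝒪] [Finite (ResidueField 𝒪)] in
/-- At every root near the sign the value is `r * r - 1`. -/
theorem rootImg_eq {v : ν} (hv : v ∉ A) (r : (T.datum hD A b hs).act.Img)
    (hr : (T.datum hD A b hs).act.res r = residue 𝒪 (B.sgn v))
    (h : r * r - T.trOp hD A b hs (B.site v) * r + (B.ell (B.site v) : _) = 0) :
    T.rootImg hD A b hs v = r * r - 1 := by
  classical
  have hex : ∃ r, (T.datum hD A b hs).act.res r = residue 𝒪 (B.sgn v) ∧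
      r * r - T.trOp hD A b hs (B.site v) * r + (B.ell (B.site v) : _) = 0 := ⟨r, hr, h⟩
  rw [rootImg, dif_pos hex,
    T.siteRoot_unique hD A b hs hv _ r hex.choose_spec.1 hex.choose_spec.2 hr h]

end FermatAgent.RT.Ladder.AuxPrimes

namespace FermatAgent.Lifting

open RT Assembly WeierstrassCurve

attribute [local instance] dualAlgebra

namespace Ctx

variable {p : ℕ} [hp : Fact p.Prime] (X : Ctx p)
variable {κ : Type} [Fintype κ] [DecidableEq κ] {m : κ → ℕ} [∀ i, NeZero (m i)] {N : ℕ} [NeZero N]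
  [IsLocalRing (MonoidAlgebra X.C.O (CycProd m))]
variable (T : RT.Ladder.AuxPrimes X.raiseBase m N) (Q : Finset ℕ) {rk : Finset X.Nu → ℕ}
  (b : ∀ A, Module.Basis (Fin (rk A)) (MonoidAlgebra X.C.O (CycProd m)) (T.Mod A))
  (hrk : ∀ A, 0 < rk A)
variable {sel : Finset κ} {aux : {j // j ∈ sel} → TameAux p (X.DQ Q).rbar}
  (hu : ∀ j, T.δ (HM.cycloN N (aux j).τ) = cycGen (m := m) j.1 * cycGen (m := m) j.1)
  (h1 : ∀ j ∈ sel, 1 < m j) (hrel : ∀ A, T.TameRel sel aux A)
variable {B : Type} [CommRing B] [IsLocalRing B] [Algebra X.C.O B] [Finite B]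
  (φ : MonoidAlgebra X.C.O (CycProd m) →ₐ[X.C.O] B)

/-- **Where `p` is not raised, the eigenvalue of Frobenius is the root near the sign.** -/
theorem frobQuot_side_notMem (hN : Squarefree N)
    (hNM : ∀ A, ∀ q : ℕ, q.Prime → q ∣ N → ¬ q ^ 2 ∣ T.lvlQ A) (hpN : ¬ p ∣ N)
    (hφ : ∀ y, φ y - algebraMap X.C.O B (GroupRing.aug X.C.O (CycProd m) y) ∈ maximalIdeal B)
    {k : ℕ} (hk : (p : B) ^ k = 0) {A : Finset X.Nu} {v : X.Nu} (hv : v ∉ A) (hvp : v.1 = p)
    (hcrit : T.SiteCriterion A v)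
    (hcA : DiamondDatum.CondAt (X.levelAux T Q b hrk hu h1 hrel A) φ)
    (hcI : DiamondDatum.CondAt (X.levelAux T Q b hrk hu h1 hrel (insert v A)) φ)
    (r₀ : (X.levelDatum T Q A (b A) (hrk A)).act.Img)
    (hr₀ : (X.levelDatum T Q A (b A) (hrk A)).act.res r₀ = residue X.C.O (X.raiseBase.sgn v))
    (hrr₀ : r₀ * r₀ - X.levelTrOp T A (b A) (hrk A) v * r₀ +
      ((X.raiseBase.ell (X.raiseBase.site v) : ℕ) :
        (X.levelDatum T Q A (b A) (hrk A)).act.Img) = 0)
    (f : (X.DQ Q).UR →ₐ[X.C.O] Matrix (Fin (rk A)) (Fin (rk A)) B)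
    (hf : ∀ g, f ((X.DQ Q).univMat g).trace =
      (DiamondDatum.sideAction (X.levelAux T Q b hrk hu h1 hrel A) φ).Φ
        ((X.levelDatum T Q A (b A) (hrk A)).td.t g)) :
    f (X.frobQuot (X.DQ Q).univMat) =
      (DiamondDatum.sideAction (X.levelAux T Q b hrk hu h1 hrel A) φ).incl
        (DiamondDatum.sideProj (X.levelAux T Q b hrk hu h1 hrel A) φ r₀) := by
  set A₁ := X.levelAux T Q b hrk hu h1 hrel A
  set A₂ := X.levelAux T Q b hrk hu h1 hrel (insert v A)
  obtain ⟨J, -, r, hJ, -, hinj, -, hr, hrr, -, hpair, hsurj⟩ :=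
    T.exists_siteMatrices (X.residualFactsQ Q) A (b A) (hrk A) hv (b (insert v A)) (hrk _) hcrit
  obtain rfl : r = r₀ :=
    T.siteRoot_unique (X.residualFactsQ Q) A (b A) (hrk A) hv _ _ hr hrr hr₀ hrr₀
  replace hJ : DiamondDatum.Intertwines (X.levelDatum T Q A (b A) (hrk A))
      (X.levelDatum T Q (insert v A) (b (insert v A)) (hrk _)) J := hJ
  obtain ⟨ψ, hψ⟩ := hJ.exists_sideHom A₁ A₂ rfl (fun _ _ _ => rfl) hinj φ hφ hsurj
  have hc := complexConjugation_mul_self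
  have htc := X.trace_univMatQ_complexConjugation Q
  obtain ⟨fT₁, hT₁⟩ := DiamondDatum.exists_sideUnivHom A₁ φ hk hcA
  obtain ⟨fT₂, hT₂⟩ := DiamondDatum.exists_sideUnivHom A₂ φ hk hcI
  obtain ⟨hres, htr, hdet⟩ := DiamondDatum.sideUnivHom_lift A₂ φ fT₂ hT₂
  rw [DiamondDatum.eq_incl_comp A₁ φ hc htc fT₁ (fun g => (hT₁ g).1) f hf, AlgHom.comp_apply,
    ← hJ.sideHom_comp φ A₁ A₂ ψ hψ hc htc fT₁ (fun g => (hT₁ g).1) fT₂ (fun g => (hT₂ g).1),
    AlgHom.comp_apply, X.frobQuot_map,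
    X.frobQuot_side_mem T (insert v A) (b _) (hrk _) A₂ φ hN (hNM _) hpN
      (Finset.mem_insert_self v A) hvp hres htr hdet,
    hψ _ _ hpair]

end Ctx

end FermatAgent.Lifting

end
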