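import Fermat.Agent.Lifting.SideConds

/-!
# The eigenvalue on the quotient of a lift from an operator equation
-/

set_option autoImplicit false

noncomputable section

open IsLocalRing GaloisRep FermatAgent.GaloisBasic

namespace FermatAgent.Lifting

open RT RT.DiamondDatum

variable {𝒪 : Type} [CommRing 𝒪] [IsDomain 𝒪] [IsDiscreteValuationRing 𝒪]
  [IsAdicComplete (maximalIdeal 𝒪) 𝒪] [Finite (ResidueField 𝒪)] [CharZero 𝒪]
variable {κ : Type} [Fintype κ] [DecidableEq κ] {m : κ → ℕ} [∀ i, NeZero (m i)]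
variable {D : DefProblem 𝒪} {p s : ℕ} [IsLocalRing (MonoidAlgebra 𝒪 (CycProd m))]
variable {H : DiamondDatum D m p s} (A : H.AuxSet) (G : GalAct H)
variable {B : Type} [CommRing B] [Algebra 𝒪 B] [Finite B] [Nontrivial B]
  (φ : MonoidAlgebra 𝒪 (CycProd m) →ₐ[𝒪] B)

omit [IsAdicComplete (maximalIdeal 𝒪) 𝒪] [Finite (ResidueField 𝒪)] [CharZero 𝒪] [Fintype κ]
    [DecidableEq κ] in
/-- Elements of the Hecke algebra are operators. -/
lemma incl_mem_opAlg (y : H.act.Img) : H.act.incl y ∈ opAlg H := by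
  obtain ⟨a, rfl⟩ := Ideal.Quotient.mk_surjective y
  rintro _ ⟨x, rfl⟩
  show H.act.incl (H.mkT x) * _ = _ * H.act.incl (H.mkT x)
  rw [← map_mul H.act.incl, ← map_mul H.act.incl]
  exact congrArg H.act.incl (mul_comm (H.mkT x) (Ideal.Quotient.mk _ a))

omit [Finite B] [Nontrivial B] in
/-- On a side they act as their projections. -/
lemma sideOp_incl (y : H.act.Img) :
    sideOp A φ ⟨H.act.incl y, incl_mem_opAlg y⟩ =
      algebraMap (sideAction A φ).Img (sideAction A φ).Commutant (sideProj A φ y) := by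
  obtain ⟨a, rfl⟩ := Ideal.Quotient.mk_surjective y
  refine Subtype.ext ?_
  rw [EigenAction.coe_algebraMap_commutant]
  rfl

variable {c : GQ →* 𝒪} {M : MatRep (sideAction A φ).Img} (hres : HasResidual D.rbar M)
  (htr : ∀ g, (M g).trace = Ideal.Quotient.mk _ (H.td.t g))

include G hres htr in
/-- **An operator equation gives the eigenvalue on the quotient.** -/
theorem trace_quot_eq_side (hd : ∀ g, H.Φ (H.td.d g) =
      algebraMap 𝒪 (Matrix (Fin s) (Fin s) (MonoidAlgebra 𝒪 (CycProd m))) (c g))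
    (hdet : ∀ g, (M g).det = Ideal.Quotient.mk _ (H.td.d g))
    (i : OrdIndex c p) (F : GQ) (y : H.act.Img)
    (h1 : let π := i.u • (G.ρ i.σ₀ - 1); π * π = π)
    (h2 : let π := i.u • (G.ρ i.σ₀ - 1); (1 - π) * (G.ρ F - H.act.incl y) = 0) :
    ((1 - ordProj i M) * M F).trace = sideProj A φ y := by
  obtain ⟨Ψ, hΨ, hρ⟩ := G.exists_algHom A hres htr
  set π : opAlg H := i.u • (G.op i.σ₀ - 1)
  have e : algebraMap 𝒪 (sideAction A φ).Img i.u • (G.side A φ i.σ₀ - 1) = sideOp A φ π := by
    rw [map_smul, map_sub, map_one, Algebra.smul_def, Algebra.smul_def i.u]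
    congr 1
    refine Subtype.ext ?_
    rw [EigenAction.coe_algebraMap_commutant, AlgHom.commutes]
    rfl
  have hπ : Ψ (ordProj i M) = sideOp A φ π := by
    rw [ordProj, ← algebraMap_smul (sideAction A φ).Img i.u, map_smul, map_sub, map_one, hρ, e]
  have hidem : ordProj i M * ordProj i M = ordProj i M :=
    hΨ (by rw [map_mul, hπ, ← map_mul]; exact congrArg _ (Subtype.ext h1))
  have hrel : (1 - ordProj i M) * M F = sideProj A φ y • (1 - ordProj i M) := by
    refine hΨ ?_
    rw [map_mul, map_smul, map_sub, map_one, hπ, hρ, Algebra.smul_def, ← sideOp_incl,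
      show G.side A φ F = sideOp A φ (G.op F) from rfl, ← map_one (sideOp A φ), ← map_sub,
      ← map_mul, ← map_mul]
    refine congrArg _ (Subtype.ext ?_)
    have hc : (1 - π).1 * H.act.incl y = H.act.incl y * (1 - π).1 := by
      obtain ⟨a, rfl⟩ := Ideal.Quotient.mk_surjective y
      exact ((1 - π).2 _ ⟨a, rfl⟩).symm
    show (1 - π.1) * G.ρ F = H.act.incl y * (1 - π.1)
    rw [show (1 - π).1 = 1 - π.1 from rfl] at hc
    rw [← hc, ← sub_eq_zero, ← mul_sub]
    exact h2
  rw [hrel, Matrix.trace_smul, Matrix.trace_sub, Matrix.trace_one, Fintype.card_fin,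
    trace_ordProj_eq_one i (side_det A hd hdet _) hidem, smul_eq_mul]
  push_cast
  ring

end FermatAgent.Lifting

end
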