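import Fermat.Agent.Lifting.Sides
import Fermat.Agent.Lifting.CoordsP
import Fermat.Agent.Lifting.PCondOrdinary
import Fermat.Agent.RT.Intertwine.SideHom
import Fermat.Agent.Lifting.SideQuot

/-!
# The eigenvalue of Frobenius at `p` on the sides

Where `p` is raised it is the twisted `U_p`; where it is not, it is the root of the Frobenius
polynomial near the sign, along the degeneracy map.
-/

set_option autoImplicit false

noncomputable section

open IsLocalRing GaloisRep FermatAgent.GaloisBasic WeierstrassCurve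

namespace FermatAgent.Lifting

open RT Assembly

attribute [local instance] dualAlgebra

namespace Ctx

variable {p : ℕ} [hp : Fact p.Prime] (X : Ctx p)
variable {κ : Type} [Fintype κ] [DecidableEq κ] {m : κ → ℕ} [∀ i, NeZero (m i)] {N : ℕ} [NeZero N]
  [IsLocalRing (MonoidAlgebra X.C.O (CycProd m))]
variable (T : RT.Ladder.AuxPrimes X.raiseBase m N) {Q : Finset ℕ} (A : Finset X.Nu) {s : ℕ}
  (b : Module.Basis (Fin s) (MonoidAlgebra X.C.O (CycProd m)) (T.Mod A)) (hs : 0 < s)
variable (Ax : (X.levelDatum T Q A b hs).AuxSet) {B : Type} [CommRing B] [Algebra X.C.O B]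
  [Finite B] [Nontrivial B] (φ : MonoidAlgebra X.C.O (CycProd m) →ₐ[X.C.O] B)

/-- The twisted Hecke operator at a site on the datum of a level. -/
abbrev levelTrOp (v : X.Nu) : (X.levelDatum T Q A b hs).act.Img :=
  T.trOp (X.residualFactsQ Q) A b hs (X.raiseBase.site v)

/-- **Where `p` is raised, the eigenvalue of Frobenius is the twisted `U_p`.** -/
theorem frobQuot_side_mem (hN : Squarefree N)
    (hNM : ∀ q : ℕ, q.Prime → q ∣ N → ¬ q ^ 2 ∣ T.lvlQ A) (hpN : ¬ p ∣ N)
    {v : X.Nu} (hv : v ∈ A) (hvp : v.1 = p)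
    {M : MatRep (DiamondDatum.sideAction Ax φ).Img} (hres : HasResidual (X.DQ Q).rbar M)
    (htr : ∀ g, (M g).trace = Ideal.Quotient.mk _ ((X.levelDatum T Q A b hs).td.t g))
    (hdet : ∀ g, (M g).det = Ideal.Quotient.mk _ ((X.levelDatum T Q A b hs).td.d g)) :
    X.frobQuot M = DiamondDatum.sideProj Ax φ (X.levelTrOp T A b hs v) := by
  have hbad : ¬ X.W.IsGoodPrimeFor p :=
    Eq.subst (motive := fun t => ¬ X.W.IsGoodPrimeFor t) hvp (X.mem_raised.mp v.2).2.1
  obtain ⟨h1, -, -, h4, -⟩ := PSEMI.modRho_ord p T.surj T.neg (T.aS A)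
    X.raiseBase.p_mem (T.hloc A) b Set.univ X.raiseBase.Sbad X.raiseBase.good_univ T.pow hs
    T.odd_card (curveRes X.C X.hΔ) X.choices.span ((matContinuous_curveMat X.C X.hΔ).map _)
    (det_curveRes X.C X.hΔ) (X.trace_curveRes_level T A)
    (fun P hP σ hσ => trace_curveRes_inertia X.C X.hΔ X.semistable X.ne_two hbad hP hσ)
    hN hNM hpN (X.site_p_exactly T A hv hvp).1 (X.site_p_exactly T A hv hvp).2
    (X.raiseBase.site v) hvp (X.isUnit_aS_site T A hv) X.pIdx
  refine trace_quot_eq_side Ax (X.levelGal T Q A b hs) φ hres htr (c := cycloO p X.C.O)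
    (X.levelDatum_det T Q A b hs) hdet X.pIdx X.pFrob _ h1 ?_
  intro π
  have h := h4 X.pFrob X.pFrob_spec
  have hell : X.raiseBase.ell (X.raiseBase.site v) = p := hvp
  rw [T.twistDet_frobenius (i := X.raiseBase.site v) (by rw [hell]; exact hpN) (P := X.pIdx.P)
    (by rw [hell]; exact X.pIdx.lies) (by rw [hell]; exact X.pFrob_spec)] at h
  rw [levelTrOp, RT.Ladder.AuxPrimes.trOp, T.incl_op_C_mul, T.incl_op]
  exact h

end Ctx

end FermatAgent.Lifting

end
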