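import Fermat.Agent.Lifting.Finite
import Fermat.Agent.RT.Cond.Cyclo
import Fermat.Agent.GaloisBasic.Levels

/-!
# Deformation problems with bounded ramification

A condition which forces trivial inertia outside a finite set is separated by finitely many
entries.
-/

set_option autoImplicit false

noncomputable section

open IsLocalRing GaloisRep FermatAgent.GaloisBasic

namespace FermatAgent.Lifting

attribute [local instance] dualAlgebra

variable {𝒪 : Type} [CommRing 𝒪] [IsLocalRing 𝒪] [Finite (ResidueField 𝒪)]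

local notation "k" => ResidueField 𝒪
local notation "GQ" => AlgebraicClosure ℚ ≃ₐ[ℚ] AlgebraicClosure ℚ

omit [Finite (ResidueField 𝒪)] in
/-- A good lift to dual numbers reduces to the residual representation. -/
lemma fst_of_hasResidual {rbar : MatRep k} {M : MatRep (DualNumber k)}
    (h : HasResidual rbar M) (σ : GQ) (i j : Fin 2) :
    TrivSqZeroExt.fst (M σ i j) = rbar σ i j := by
  have h1 := congrFun (congrFun (DFunLike.congr_fun h σ) i) j
  simp only [mapRep_apply, Matrix.map_apply] at h1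
  obtain ⟨o, ho⟩ := residue_surjective (rbar σ i j)
  rw [← ho, iotaRes, ResidueField.map_residue, ← sub_eq_zero, ← map_sub, residue_eq_zero_iff,
    mem_maximalIdeal, mem_nonunits_iff, TrivSqZeroExt.isUnit_iff_isUnit_fst, isUnit_iff_ne_zero,
    not_not, TrivSqZeroExt.fst_sub, sub_eq_zero] at h1
  rw [h1, ← ho]
  rfl

/-- **Finitely many entries separate the lifts to dual numbers.** -/
theorem exists_separates {p : ℕ} [hp : Fact p.Prime] (hpk : CharP k p) {rbar : MatRep k}
    (nd : NormData 𝒪 rbar)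
    (hcont : ∃ L : IntermediateField ℚ (AlgebraicClosure ℚ), FiniteDimensional ℚ L ∧
      ∀ σ ∈ L.fixingSubgroup, rbar σ = 1)
    (𝒟 : ∀ ⦃A : Type⦄ [CommRing A] [IsLocalRing A] [Algebra 𝒪 A], GaloisRepAdic A → Prop)
    (S : Finset ℕ)
    (hur : ∀ (M : MatRep (DualNumber k)) (hM : MatContinuous _ M), 𝒟 (toRep M hM) →
      ∀ σ ∈ RT.inertiaOutside S, M σ = 1) :
    ∃ T : Finset EntryIdx, Separates nd 𝒟 T := by
  classical
  have := hpk
  have : Finite (DualNumber k) := inferInstanceAs (Finite (k × k))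
  have : Finite (Matrix (Fin 2) (Fin 2) (DualNumber k))ˣ :=
    haveI : Finite (Matrix (Fin 2) (Fin 2) (DualNumber k)) :=
      inferInstanceAs (Finite (Fin 2 → Fin 2 → DualNumber k))
    Finite.of_injective _ Units.val_injective
  let π : (Matrix (Fin 2) (Fin 2) (DualNumber k))ˣ →* (Matrix (Fin 2) (Fin 2) k)ˣ :=
    Units.map ((TrivSqZeroExt.fstHom k k k).toRingHom.mapMatrix.toMonoidHom)
  have hker : ∀ a, π a = 1 → ∀ i j, TrivSqZeroExt.fst
      ((a.1 - 1 : Matrix (Fin 2) (Fin 2) (DualNumber k)) i j) = 0 := fun a ha i j => by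
    have h1 := Matrix.ext_iff.mpr (congrArg Units.val ha) i j
    simp only [π, Units.coe_map, Units.val_one] at h1
    rw [Matrix.sub_apply, TrivSqZeroExt.fst_sub, sub_eq_zero]
    refine h1.trans ?_
    simp [Matrix.one_apply, apply_ite TrivSqZeroExt.fst]
  have hmul0 : ∀ a b, π a = 1 → π b = 1 →
      (a.1 - 1 : Matrix (Fin 2) (Fin 2) (DualNumber k)) * (b.1 - 1) = 0 := fun a b ha hb => by
    refine Matrix.ext fun i j => ?_
    rw [Matrix.mul_apply, Matrix.zero_apply]
    refine Finset.sum_eq_zero fun l _ => TrivSqZeroExt.ext ?_ ?_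
    · rw [TrivSqZeroExt.fst_mul, hker a ha, zero_mul, TrivSqZeroExt.fst_zero]
    · simp only [TrivSqZeroExt.snd_mul, hker a ha, hker b hb, zero_smul, MulOpposite.op_zero,
        add_zero, TrivSqZeroExt.snd_zero]
  have hab : ∀ a b, π a = 1 → π b = 1 → a * b = b * a := fun a b ha hb => Units.ext <| by
    have h1 := hmul0 a b ha hb
    have h2 := hmul0 b a hb ha
    simp only [sub_mul, mul_sub, one_mul, mul_one] at h1 h2
    rw [Units.val_mul, Units.val_mul, ← sub_eq_zero]
    have e : a.1 * b.1 - b.1 * a.1 =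
        (a.1 * b.1 - b.1 - (a.1 - 1)) - (b.1 * a.1 - a.1 - (b.1 - 1)) := by abel
    rw [e, h1, h2, sub_zero]
  have : CharP (Matrix (Fin 2) (Fin 2) (DualNumber k)) p :=
    charP_of_injective_algebraMap' k p
  have hexp : ∀ a, π a = 1 → a ^ p = 1 := fun a ha => Units.ext <| by
    have h1 := hmul0 a a ha ha
    rw [Units.val_pow_eq_pow_val, Units.val_one,
      show a.1 = 1 + (a.1 - 1) by abel, add_pow_char_of_commute (p := p) (Commute.one_left _),
      one_pow, ← Nat.sub_add_cancel hp.out.two_le, pow_add, pow_two, h1, mul_zero, add_zero]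
  obtain ⟨L, hL, hLr⟩ := hcont
  have hfin := finite_homs (p := p) π rbar.toHomUnits hab hexp
    ⟨L, hL, fun σ hσ => Units.ext (hLr σ hσ)⟩ S
  let F : {M : MatRep (DualNumber k) // GoodLift nd 𝒟 M} →
      {f : GQ →* (Matrix (Fin 2) (Fin 2) (DualNumber k))ˣ //
        (∀ σ, π (f σ) = rbar.toHomUnits σ) ∧
        (∃ L : IntermediateField ℚ (AlgebraicClosure ℚ), FiniteDimensional ℚ L ∧
          ∀ σ ∈ L.fixingSubgroup, f σ = 1) ∧
        ∀ q : ℕ, q.Prime → q ∉ S → ∀ A : ValuationSubring (AlgebraicClosure ℚ),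
          A.LiesOverPrime q → ∀ σ ∈ A.inertiaSubgroupIn ℚ, f σ = 1} := fun M =>
    ⟨M.1.toHomUnits, fun σ => Units.ext (Matrix.ext fun i j => fst_of_hasResidual M.2.res σ i j),
      by
        obtain ⟨K, hK, hKM⟩ := M.2.cont 2
        refine ⟨K, hK, fun σ hσ => Units.ext (Matrix.ext fun i j => ?_)⟩
        have h := hKM σ hσ i j
        have h2 : maximalIdeal (DualNumber k) ^ 2 = ⊥ := by
          rw [pow_two, eq_bot_iff, Ideal.mul_le]
          intro x hx y hy
          rw [mem_maximalIdeal, mem_nonunits_iff, TrivSqZeroExt.isUnit_iff_isUnit_fst,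
            isUnit_iff_ne_zero, not_not] at hx hy
          rw [Ideal.mem_bot]
          refine TrivSqZeroExt.ext ?_ ?_ <;> simp [hx, hy]
        rw [h2, Ideal.mem_bot, sub_eq_zero] at h
        exact h,
      fun q hq hqS A hA σ hσ => Units.ext (hur M.1 M.2.cont M.2.cond σ ⟨q, A, hq, hqS, hA, hσ⟩)⟩
  have : Finite {M : MatRep (DualNumber k) // GoodLift nd 𝒟 M} :=
    @Finite.of_injective _ _ hfin F fun M M' h => Subtype.ext (MonoidHom.ext fun σ =>
      congrArg Units.val (DFunLike.congr_fun (congrArg Subtype.val h) σ))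
  have := Fintype.ofFinite {M : MatRep (DualNumber k) // GoodLift nd 𝒟 M}
  have key : ∀ P : {M : MatRep (DualNumber k) // GoodLift nd 𝒟 M} ×
      {M : MatRep (DualNumber k) // GoodLift nd 𝒟 M}, ∃ x : EntryIdx,
      P.1 ≠ P.2 → P.1.1 x.1 x.2.1 x.2.2 ≠ P.2.1 x.1 x.2.1 x.2.2 := by
    intro P
    by_cases hP : P.1 = P.2
    · exact ⟨(1, 0, 0), fun h => absurd hP h⟩
    · by_contra hno
      push Not at hno
      exact hP (Subtype.ext (MonoidHom.ext fun σ => Matrix.ext fun i j => (hno (σ, i, j)).2))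
  choose x hx using key
  refine ⟨Finset.univ.image x, fun M M' hM hM' h => ?_⟩
  by_contra hne
  exact hx (⟨M, hM⟩, ⟨M', hM'⟩) (fun e => hne (congrArg Subtype.val e))
    (h _ (Finset.mem_image_of_mem x (Finset.mem_univ _)))

end FermatAgent.Lifting

end
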