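import Fermat.Agent.Lifting.Coeff
import Fermat.Agent.TateRep.Det
import Fermat.Agent.GaloisBasic.Normalize
import Fermat.Agent.Assembly.Vocabulary
import Fermat.Agent.RT.Pseudo

/-!
# The point and the residual representation of an integral curve over the coefficient ring

The Tate module in a basis, over the coefficient ring and modulo its maximal ideal; the residual
matrices span all matrices over every subgroup of index two.
-/

set_option autoImplicit false

noncomputable section

open IsLocalRing FermatAgent.GaloisBasic WeierstrassCurve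
open scoped WeierstrassCurve.Affine

namespace FermatAgent.Lifting

local notation "GQ" => AlgebraicClosure ℚ ≃ₐ[ℚ] AlgebraicClosure ℚ
local notation "Qbar" => AlgebraicClosure ℚ

variable {W : WeierstrassCurve ℤ} {p : ℕ} [hp : Fact p.Prime]

/-- The Tate module in a basis. -/
def tateMat (hΔ : W.Δ ≠ 0) : MatRep ℤ_[p] :=
  matrixIn (TateRep.tateRep (p := p) hΔ) (TateRep.Tate.exists_basis (p := p) hΔ).some

/-- The Tate module in matrices is continuous. -/
lemma matContinuous_tateMat (hΔ : W.Δ ≠ 0) : MatContinuous ℤ_[p] (tateMat (p := p) hΔ) :=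
  matContinuous_matrixIn _ _

/-- The determinant of the Tate module is the cyclotomic character. -/
lemma det_tateMat (hΔ : W.Δ ≠ 0) (σ : GQ) : (tateMat (p := p) hΔ σ).det = ES.padCyclo p σ :=
  (LinearMap.det_toMatrix _ _).trans (TateRep.det_tateRep hΔ σ)

/-- The Tate module over the coefficient ring. -/
def curveMat (C : Coeff p) (hΔ : W.Δ ≠ 0) : MatRep C.O :=
  mapRep (algebraMap ℤ_[p] C.O) (tateMat hΔ)

/-- The Tate module over the coefficient ring is continuous. -/
lemma matContinuous_curveMat (C : Coeff p) (hΔ : W.Δ ≠ 0) :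
    MatContinuous C.O (curveMat C hΔ) :=
  (matContinuous_tateMat hΔ).map _

/-- The determinant over the coefficient ring is cyclotomic. -/
lemma det_curveMat (C : Coeff p) (hΔ : W.Δ ≠ 0) (σ : GQ) :
    (curveMat C hΔ σ).det = algebraMap ℤ_[p] C.O (ES.padCyclo p σ) := by
  rw [curveMat, mapRep_apply, ← RingHom.mapMatrix_apply, ← RingHom.map_det, det_tateMat]

/-- The residual representation. -/
def curveRes (C : Coeff p) (hΔ : W.Δ ≠ 0) : MatRep (ResidueField C.O) :=
  mapRep (residue C.O) (curveMat C hΔ)

/-- The residue field of the coefficient ring has characteristic `p`. -/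
lemma charP_residue (C : Coeff p) : CharP (ResidueField C.O) p :=
  (CharP.charP_iff_prime_eq_zero hp.out).mpr (by
    rw [← map_natCast (residue C.O), residue_eq_zero_iff]; exact natCast_mem_maximalIdeal)

/-- The residual matrices have entries in the prime field. -/
lemma curveRes_apply (C : Coeff p) (hΔ : W.Δ ≠ 0) (σ : GQ) :
    letI := charP_residue C
    curveRes C hΔ σ = ((tateMat (p := p) hΔ σ).map PadicInt.toZMod).map
      (ZMod.castHom (dvd_refl p) (ResidueField C.O)) := by
  let := charP_residue C
  have key : (residue C.O).comp (algebraMap ℤ_[p] C.O) =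
      (ZMod.castHom (dvd_refl p) (ResidueField C.O)).comp PadicInt.toZMod := by
    refine RingHom.ext fun x => ?_
    obtain ⟨y, hy⟩ : (p : ℤ_[p]) ∣ x - (PadicInt.toZMod x).val := by
      rw [← Ideal.mem_span_singleton, ← PadicInt.maximalIdeal_eq_span_p, ← PadicInt.ker_toZMod,
        RingHom.mem_ker, map_sub, map_natCast, ZMod.natCast_zmod_val, sub_self]
    rw [sub_eq_iff_eq_add'] at hy
    conv_lhs => rw [hy]
    rw [RingHom.comp_apply, RingHom.comp_apply, map_add, map_mul, map_add, map_mul,
      map_natCast, map_natCast, map_natCast, map_natCast,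
      CharP.cast_eq_zero (ResidueField C.O) p, zero_mul, add_zero]
    conv_rhs => rw [← ZMod.natCast_zmod_val (PadicInt.toZMod x), map_natCast]
  ext i j
  exact RingHom.congr_fun key (tateMat (p := p) hΔ σ i j)

/-- The torsion basis at level one. -/
theorem exists_torsion_basis (hΔ : W.Δ ≠ 0) :
    ∃ t : Module.Basis (Fin 2) (ZMod p) (Submodule.torsionBy ℤ
        ((W.map (Int.castRingHom ℚ))⁄Qbar).Point (p : ℕ)),
      ∀ σ, LinearMap.toMatrix t t (Affine.Point.galoisRepModuleEnd (K := Qbar) ℚ
        (W.map (Int.castRingHom ℚ)).toAffine p σ) =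
          (tateMat (p := p) hΔ σ).map PadicInt.toZMod := by
  classical
  set b := (TateRep.Tate.exists_basis (p := p) hΔ).some
  have hrank := EC.finrank_torsionBy_rat (W.map (Int.castRingHom ℚ)) (EC.intMap_Δ_ne_zero hΔ) p
  have : Module.Finite (ZMod p) (Submodule.torsionBy ℤ
      ((W.map (Int.castRingHom ℚ))⁄Qbar).Point (p : ℕ)) :=
    Module.finite_of_finrank_eq_succ hrank
  have hmem : ∀ x : TateRep.Tate W p, TateRep.Tate.at' 1 x ∈ Submodule.torsionBy ℤ
      ((W.map (Int.castRingHom ℚ))⁄Qbar).Point (p : ℕ) := fun x => by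
    rw [Submodule.mem_torsionBy_iff, Nat.cast_smul_eq_nsmul]
    simpa using TateRep.Tate.pow_nsmul_self x 1
  let red : TateRep.Tate W p → Submodule.torsionBy ℤ
      ((W.map (Int.castRingHom ℚ))⁄Qbar).Point (p : ℕ) := fun x => ⟨_, hmem x⟩
  have hexp : ∀ x : TateRep.Tate W p, red x =
      PadicInt.toZMod (b.repr x 0) • red (b 0) + PadicInt.toZMod (b.repr x 1) • red (b 1) := by
    intro x
    have hsm : ∀ (c : ℕ) (P : Submodule.torsionBy ℤ
        ((W.map (Int.castRingHom ℚ))⁄Qbar).Point (p : ℕ)), (c : ZMod p) • P = c • P :=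
      fun c P => Nat.cast_smul_eq_nsmul _ _ _
    have hval : ∀ a : ℤ_[p], PadicInt.toZMod a = (((PadicInt.toZModPow 1 a).val : ℕ) : ZMod p) := by
      intro a
      obtain ⟨y, hy⟩ : (p : ℤ_[p]) ∣ a - (PadicInt.toZModPow 1 a).val := by
        rw [← Ideal.mem_span_singleton, ← pow_one (p : ℤ_[p]), ← PadicInt.ker_toZModPow,
          RingHom.mem_ker, map_sub, map_natCast, ZMod.natCast_zmod_val, sub_self]
      rw [sub_eq_iff_eq_add'] at hy
      conv_lhs => rw [hy]
      rw [map_add, map_mul, map_natCast, map_natCast, ZMod.natCast_self, zero_mul, add_zero]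
    rw [hval, hval, hsm, hsm]
    exact Subtype.ext (TateRep.at'_basis b x 1)
  have hspan : ⊤ ≤ Submodule.span (ZMod p) (Set.range fun i => red (b i)) := by
    rintro ⟨P, hP⟩ -
    obtain ⟨x, hx⟩ := TateRep.Tate.exists_at' (p := p) hΔ (k := 1) (P := P) (by
      rw [Submodule.mem_torsionBy_iff, Nat.cast_smul_eq_nsmul] at hP
      rwa [pow_one])
    rw [show (⟨P, hP⟩ : Submodule.torsionBy ℤ ((W.map (Int.castRingHom ℚ))⁄Qbar).Point (p : ℕ)) =
      red x from Subtype.ext hx.symm, hexp]
    exact add_mem (Submodule.smul_mem _ _ (Submodule.subset_span ⟨0, rfl⟩))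
      (Submodule.smul_mem _ _ (Submodule.subset_span ⟨1, rfl⟩))
  let t := basisOfTopLeSpanOfCardEqFinrank (fun i => red (b i)) hspan
    (by rw [Fintype.card_fin]; exact hrank.symm)
  refine ⟨t, fun σ => ?_⟩
  ext i j
  rw [LinearMap.toMatrix_apply, Matrix.map_apply,
    show t j = red (b j) by simp [t]]
  have e : Affine.Point.galoisRepModuleEnd (K := Qbar) ℚ (W.map (Int.castRingHom ℚ)).toAffine p σ
      (red (b j)) = red (TateRep.Tate.galEnd σ (b j)) := Subtype.ext rfl
  rw [e, hexp, show red (b 0) = t 0 by simp [t], show red (b 1) = t 1 by simp [t]]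
  fin_cases i <;>
    simp [tateMat, matrixIn, TateRep.tateRep, b] <;>
    exact congrArg PadicInt.toZMod (LinearMap.toMatrixAlgEquiv_apply _ _ _ _).symm

/-- **The residual matrices span over every subgroup of index two.** -/
theorem span_curveRes (C : Coeff p) (hΔ : W.Δ ≠ 0) (hidx : Assembly.IrredIndexTwo W p)
    (H : Subgroup GQ) (hH : H.index = 2) :
    Submodule.span (ResidueField C.O) (curveRes C hΔ '' (H : Set GQ)) = ⊤ := by
  let := charP_residue C
  obtain ⟨t, ht⟩ := exists_torsion_basis (p := p) hΔ
  have h := congrArg (Submodule.map (LinearMap.toMatrix t t :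
    _ →ₗ[ZMod p] Matrix (Fin 2) (Fin 2) (ZMod p))) (hidx H hH)
  rw [← Submodule.span_image, Submodule.map_top, LinearEquiv.range, Set.image_image,
    Set.image_eq_range] at h
  rw [Set.image_eq_range]
  simpa only [LinearEquiv.coe_coe, ht, ← curveRes_apply C hΔ] using
    RT.span_map_eq_top h (ZMod.castHom (dvd_refl p) (ResidueField C.O))

/-- The residual matrices span. -/
theorem span_range_curveRes (C : Coeff p) (hΔ : W.Δ ≠ 0) (hidx : Assembly.IrredIndexTwo W p)
    {H : Subgroup GQ} (hH : H.index = 2) :
    Submodule.span (ResidueField C.O) (Set.range (curveRes C hΔ)) = ⊤ :=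
  top_unique ((span_curveRes C hΔ hidx H hH).ge.trans (Submodule.span_mono
    (Set.image_subset_range _ _)))

end FermatAgent.Lifting

end
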