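import Fermat.Agent.Lifting.CurveLift
import Fermat.Agent.Lifting.Index

/-!
# Inertia and Frobenius in the residual representation
-/

set_option autoImplicit false

noncomputable section

open IsLocalRing FermatAgent.GaloisBasic WeierstrassCurve
open scoped WeierstrassCurve.Affine

namespace FermatAgent.Lifting

local notation "GQ" => AlgebraicClosure ℚ ≃ₐ[ℚ] AlgebraicClosure ℚ
local notation "Qbar" => AlgebraicClosure ℚ

variable {W : WeierstrassCurve ℤ} {p : ℕ} [hp : Fact p.Prime] {C : Coeff p} {hΔ : W.Δ ≠ 0}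

/-- A good prime different from `p` is unramified. -/
theorem unramAt_of_good (hΔ : W.Δ ≠ 0) {q : ℕ} (hq : q.Prime) (hqp : q ≠ p)
    (hg : W.IsGoodPrimeFor q) :
    Assembly.UnramAt W p q := by
  intro A hA σ hσ x
  obtain ⟨t, ht⟩ := exists_torsion_basis (p := p) hΔ
  have h1 : Affine.Point.galoisRepModuleEnd (K := Qbar) ℚ (W.map (Int.castRingHom ℚ)).toAffine p σ
      = 1 := by
    refine (LinearMap.toMatrix t t).injective ?_
    rw [ht, tateMat_inertia_good hΔ hq hqp hg hA hσ, Matrix.map_one _ (map_zero _) (map_one _),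
      LinearMap.toMatrix_one]
  exact LinearMap.congr_fun h1 x

/-- Inertia at an unramified prime is residually trivial. -/
theorem curveRes_inertia_eq_one {q : ℕ} (hu : Assembly.UnramAt W p q) {A : ValuationSubring Qbar}
    (hA : A.LiesOverPrime q) {σ : GQ} (hσ : σ ∈ A.inertiaSubgroupIn ℚ) :
    curveRes C hΔ σ = 1 := by
  let := charP_residue C
  obtain ⟨t, ht⟩ := exists_torsion_basis (p := p) hΔ
  have h1 : Affine.Point.galoisRepModuleEnd (K := Qbar) ℚ (W.map (Int.castRingHom ℚ)).toAffine p σ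
      = 1 := LinearMap.ext fun x => hu A hA σ hσ x
  have h2 := ht σ
  rw [h1, LinearMap.toMatrix_one] at h2
  rw [curveRes_apply C hΔ σ, ← h2, Matrix.map_one _ (map_zero _) (map_one _)]

/-- The residual trace of Frobenius. -/
theorem trace_curveRes_frobenius (hW : W.IsSemistableModel) {ℓ : ℕ} (hℓ : ℓ.Prime) (hℓp : ℓ ≠ p)
    {A : ValuationSubring Qbar} (hA : A.LiesOverPrime ℓ) {σ : GQ} (hσ : A.IsFrobeniusAt σ ℓ) :
    (curveRes C hΔ σ).trace = residue C.O (frobVal W ℓ : C.O) := by
  rw [trace_curveRes]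
  by_cases hg : W.IsGoodPrimeFor ℓ
  · rw [trace_frobenius_good C hΔ hℓ hℓp hg hA hσ, frobVal_good hg]
  · rw [trace_frobenius_bad C hΔ hW hℓ hℓp hg hA hσ, frobVal_bad hg]

/-- The residual determinant of Frobenius. -/
theorem det_curveRes_frobenius {ℓ : ℕ} (hℓ : ℓ.Prime) (hℓp : ℓ ≠ p)
    {A : ValuationSubring Qbar} (hA : A.LiesOverPrime ℓ) {σ : GQ} (hσ : A.IsFrobeniusAt σ ℓ) :
    (curveRes C hΔ σ).det = residue C.O (ℓ : C.O) := by
  rw [det_curveRes, ES.padCyclo_frobenius p hℓ hℓp hA hσ, map_natCast]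

end FermatAgent.Lifting

end
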