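import Fermat.Agent.Lifting.CurveLift
import Fermat.Agent.Lifting.Problem
import Fermat.Agent.Lifting.AuxPrime
import Fermat.Agent.RT.UnivMap

/-!
# The deformation rings of lifting and the point of the curve
-/

set_option autoImplicit false

noncomputable section

open IsLocalRing GaloisRep FermatAgent.GaloisBasic WeierstrassCurve

namespace FermatAgent.Lifting

open RT

attribute [local instance] dualAlgebra

local notation "GQ" => AlgebraicClosure ℚ ≃ₐ[ℚ] AlgebraicClosure ℚ

variable {W : WeierstrassCurve ℤ} {p : ℕ} [hp : Fact p.Prime] (C : Coeff p)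

/-- The residue field is an Artinian test algebra. -/
lemma isArtinianTestAlgebra_residueField : IsArtinianTestAlgebra C.O (ResidueField C.O) where
  isLocalHom := IsLocalHom.of_surjective _ residue_surjective
  residue_surjective := residue_surjective.comp residue_surjective
  isArtinian := inferInstance

/-- The choices which make a lifting problem: the curve, the ramification sets and the case. -/
structure Choices (W : WeierstrassCurve ℤ) (p : ℕ) where
  /-- the ramification set -/
  S : Finset ℕ
  /-- the primes with inertia of trace two -/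
  T : Finset ℕ
  /-- the case at `p` -/
  cs : LocalCase
  hΔ : W.Δ ≠ 0
  semistable : W.IsSemistableModel
  ne_two : p ≠ 2
  idx : Assembly.IrredIndexTwo W p
  case_ok : CaseOK W p cs
  p_mem : p ∈ S
  good : ∀ q : ℕ, q.Prime → q ∉ S → W.IsGoodPrimeFor q
  p_notMem : p ∉ T

variable {C} (ch : Choices W p)

namespace Choices

/-- The condition. -/
abbrev X (C : Coeff p) : MatCond C.O := liftMatCond C.O p ch.S ch.T ch.cs

/-- The residual matrices span all matrices. -/
lemma span : Submodule.span (ResidueField C.O) (Set.range (curveRes C ch.hΔ)) = ⊤ :=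
  span_curveRes_top ch.idx

lemma matContinuous_curveRes : MatContinuous (ResidueField C.O) (curveRes C ch.hΔ) :=
  (matContinuous_curveMat C ch.hΔ).map _

lemma cond_curveRes : ((ch.X C)).cond (toRep (curveRes C ch.hΔ) ch.matContinuous_curveRes) :=
  (MatCond.cond_toRep_iff _ (isArtinianTestAlgebra_residueField C) _ _).mpr
    (liftMatCond_curveMat (isArtinianTestAlgebra_residueField C) ch.hΔ ch.semistable ch.ne_two
      ch.case_ok ch.p_mem ch.good ch.p_notMem)

lemma goodLift_curveRes (nd : NormData C.O (curveRes C ch.hΔ)) :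
    GoodLift nd ((ch.X C)).cond (curveRes C ch.hΔ) := by
  have : IsLocalHom (algebraMap C.O (ResidueField C.O)) :=
    (isArtinianTestAlgebra_residueField C).isLocalHom
  have hr : HasResidual (curveRes C ch.hΔ) (curveRes C ch.hΔ) := by
    refine MonoidHom.ext fun σ => Matrix.ext fun i j => ?_
    obtain ⟨x, hx⟩ := residue_surjective (curveRes C ch.hΔ σ i j)
    simp only [mapRep_apply, Matrix.map_apply, ← hx]
    rw [iotaRes, ResidueField.map_residue]
    rfl
  have key : ∀ c : GQ →₀ C.O, linComb c (curveRes C ch.hΔ) =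
      c.sum fun g a => residue C.O a • curveRes C ch.hΔ g := fun c => rfl
  refine ⟨isArtinianTestAlgebra_residueField C, ch.matContinuous_curveRes, hr, ⟨?_, ?_, ?_⟩,
    ch.cond_curveRes⟩
  · rw [key, nd.cx_spec]; simp
  · rw [key, nd.cx_spec]; simp
  · rw [key, nd.cy_spec]; simp

/-- The normalisation. -/
def nd : NormData C.O (curveRes C ch.hΔ) := (nonempty_normData _ ch.span).some

lemma exists_entries : ∃ T : Finset EntryIdx, Separates (ch.nd (C := C)) ((ch.X C)).cond T := by
  refine exists_separates (charP_residue C) _ exists_level_curveRes _ ch.S fun M hM h σ hσ => ?_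
  exact (liftMatCond_iff.mp ((((ch.X C)).cond_toRep_iff GaloisBasic.dual_test M hM).mp h)).2.1 σ hσ

/-- **The deformation problem.** -/
def problem (C : Coeff p) : DefProblem C.O where
  rbar := curveRes C ch.hΔ
  nd := ch.nd
  cond := ((ch.X C)).cond
  isCond := ((ch.X C)).isDeformationCondition
  base := ch.goodLift_curveRes _
  S := ch.exists_entries.choose
  separates := ch.exists_entries.choose_spec
  ϖ := C.ϖ
  hϖ := C.max_eq

/-- **The point of the curve.** -/
theorem exists_point : ∃ (φ : (ch.problem C).UR →ₐ[C.O] C.O) (M : MatRep C.O),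
    MatConj (curveMat C ch.hΔ) M ∧ ∀ x, ((ch.problem C).univMat x).map φ = M x := by
  obtain ⟨M, hconj, hMc, hres, hnorm⟩ := exists_normalised (ch.nd (C := C))
    (matContinuous_curveMat C ch.hΔ) ⟨1, fun σ => by
      rw [Units.val_one, inv_one, Units.val_one, one_mul, mul_one]
      refine Matrix.ext fun i j => ?_
      simp only [curveRes, mapRep_apply, Matrix.map_apply]
      rw [iotaRes, ResidueField.map_residue]
      rfl⟩
  obtain ⟨φ, hφ⟩ := GaloisBasic.exists_univHom (ch.problem C) (A := C.O)
    (fun x => by obtain ⟨y, rfl⟩ := residue_surjective x; exact ⟨y, rfl⟩) hMc hres hnorm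
    fun n _ hc => by
      obtain ⟨hloc, htest, -⟩ := GaloisBasic.isArtinianTestAlgebra_quotient (A := C.O) (𝒪 := C.O)
        (fun x => by obtain ⟨y, rfl⟩ := residue_surjective x; exact ⟨y, rfl⟩) n
      refine (MatCond.cond_toRep_iff _ htest _ hc).mpr ?_
      obtain ⟨U, hU⟩ := hconj
      refine ((ch.X C)).conj htest ⟨U.map (Ideal.Quotient.mk _).mapMatrix.toMonoidHom, fun σ => ?_⟩
        (liftMatCond_curveMat htest ch.hΔ ch.semistable ch.ne_two ch.case_ok ch.p_mem ch.good
          ch.p_notMem)
      show (Ideal.Quotient.mk (maximalIdeal C.O ^ (n + 1))).mapMatrix (M σ) =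
        (Ideal.Quotient.mk (maximalIdeal C.O ^ (n + 1))).mapMatrix U.1 *
          (Ideal.Quotient.mk (maximalIdeal C.O ^ (n + 1))).mapMatrix (curveMat C ch.hΔ σ) *
          (Ideal.Quotient.mk (maximalIdeal C.O ^ (n + 1))).mapMatrix (U⁻¹).1
      rw [hU, map_mul, map_mul]
  exact ⟨φ, M, hconj, hφ⟩

/-- The traces at the point of the curve. -/
lemma trace_point {φ : (ch.problem C).UR →ₐ[C.O] C.O} {M : MatRep C.O}
    (hM : MatConj (curveMat C ch.hΔ) M) (hφ : ∀ x, ((ch.problem C).univMat x).map φ = M x)
    (σ : GQ) :
    φ ((ch.problem C).univMat σ).trace = (curveMat C ch.hΔ σ).trace := by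
  obtain ⟨U, hU⟩ := hM
  rw [← Matrix.trace_units_conj U (curveMat C ch.hΔ σ), ← hU, ← hφ]
  exact AddMonoidHom.map_trace φ.toRingHom.toAddMonoidHom _

end Choices

end FermatAgent.Lifting

end
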