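import Fermat.Agent.Lifting.Sites
import Fermat.Agent.Lifting.Ring
import Fermat.Agent.RT.Raise.TameSite
import Fermat.Agent.HM.H1.Eigenform

/-!
# The setting of lifting attached to a seed

The finite sets of framed and raised primes, the case at `p`, the deformation problem, the chosen
sites with their shapes, and the index of the Hecke variables.
-/

set_option autoImplicit false

noncomputable section

open IsLocalRing GaloisRep FermatAgent.GaloisBasic WeierstrassCurve

namespace FermatAgent.Lifting

open RT Assembly

attribute [local instance] dualAlgebra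

local notation "GQ" => AlgebraicClosure ℚ ≃ₐ[ℚ] AlgebraicClosure ℚ

/-- The standing data of lifting: a semistable curve, an odd prime at which its residual
representation is irreducible, coefficients, and a normalised seed.
Everything else (framed and raised primes, deformation problem, sites) is derived from it. -/
structure Ctx (p : ℕ) [Fact p.Prime] where
  /-- the curve -/
  W : WeierstrassCurve ℤ
  /-- the coefficients -/
  C : Coeff p
  hΔ : W.Δ ≠ 0
  semistable : W.IsSemistableModel
  ne_two : p ≠ 2
  irr : W.ModRepIsIrreducible p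
  /-- the normalised seed -/
  seed : Seed W p

namespace Ctx

variable {p : ℕ} [hp : Fact p.Prime] (X : Ctx p)

/-- The residual representation is irreducible also on subgroups of index two. -/
lemma idx : IrredIndexTwo X.W p := indexTwo X.W p X.hΔ X.semistable hp.out X.ne_two X.irr

/-- The level. -/
abbrev M : ℕ := X.seed.M

instance : NeZero X.M := ⟨X.seed.sq.ne_zero⟩

/-- The framed primes. -/
def frames : Finset ℕ := by
  classical exact X.M.primeFactors.filter fun q => q ≠ p ∧ q ∉ X.seed.aux ∧ IsFramePrime X.W p q

/-- The raised primes: the bad primes outside the level. -/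
def raised : Finset ℕ := by
  classical exact (X.W.Δ.natAbs.primeFactors).filter fun q => ¬ q ∣ X.M

/-- The case at `p`. -/
def localCase : LocalCase := by
  classical exact if X.W.IsGoodPrimeFor p then .flat else if p ∣ X.M then .strict else .ordinary

/-- The primes with inertia of trace two. -/
def traceSet : Finset ℕ := X.M.primeFactors \ insert p X.frames

/-- The ramification set. -/
def ramSet : Finset ℕ := insert p (X.M.primeFactors ∪ X.W.Δ.natAbs.primeFactors)

/-- The framed primes are the non-auxiliary primes of the level, other than `p`, of frame type. -/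
lemma mem_frames {q : ℕ} :
    q ∈ X.frames ↔ q.Prime ∧ q ∣ X.M ∧ q ≠ p ∧ q ∉ X.seed.aux ∧ IsFramePrime X.W p q := by
  simp [frames, X.seed.sq.ne_zero, and_assoc]

/-- The bad primes are the prime divisors of the discriminant. -/
lemma isBad_iff {q : ℕ} (hq : q.Prime) :
    ¬ X.W.IsGoodPrimeFor q ↔ q ∈ X.W.Δ.natAbs.primeFactors := by
  rw [Nat.mem_primeFactors]
  simp only [hq, true_and, ne_eq, Int.natAbs_eq_zero, X.hΔ, not_false_eq_true, and_true]
  rw [← Int.natCast_dvd]
  exact not_not

/-- The raised primes are the bad primes outside the level. -/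
lemma mem_raised {q : ℕ} :
    q ∈ X.raised ↔ q.Prime ∧ ¬ X.W.IsGoodPrimeFor q ∧ ¬ q ∣ X.M := by
  rw [raised, Finset.mem_filter]
  constructor
  · rintro ⟨h1, h2⟩
    exact ⟨Nat.prime_of_mem_primeFactors h1,
      (X.isBad_iff (Nat.prime_of_mem_primeFactors h1)).mpr h1, h2⟩
  · rintro ⟨h0, h1, h2⟩
    exact ⟨(X.isBad_iff h0).mp h1, h2⟩

/-- A raised prime `q ≠ p` is not one modulo `p` and has unramified torsion. -/
lemma raised_spec {q : ℕ} (hq : q ∈ X.raised) (hqp : q ≠ p) :
    (q : ZMod p) ≠ 1 ∧ UnramAt X.W p q := by
  obtain ⟨h0, h1, h2⟩ := X.mem_raised.mp hq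
  exact X.seed.outside q h0 hqp h1 h2

/-- The trace-two primes are the primes of the level other than `p` which are not framed. -/
lemma mem_traceSet {q : ℕ} :
    q ∈ X.traceSet ↔ q.Prime ∧ q ∣ X.M ∧ q ≠ p ∧ q ∉ X.frames := by
  simp [traceSet, X.seed.sq.ne_zero, and_assoc]

/-- `p` is not a trace-two prime. -/
lemma p_notMem_traceSet : p ∉ X.traceSet := fun h => (X.mem_traceSet.mp h).2.2.1 rfl

/-- The case at `p` fits the curve. -/
lemma caseOK : CaseOK X.W p X.localCase := by
  classical
  rw [localCase]
  split_ifs with h1 h2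
  · exact h1
  · exact h1
  · exact h1

/-- In the strict case `p` divides the level. -/
lemma p_dvd_of_strict (h : X.localCase = .strict) : p ∣ X.M := by
  classical
  rw [localCase] at h
  split_ifs at h with h1 h2
  exact h2

/-- Outside the strict case `p` does not divide the level. -/
lemma not_dvd_of_ne_strict (h : X.localCase ≠ .strict) : ¬ p ∣ X.M := fun hd => by
  classical
  rw [localCase] at h
  split_ifs at h with h1
  · exact X.seed.p_good h1 hd
  · exact h rfl

/-- `p` is raised exactly in the ordinary case. -/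
lemma p_mem_raised_iff : p ∈ X.raised ↔ X.localCase = .ordinary := by
  classical
  rw [X.mem_raised, localCase]
  constructor
  · rintro ⟨-, h1, h2⟩; rw [if_neg h1, if_neg h2]
  · intro h
    split_ifs at h with h1 h2
    exact ⟨hp.out, h1, h2⟩

/-- The choices. -/
def choices : Choices X.W p where
  S := X.ramSet
  T := X.traceSet
  cs := X.localCase
  hΔ := X.hΔ
  semistable := X.semistable
  ne_two := X.ne_two
  idx := X.idx
  case_ok := X.caseOK
  p_mem := Finset.mem_insert_self _ _
  good q hq hqS := by
    by_contra hbad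
    exact hqS (Finset.mem_insert_of_mem (Finset.mem_union_right _ ((X.isBad_iff hq).mp hbad)))
  p_notMem := X.p_notMem_traceSet

/-- The deformation problem. -/
abbrev D : DefProblem X.C.O := X.choices.problem X.C

/-- The index of framed sites. -/
abbrev Sigma : Type := {q : ℕ // q ∈ X.frames}

/-- The index of raised sites. -/
abbrev Nu : Type := {q : ℕ // q ∈ X.raised}

/-- The framed sites. -/
def frameSite (v : X.Sigma) : FrameSite X.C.O GQ :=
  (exists_frameSite (C := X.C) (hΔ := X.hΔ) X.semistable (X.mem_frames.mp v.2).1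
    (X.mem_frames.mp v.2).2.2.1 (X.mem_frames.mp v.2).2.2.2.2).choose

/-- The chosen framed site has the properties of a frame. -/
lemma frameSite_spec (v : X.Sigma) : FrameAt X.C X.hΔ v.1 (X.frameSite v) :=
  (exists_frameSite (C := X.C) (hΔ := X.hΔ) X.semistable (X.mem_frames.mp v.2).1
    (X.mem_frames.mp v.2).2.2.1 (X.mem_frames.mp v.2).2.2.2.2).choose_spec

/-- The tame raised sites. -/
def raiseSite (v : X.Nu) (h : v.1 ≠ p) : Raise.RaiseSite X.C.O GQ :=
  (exists_raiseSite (C := X.C) (hΔ := X.hΔ) X.semistable X.idx (X.mem_raised.mp v.2).1 h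
    (X.mem_raised.mp v.2).2.1 (X.raised_spec v.2 h).1 (X.raised_spec v.2 h).2).choose

/-- The chosen unframed site has the properties of a site of raising. -/
lemma raiseSite_spec (v : X.Nu) (h : v.1 ≠ p) : RaiseAt X.C X.hΔ v.1 (X.raiseSite v h) :=
  (exists_raiseSite (C := X.C) (hΔ := X.hΔ) X.semistable X.idx (X.mem_raised.mp v.2).1 h
    (X.mem_raised.mp v.2).2.1 (X.raised_spec v.2 h).1 (X.raised_spec v.2 h).2).choose_spec

/-- The sites by coordinates. -/
def coordSite (v : X.Nu) : Raise.CoordSite X.C.O :=
  if h : v.1 = p then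
    Raise.CoordSite.ofProduct X.C.ϖ (X.C.max_eq ▸ Ideal.mem_span_singleton_self _)
      fun h0 => IsDiscreteValuationRing.not_a_field X.C.O
        (by rw [X.C.max_eq, h0, Ideal.span_singleton_eq_bot])
  else (X.raiseSite v h).coord

/-- The index of the Hecke variables. -/
def varLevel : ℕ := by
  classical exact if X.W.IsGoodPrimeFor p then p * X.M else X.M

/-- The level of the variables is nonzero. -/
lemma varLevel_ne_zero : X.varLevel ≠ 0 := by
  rw [varLevel]
  split_ifs
  · exact mul_ne_zero hp.out.ne_zero (NeZero.ne _)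
  · exact NeZero.ne _

/-- The seed's level divides the level of the variables. -/
lemma dvd_varLevel : X.M ∣ X.varLevel := by
  rw [varLevel]
  split_ifs
  · exact dvd_mul_left _ _
  · exact dvd_rfl

/-- A raised prime does not divide the level of the variables. -/
lemma raised_not_dvd_varLevel {q : ℕ} (hq : q ∈ X.raised) : ¬ q ∣ X.varLevel := by
  obtain ⟨h0, h1, h2⟩ := X.mem_raised.mp hq
  rw [varLevel]
  split_ifs with hg
  · intro hd
    rcases h0.dvd_mul.mp hd with hd | hd
    · exact h1 ((Nat.prime_dvd_prime_iff_eq h0 hp.out).mp hd ▸ hg)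
    · exact h2 hd
  · exact h2

/-- Framed primes are congruent to one modulo the maximal ideal. -/
lemma frames_residue (v : X.Sigma) : (v.1 : X.C.O) - 1 ∈ maximalIdeal X.C.O := by
  rw [← residue_eq_zero_iff, map_sub, map_one,
    residue_natCast_of_one X.C (X.mem_frames.mp v.2).2.2.2.2.1, sub_self]

/-- Matrices of the universal ring whose traces at good Frobenius elements are the Hecke operators
of a localised module. -/
def IsHeckeTrace {M' : ℕ} [NeZero M'] {𝔪 : Ideal (MvPolynomial (GoodIdx X.varLevel) X.C.O)}
    [𝔪.IsPrime] {s : ℕ}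
    (b : Module.Basis (Fin s) X.C.O (HM.TrivLoc (M := M') (goodPr X.varLevel) 𝔪))
    (ρ : X.D.UR →ₐ[X.C.O] Matrix (Fin s) (Fin s) X.C.O) : Prop :=
  ∀ i : GoodIdx X.varLevel, i.1.1 ∉ X.raised → i.1.1 ≠ p →
    ∀ P : ValuationSubring (AlgebraicClosure ℚ), P.LiesOverPrime i.1.1 →
      ∀ σ : GQ, P.IsFrobeniusAt σ i.1.1 →
        ρ (X.D.univMat σ).trace = LinearMap.toMatrixAlgEquiv b
          (Algebra.lsmul X.C.O X.C.O (HM.TrivLoc (M := M') (goodPr X.varLevel) 𝔪)
            (MvPolynomial.X i : MvPolynomial (GoodIdx X.varLevel) X.C.O))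

end Ctx

end FermatAgent.Lifting

end
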