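import Mathlib
import Fermat.Agent.RT.Pseudo

/-!
# Shapes of residual matrices at sites
-/

set_option autoImplicit false

noncomputable section

open Matrix

namespace FermatAgent.Lifting

variable {k : Type*} [Field k]

/-- A matrix with one eigenvalue is scalar or conjugate to a Jordan block. -/
theorem exists_frame {X : Matrix (Fin 2) (Fin 2) k} {s : k} (ht : X.trace = 2 * s)
    (hd : X.det = s * s) : ∃ (U : (Matrix (Fin 2) (Fin 2) k)ˣ) (b : Bool),
    (↑U⁻¹ : Matrix (Fin 2) (Fin 2) k) * X * U = !![s, bif b then 1 else 0; 0, s] := by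
  rw [Matrix.trace_fin_two] at ht
  rw [Matrix.det_fin_two] at hd
  set a := X 0 0 - s with ha
  have h11 : X 1 1 = s - a := by rw [ha]; linear_combination ht
  have hn : a * a + X 0 1 * X 1 0 = 0 := by
    rw [h11] at hd
    linear_combination (-1 : k) * hd + (a - s) * ha
  by_cases hc : X 1 0 = 0
  · have ha0 : a = 0 := mul_self_eq_zero.mp (by rw [hc, mul_zero, add_zero] at hn; exact hn)
    have h00 : X 0 0 = s := sub_eq_zero.mp (ha ▸ ha0)
    rw [ha0, sub_zero] at h11
    by_cases hb : X 0 1 = 0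
    · refine ⟨1, false, ?_⟩
      ext i j
      fin_cases i <;> fin_cases j <;> simp [hc, hb, h00, h11]
    · have hdet : IsUnit (!![X 0 1, 0; 0, 1] : Matrix (Fin 2) (Fin 2) k).det := by
        simpa [Matrix.det_fin_two] using isUnit_iff_ne_zero.mpr hb
      refine ⟨((Matrix.isUnit_iff_isUnit_det _).mpr hdet).unit, true, ?_⟩
      rw [← ((Matrix.isUnit_iff_isUnit_det _).mpr hdet).unit.mul_right_inj,
        ← mul_assoc, ← mul_assoc,
        Units.mul_inv, one_mul, IsUnit.unit_spec]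
      ext i j
      fin_cases i <;> fin_cases j <;>
        simp [Matrix.mul_apply, Fin.sum_univ_two, hc, h00, h11, mul_comm]
  · have hdet : IsUnit (!![a, 1; X 1 0, 0] : Matrix (Fin 2) (Fin 2) k).det := by
      simpa [Matrix.det_fin_two] using isUnit_iff_ne_zero.mpr (neg_ne_zero.mpr hc)
    refine ⟨((Matrix.isUnit_iff_isUnit_det _).mpr hdet).unit, true, ?_⟩
    rw [← ((Matrix.isUnit_iff_isUnit_det _).mpr hdet).unit.mul_right_inj, ← mul_assoc, ← mul_assoc,
      Units.mul_inv, one_mul, IsUnit.unit_spec]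
    have h00 : X 0 0 = s + a := by rw [ha]; ring
    ext i j
    fin_cases i <;> fin_cases j <;> simp [Matrix.mul_apply, Fin.sum_univ_two, h00, h11]
    · linear_combination hn
    · ring
    · ring

variable {G : Type*} [Group G]

/-- A group covered by a subgroup and a coset of a subgroup. -/
theorem index_two_of_cover {H H' : Subgroup G} {c : G} (h : ∀ x, x ∈ H ∨ c⁻¹ * x ∈ H') :
    H = ⊤ ∨ H' = ⊤ ∨ H.index = 2 := by
  by_cases hH : H = ⊤
  · exact Or.inl hH
  by_cases hc : c ∈ H'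
  · refine Or.inr (Or.inl ?_)
    have hu : ∀ x, x ∈ H ∨ x ∈ H' := fun x => (h x).imp_right fun hx => by
      simpa using H'.mul_mem hc hx
    obtain ⟨x, hx⟩ : ∃ x, x ∉ H := by
      by_contra hn
      push Not at hn
      exact hH (top_unique fun x _ => hn x)
    refine top_unique fun y _ => (hu y).elim (fun hy => ?_) id
    exact (H'.mul_mem_cancel_right ((hu x).resolve_left hx)).mp
      ((hu (y * x)).resolve_left fun hyx => hx ((H.mul_mem_cancel_left hy).mp hyx))
  · have hle : H' ≤ H := fun x hx => (h x).resolve_right fun hcx => hc (by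
      simpa using H'.mul_mem hx (H'.inv_mem hcx))
    refine Or.inr (Or.inr (Subgroup.index_eq_two_iff'.mpr ?_))
    have hcH : c ∉ H := fun hm => hH (top_unique fun x _ => (h x).elim id fun hx => by
      simpa using H.mul_mem hm (hle hx))
    refine ⟨c⁻¹, fun x => ?_⟩
    rw [xor_iff_not_iff]
    intro e
    rcases h x with hx | hx
    · exact hcH (H.inv_mem_iff.mp ((H.mul_mem_cancel_right hx).mp (e.mpr hx)))
    · exact hcH (by simpa using H.mul_mem (e.mp (hle hx)) (H.inv_mem (hle hx)))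

/-- The stabiliser of a line. -/
def lineStab (ρ : G →* Matrix (Fin 2) (Fin 2) k) (v : Fin 2 → k) : Subgroup G where
  carrier := {g | ∃ c : k, c ≠ 0 ∧ ρ g *ᵥ v = c • v}
  one_mem' := ⟨1, one_ne_zero, by simp⟩
  mul_mem' := by
    rintro g h ⟨c, hc, e⟩ ⟨d, hd, e'⟩
    exact ⟨d * c, mul_ne_zero hd hc, by
      rw [map_mul, ← Matrix.mulVec_mulVec, e', Matrix.mulVec_smul, e, smul_smul]⟩
  inv_mem' := by
    rintro g ⟨c, hc, e⟩
    refine ⟨c⁻¹, inv_ne_zero hc, ?_⟩
    have h1 := congrArg (fun x => c⁻¹ • (ρ g⁻¹ *ᵥ x)) e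
    simp only [Matrix.mulVec_mulVec, ← map_mul, inv_mul_cancel, map_one, Matrix.one_mulVec,
      Matrix.mulVec_smul, smul_smul, inv_mul_cancel₀ hc, one_smul] at h1
    exact h1.symm

lemma span_ne_top_of_le_lineStab {ρ : G →* Matrix (Fin 2) (Fin 2) k} {v : Fin 2 → k} (hv : v ≠ 0)
    (H : Subgroup G) (hle : H ≤ lineStab ρ v) : Submodule.span k (ρ '' (H : Set G)) ≠ ⊤ := by
  intro htop
  rw [Set.image_eq_range] at htop
  obtain ⟨⟨g, hg⟩, h⟩ := RT.exists_mulVec_ne_smul_of_span htop hv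
  obtain ⟨c, -, e⟩ := hle hg
  exact h c e

/-- **A conjugate of a split semisimple matrix avoids the degenerate position.** -/
theorem exists_conj_nondeg {ρ : G →* Matrix (Fin 2) (Fin 2) k}
    (hspan : Submodule.span k (Set.range ρ) = ⊤)
    (hidx : ∀ H : Subgroup G, H.index = 2 → Submodule.span k (ρ '' (H : Set G)) = ⊤)
    (F : G) {α β : k} (hs : (ρ F).trace = α + β) (hp : (ρ F).det = α * β) (hne : α ≠ β) :
    ∃ g : G, ρ (g * F * g⁻¹) 1 1 ≠ α := by
  classical
  by_contra hall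
  push Not at hall
  set X := ρ F with hX
  -- eigenvectors
  have hker : ∀ μ : k, (X.trace = α + β) → μ * μ - (α + β) * μ + α * β = 0 →
      ∃ v : Fin 2 → k, v ≠ 0 ∧ X *ᵥ v = μ • v := by
    intro μ _ hμ
    have hd : (X - μ • 1).det = 0 := by
      rw [← hp, ← hs, Matrix.trace_fin_two, Matrix.det_fin_two] at hμ
      rw [Matrix.det_fin_two]
      simp
      linear_combination hμ
    obtain ⟨v, hv, hv0⟩ := Matrix.exists_mulVec_eq_zero_iff.mpr hd
    exact ⟨v, hv, sub_eq_zero.mp (by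
      rw [← hv0, Matrix.sub_mulVec, Matrix.smul_mulVec, Matrix.one_mulVec])⟩
  obtain ⟨v, hv, hvα⟩ := hker α hs (by ring)
  obtain ⟨w, hw, hwβ⟩ := hker β hs (by ring)
  -- every element moves one of the lines to a coordinate axis
  have hcov : ∀ g : G, (ρ g *ᵥ v) 0 = 0 ∨ (ρ g *ᵥ w) 1 = 0 := by
    intro g
    set Y := ρ (g * F * g⁻¹) with hY
    have hY1 : ∀ x, Y *ᵥ (ρ g *ᵥ x) = ρ g *ᵥ (X *ᵥ x) := fun x => by
      rw [hY, hX, Matrix.mulVec_mulVec, Matrix.mulVec_mulVec, ← map_mul, ← map_mul,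
        inv_mul_cancel_right]
    have h11 : Y 1 1 = α := hall g
    have h1 : Y.trace = α + β := by
      rw [hY, map_mul, map_mul, Matrix.trace_mul_comm, ← mul_assoc, ← map_mul, inv_mul_cancel,
        map_one, one_mul, hs]
    have h00 : Y 0 0 = β := by
      rw [Matrix.trace_fin_two, h11] at h1
      linear_combination h1
    have h2 : Y.det = α * β := by
      rw [hY, map_mul, map_mul, Matrix.det_mul, Matrix.det_mul, mul_right_comm, ← Matrix.det_mul,
        ← map_mul, mul_inv_cancel, map_one, Matrix.det_one, one_mul, hp]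
    rw [Matrix.det_fin_two, h00, h11] at h2
    have e : ∀ x, Y *ᵥ x = ![β * x 0 + Y 0 1 * x 1, Y 1 0 * x 0 + α * x 1] := fun x => by
      funext i; fin_cases i <;> simp [Matrix.mulVec, dotProduct, Fin.sum_univ_two, h00, h11]
    rcases mul_eq_zero.mp (show Y 0 1 * Y 1 0 = 0 by linear_combination -h2) with h | h
    · refine Or.inl ?_
      have h3 := congrFun ((e (ρ g *ᵥ v)).symm.trans
        ((hY1 v).trans (show ρ g *ᵥ (X *ᵥ v) = α • (ρ g *ᵥ v) by rw [hvα, Matrix.mulVec_smul]))) 0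
      generalize ρ g *ᵥ v = z at h3 ⊢
      simp only [Matrix.cons_val_zero, h, zero_mul, add_zero, Pi.smul_apply, smul_eq_mul] at h3
      exact (mul_eq_zero.mp (show (β - α) * z 0 = 0 by rw [sub_mul, h3, sub_self])).resolve_left
        (sub_ne_zero.mpr hne.symm)
    · refine Or.inr ?_
      have h3 := congrFun ((e (ρ g *ᵥ w)).symm.trans
        ((hY1 w).trans (show ρ g *ᵥ (X *ᵥ w) = β • (ρ g *ᵥ w) by rw [hwβ, Matrix.mulVec_smul]))) 1
      generalize ρ g *ᵥ w = z at h3 ⊢
      simp only [Matrix.cons_val_one, Matrix.cons_val_zero, h, zero_mul, zero_add, Pi.smul_apply,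
        smul_eq_mul] at h3
      exact (mul_eq_zero.mp (show (α - β) * z 1 = 0 by rw [sub_mul, h3, sub_self])).resolve_left
        (sub_ne_zero.mpr hne)
  -- two cosets of line stabilisers cover the group
  have hstab : ∀ (i : Fin 2) (u : Fin 2 → k), u ≠ 0 → ∀ g g' : G, (ρ g *ᵥ u) i = 0 →
      (ρ g' *ᵥ u) i = 0 → g⁻¹ * g' ∈ lineStab ρ u := by
    intro i u hu g g' hg hg'
    have hne0 : ∀ h : G, ρ h *ᵥ u ≠ 0 := fun h e0 => hu (by
      have := congrArg (fun z => ρ h⁻¹ *ᵥ z) e0
      rwa [Matrix.mulVec_mulVec, ← map_mul, inv_mul_cancel, map_one, Matrix.one_mulVec,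
        Matrix.mulVec_zero] at this)
    obtain ⟨j, hj, hj2⟩ : ∃ j, j ≠ i ∧ ∀ x : Fin 2, x = i ∨ x = j := by
      fin_cases i
      · exact ⟨1, by decide, by decide⟩
      · exact ⟨0, by decide, by decide⟩
    have hgj : (ρ g *ᵥ u) j ≠ 0 := fun h => hne0 g (funext fun x => by
      rcases hj2 x with rfl | rfl <;> assumption)
    have hgj' : (ρ g' *ᵥ u) j ≠ 0 := fun h => hne0 g' (funext fun x => by
      rcases hj2 x with rfl | rfl <;> assumption)
    refine ⟨(ρ g' *ᵥ u) j / (ρ g *ᵥ u) j, div_ne_zero hgj' hgj, ?_⟩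
    have e : ρ g' *ᵥ u = ((ρ g' *ᵥ u) j / (ρ g *ᵥ u) j) • (ρ g *ᵥ u) := funext fun x => by
      rw [Pi.smul_apply, smul_eq_mul]
      rcases hj2 x with rfl | rfl
      · rw [hg, hg', mul_zero]
      · rw [div_mul_cancel₀ _ hgj]
    rw [map_mul, ← Matrix.mulVec_mulVec]
    conv_lhs => rw [e]
    rw [Matrix.mulVec_smul, Matrix.mulVec_mulVec, ← map_mul, inv_mul_cancel, map_one,
      Matrix.one_mulVec]
  have hproper : ∀ u : Fin 2 → k, u ≠ 0 → lineStab ρ u ≠ ⊤ := fun u hu h => by
    refine span_ne_top_of_le_lineStab (ρ := ρ) hu ⊤ (h ▸ le_rfl) ?_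
    simpa [Set.image_univ] using hspan
  -- both cosets occur
  obtain ⟨a, ha⟩ : ∃ a, (ρ a *ᵥ v) 0 = 0 := by
    by_contra hno
    push Not at hno
    refine hproper w hw (top_unique fun x _ => ?_)
    simpa using hstab 1 w hw 1 x ((hcov 1).resolve_left (hno 1)) ((hcov x).resolve_left (hno x))
  obtain ⟨b, hb⟩ : ∃ b, (ρ b *ᵥ w) 1 = 0 := by
    by_contra hno
    push Not at hno
    refine hproper v hv (top_unique fun x _ => ?_)
    simpa using hstab 0 v hv 1 x ((hcov 1).resolve_right (hno 1)) ((hcov x).resolve_right (hno x))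
  have hcover : ∀ x : G, x ∈ lineStab ρ v ∨ (a⁻¹ * b)⁻¹ * x ∈ lineStab ρ w := fun x => by
    rcases hcov (a * x) with h | h
    · exact Or.inl (by simpa using hstab 0 v hv a (a * x) ha h)
    · exact Or.inr (by simpa [mul_assoc] using hstab 1 w hw b (a * x) hb h)
  rcases index_two_of_cover hcover with h | h | h
  · exact hproper v hv h
  · exact hproper w hw h
  · exact span_ne_top_of_le_lineStab hv _ le_rfl (hidx _ h)

end FermatAgent.Lifting

end
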