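import Fermat.Agent.Lifting.Seed
import Fermat.Agent.Lifting.Shapes
import Fermat.Agent.RT.TameGen
import Fermat.Agent.RT.TameRep
import Fermat.Agent.RT.Framed
import Fermat.Agent.RT.Raise.SiteData
import Fermat.Agent.GaloisBasic.Normalize

/-!
# The sites of lifting

Frobenius and inertia elements, frames and constants at the framed and at the unframed sites,
with the shapes which every lift has there.
-/

set_option autoImplicit false

noncomputable section

open IsLocalRing FermatAgent.GaloisBasic WeierstrassCurve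
open scoped Pointwise

namespace FermatAgent.Lifting

open RT Assembly

local notation "GQ" => AlgebraicClosure ℚ ≃ₐ[ℚ] AlgebraicClosure ℚ
local notation "Qbar" => AlgebraicClosure ℚ

variable {W : WeierstrassCurve ℤ} {p : ℕ} [hp : Fact p.Prime] {C : Coeff p} {hΔ : W.Δ ≠ 0}

/-- A natural number which is one modulo `p` has residue one. -/
lemma residue_natCast_of_one (C : Coeff p) {q : ℕ} (h : (q : ZMod p) = 1) :
    residue C.O (q : C.O) = 1 := by
  rw [← map_one (residue C.O), ← Int.cast_natCast, ← Int.cast_one (R := C.O),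
    ← zmod_eq_iff_residue C, Int.cast_natCast, Int.cast_one, h]

/-- An integer prime to `p` is a unit of the coefficient ring. -/
lemma isUnit_intCast (C : Coeff p) {z : ℤ} (h : (z : ZMod p) ≠ 0) : IsUnit (z : C.O) := by
  rw [← residue_ne_zero_iff_isUnit]
  intro h0
  refine h ?_
  rw [← Int.cast_zero, zmod_eq_iff_residue C, h0, Int.cast_zero, map_zero]

/-- A frame site at `q`: place, generators, sign and residual frame. -/
structure FrameAt (C : Coeff p) (hΔ : W.Δ ≠ 0) (q : ℕ) (d : FrameSite C.O GQ) : Prop where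
  sgn_sq : d.sgn * d.sgn = 1
  sgn_int : ∃ s : ℤ, d.sgn = (s : C.O) ∧ (frobVal W q : ZMod p) = 2 * s
  place : ∃ P : ValuationSubring Qbar, P.LiesOverPrime q ∧ P.IsFrobeniusAt d.frob q ∧
    IsTameGen P p d.inert
  frob : (d.frame⁻¹).1.map (residue C.O) * curveRes C hΔ d.frob * d.frame.1.map (residue C.O) =
    d.shape.map (residue C.O)
  inert : curveRes C hΔ d.inert = 1

/-- **Frame sites exist.** -/
theorem exists_frameSite (hW : W.IsSemistableModel) {q : ℕ} (hq : q.Prime) (hqp : q ≠ p)
    (h : IsFramePrime W p q) : ∃ d : FrameSite C.O GQ, FrameAt C hΔ q d := by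
  classical
  obtain ⟨hq1, hu, s, hs2, hs⟩ := h
  obtain ⟨P, hP⟩ := exists_liesOverPrime hq
  obtain ⟨F, hF⟩ := exists_isFrobeniusAt hq hP
  obtain ⟨τ, hτ⟩ := exists_isTameGen (p := p) hq hP hqp
  have hs2' : (s : C.O) * s = 1 := by rw [← Int.cast_mul, ← sq, hs2, Int.cast_one]
  obtain ⟨U, b, hU⟩ := exists_frame (X := curveRes C hΔ F) (s := residue C.O (s : C.O))
    (by
      rw [trace_curveRes_frobenius hW hq hqp hP hF, ← map_ofNat (residue C.O) 2, ← map_mul,
        show (2 : C.O) * s = ((2 * s : ℤ) : C.O) by push_cast; rfl, ← zmod_eq_iff_residue C, hs]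
      push_cast; rfl)
    (by rw [det_curveRes_frobenius hq hqp hP hF, residue_natCast_of_one C hq1, ← map_mul, hs2',
      map_one])
  obtain ⟨U', hU'⟩ := exists_unit_lift U
  have hUinv : (U'⁻¹).1.map (residue C.O) = (U⁻¹).1 := by
    have h1 : (U'.1 * (U'⁻¹).1).map (residue C.O) = 1 := by
      rw [U'.mul_inv, Matrix.map_one _ (map_zero _) (map_one _)]
    rw [Matrix.map_mul, hU'] at h1
    calc (U'⁻¹).1.map (residue C.O) = (U⁻¹).1 * (U.1 * (U'⁻¹).1.map (residue C.O)) := by
          rw [← mul_assoc, U.inv_mul, one_mul]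
      _ = (U⁻¹).1 := by rw [h1, mul_one]
  refine ⟨{ frob := F, inert := τ, sgn := (s : C.O), res := b, frame := U' }, hs2', ⟨s, rfl, hs⟩,
    ⟨P, hP, hF, hτ⟩, ?_, curveRes_inertia_eq_one hu hP hτ.mem⟩
  show (U'⁻¹).1.map (residue C.O) * curveRes C hΔ F * U'.1.map (residue C.O) = _
  rw [hUinv, hU', hU]
  ext i j
  fin_cases i <;> fin_cases j <;> cases b <;> simp [FrameSite.shape]

section Shape

variable {R : Type} [CommRing R] [IsLocalRing R] [Algebra C.O R] [IsLocalHom (algebraMap C.O R)]

/-- Residues of constants in an algebra come from the residue field. -/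
lemma residue_algebraMap (x : C.O) :
    residue R (algebraMap C.O R x) = iotaRes R (residue C.O x) := by
  rw [iotaRes, ResidueField.map_residue]

/-- **Every lift has the residual shape at frame sites.** -/
theorem residualShape_of_frameAt {σ : Type} {d : σ → FrameSite C.O GQ} {q : σ → ℕ}
    (h : ∀ v, FrameAt C hΔ (q v) (d v)) {M : MatRep R} (hM : HasResidual (curveRes C hΔ) M) :
    ResidualShape M d := by
  intro v
  have hres : ∀ X : Matrix (Fin 2) (Fin 2) C.O, ((algebraMap C.O R).mapMatrix X).map (residue R) =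
      (X.map (residue C.O)).map (iotaRes R) := fun X => by
    ext i j
    exact residue_algebraMap (X i j)
  have hb : ∀ x : GQ, (baseRep M d v x).map (residue R) =
      ((d v).frame⁻¹.1.map (residue C.O) * curveRes C hΔ x * (d v).frame.1.map (residue C.O)).map
        (iotaRes R) := fun x => by
    have h1 : (M x).map (residue R) = (curveRes C hΔ x).map (iotaRes R) := DFunLike.congr_fun hM x
    show ((algebraMap C.O R).mapMatrix _ * M x * (algebraMap C.O R).mapMatrix _).map (residue R) = _
    rw [Matrix.map_mul, Matrix.map_mul, hres, hres, h1, Matrix.map_mul, Matrix.map_mul]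
  intro i j
  constructor
  · rw [← residue_eq_zero_iff, map_sub, sub_eq_zero, ← Matrix.map_apply (f := residue R), hb,
      (h v).frob, residue_algebraMap]
    rfl
  · rw [← residue_eq_zero_iff, map_sub, sub_eq_zero, ← Matrix.map_apply (f := residue R), hb,
      (h v).inert, mul_one, ← Matrix.map_mul, Units.inv_mul,
      Matrix.map_one _ (map_zero _) (map_one _),
      Matrix.map_one _ (map_zero _) (map_one _), Matrix.one_apply, Matrix.one_apply,
      apply_ite (residue R), map_one, map_zero]

end Shape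

/-- A raising site at `q`: place, generators, sign of the curve and nondegenerate position. -/
structure RaiseAt (C : Coeff p) (hΔ : W.Δ ≠ 0) (q : ℕ) (d : Raise.RaiseSite C.O GQ) : Prop where
  q_eq : d.q = q
  sgn_eq : d.sgn = (multSign W q : C.O)
  place : ∃ P : ValuationSubring Qbar, P.LiesOverPrime q ∧ P.IsFrobeniusAt d.frob q ∧
    IsTameGen P p d.inert ∧ ∀ σ ∈ P.inertiaSubgroupIn ℚ, curveRes C hΔ σ = 1
  prime : q.Prime
  ne : q ≠ p
  trace : (curveRes C hΔ d.frob).trace = residue C.O (d.α₀ + d.sgn)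
  nondeg : curveRes C hΔ d.frob 1 1 ≠ residue C.O d.α₀

/-- **Raising sites exist.** -/
theorem exists_raiseSite (hW : W.IsSemistableModel) (hidx : IrredIndexTwo W p) {q : ℕ}
    (hq : q.Prime) (hqp : q ≠ p) (hbad : ¬ W.IsGoodPrimeFor q) (hq1 : (q : ZMod p) ≠ 1)
    (hu : UnramAt W p q) : ∃ d : Raise.RaiseSite C.O GQ, RaiseAt C hΔ q d := by
  classical
  have hs2 := multSign_sq (p := p) hΔ hW hq hqp hbad
  set s := multSign W q
  have hs2' : (s : C.O) * s = 1 := by rw [← Int.cast_mul, ← sq, hs2, Int.cast_one]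
  have hsne : (s : ZMod p) ≠ 0 := fun h => by
    have := congrArg (Int.cast : ℤ → ZMod p) hs2
    rw [Int.cast_pow, h, zero_pow two_ne_zero, Int.cast_one] at this
    exact zero_ne_one this
  have hqu : IsUnit (q : C.O) := by
    rw [← Int.cast_natCast]
    refine isUnit_intCast C ?_
    rw [Int.cast_natCast, Ne, ZMod.natCast_eq_zero_iff, Nat.prime_dvd_prime_iff_eq hp.out hq]
    exact Ne.symm hqp
  have hq1u : IsUnit ((q : C.O) - 1) := by
    rw [show (q : C.O) - 1 = ((q - 1 : ℤ) : C.O) by push_cast; rfl]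
    refine isUnit_intCast C ?_
    push_cast
    exact sub_ne_zero.mpr hq1
  obtain ⟨P₀, hP₀⟩ := exists_liesOverPrime hq
  obtain ⟨F₀, hF₀⟩ := exists_isFrobeniusAt hq hP₀
  set α := residue C.O ((s : C.O) * q)
  set β := residue C.O (s : C.O)
  have hβ : β ≠ 0 := (residue_ne_zero_iff_isUnit _).mpr (IsUnit.of_mul_eq_one _ hs2')
  have hne : α ≠ β := fun h => by
    have h1 : residue C.O ((s : C.O) * ((q : C.O) - 1)) = 0 := by
      rw [mul_sub, mul_one, map_sub, sub_eq_zero]; exact h
    exact (residue_ne_zero_iff_isUnit _).mpr ((IsUnit.of_mul_eq_one _ hs2').mul hq1u) h1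
  obtain ⟨g, hg⟩ := exists_conj_nondeg (span_curveRes_top hidx)
    (span_curveRes C hΔ hidx) F₀ (α := α) (β := β)
    (by
      rw [trace_curveRes_frobenius hW hq hqp hP₀ hF₀, frobVal_bad hbad, ← map_add]
      congr 1
      push_cast; ring)
    (by
      rw [det_curveRes_frobenius hq hqp hP₀ hF₀, ← map_mul]
      congr 1
      linear_combination (-(q : C.O)) * hs2')
    hne
  have hP : (g • P₀).LiesOverPrime q := liesOverPrime_smul g hP₀
  have hF : (g • P₀).IsFrobeniusAt (g * F₀ * g⁻¹) q := conj_isFrobeniusAt hq hP₀ hF₀ g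
  obtain ⟨τ, hτ⟩ := exists_isTameGen (p := p) hq hP hqp
  by_cases hm1 : ((q : ZMod p) + 1) = 0
  · have hoth : -((s : C.O) * (1 + q)) ∈ maximalIdeal C.O := by
      rw [← residue_eq_zero_iff, show -((s : C.O) * (1 + q)) = ((-(s * (1 + q)) : ℤ) : C.O) by
        push_cast; ring, ← map_zero (residue C.O), ← Int.cast_zero (R := C.O),
        ← zmod_eq_iff_residue C]
      push_cast
      rw [add_comm, hm1, mul_zero, neg_zero]
    refine ⟨{ frob := g * F₀ * g⁻¹, inert := τ, q := q, sgn := s
              other := -((s : C.O) * (1 + q)), sgn_sq := hs2',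
              isUnit_two := IsUnit.of_mul_eq_one _ C.two_half
              isUnit_q := hqu, isUnit_sub_one := hq1u, sq_ne_one := ?_, other_mem := hoth
              other_ne := ?_, other_spec := Or.inr rfl }, rfl, rfl,
      ⟨_, hP, hF, hτ, fun σ hσ => curveRes_inertia_eq_one hu hP hσ⟩, hq, hqp, ?_, hg⟩
    · rw [← Nat.cast_mul, Ne, Nat.cast_eq_one]
      exact fun h => hq.ne_one (Nat.eq_one_of_mul_eq_one_right h)
    · refine neg_ne_zero.mpr (mul_ne_zero (left_ne_zero_of_mul_eq_one hs2') ?_)
      rw [add_comm, ← Nat.cast_succ]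
      exact Nat.cast_ne_zero.mpr (Nat.succ_ne_zero q)
    · rw [trace_curveRes_frobenius hW hq hqp hP hF, frobVal_bad hbad]
      congr 1
      simp only [Raise.RaiseSite.α₀]
      push_cast; ring
  · have hu' : IsUnit ((q : C.O) + 1) := by
      rw [show (q : C.O) + 1 = ((q + 1 : ℤ) : C.O) by push_cast; rfl]
      refine isUnit_intCast C ?_
      push_cast
      exact hm1
    have hϖ : C.ϖ ∈ maximalIdeal C.O := C.max_eq ▸ Ideal.mem_span_singleton_self _
    refine ⟨{ frob := g * F₀ * g⁻¹, inert := τ, q := q, sgn := s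
              other := C.ϖ, sgn_sq := hs2', isUnit_two := IsUnit.of_mul_eq_one _ C.two_half
              isUnit_q := hqu, isUnit_sub_one := hq1u, sq_ne_one := ?_, other_mem := hϖ
              other_ne := ?_, other_spec := Or.inl hu' }, rfl, rfl,
      ⟨_, hP, hF, hτ, fun σ hσ => curveRes_inertia_eq_one hu hP hσ⟩, hq, hqp, ?_, hg⟩
    · rw [← Nat.cast_mul, Ne, Nat.cast_eq_one]
      exact fun h => hq.ne_one (Nat.eq_one_of_mul_eq_one_right h)
    · intro h0
      refine IsDiscreteValuationRing.not_a_field C.O ?_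
      rw [C.max_eq, h0, Ideal.span_singleton_eq_bot]
    · rw [trace_curveRes_frobenius hW hq hqp hP hF, frobVal_bad hbad]
      congr 1
      simp only [Raise.RaiseSite.α₀]
      push_cast; ring

section SiteShape

variable {R : Type} [CommRing R] [IsLocalRing R] [IsNoetherianRing R] [Algebra C.O R]
  [IsLocalHom (algebraMap C.O R)]

/-- **Every lift has the shape at raising sites.** -/
theorem siteShape_of_raiseAt {q : ℕ} {d : Raise.RaiseSite C.O GQ} (h : RaiseAt C hΔ q d)
    {M : MatRep R} (hM : HasResidual (curveRes C hΔ) M) (hc : MatContinuous R M)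
    (hdet : ∀ σ, (M σ).det = algebraMap C.O R (algebraMap ℤ_[p] C.O (ES.padCyclo p σ))) :
    Raise.SiteShape M d := by
  obtain ⟨P, hP, hF, hτ, hin⟩ := h.place
  have h1 : ∀ x, (M x).map (residue R) = (curveRes C hΔ x).map (iotaRes R) := fun x =>
    DFunLike.congr_fun hM x
  have hpR : (p : R) ∈ maximalIdeal R := by
    rw [← map_natCast (algebraMap C.O R)]
    exact map_nonunit (algebraMap C.O R) _ natCast_mem_maximalIdeal
  have hI : InertTrivial M P q p := ⟨h.prime, hP, h.ne, hpR, hc, fun σ hσ i j => by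
    rw [← residue_eq_zero_iff, map_sub, sub_eq_zero, ← Matrix.map_apply (f := residue R), h1,
      hin σ hσ, Matrix.map_one _ (map_zero _) (map_one _), Matrix.one_apply, Matrix.one_apply,
      apply_ite (residue R), map_one, map_zero]⟩
  refine ⟨?_, ?_, ?_, ?_, hI.res _ hτ.mem, ?_⟩
  · rw [← residue_eq_zero_iff, map_sub, sub_eq_zero, residue_algebraMap, ← h.trace]
    refine (AddMonoidHom.map_trace (residue R).toAddMonoidHom _).trans ?_
    show ((M d.frob).map (residue R)).trace = _
    rw [h1]
    exact (AddMonoidHom.map_trace (iotaRes R).toAddMonoidHom _).symm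
  · rw [hdet, ES.padCyclo_frobenius p h.prime h.ne hP hF, map_natCast, map_natCast, h.q_eq]
  · obtain ⟨x, hx⟩ : ∃ x, ES.padCyclo p d.inert = x := ⟨_, rfl⟩
    have h2 : ES.padCyclo p d.inert = 1 := by
      refine PadicInt.ext_of_toZModPow.mp fun k => ?_
      obtain ⟨ζ, hζ⟩ := ES.exists_primitive_qbar p k
      rw [ES.toZModPow_padCyclo_eq p (c := 1) hζ (by
        rw [pow_one]
        exact Mazur.inertia_fixes_rootsOfUnity h.prime hP
          (fun hd => h.ne ((Nat.prime_dvd_prime_iff_eq h.prime hp.out).mp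
            (h.prime.dvd_of_dvd_pow hd))) (pow_ne_zero _ hp.out.ne_zero) hτ.mem hζ.pow_eq_one),
        Nat.cast_one, map_one]
    rw [hdet, h2, map_one, map_one]
  · rw [h.q_eq]
    exact hI.tame hτ hF
  · refine isUnit_of_map_unit (residue R) _ ?_
    rw [RingHom.map_det, RingHom.mapMatrix_apply, Raise.map_eigVec, h1, residue_algebraMap,
      ← Raise.map_eigVec, ← RingHom.mapMatrix_apply, ← RingHom.map_det]
    refine IsUnit.map _ (isUnit_iff_ne_zero.mpr ?_)
    set X := curveRes C hΔ d.frob
    set a := residue C.O d.α₀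
    set b := residue C.O d.sgn
    have ht : X 0 0 + X 1 1 = a + b := by rw [← Matrix.trace_fin_two, h.trace, map_add]
    have hd : X 0 0 * X 1 1 - X 0 1 * X 1 0 = a * b := by
      rw [← Matrix.det_fin_two, det_curveRes_frobenius h.prime h.ne hP hF, ← map_mul,
        Raise.RaiseSite.α₀, h.q_eq]
      congr 1
      linear_combination (-(q : C.O)) * d.sgn_sq
    have he : (Raise.eigVec X a).det = -((X 1 1 - a) * (b - a)) := by
      rw [Matrix.det_fin_two]
      simp [Raise.eigVec]
      linear_combination hd - (X 1 1) * ht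
    rw [he, neg_ne_zero]
    refine mul_ne_zero (sub_ne_zero.mpr h.nondeg) (sub_ne_zero.mpr fun e => ?_)
    have := (residue_ne_zero_iff_isUnit _).mpr d.isUnit_diff
    rw [map_sub, sub_ne_zero] at this
    exact this e.symm

end SiteShape

end FermatAgent.Lifting

end
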