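import Fermat.Agent.Lifting.TangentLocal
import Fermat.Agent.RT.Cond.TangentUniv
import Fermat.Agent.RT.Cond.TangentSite

/-!
# The lifts at `p` and the local counts for the tangent bound

The lifts to dual numbers of the type of the case at `p` (`HasPLift`), the dimensions of the fixed
elements at framed and raised primes, and the vanishing on inertia where the trace is two. The
bound at `p` is `localBoundP`, the tangent bound itself `exists_tangentBound`.
-/

set_option autoImplicit false

noncomputable section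

open IsLocalRing GaloisRep FermatAgent.GaloisBasic WeierstrassCurve
open FermatAgent.CFT FermatAgent.CFT.Selmer FermatAgent.CFT.Global
open scoped Classical

namespace FermatAgent.Lifting

open RT Assembly

attribute [local instance] dualAlgebra

local notation "GQ" => AlgebraicClosure ℚ ≃ₐ[ℚ] AlgebraicClosure ℚ
local notation "Qbar" => AlgebraicClosure ℚ

variable {k : Type} [Field k]

/-- The matrices commuting with a given one. -/
def commutant (F : M22 k) : Submodule k (M22 k) where
  carrier := {Y | F * Y = Y * F}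
  zero_mem' := by simp
  add_mem' {a b} ha hb := by
    simp only [Set.mem_ofPred_eq] at *
    rw [mul_add, add_mul, ha, hb]
  smul_mem' t a ha := by
    simp only [Set.mem_ofPred_eq] at *
    rw [mul_smul_comm, smul_mul_assoc, ha]

/-- Comparing dimensions over two copies of a finite field. -/
lemma finrank_le_of_injective_of_card {K K' V V' : Type} [Field K] [Field K'] [Finite K]
    [AddCommGroup V] [Module K V] [AddCommGroup V'] [Module K' V'] [Finite V']
    (hK : Nat.card K = Nat.card K')
    {φ : V → V'} (hφ : Function.Injective φ) :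
    Module.finrank K V ≤ Module.finrank K' V' := by
  have : Finite V := Finite.of_injective φ hφ
  have : Module.Finite K V := Module.Finite.of_finite
  have : Module.Finite K' V' := Module.Finite.of_finite
  have h := Nat.card_le_card_of_injective φ hφ
  rw [Module.natCard_eq_pow_finrank (K := K) (V := V),
    Module.natCard_eq_pow_finrank (K := K') (V := V'), ← hK] at h
  exact (Nat.pow_le_pow_iff_right Finite.one_lt_card).mp h

variable {p : ℕ} [hp : Fact p.Prime]

/-- The number one at the ordinary case at `p`. -/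
def LocalCase.ordCount : LocalCase → ℕ
  | .ordinary => 1
  | _ => 0

namespace Ctx

variable (X : Ctx p)

/-- `c` lifts to a representation over dual numbers of the type of the case at `p`, in the ordinary
case with unchanged eigenvalue of Frobenius and killed tame element. -/
def HasPLift (c : GQ → M22 (ResidueField X.C.O)) : Prop :=
  ∃ N : MatRep (DualNumber (ResidueField X.C.O)),
    MatContinuous (DualNumber (ResidueField X.C.O)) N ∧
    (∀ g i j, N g i j = TrivSqZeroExt.inl (curveRes X.C X.hΔ g i j) +
      TrivSqZeroExt.inr ((c g * curveRes X.C X.hΔ g) i j)) ∧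
    (∀ σ, (N σ).det = algebraMap X.C.O _ (cycloO p X.C.O σ)) ∧
    (pMatCond X.C.O p X.localCase).P N ∧
    (X.localCase = .ordinary →
      X.frobQuot N = algebraMap X.C.O _ (multSign X.W p : X.C.O) ∧ X.tauTrace N = 0)

/-- The dimension of the fixed elements at a prime. -/
def fixDim (q : ℕ) : ℕ :=
  if hq : q.Prime then
    haveI : Fact q.Prime := ⟨hq⟩
    Module.finrank (ResidueField X.C.O)
      (locFix (curveRes X.C X.hΔ) ((padicPlace q).decompositionSubgroup ℚ))
  else 0

/-- At a prime the count is the dimension of the elements fixed by the decomposition group. -/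
lemma fixDim_eq (q : ℕ) [hq : Fact q.Prime] : X.fixDim q = Module.finrank (ResidueField X.C.O)
    (locFix (curveRes X.C X.hΔ) ((padicPlace q).decompositionSubgroup ℚ)) := dif_pos hq.out

/-- Framed primes are among the ramification primes. -/
lemma frames_subset_ramSet : X.frames ⊆ X.ramSet := fun _ hq =>
  Finset.mem_insert_of_mem (Finset.mem_union_left _
    (Nat.mem_primeFactors.mpr ⟨(X.mem_frames.mp hq).1, (X.mem_frames.mp hq).2.1, NeZero.ne _⟩))

/-- Raised primes are among the ramification primes. -/
lemma raised_subset_ramSet : X.raised ⊆ X.ramSet := fun _ hq =>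
  Finset.mem_insert_of_mem (Finset.mem_union_right _
    ((X.isBad_iff (X.mem_raised.mp hq).1).mp (X.mem_raised.mp hq).2.1))

/-- Members of the ramification set are primes. -/
lemma prime_of_mem_ramSet {q : ℕ} (hq : q ∈ X.ramSet) : q.Prime := by
  rcases Finset.mem_insert.mp hq with rfl | h
  · exact hp.out
  · rcases Finset.mem_union.mp h with h | h <;> exact Nat.prime_of_mem_primeFactors h

/-- The remaining ramification primes other than `p` are trace-two primes. -/
lemma mem_traceSet_of_mem_ramSet {q : ℕ} (hq : q ∈ X.ramSet) (hqp : q ≠ p) (hf : q ∉ X.frames)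
    (hr : q ∉ X.raised) : q ∈ X.traceSet := by
  have h0 := X.prime_of_mem_ramSet hq
  refine X.mem_traceSet.mpr ⟨h0, ?_, hqp, hf⟩
  rcases Finset.mem_union.mp ((Finset.mem_insert.mp hq).resolve_left hqp) with h | h
  · exact Nat.dvd_of_mem_primeFactors h
  · by_contra hd
    exact hr (X.mem_raised.mpr ⟨h0, (X.isBad_iff h0).mpr h, hd⟩)

/-- **Trace two makes the cocycle a coboundary on inertia.** -/
theorem cob_inertia_of_traceSet {Q : Finset ℕ}
    {c : GQ → M22 (ResidueField X.C.O)} {N : MatRep (DualNumber (ResidueField X.C.O))}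
    (h : X.IsTanLift Q c N) {q : ℕ} [Fact q.Prime] (hq : q ∈ X.traceSet) :
    ∃ e : M22 (ResidueField X.C.O), ∀ τ ∈ (padicPlace q).inertiaSubgroupIn ℚ,
      c τ = curveRes X.C X.hΔ τ * e * curveRes X.C X.hΔ τ⁻¹ - e := by
  let := charP_residue X.C
  obtain ⟨hq0, hqM, hqp, hqf⟩ := X.mem_traceSet.mp hq
  have hP : (padicPlace q).LiesOverPrime q := liesOverPrime_padicPlace
  by_cases hu : ∀ σ ∈ (padicPlace q).inertiaSubgroupIn ℚ, curveRes X.C X.hΔ σ = 1
  · have hun : UnramAt X.W p q :=
      unramAt_of_curveRes fun A hA σ hσ => apply_inertia_eq_one_of_padicPlace hu A hA hσ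
    have haux : q ∈ X.seed.aux := by
      by_contra hna
      rcases X.seed.level q hq0 hqp hqM hna with hf | hr
      · exact hqf (X.mem_frames.mpr ⟨hq0, hqM, hqp, hna, hf⟩)
      · exact hr hun
    exact ⟨0, fun τ hτ => by rw [h.coc_aux haux hP hτ, mul_zero, zero_mul, sub_zero]⟩
  · push Not at hu
    obtain ⟨τ₀, hτ₀, hne⟩ := hu
    let S : Finset Nat.Primes := (X.ramSet ∪ Q).subtype Nat.Prime
    have hout : ∀ v : Nat.Primes, v ∉ S → (v : ℕ) ∉ X.ramSet ∪ Q := fun v hv hm =>
      hv (Finset.mem_subtype.mpr hm)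
    obtain ⟨U, hUn, hU, hker, hle⟩ := X.resDatum.exists_level (S := S) exists_level_curveRes
      fun v hv A hA τ hτ => curveRes_inertia_eq_one (X.unramAt_of_notMem v.2
        fun hm => hout v hv (Finset.mem_union_left _ hm)) hA hτ
    obtain ⟨L, hL, hLc⟩ := h.coc_continuous
    have hin : ∀ τ ∈ (padicPlace q).inertiaSubgroupIn ℚ, τ ∈ inertiaAtSet X.traceSet :=
      fun τ hτ => ⟨q, padicPlace q, hq0, hq, hP, hτ⟩
    refine X.resDatum.exists_coboundary_of_unipotent hUn hU hker hle
      (Finset.mem_subtype.mpr (Finset.mem_union_left _ (Finset.mem_insert_self _ _))) h.mem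
      ⟨L, hL, fun σ hσ => (hLc σ hσ).2⟩ (fun v hv A hA τ hτ => h.coc_unram v.2 (hout v hv) hA hτ)
      hq0 hqp hP (fun τ hτ => ⟨(h.trace_coc (hin τ hτ)).1, ?_⟩) hτ₀ hne
      fun τ hτ => (h.trace_coc (hin τ hτ)).2
    rw [det_curveRes, ES.padCyclo_inertia p hq0 hqp hP hτ, map_one, map_one]

/-- The fixed elements at a frame site. -/
lemma finrank_commutant_frame (v : X.Sigma) :
    Module.finrank (ResidueField X.C.O) (commutant (curveRes X.C X.hΔ (X.frameSite v).frob)) ≤
      X.fixDim v.1 + 1 := by
  obtain ⟨P, hP, hF, -⟩ := (X.frameSite_spec v).place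
  obtain ⟨hq0, -, -, -, hfr⟩ := X.mem_frames.mp v.2
  have : Fact v.1.Prime := ⟨hq0⟩
  obtain ⟨g, hD, -⟩ := conj_mem_groups hq0 hP (liesOverPrime_padicPlace (q := v.1))
  rw [X.fixDim_eq]
  refine (finrank_commutant_le X.two_ne_zero_residue
    (H := P.decompositionSubgroup ℚ) (r := curveRes X.C X.hΔ) (fun Y hY hYF => ?_) _
    fun Y hY => hY).trans (Nat.add_le_add_right (finrank_locFix_conj g hD) 1)
  exact mem_locFix_decomposition hq0 hP hF exists_level_curveRes hY hYF fun τ hτ => by
    rw [curveRes_inertia_eq_one hfr.2.1 hP hτ, one_mul, mul_one]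

/-- A tame raised prime has a fixed element. -/
lemma one_le_fixDim_raised (v : X.Nu) (hv : v.1 ≠ p) : 1 ≤ X.fixDim v.1 := by
  have hq0 := (X.mem_raised.mp v.2).1
  have : Fact v.1.Prime := ⟨hq0⟩
  have hP := liesOverPrime_padicPlace (q := v.1)
  obtain ⟨F, hF⟩ := exists_isFrobeniusAt hq0 hP
  rw [X.fixDim_eq]
  exact one_le_finrank_locFix hq0 hP hF X.two_ne_zero_residue exists_level_curveRes
    (fun τ hτ => curveRes_inertia_eq_one (X.raised_spec v.2 hv).2 hP hτ)
    (fun t => X.resGL_ne_scalar v hv hP hF t)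

/-- A tame raised prime contributes one. -/
lemma finrank_add_one_le_raised {Q : Finset ℕ}
    {V : Submodule (ResidueField X.C.O) (GQ → M22 (ResidueField X.C.O))} (v : X.Nu) (hv : v.1 ≠ p)
    [Fact v.1.Prime]
    (hV : ∀ c ∈ V, ∃ (N : MatRep (DualNumber (ResidueField X.C.O)))
      (ψ : (X.DQ Q).UR →ₐ[X.C.O] DualNumber (ResidueField X.C.O)), X.IsTanLift Q c N ∧
      (∀ g, ((X.DQ Q).univMat g).map ψ = N g) ∧
      ∀ i, ψ (Raise.siteVals (X.DQ Q).univMat (X.raiseSite v hv) i) = 0) :
    Module.finrank (ResidueField X.C.O) V + 1 ≤ Module.finrank (ResidueField X.C.O)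
        (V ⊓ locCob (curveRes X.C X.hΔ) ((padicPlace v.1).decompositionSubgroup ℚ) :
          Submodule (ResidueField X.C.O) (GQ → M22 (ResidueField X.C.O))) +
      Module.finrank (ResidueField X.C.O)
        (locFix (curveRes X.C X.hΔ) ((padicPlace v.1).decompositionSubgroup ℚ)) := by
  have hle : V ≤ locCob (curveRes X.C X.hΔ) ((padicPlace v.1).decompositionSubgroup ℚ) :=
    fun c hc => by
      obtain ⟨N, ψ, h, hψ, hz⟩ := hV c hc
      exact h.locCob_raise hv ψ hψ hz _ liesOverPrime_padicPlace
  rw [inf_eq_left.mpr hle, ← X.fixDim_eq]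
  exact Nat.add_le_add_left (X.one_le_fixDim_raised v hv) _

end Ctx

end FermatAgent.Lifting

end
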